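/-
S55 / finite-group cohomology toolkit in MULTIPLICATIVE low-degree language: definitions
(section `Defs` of helper22's `CohomSpec.lean`, verbatim).
-/
import Mathlib

set_option autoImplicit false

namespace Fermat.Agent.S55

open groupCohomology

section Defs

variable {G : Type} [Group G] {X : Type} [CommGroup X]

/-- The exponent of `τ` with respect to `σ`: the least `i` with `σ ^ i = τ` (junk `0` if none). -/
noncomputable def cycExp (σ τ : G) : ℕ := sInf {i : ℕ | σ ^ i = τ}

/-- The cyclic `2`-cocycle attached to `a` (to be used with `σ • a = a`, `σ` a generator):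
`(σ^i, σ^j) ↦ a` if `i + j ≥ n` and `1` otherwise (`0 ≤ i, j < n = orderOf σ`). -/
noncomputable def cycCocycle (σ : G) (a : X) : G × G → X :=
  fun p => if orderOf σ ≤ cycExp σ p.1 + cycExp σ p.2 then a else 1

/-- The norm `x ↦ ∏_{i < n} σ^i • x`, `n = orderOf σ`. -/
noncomputable def cycNorm [MulDistribMulAction G X] (σ : G) (x : X) : X :=
  ∏ i ∈ Finset.range (orderOf σ), σ ^ i • x

/-- Pull-back of a `2`-cochain along a group hom `ρ : H → G` and a coefficient hom `j : X → Y`. -/
def pullCochain₂ {H Y : Type} (ρ : H → G) (j : X → Y) (c : G × G → X) : H × H → Y :=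
  fun p => j (c (ρ p.1, ρ p.2))

/-- Pull-back of a `1`-cochain. -/
def pullCochain₁ {H Y : Type} (ρ : H → G) (j : X → Y) (c : G → X) : H → Y :=
  fun h => j (c (ρ h))

end Defs

end Fermat.Agent.S55
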