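/-
S55 / LOCAL layer: definitions (sorry-free, Mathlib only).

A "local field over ℚ_q" is a type `K` with
  `[Field K] [Algebra ℚ_[q] K] [FiniteDimensional ℚ_[q] K]`
(exactly as a number field is a finite extension of `ℚ`).  Subfields of `PadicAlgCl q` that are
finite over `ℚ_[q]` are instances.  Everything is defined intrinsically from the
`ℚ_[q]`-algebra structure through Mathlib's `spectralNorm` (the unique extension of the
`q`-adic absolute value) and `Algebra.norm`.
-/
import Mathlib

set_option autoImplicit false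

namespace Fermat.Agent.S55

open IsLocalRing

section Basic

variable (q : ℕ) [Fact q.Prime] (K : Type) [Field K] [Algebra ℚ_[q] K] [FiniteDimensional ℚ_[q] K]

/-- The absolute value of `K` (unique extension of the `q`-adic absolute value). -/
noncomputable def lfNorm (x : K) : ℝ := spectralNorm ℚ_[q] K x

/-- The ring of integers of the local field `K`, as a valuation subring:
`{x | |x| ≤ 1}`. -/
noncomputable def lfInt : ValuationSubring K where
  carrier := {x | spectralNorm ℚ_[q] K x ≤ 1}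
  mul_mem' {x y} hx hy := by
    change spectralNorm ℚ_[q] K x ≤ 1 at hx
    change spectralNorm ℚ_[q] K y ≤ 1 at hy
    change spectralNorm ℚ_[q] K (x * y) ≤ 1
    rw [← spectralMulAlgNorm_def, map_mul, spectralMulAlgNorm_def, spectralMulAlgNorm_def]
    exact mul_le_one₀ hx (spectralNorm_nonneg y) hy
  one_mem' := by
    change spectralNorm ℚ_[q] K 1 ≤ 1
    exact le_of_eq spectralNorm_one
  add_mem' {x y} hx hy := by
    change spectralNorm ℚ_[q] K x ≤ 1 at hx
    change spectralNorm ℚ_[q] K y ≤ 1 at hy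
    change spectralNorm ℚ_[q] K (x + y) ≤ 1
    exact (isNonarchimedean_spectralNorm (K := ℚ_[q]) (L := K) x y).trans (max_le hx hy)
  zero_mem' := by
    change spectralNorm ℚ_[q] K 0 ≤ 1
    rw [spectralNorm_zero]
    exact zero_le_one
  neg_mem' {x} hx := by
    change spectralNorm ℚ_[q] K x ≤ 1 at hx
    change spectralNorm ℚ_[q] K (-x) ≤ 1
    rwa [spectralNorm_neg (Algebra.IsAlgebraic.isAlgebraic x)]
  mem_or_inv_mem' x := by
    change spectralNorm ℚ_[q] K x ≤ 1 ∨ spectralNorm ℚ_[q] K x⁻¹ ≤ 1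
    by_cases hx : x = 0
    · left; rw [hx, spectralNorm_zero]; exact zero_le_one
    · by_cases h1 : spectralNorm ℚ_[q] K x ≤ 1
      · exact Or.inl h1
      · right
        have hmul : spectralNorm ℚ_[q] K x * spectralNorm ℚ_[q] K x⁻¹ = 1 := by
          rw [← spectralMulAlgNorm_def, ← spectralMulAlgNorm_def, ← map_mul,
            mul_inv_cancel₀ hx, spectralMulAlgNorm_def, spectralNorm_one]
        have hpos : 0 < spectralNorm ℚ_[q] K x :=
          spectralNorm_zero_lt hx (Algebra.IsAlgebraic.isAlgebraic x)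
        rw [not_le] at h1
        by_contra h2
        rw [not_le] at h2
        have : 1 < spectralNorm ℚ_[q] K x * spectralNorm ℚ_[q] K x⁻¹ := by
          calc (1 : ℝ) = 1 * 1 := by ring
            _ < spectralNorm ℚ_[q] K x * spectralNorm ℚ_[q] K x⁻¹ :=
              mul_lt_mul'' h1 h2 zero_le_one zero_le_one
        rw [hmul] at this
        exact lt_irrefl _ this

theorem mem_lfInt_iff (x : K) : x ∈ lfInt q K ↔ spectralNorm ℚ_[q] K x ≤ 1 := Iff.rfl

/-- The unit group `U_K = 𝒪_Kˣ` as a subgroup of `Kˣ`. -/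
noncomputable def lfUnits : Subgroup Kˣ := (lfInt q K).unitGroup

/-- Number of elements of the residue field of `K`. -/
noncomputable def lfResCard : ℕ := Nat.card (ResidueField (lfInt q K))

/-- Unnormalised additive valuation: `v_q (N_{K/ℚ_q} x)`; equals `f(K/ℚ_q) · v_K(x)`. -/
noncomputable def lfVq (x : K) : ℤ := (Algebra.norm ℚ_[q] x).valuation

/-- The absolute inertia degree `f(K/ℚ_q)`: the positive generator of `v_q (N Kˣ) ⊆ ℤ`. -/
noncomputable def lfAbsInertiaDeg : ℕ :=
  sInf {m : ℕ | 0 < m ∧ ∃ x : K, x ≠ 0 ∧ lfVq q K x = m}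

/-- The normalised additive valuation `v_K : K → ℤ` (`v_K 0 = 0` by convention). -/
noncomputable def lfOrd (x : K) : ℤ := lfVq q K x / (lfAbsInertiaDeg q K : ℤ)

/-- `π` is a uniformizer of `K`. -/
def IsLfUniformizer (π : K) : Prop := lfOrd q K π = 1

end Basic

section Extension

variable (q : ℕ) [Fact q.Prime]
  (K : Type) [Field K] [Algebra ℚ_[q] K] [FiniteDimensional ℚ_[q] K]
  (L : Type) [Field L] [Algebra ℚ_[q] L] [FiniteDimensional ℚ_[q] L]
  [Algebra K L] [IsScalarTower ℚ_[q] K L]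

/-- Ramification index `e(L/K) = v_L(π_K)`. -/
noncomputable def lfRamIdx : ℕ :=
  sInf {m : ℕ | 0 < m ∧ ∃ x : K, lfOrd q K x = 1 ∧ lfOrd q L (algebraMap K L x) = m}

/-- Inertia degree `f(L/K) = [L:K] / e(L/K)`. -/
noncomputable def lfInertiaDeg : ℕ := Module.finrank K L / lfRamIdx q K L

/-- `L/K` is unramified. -/
def LfUnramified : Prop := lfRamIdx q K L = 1

/-- `σ` is a (the) Frobenius of `L/K`: `σ x ≡ x ^ |k_K| mod 𝔪_L` for all integers `x` of `L`. -/
def IsLfFrob (σ : L ≃ₐ[K] L) : Prop :=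
  ∀ x : L, x ∈ lfInt q L → spectralNorm ℚ_[q] L (σ x - x ^ lfResCard q K) < 1

open Classical in
/-- The Frobenius of `L/K` (meaningful when `L/K` is unramified and Galois; `1` otherwise). -/
noncomputable def lfFrob : L ≃ₐ[K] L :=
  if h : ∃ σ : L ≃ₐ[K] L, IsLfFrob q K L σ then h.choose else 1

/-- The norm map on unit groups `Lˣ →* Kˣ`. -/
noncomputable def lfNormHom : Lˣ →* Kˣ := Units.map (Algebra.norm K : L →* K)

/-- The norm subgroup `N_{L/K} Lˣ ≤ Kˣ`. -/
noncomputable def lfNormSubgroup : Subgroup Kˣ := (lfNormHom K L).range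

end Extension

section Tower
variable (q : ℕ) [Fact q.Prime]
  (K : Type) [Field K] [Algebra ℚ_[q] K] [FiniteDimensional ℚ_[q] K]
  (L : Type) [Field L] [Algebra ℚ_[q] L] [FiniteDimensional ℚ_[q] L]
  [Algebra K L] [IsScalarTower ℚ_[q] K L]

theorem algebraMap_mem_lfInt {x : K} (hx : x ∈ lfInt q K) : algebraMap K L x ∈ lfInt q L := by
  rw [mem_lfInt_iff] at hx ⊢
  rwa [← spectralNorm.eq_of_tower (K := ℚ_[q]) (E := K) (L := L)]

theorem algebraMap_mem_lfInt_iff {x : K} : algebraMap K L x ∈ lfInt q L ↔ x ∈ lfInt q K := by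
  rw [mem_lfInt_iff, mem_lfInt_iff, ← spectralNorm.eq_of_tower (K := ℚ_[q]) (E := K) (L := L)]

/-- The inclusion of rings of integers `𝒪_K → 𝒪_L`. -/
noncomputable def lfIntMap : lfInt q K →+* lfInt q L :=
  ((algebraMap K L).comp (lfInt q K).subtype).codRestrict (lfInt q L).toSubring
    (fun x => algebraMap_mem_lfInt q K L x.2)

noncomputable instance lfIntAlgebra : Algebra (lfInt q K) (lfInt q L) :=
  (lfIntMap q K L).toAlgebra

theorem lfInt_algebraMap_coe (x : lfInt q K) :
    ((algebraMap (lfInt q K) (lfInt q L) x : lfInt q L) : L) = algebraMap K L (x : K) := rfl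

instance lfInt_isScalarTower : IsScalarTower (lfInt q K) (lfInt q L) L :=
  IsScalarTower.of_algebraMap_eq (fun _ => rfl)

omit [FiniteDimensional ℚ_[q] K] [FiniteDimensional ℚ_[q] L] in
theorem spectralNorm_algEquiv (σ : L ≃ₐ[K] L) (x : L) :
    spectralNorm ℚ_[q] L (σ x) = spectralNorm ℚ_[q] L x :=
  (spectralNorm_eq_of_equiv (σ.restrictScalars ℚ_[q]) x).symm

theorem algEquiv_mem_lfInt (σ : L ≃ₐ[K] L) {x : L} (hx : x ∈ lfInt q L) : σ x ∈ lfInt q L := by
  rw [mem_lfInt_iff] at hx ⊢
  rwa [spectralNorm_algEquiv]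

/-- `Gal(L/K)` acts on the ring of integers of `L`. -/
noncomputable instance lfIntMulSemiringAction : MulSemiringAction (L ≃ₐ[K] L) (lfInt q L) where
  smul σ x := ⟨σ (x : L), algEquiv_mem_lfInt q K L σ x.2⟩
  one_smul _ := Subtype.ext rfl
  mul_smul _ _ _ := Subtype.ext rfl
  smul_zero σ := Subtype.ext (map_zero σ)
  smul_add σ _ _ := Subtype.ext (map_add σ _ _)
  smul_one σ := Subtype.ext (map_one σ)
  smul_mul σ _ _ := Subtype.ext (map_mul σ _ _)

theorem lfInt_smul_coe (σ : L ≃ₐ[K] L) (x : lfInt q L) : ((σ • x : lfInt q L) : L) = σ (x : L) := rfl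

instance lfInt_smulCommClass : SMulCommClass (L ≃ₐ[K] L) (lfInt q K) (lfInt q L) where
  smul_comm σ a x := by
    apply Subtype.ext
    simp only [lfInt_smul_coe, Algebra.smul_def, MulMemClass.coe_mul, map_mul, lfInt_algebraMap_coe,
      AlgEquiv.commutes]

instance lfInt_isLocalHom : IsLocalHom (algebraMap (lfInt q K) (lfInt q L)) where
  map_nonunit x hx := by
    by_cases h0 : (x : K) = 0
    · exfalso
      have hx0 : x = 0 := Subtype.ext h0
      rw [hx0, map_zero] at hx
      exact not_isUnit_zero hx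
    · obtain ⟨u, hu⟩ := hx
      have h1 : ((u⁻¹ : (lfInt q L)ˣ) : lfInt q L) * algebraMap (lfInt q K) (lfInt q L) x = 1 := by
        rw [← hu]; exact u.inv_mul
      have h2 : (((u⁻¹ : (lfInt q L)ˣ) : lfInt q L) : L) * algebraMap K L (x : K) = 1 := by
        have := congrArg (fun z : lfInt q L => (z : L)) h1
        simpa [lfInt_algebraMap_coe] using this
      have h3 : (((u⁻¹ : (lfInt q L)ˣ) : lfInt q L) : L) = algebraMap K L ((x : K)⁻¹) := by
        rw [map_inv₀]
        exact eq_inv_of_mul_eq_one_left h2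
      have h4 : (x : K)⁻¹ ∈ lfInt q K := by
        rw [← algebraMap_mem_lfInt_iff q K L, ← h3]
        exact Subtype.mem _
      exact ⟨⟨x, ⟨(x : K)⁻¹, h4⟩, Subtype.ext (mul_inv_cancel₀ h0), Subtype.ext (inv_mul_cancel₀ h0)⟩, rfl⟩

end Tower

end Fermat.Agent.S55
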