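/-
S55 / LOCAL layer: definitions for the Brauer-group layer (sorry-free).
`lfGalRes`, `lfBC` (base change of 2-cochains along a commutative square of fields),
`lfInvUnram` (invariant of a cocycle of an unramified extension).
-/
import Fermat.Agent.S55.LocalDefs
import Fermat.Agent.S55.CohomDefs

set_option autoImplicit false

namespace Fermat.Agent.S55

open groupCohomology

section Square

variable (K L K' M : Type) [Field K] [Field L] [Field K'] [Field M]
  [Algebra K L] [Algebra K K'] [Algebra L M] [Algebra K' M] [Algebra K M]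
  [IsScalarTower K L M] [IsScalarTower K K' M]

/-- `Gal(M/K') → Gal(M/K)`. -/
def lfGalIncl : (M ≃ₐ[K'] M) →* (M ≃ₐ[K] M) :=
  MonoidHom.mk' (fun σ => σ.restrictScalars K) (fun _ _ => rfl)

@[simp] theorem lfGalIncl_apply (σ : M ≃ₐ[K'] M) (x : M) : lfGalIncl K K' M σ x = σ x := rfl

/-- For a commutative square `K ⊆ L ⊆ M`, `K ⊆ K' ⊆ M` with `L/K` normal: the restriction map
`Gal(M/K') → Gal(L/K)`. -/
noncomputable def lfGalRes [Normal K L] : (M ≃ₐ[K'] M) →* (L ≃ₐ[K] L) :=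
  (AlgEquiv.restrictNormalHom L).comp (lfGalIncl K K' M)

theorem lfGalRes_commutes [Normal K L] (σ : M ≃ₐ[K'] M) (x : L) :
    algebraMap L M (lfGalRes K L K' M σ x) = σ (algebraMap L M x) :=
  AlgEquiv.restrictNormal_commutes (lfGalIncl K K' M σ) L x

/-- Base change of a `2`-cochain of `L/K` to `M/K'` (inflation when `K' = K`, restriction when
`M = L`). -/
noncomputable def lfBC [Normal K L] (c : (L ≃ₐ[K] L) × (L ≃ₐ[K] L) → Lˣ) :
    (M ≃ₐ[K'] M) × (M ≃ₐ[K'] M) → Mˣ :=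
  pullCochain₂ (lfGalRes K L K' M) (Units.map (algebraMap L M : L →* M)) c

theorem lfBC_apply [Normal K L] (c : (L ≃ₐ[K] L) × (L ≃ₐ[K] L) → Lˣ) (σ τ : M ≃ₐ[K'] M) :
    lfBC K L K' M c (σ, τ) =
      Units.map (algebraMap L M : L →* M) (c (lfGalRes K L K' M σ, lfGalRes K L K' M τ)) := rfl

end Square

section Unram

variable (q : ℕ) [Fact q.Prime]
  (K : Type) [Field K] [Algebra ℚ_[q] K] [FiniteDimensional ℚ_[q] K]
  (L : Type) [Field L] [Algebra ℚ_[q] L] [FiniteDimensional ℚ_[q] L]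
  [Algebra K L] [IsScalarTower ℚ_[q] K L]

/-- The element `∏_{i<n} c (φ^i, φ)`, `φ` the Frobenius (lies in `Kˣ` for a cocycle `c`). -/
noncomputable def lfUnramRep (c : (L ≃ₐ[K] L) × (L ≃ₐ[K] L) → Lˣ) : Lˣ :=
  ∏ i ∈ Finset.range (orderOf (lfFrob q K L)), c (lfFrob q K L ^ i, lfFrob q K L)

/-- The invariant of a `2`-cocycle of an unramified extension: `v(∏_{i<n} c (φ^i, φ)) / n`
in `ℚ/ℤ`. -/
noncomputable def lfInvUnram (c : (L ≃ₐ[K] L) × (L ≃ₐ[K] L) → Lˣ) : AddCircle (1 : ℚ) :=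
  (((lfOrd q L ((lfUnramRep q K L c : Lˣ) : L) : ℤ) : ℚ) / (Module.finrank K L : ℚ) : ℚ)

end Unram

end Fermat.Agent.S55
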