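/-
S55 / LOCAL layer, leaf LA-c "LocalUnram", SECTIONS Tower + BaseChange (helper19).
EXACT statements of sections `Tower` and `BaseChange` of `LocalUnramSpec.lean`
(origin/helper22 8ff728b).  Sections `Two`/`Exists` of that spec (helper24) and
`LocalValSpec`/`LocalRingSpec` are used as black boxes through `LocalUnramTwoSpec`
(= the spec file cut before `section Tower`); for integration change the import (or paste the
sections under helper24's).  Helper lemmas are prefixed `lut_`.
-/
import Fermat.Agent.S55.LocalUnram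
set_option autoImplicit false
set_option linter.unusedSectionVars false
namespace Fermat.Agent.S55
open IsLocalRing

section Aux

variable (q : ℕ) [Fact q.Prime]
  (K : Type) [Field K] [Algebra ℚ_[q] K] [FiniteDimensional ℚ_[q] K]
  (L : Type) [Field L] [Algebra ℚ_[q] L] [FiniteDimensional ℚ_[q] L]
  [Algebra K L] [IsScalarTower ℚ_[q] K L]

/-- Congruence modulo the maximal ideal, in terms of residues. -/
theorem lut_residue_eq_iff (a b : lfInt q L) :
    residue (lfInt q L) a = residue (lfInt q L) b ↔ spectralNorm ℚ_[q] L ((a : L) - (b : L)) < 1 := by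
  rw [← sub_eq_zero, ← map_sub, residue_eq_zero_iff, mem_maximalIdeal_lfInt_iff]
  rfl

/-- Frobenius property in residue-field form. -/
theorem lut_isLfFrob_iff (σ : L ≃ₐ[K] L) :
    IsLfFrob q K L σ ↔
      ∀ x : lfInt q L, residue (lfInt q L) (σ • x) = residue (lfInt q L) x ^ lfResCard q K := by
  constructor
  · intro h x
    rw [← map_pow, lut_residue_eq_iff]
    exact h x x.2
  · intro h x hx
    have := h ⟨x, hx⟩
    rw [← map_pow, lut_residue_eq_iff] at this
    exact this

/-- Iterating a Frobenius. -/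
theorem lut_isLfFrob_pow {σ : L ≃ₐ[K] L} (h : IsLfFrob q K L σ) (j : ℕ) (x : lfInt q L) :
    residue (lfInt q L) ((σ ^ j) • x) = residue (lfInt q L) x ^ (lfResCard q K ^ j) := by
  induction j with
  | zero => simp
  | succ j ih =>
    rw [pow_succ', mul_smul, (lut_isLfFrob_iff q K L σ).1 h, ih, ← pow_mul, pow_succ]

end Aux

section Tower

variable (q : ℕ) [Fact q.Prime]
  (K : Type) [Field K] [Algebra ℚ_[q] K] [FiniteDimensional ℚ_[q] K]
  (L : Type) [Field L] [Algebra ℚ_[q] L] [FiniteDimensional ℚ_[q] L]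
  (M : Type) [Field M] [Algebra ℚ_[q] M] [FiniteDimensional ℚ_[q] M]
  [Algebra K L] [IsScalarTower ℚ_[q] K L] [Algebra L M] [IsScalarTower ℚ_[q] L M]
  [Algebra K M] [IsScalarTower ℚ_[q] K M] [IsScalarTower K L M]

theorem lfUnramified_tower_iff :
    LfUnramified q K M ↔ LfUnramified q K L ∧ LfUnramified q L M := by
  unfold LfUnramified
  rw [lfRamIdx_tower q K L M, mul_eq_one]

/-- the spectral norm of `M` restricted to `L`. -/
theorem lut_spectralNorm_algebraMap (x : L) :
    spectralNorm ℚ_[q] M (algebraMap L M x) = spectralNorm ℚ_[q] L x :=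
  (spectralNorm.eq_of_tower (K := ℚ_[q]) (E := L) (L := M) x).symm

/-- Restriction of a Frobenius-like automorphism: if `σ` on `M` satisfies `σ y ≡ y ^ n` on integers
then so does its restriction to `L`. -/
theorem lut_restrict_congr [Normal K L] (σ : M ≃ₐ[K] M) (n : ℕ)
    (h : ∀ y : M, y ∈ lfInt q M → spectralNorm ℚ_[q] M (σ y - y ^ n) < 1)
    (x : L) (hx : x ∈ lfInt q L) :
    spectralNorm ℚ_[q] L (AlgEquiv.restrictNormalHom L σ x - x ^ n) < 1 := by
  rw [← lut_spectralNorm_algebraMap q L M, map_sub, map_pow]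
  have h1 : algebraMap L M (AlgEquiv.restrictNormalHom L σ x) = σ (algebraMap L M x) :=
    AlgEquiv.restrictNormal_commutes σ L x
  rw [h1]
  exact h _ (algebraMap_mem_lfInt q L M hx)

/-- The Frobenius of `M/K` restricts to the Frobenius of `L/K`. -/
theorem lfFrob_restrictNormal (h : LfUnramified q K M) [Normal K L] :
    AlgEquiv.restrictNormalHom L (lfFrob q K M) = lfFrob q K L := by
  have hKL : LfUnramified q K L := ((lfUnramified_tower_iff q K L M).1 h).1
  apply IsLfFrob.eq_lfFrob q K L hKL
  intro x hx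
  exact lut_restrict_congr q K L M (lfFrob q K M) _ (isLfFrob_lfFrob q K M h) x hx

/-- The Frobenius of `M/L` is the `[L:K]`-th power of the Frobenius of `M/K`
(`[L:K] = f(L/K)` as `L/K` is unramified). -/
theorem lfFrob_restrictScalars (h : LfUnramified q K M) :
    (lfFrob q L M).restrictScalars K = lfFrob q K M ^ Module.finrank K L := by
  obtain ⟨hKL, hLM⟩ := (lfUnramified_tower_iff q K L M).1 h
  have hgal : IsGalois K L := LfUnramified.isGalois q K L hKL
  have hfix : ∀ x : L, (lfFrob q K M ^ Module.finrank K L).toRingEquiv (algebraMap L M x)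
      = algebraMap L M x := by
    intro x
    have h1 : AlgEquiv.restrictNormalHom L (lfFrob q K M ^ Module.finrank K L) = 1 := by
      rw [map_pow, lfFrob_restrictNormal q K L M h, ← orderOf_lfFrob q K L hKL,
        pow_orderOf_eq_one]
    have h2 := AlgEquiv.restrictNormal_commutes (lfFrob q K M ^ Module.finrank K L) L x
    have h3 : (AlgEquiv.restrictNormalHom L (lfFrob q K M ^ Module.finrank K L)) x = x := by
      rw [h1]; rfl
    change (lfFrob q K M ^ Module.finrank K L) (algebraMap L M x) = algebraMap L M x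
    rw [← h2]
    exact congrArg _ h3
  have hfrob : IsLfFrob q L M (AlgEquiv.ofRingEquiv hfix) := by
    intro y hy
    have h1 := lut_isLfFrob_pow q K M (isLfFrob_lfFrob q K M h) (Module.finrank K L) ⟨y, hy⟩
    rw [← map_pow, lut_residue_eq_iff] at h1
    have h2 : lfResCard q L = lfResCard q K ^ Module.finrank K L := by
      have h3 := lfRamIdx_mul_lfInertiaDeg q K L
      rw [hKL, one_mul] at h3
      rw [lfResCard_eq_pow q K L, h3]
    rw [h2]
    exact h1
  rw [← IsLfFrob.eq_lfFrob q L M hLM hfrob]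
  ext y
  rfl

end Tower

section BaseChange

variable (q : ℕ) [Fact q.Prime]
  (K : Type) [Field K] [Algebra ℚ_[q] K] [FiniteDimensional ℚ_[q] K]
  (L : Type) [Field L] [Algebra ℚ_[q] L] [FiniteDimensional ℚ_[q] L]
  (K' : Type) [Field K'] [Algebra ℚ_[q] K'] [FiniteDimensional ℚ_[q] K']
  (M : Type) [Field M] [Algebra ℚ_[q] M] [FiniteDimensional ℚ_[q] M]
  [Algebra K L] [IsScalarTower ℚ_[q] K L] [Algebra K K'] [IsScalarTower ℚ_[q] K K']
  [Algebra L M] [IsScalarTower ℚ_[q] L M] [Algebra K' M] [IsScalarTower ℚ_[q] K' M]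
  [Algebra K M] [IsScalarTower ℚ_[q] K M] [IsScalarTower K L M] [IsScalarTower K K' M]

/-- If `L = K[ζ]` then the image of `L` in `M` lies in `K'[ζ]`. -/
theorem lut_range_le_adjoin (ζ : L) (htop : Algebra.adjoin K {ζ} = ⊤) (y : L) :
    algebraMap L M y ∈ Algebra.adjoin K' {algebraMap L M ζ} := by
  have hy : y ∈ Algebra.adjoin K {ζ} := by rw [htop]; exact Algebra.mem_top
  rw [Algebra.adjoin_singleton_eq_range_aeval] at hy
  obtain ⟨p, rfl⟩ := hy
  have h1 : algebraMap L M (Polynomial.aeval ζ p) = Polynomial.aeval (algebraMap L M ζ) p :=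
    (Polynomial.aeval_algebraMap_apply M ζ p).symm
  have h2 : Polynomial.aeval (algebraMap L M ζ) p
      = Polynomial.aeval (algebraMap L M ζ) (p.map (algebraMap K K')) := by
    rw [Polynomial.aeval_map_algebraMap]
  change algebraMap L M (Polynomial.aeval ζ p) ∈ _
  rw [h1, h2]
  exact Polynomial.aeval_mem_adjoin_singleton _ _

/-- `q` does not divide `|k_L| - 1`. -/
theorem lut_not_dvd_lfResCard_sub_one : ¬ q ∣ lfResCard q L - 1 := by
  have hq : q.Prime := Fact.out
  have h1 : q ∣ lfResCard q L := by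
    rw [lfResCard_eq q L]
    exact dvd_pow_self q (lfAbsInertiaDeg_pos q L).ne'
  have hpos : 0 < lfResCard q L := by
    rw [lfResCard_eq q L]
    exact pow_pos hq.pos _
  intro h2
  have h3 : q ∣ lfResCard q L - (lfResCard q L - 1) := Nat.dvd_sub h1 h2
  have h4 : lfResCard q L - (lfResCard q L - 1) = 1 := by omega
  rw [h4] at h3
  exact hq.one_lt.ne' (Nat.dvd_one.1 h3)

/-- Base change: if `L/K` is unramified and `M = L·K'` then `M/K'` is unramified. -/
theorem lfUnramified_baseChange (h : LfUnramified q K L)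
    (hM : Algebra.adjoin K' (Set.range (algebraMap L M)) = ⊤) : LfUnramified q K' M := by
  obtain ⟨ζ, hζ, htop⟩ := LfUnramified.exists_primitiveRoot q K L h
  refine lfUnramified_of_adjoin_root q K' M (lfResCard q L - 1)
    (lut_not_dvd_lfResCard_sub_one q L) (algebraMap L M ζ)
    (hζ.map_of_injective (algebraMap L M).injective) ?_
  rw [eq_top_iff, ← hM]
  apply Algebra.adjoin_le
  rintro _ ⟨y, rfl⟩
  exact lut_range_le_adjoin K L K' M ζ htop y

/-- Restriction `Gal(M/K') → Gal(L/K)` is injective when `M = L·K'`. -/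
theorem restrictNormalHom_restrictScalars_injective [Normal K L]
    (hM : Algebra.adjoin K' (Set.range (algebraMap L M)) = ⊤) :
    Function.Injective (fun σ : M ≃ₐ[K'] M =>
      AlgEquiv.restrictNormalHom L (σ.restrictScalars K)) := by
  intro σ τ hστ
  have hστ' : AlgEquiv.restrictNormalHom L (σ.restrictScalars K)
      = AlgEquiv.restrictNormalHom L (τ.restrictScalars K) := hστ
  have key : (σ : M →ₐ[K'] M) = (τ : M →ₐ[K'] M) := by
    apply AlgHom.ext_of_adjoin_eq_top hM
    rintro _ ⟨x, rfl⟩
    have h1 := AlgEquiv.restrictNormal_commutes (σ.restrictScalars K) L x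
    have h2 := AlgEquiv.restrictNormal_commutes (τ.restrictScalars K) L x
    have h3 : (σ.restrictScalars K).restrictNormal L x = (τ.restrictScalars K).restrictNormal L x :=
      congrArg (fun f : L ≃ₐ[K] L => f x) hστ'
    change σ (algebraMap L M x) = τ (algebraMap L M x)
    have h1' : σ (algebraMap L M x) = algebraMap L M ((σ.restrictScalars K).restrictNormal L x) :=
      h1.symm
    have h2' : τ (algebraMap L M x) = algebraMap L M ((τ.restrictScalars K).restrictNormal L x) :=
      h2.symm
    rw [h1', h2', h3]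
  ext y
  exact congrArg (fun f : M →ₐ[K'] M => f y) key

/-- If `L/K` and `M/K'` are unramified (in a commutative square `K ⊆ L ⊆ M`, `K ⊆ K' ⊆ M`), the
Frobenius of `M/K'` restricts on `L` to `Frob_{L/K} ^ f(K'/K)`.  (No assumption `M = L·K'`.) -/
theorem lfFrob_baseChange (h : LfUnramified q K L) [Normal K L] (h' : LfUnramified q K' M) :
    AlgEquiv.restrictNormalHom L ((lfFrob q K' M).restrictScalars K) =
      lfFrob q K L ^ lfInertiaDeg q K K' := by
  have h1 : ∀ x : L, x ∈ lfInt q L → spectralNorm ℚ_[q] L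
      (AlgEquiv.restrictNormalHom L ((lfFrob q K' M).restrictScalars K) x
        - x ^ lfResCard q K') < 1 :=
    lut_restrict_congr q K L M ((lfFrob q K' M).restrictScalars K) _
      (fun y hy => isLfFrob_lfFrob q K' M h' y hy)
  have h2 : ∀ x : lfInt q L, residue (lfInt q L) ((lfFrob q K L ^ lfInertiaDeg q K K') • x)
      = residue (lfInt q L) x ^ (lfResCard q K ^ lfInertiaDeg q K K') :=
    lut_isLfFrob_pow q K L (isLfFrob_lfFrob q K L h) _
  have h3 : ∀ x : lfInt q L,
      residue (lfInt q L)
        (AlgEquiv.restrictNormalHom L ((lfFrob q K' M).restrictScalars K) • x)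
      = residue (lfInt q L) ((lfFrob q K L ^ lfInertiaDeg q K K') • x) := by
    intro x
    rw [h2 x, ← lfResCard_eq_pow q K K', ← map_pow, lut_residue_eq_iff]
    exact h1 x x.2
  have h4 : (lfFrob q K L ^ lfInertiaDeg q K K')⁻¹ *
      AlgEquiv.restrictNormalHom L ((lfFrob q K' M).restrictScalars K) = 1 := by
    apply LfUnramified.eq_one_of_residue q K L h
    intro x hx
    have h5 := (lut_residue_eq_iff q L _ _).1 (h3 ⟨x, hx⟩)
    have h6 : ((lfFrob q K L ^ lfInertiaDeg q K K')⁻¹ *
        AlgEquiv.restrictNormalHom L ((lfFrob q K' M).restrictScalars K)) x - x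
        = (lfFrob q K L ^ lfInertiaDeg q K K')⁻¹
          (AlgEquiv.restrictNormalHom L ((lfFrob q K' M).restrictScalars K) x
            - (lfFrob q K L ^ lfInertiaDeg q K K') x) := by
      rw [map_sub, AlgEquiv.mul_apply]
      congr 1
      exact ((lfFrob q K L ^ lfInertiaDeg q K K').symm_apply_apply x).symm
    rw [h6, spectralNorm_algEquiv]
    exact h5
  exact (inv_mul_eq_one.1 h4).symm

end BaseChange

end Fermat.Agent.S55
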