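/-
S55 / abstract Kummer cocycle calculus (Mathlib + CohomDefs only).

For a group `G` acting on a commutative group `X`, a number `n > 0`, a function `k : G → ℕ` with
`k σ < n`, `k (σ τ) = (k σ + k τ) % n` (i.e. a character `G → ℤ/n`) and a `G`-fixed `a : X`, the
cochain `(σ, τ) ↦ if n ≤ k σ + k τ then a else 1` (`= a ∪ δχ`) is a cocycle; calculus of these
cocycles, and identification with `cycCocycle` when `k` is injective and `G` finite.
-/
import Mathlib
import Fermat.Agent.S55.CohomDefs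

set_option autoImplicit false
set_option linter.unusedSimpArgs false
set_option linter.unusedSectionVars false

namespace Fermat.Agent.S55

open groupCohomology

section Abstract

variable {G : Type} [Group G] {X : Type} [CommGroup X] [MulDistribMulAction G X]

/-- The abstract symbol cochain `a ∪ δχ`. -/
def kumcCochain (n : ℕ) (k : G → ℕ) (a : X) : G × G → X :=
  fun s => if n ≤ k s.1 + k s.2 then a else 1

theorem kumcCochain_apply (n : ℕ) (k : G → ℕ) (a : X) (σ τ : G) :
    kumcCochain n k a (σ, τ) = if n ≤ k σ + k τ then a else 1 := rfl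

/-- A Kummer character: `k σ < n` and `k (σ τ) = (k σ + k τ) % n`. -/
structure KumcChar (n : ℕ) (k : G → ℕ) : Prop where
  lt : ∀ σ, k σ < n
  mul : ∀ σ τ, k (σ * τ) = (k σ + k τ) % n

namespace KumcChar

variable {n : ℕ} {k : G → ℕ}

theorem pos (hk : KumcChar n k) : 0 < n := lt_of_le_of_lt (Nat.zero_le _) (hk.lt 1)

/-- `k σ + k τ = n * ε(σ,τ) + k (σ τ)`. -/
theorem add_eq (hk : KumcChar n k) (σ τ : G) :
    k σ + k τ = n * ((k σ + k τ) / n) + k (σ * τ) := by
  rw [hk.mul]
  exact (Nat.div_add_mod _ _).symm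

theorem div_le_one (hk : KumcChar n k) (σ τ : G) : (k σ + k τ) / n ≤ 1 := by
  have h1 := hk.lt σ
  have h2 := hk.lt τ
  have : (k σ + k τ) / n < 2 := by
    rw [Nat.div_lt_iff_lt_mul hk.pos]
    omega
  omega

theorem cochain_eq_pow (hk : KumcChar n k) (a : X) (σ τ : G) :
    kumcCochain n k a (σ, τ) = a ^ ((k σ + k τ) / n) := by
  rw [kumcCochain_apply]
  by_cases h : n ≤ k σ + k τ
  · rw [if_pos h]
    have h1 : 1 ≤ (k σ + k τ) / n := (Nat.one_le_div_iff hk.pos).2 h
    have h2 := hk.div_le_one σ τ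
    have : (k σ + k τ) / n = 1 := le_antisymm h2 h1
    rw [this, pow_one]
  · rw [if_neg h]
    have : (k σ + k τ) / n = 0 := Nat.div_eq_of_lt (not_le.1 h)
    rw [this, pow_zero]

theorem map_one (hk : KumcChar n k) : k 1 = 0 := by
  have h1 := hk.add_eq 1 1
  rw [mul_one] at h1
  have h2 := hk.lt (1 : G)
  have h3 := hk.div_le_one 1 1
  rcases Nat.le_one_iff_eq_zero_or_eq_one.1 h3 with h4 | h4
  · rw [h4] at h1; omega
  · rw [h4] at h1; omega

end KumcChar

/-- (A1) the symbol cochain is a cocycle. -/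
theorem kumc_isMulCocycle₂ {n : ℕ} {k : G → ℕ} (hk : KumcChar n k) (a : X)
    (ha : ∀ σ : G, σ • a = a) : IsMulCocycle₂ (kumcCochain n k a) := by
  intro g h j
  rw [hk.cochain_eq_pow, hk.cochain_eq_pow, hk.cochain_eq_pow, hk.cochain_eq_pow, smul_pow', ha g,
    ← pow_add, ← pow_add]
  congr 1
  have e1 := hk.add_eq (g * h) j
  have e2 := hk.add_eq g h
  have e3 := hk.add_eq h j
  have e4 := hk.add_eq g (h * j)
  rw [mul_assoc] at e1
  have : n * ((k (g * h) + k j) / n + (k g + k h) / n) =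
      n * ((k h + k j) / n + (k g + k (h * j)) / n) := by
    rw [mul_add, mul_add]
    omega
  exact Nat.eq_of_mul_eq_mul_left hk.pos this

/-- (A2) multiplicativity in `a`. -/
theorem kumcCochain_mul (n : ℕ) (k : G → ℕ) (a a' : X) :
    kumcCochain n k (a * a') = kumcCochain n k a * kumcCochain n k a' := by
  funext s
  simp only [kumcCochain, Pi.mul_apply]
  split_ifs <;> simp

theorem kumcCochain_one (n : ℕ) (k : G → ℕ) : kumcCochain n k (1 : X) = 1 := by
  funext s
  simp [kumcCochain]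

/-- (A3) the cochain of an `n`-th power is the coboundary of `σ ↦ a ^ k σ`. -/
theorem kumc_pow_isMulCoboundary₂ {n : ℕ} {k : G → ℕ} (hk : KumcChar n k) (a : X)
    (ha : ∀ σ : G, σ • a = a) : IsMulCoboundary₂ (kumcCochain n k (a ^ n)) := by
  refine ⟨fun σ => a ^ k σ, fun g h => ?_⟩
  rw [hk.cochain_eq_pow, smul_pow', ha g, ← pow_mul, div_mul_eq_mul_div, div_eq_iff_eq_mul,
    ← pow_add, ← pow_add]
  congr 1
  have := hk.add_eq g h
  omega

/-- The sum of two Kummer characters. -/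
theorem KumcChar.add {n : ℕ} {k k' : G → ℕ} (hk : KumcChar n k) (hk' : KumcChar n k') :
    KumcChar n (fun σ => (k σ + k' σ) % n) where
  lt σ := Nat.mod_lt _ hk.pos
  mul σ τ := by
    show (k (σ * τ) + k' (σ * τ)) % n = ((k σ + k' σ) % n + (k τ + k' τ) % n) % n
    rw [hk.mul, hk'.mul, ← Nat.add_mod, ← Nat.add_mod]
    congr 1
    omega

/-- (A4) additivity in the character, up to the coboundary of `σ ↦ a ^ ((k σ + k' σ) / n)`. -/
theorem kumc_add_isMulCoboundary₂ {n : ℕ} {k k' : G → ℕ} (hk : KumcChar n k)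
    (hk' : KumcChar n k') (a : X) (ha : ∀ σ : G, σ • a = a) :
    IsMulCoboundary₂ (kumcCochain n k a * kumcCochain n k' a /
      kumcCochain n (fun σ => (k σ + k' σ) % n) a) := by
  have hk'' := hk.add hk'
  refine ⟨fun σ => a ^ ((k σ + k' σ) / n), fun g h => ?_⟩
  simp only [Pi.div_apply, Pi.mul_apply]
  rw [hk.cochain_eq_pow, hk'.cochain_eq_pow, hk''.cochain_eq_pow, smul_pow', ha g,
    div_mul_eq_mul_div, div_eq_div_iff_mul_eq_mul, ← pow_add, ← pow_add, ← pow_add, ← pow_add]
  congr 1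
  have e := hk.add_eq g h
  have e' := hk'.add_eq g h
  have e'' := hk''.add_eq g h
  have d1 := (Nat.div_add_mod (k g + k' g) n).symm
  have d2 := (Nat.div_add_mod (k h + k' h) n).symm
  have d3 := (Nat.div_add_mod (k (g * h) + k' (g * h)) n).symm
  beta_reduce at e''
  have : n * ((k h + k' h) / n + (k g + k' g) / n +
        ((k g + k' g) % n + (k h + k' h) % n) / n) =
      n * ((k g + k h) / n + (k' g + k' h) / n + (k (g * h) + k' (g * h)) / n) := by
    simp only [mul_add]
    omega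
  exact Nat.eq_of_mul_eq_mul_left hk.pos this

/-- (A6) pull-back. -/
theorem pullCochain₂_kumcCochain {H Y : Type} [Group H] [CommGroup Y] (ρ : H →* G) (j : X →* Y)
    (n : ℕ) (k : G → ℕ) (a : X) :
    pullCochain₂ ρ j (kumcCochain n k a) = kumcCochain n (k ∘ ρ) (j a) := by
  funext s
  simp only [pullCochain₂, kumcCochain, Function.comp]
  split_ifs <;> simp

theorem KumcChar.comp {H : Type} [Group H] {n : ℕ} {k : G → ℕ} (hk : KumcChar n k)
    (ρ : H →* G) : KumcChar n (k ∘ ρ) where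
  lt σ := hk.lt _
  mul σ τ := by simp [Function.comp, hk.mul]

end Abstract

/-! ## cycExp -/

section CycExp

variable {G : Type} [Group G]

theorem kumc_pow_cycExp {σ τ : G} (h : τ ∈ Submonoid.powers σ) : σ ^ cycExp σ τ = τ := by
  have hne : {i : ℕ | σ ^ i = τ}.Nonempty := by
    obtain ⟨i, hi⟩ := h
    exact ⟨i, hi⟩
  exact Nat.sInf_mem hne

theorem kumc_cycExp_pow [Finite G] (σ : G) {i : ℕ} (hi : i < orderOf σ) :
    cycExp σ (σ ^ i) = i := by
  have hmem : i ∈ {i' : ℕ | σ ^ i' = σ ^ i} := rfl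
  have hle : cycExp σ (σ ^ i) ≤ i := Nat.sInf_le hmem
  have hspec : σ ^ cycExp σ (σ ^ i) = σ ^ i := Nat.sInf_mem ⟨i, hmem⟩
  exact pow_injOn_Iio_orderOf (lt_of_le_of_lt hle hi) hi hspec

theorem kumc_cycExp_lt [Finite G] (σ τ : G) (h : τ ∈ Submonoid.powers σ) :
    cycExp σ τ < orderOf σ := by
  obtain ⟨i, hi⟩ := h
  have h1 : σ ^ (i % orderOf σ) = τ := by rw [pow_mod_orderOf]; exact hi
  have h2 : cycExp σ τ ≤ i % orderOf σ := Nat.sInf_le h1
  exact lt_of_le_of_lt h2 (Nat.mod_lt _ (orderOf_pos σ))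

end CycExp

/-! ## Injective Kummer characters on finite groups -/

section Injective

variable {G : Type} [Group G] [Finite G] {X : Type} [CommGroup X]

/-- The homomorphism `G → ℤ/n` attached to a Kummer character. -/
def kumcHom {n : ℕ} {k : G → ℕ} (hk : KumcChar n k) : G →* Multiplicative (ZMod n) :=
  MonoidHom.mk' (fun σ => Multiplicative.ofAdd ((k σ : ℕ) : ZMod n)) (fun σ τ => by
    rw [← ofAdd_add, hk.mul, ZMod.natCast_mod, Nat.cast_add])

theorem kumcHom_apply {n : ℕ} {k : G → ℕ} (hk : KumcChar n k) (σ : G) :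
    kumcHom hk σ = Multiplicative.ofAdd ((k σ : ℕ) : ZMod n) := rfl

theorem kumcHom_injective {n : ℕ} {k : G → ℕ} (hk : KumcChar n k) (hinj : Function.Injective k) :
    Function.Injective (kumcHom hk) := by
  intro σ τ h
  apply hinj
  have h1 : ((k σ : ℕ) : ZMod n) = ((k τ : ℕ) : ZMod n) := Multiplicative.ofAdd.injective h
  rw [ZMod.natCast_eq_natCast_iff', Nat.mod_eq_of_lt (hk.lt σ), Nat.mod_eq_of_lt (hk.lt τ)] at h1
  exact h1

/-- (A5) for an injective Kummer character on a finite group the symbol cochain is the cyclic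
cochain of the generator `σ₁` with `k σ₁ ≡ n / |G|`. -/
theorem kumc_exists_eq_cycCocycle {n : ℕ} {k : G → ℕ} (hk : KumcChar n k)
    (hinj : Function.Injective k) :
    ∃ σ₁ : G, (∀ τ : G, τ ∈ Subgroup.zpowers σ₁) ∧
      ∀ a : X, kumcCochain n k a = cycCocycle σ₁ a := by
  classical
  have hn : NeZero n := ⟨hk.pos.ne'⟩
  let _ : Fintype G := Fintype.ofFinite G
  set φ := kumcHom hk with hφdef
  have hφ : Function.Injective φ := kumcHom_injective hk hinj
  set d := Nat.card G with hd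
  have hd0 : 0 < d := Nat.card_pos
  have hcardC : Nat.card (Multiplicative (ZMod n)) = n := by
    rw [Nat.card_eq_fintype_card, Fintype.card_multiplicative, ZMod.card]
  have hdn : d ∣ n := by
    have := Subgroup.card_dvd_of_injective φ hφ
    rwa [hcardC] at this
  obtain ⟨m, hm⟩ := hdn
  have hm0 : 0 < m := by
    rcases Nat.eq_zero_or_pos m with h | h
    · rw [h, mul_zero] at hm; exact absurd hm hk.pos.ne'
    · exact h
  let y : Multiplicative (ZMod n) := Multiplicative.ofAdd ((m : ℕ) : ZMod n)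
  have hyd : y ^ d = 1 := by
    show Multiplicative.ofAdd ((m : ℕ) : ZMod n) ^ d = 1
    rw [← ofAdd_nsmul, nsmul_eq_mul, ← Nat.cast_mul, ← hm, ZMod.natCast_self]
    rfl
  -- `y` lies in the range of `φ`
  have hy : ∃ σ₁ : G, φ σ₁ = y := by
    have hS : (Finset.univ.filter (fun c : Multiplicative (ZMod n) => c ^ d = 1)).card ≤ d :=
      IsCyclic.card_pow_eq_one_le hd0
    have hT : Finset.univ.image φ ⊆
        Finset.univ.filter (fun c : Multiplicative (ZMod n) => c ^ d = 1) := by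
      intro c hc
      obtain ⟨σ, _, rfl⟩ := Finset.mem_image.1 hc
      rw [Finset.mem_filter]
      refine ⟨Finset.mem_univ _, ?_⟩
      rw [← map_pow, hd, pow_card_eq_one', map_one]
    have hTcard : (Finset.univ.image φ).card = d := by
      rw [Finset.card_image_of_injective _ hφ, Finset.card_univ, hd, Nat.card_eq_fintype_card]
    have hTS := Finset.eq_of_subset_of_card_le hT (by rw [hTcard]; exact hS)
    have hyS : y ∈ Finset.univ.filter (fun c : Multiplicative (ZMod n) => c ^ d = 1) := by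
      rw [Finset.mem_filter]
      exact ⟨Finset.mem_univ _, hyd⟩
    rw [← hTS] at hyS
    obtain ⟨σ₁, _, h⟩ := Finset.mem_image.1 hyS
    exact ⟨σ₁, h⟩
  obtain ⟨σ₁, hσ₁⟩ := hy
  -- the order of `σ₁`
  have hord : orderOf σ₁ = d := by
    rw [← orderOf_injective φ hφ σ₁, hσ₁]
    show orderOf (Multiplicative.ofAdd ((m : ℕ) : ZMod n)) = d
    rw [orderOf_ofAdd_eq_addOrderOf, ZMod.addOrderOf_coe m hk.pos.ne',
      Nat.gcd_eq_right (Dvd.intro_left d hm.symm), hm, Nat.mul_div_cancel _ hm0]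
  have hgen : ∀ τ : G, τ ∈ Subgroup.zpowers σ₁ := by
    have h1 : Nat.card (Subgroup.zpowers σ₁) = Nat.card G := by
      rw [Nat.card_zpowers, hord]
    have h2 : Subgroup.zpowers σ₁ = ⊤ := Subgroup.eq_top_of_card_eq _ h1
    intro τ
    rw [h2]
    exact Subgroup.mem_top τ
  have hpow : ∀ τ : G, τ ∈ Submonoid.powers σ₁ := fun τ =>
    (mem_powers_iff_mem_zpowers).2 (hgen τ)
  -- the value of `k` on `σ₁ ^ i`
  have hkval : ∀ τ : G, k τ = cycExp σ₁ τ * m := by
    intro τ
    have h1 : σ₁ ^ cycExp σ₁ τ = τ := kumc_pow_cycExp (hpow τ)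
    have h2 : cycExp σ₁ τ < d := hord ▸ kumc_cycExp_lt σ₁ τ (hpow τ)
    have h3 : φ τ = y ^ cycExp σ₁ τ := by rw [← hσ₁, ← map_pow, h1]
    have h4 : ((k τ : ℕ) : ZMod n) = ((cycExp σ₁ τ * m : ℕ) : ZMod n) := by
      have : Multiplicative.ofAdd ((k τ : ℕ) : ZMod n) =
          Multiplicative.ofAdd ((m : ℕ) : ZMod n) ^ cycExp σ₁ τ := h3
      rw [← ofAdd_nsmul, nsmul_eq_mul, ← Nat.cast_mul] at this
      exact Multiplicative.ofAdd.injective this
    rw [ZMod.natCast_eq_natCast_iff', Nat.mod_eq_of_lt (hk.lt τ)] at h4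
    rw [h4]
    apply Nat.mod_eq_of_lt
    rw [hm]
    exact Nat.mul_lt_mul_of_pos_right h2 hm0
  refine ⟨σ₁, hgen, fun a => ?_⟩
  funext s
  show (if n ≤ k s.1 + k s.2 then a else 1) =
    if orderOf σ₁ ≤ cycExp σ₁ s.1 + cycExp σ₁ s.2 then a else 1
  have hiff : n ≤ k s.1 + k s.2 ↔ orderOf σ₁ ≤ cycExp σ₁ s.1 + cycExp σ₁ s.2 := by
    rw [hkval s.1, hkval s.2, hord, hm, ← add_mul]
    exact Nat.mul_le_mul_right_iff hm0
  simp only [hiff]

end Injective

end Fermat.Agent.S55
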