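/-
S55 / LOCAL layer LD4b, part (a): pure algebra of `lfBC` (multiplicativity, transitivity for
stacked squares) and the calculus of multiplicative 2-coboundaries / 2-cocycles.
Sorry-free, imports only the definition files.  All names are prefixed `lfinv_`.
-/
import Fermat.Agent.S55.LocalBrauerDefs

set_option autoImplicit false

namespace Fermat.Agent.S55

open groupCohomology

section Calc

variable {G : Type} [Group G] {X : Type} [CommGroup X] [MulDistribMulAction G X]

theorem lfinv_cob_one : IsMulCoboundary₂ (1 : G × G → X) :=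
  ⟨fun _ => 1, fun g h => by simp⟩

theorem lfinv_cob_mul {f f' : G × G → X} (hf : IsMulCoboundary₂ f) (hf' : IsMulCoboundary₂ f') :
    IsMulCoboundary₂ (f * f') := by
  obtain ⟨x, hx⟩ := hf
  obtain ⟨y, hy⟩ := hf'
  refine ⟨fun g => x g * y g, fun g h => ?_⟩
  rw [Pi.mul_apply, ← hx g h, ← hy g h, smul_mul']
  apply Additive.ofMul.injective
  simp only [ofMul_mul, ofMul_div]
  abel

theorem lfinv_cob_inv {f : G × G → X} (hf : IsMulCoboundary₂ f) : IsMulCoboundary₂ f⁻¹ := by
  obtain ⟨x, hx⟩ := hf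
  refine ⟨fun g => (x g)⁻¹, fun g h => ?_⟩
  rw [Pi.inv_apply, ← hx g h, smul_inv']
  apply Additive.ofMul.injective
  simp only [ofMul_mul, ofMul_div, ofMul_inv]
  abel

theorem lfinv_cob_div {f f' : G × G → X} (hf : IsMulCoboundary₂ f) (hf' : IsMulCoboundary₂ f') :
    IsMulCoboundary₂ (f / f') := by
  rw [div_eq_mul_inv]
  exact lfinv_cob_mul hf (lfinv_cob_inv hf')

theorem lfinv_coc_one : IsMulCocycle₂ (1 : G × G → X) := fun g h j => by simp

theorem lfinv_coc_mul {f f' : G × G → X} (hf : IsMulCocycle₂ f) (hf' : IsMulCocycle₂ f') :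
    IsMulCocycle₂ (f * f') := fun g h j => by
  simp only [Pi.mul_apply, smul_mul']
  rw [mul_mul_mul_comm, hf g h j, hf' g h j, mul_mul_mul_comm]

theorem lfinv_coc_inv {f : G × G → X} (hf : IsMulCocycle₂ f) : IsMulCocycle₂ f⁻¹ := fun g h j => by
  simp only [Pi.inv_apply, smul_inv']
  rw [← mul_inv, ← mul_inv, hf g h j]

theorem lfinv_coc_div {f f' : G × G → X} (hf : IsMulCocycle₂ f) (hf' : IsMulCocycle₂ f') :
    IsMulCocycle₂ (f / f') := by
  rw [div_eq_mul_inv]
  exact lfinv_coc_mul hf (lfinv_coc_inv hf')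

/-- "cohomologous" is transitive. -/
theorem lfinv_cob_trans {f₁ f₂ f₃ : G × G → X} (h₁₂ : IsMulCoboundary₂ (f₁ / f₂))
    (h₂₃ : IsMulCoboundary₂ (f₂ / f₃)) : IsMulCoboundary₂ (f₁ / f₃) := by
  have := lfinv_cob_mul h₁₂ h₂₃
  rwa [div_mul_div_cancel] at this

/-- "cohomologous" is symmetric. -/
theorem lfinv_cob_symm {f₁ f₂ : G × G → X} (h : IsMulCoboundary₂ (f₁ / f₂)) :
    IsMulCoboundary₂ (f₂ / f₁) := by
  have := lfinv_cob_inv h
  rwa [inv_div] at this

theorem lfinv_cob_refl (f : G × G → X) : IsMulCoboundary₂ (f / f) := by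
  rw [div_self']
  exact lfinv_cob_one

end Calc

section Square

variable (K L K' M : Type) [Field K] [Field L] [Field K'] [Field M]
  [Algebra K L] [Algebra K K'] [Algebra L M] [Algebra K' M] [Algebra K M]
  [IsScalarTower K L M] [IsScalarTower K K' M] [Normal K L]

theorem lfinv_BC_mul (c c' : (L ≃ₐ[K] L) × (L ≃ₐ[K] L) → Lˣ) :
    lfBC K L K' M (c * c') = lfBC K L K' M c * lfBC K L K' M c' := by
  funext p
  simp only [lfBC, pullCochain₂, Pi.mul_apply, map_mul]

theorem lfinv_BC_inv (c : (L ≃ₐ[K] L) × (L ≃ₐ[K] L) → Lˣ) :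
    lfBC K L K' M c⁻¹ = (lfBC K L K' M c)⁻¹ := by
  funext p
  simp only [lfBC, pullCochain₂, Pi.inv_apply, map_inv]

theorem lfinv_BC_div (c c' : (L ≃ₐ[K] L) × (L ≃ₐ[K] L) → Lˣ) :
    lfBC K L K' M (c / c') = lfBC K L K' M c / lfBC K L K' M c' := by
  funext p
  simp only [lfBC, pullCochain₂, Pi.div_apply, map_div]

theorem lfinv_BC_one : lfBC K L K' M (1 : (L ≃ₐ[K] L) × (L ≃ₐ[K] L) → Lˣ) = 1 := by
  funext p
  simp only [lfBC, pullCochain₂, Pi.one_apply, map_one]

/-- Equivariance of the coefficient map of `lfBC`. -/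
theorem lfinv_unitsMap_smul (σ : M ≃ₐ[K'] M) (x : Lˣ) :
    Units.map (algebraMap L M : L →* M) (lfGalRes K L K' M σ • x) =
      σ • Units.map (algebraMap L M : L →* M) x := by
  apply Units.ext
  exact lfGalRes_commutes K L K' M σ (x : L)

/-- Base change of a cocycle is a cocycle (pure algebra, direct proof). -/
theorem lfinv_BC_coc (c : (L ≃ₐ[K] L) × (L ≃ₐ[K] L) → Lˣ) (hc : IsMulCocycle₂ c) :
    IsMulCocycle₂ (lfBC K L K' M c) := by
  intro g h j
  have := congrArg (Units.map (algebraMap L M : L →* M))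
    (hc (lfGalRes K L K' M g) (lfGalRes K L K' M h) (lfGalRes K L K' M j))
  rw [map_mul, map_mul, lfinv_unitsMap_smul] at this
  simp only [lfBC_apply, map_mul]
  exact this

/-- Base change of a coboundary is a coboundary (pure algebra, direct proof). -/
theorem lfinv_BC_cob (c : (L ≃ₐ[K] L) × (L ≃ₐ[K] L) → Lˣ) (hc : IsMulCoboundary₂ c) :
    IsMulCoboundary₂ (lfBC K L K' M c) := by
  obtain ⟨x, hx⟩ := hc
  refine ⟨fun g => Units.map (algebraMap L M : L →* M) (x (lfGalRes K L K' M g)), fun g h => ?_⟩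
  have := congrArg (Units.map (algebraMap L M : L →* M))
    (hx (lfGalRes K L K' M g) (lfGalRes K L K' M h))
  rw [map_mul, map_div, lfinv_unitsMap_smul] at this
  simp only [lfBC_apply, map_mul]
  exact this

end Square

section Trans

variable (K L K' M K'' M' : Type) [Field K] [Field L] [Field K'] [Field M] [Field K''] [Field M']
  [Algebra K L] [Algebra K K'] [Algebra L M] [Algebra K' M] [Algebra K M]
  [IsScalarTower K L M] [IsScalarTower K K' M]
  [Algebra K' K''] [Algebra M M'] [Algebra K'' M'] [Algebra K' M']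
  [IsScalarTower K' M M'] [IsScalarTower K' K'' M']
  [Algebra K K''] [Algebra L M'] [Algebra K M']
  [IsScalarTower K L M'] [IsScalarTower K K'' M'] [IsScalarTower L M M']
  [Normal K L] [Normal K' M]

/-- Restriction maps compose for stacked squares. -/
theorem lfinv_galRes_trans (σ : M' ≃ₐ[K''] M') :
    lfGalRes K L K' M (lfGalRes K' M K'' M' σ) = lfGalRes K L K'' M' σ := by
  apply AlgEquiv.ext
  intro x
  apply (algebraMap L M').injective
  rw [lfGalRes_commutes, IsScalarTower.algebraMap_apply L M M', lfGalRes_commutes,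
    lfGalRes_commutes, ← IsScalarTower.algebraMap_apply L M M']

/-- Transitivity of base change for stacked squares. -/
theorem lfinv_BC_trans (c : (L ≃ₐ[K] L) × (L ≃ₐ[K] L) → Lˣ) :
    lfBC K' M K'' M' (lfBC K L K' M c) = lfBC K L K'' M' c := by
  funext p
  obtain ⟨σ, τ⟩ := p
  rw [lfBC_apply, lfBC_apply, lfBC_apply, lfinv_galRes_trans, lfinv_galRes_trans]
  apply Units.ext
  simp only [Units.coe_map, MonoidHom.coe_coe]
  exact (IsScalarTower.algebraMap_apply L M M' _).symm

end Trans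

end Fermat.Agent.S55
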