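/-
S55 / CO-a : explicit `H²` of finite cyclic groups in multiplicative cocycle language.
Same names and statements as section `Cyc` of helper22's `CohomSpec.lean`.
Helper names are prefixed `cyc_`.
-/
import Mathlib
import Fermat.Agent.S55.CohomDefs

set_option autoImplicit false

namespace Fermat.Agent.S55

open groupCohomology

section Exp

variable {G : Type} [Group G] [Finite G]

theorem cyc_exists_pow (σ : G) (hσ : ∀ τ : G, τ ∈ Subgroup.zpowers σ) (τ : G) :
    ∃ i : ℕ, σ ^ i = τ := by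
  have h := (isOfFinOrder_of_finite σ).mem_powers_iff_mem_zpowers.mpr (hσ τ)
  exact (Submonoid.mem_powers_iff _ _).mp h

theorem cycExp_spec (σ : G) (hσ : ∀ τ : G, τ ∈ Subgroup.zpowers σ) (τ : G) :
    σ ^ cycExp σ τ = τ :=
  Nat.sInf_mem (s := {i : ℕ | σ ^ i = τ}) (cyc_exists_pow σ hσ τ)

theorem cycExp_lt (σ : G) (hσ : ∀ τ : G, τ ∈ Subgroup.zpowers σ) (τ : G) :
    cycExp σ τ < orderOf σ := by
  have hpos : 0 < orderOf σ := orderOf_pos σ
  have h1 : σ ^ (cycExp σ τ % orderOf σ) = τ := by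
    rw [pow_mod_orderOf, cycExp_spec σ hσ τ]
  have h2 : cycExp σ τ ≤ cycExp σ τ % orderOf σ := Nat.sInf_le h1
  exact lt_of_le_of_lt h2 (Nat.mod_lt _ hpos)

theorem cycExp_pow (σ : G) (hσ : ∀ τ : G, τ ∈ Subgroup.zpowers σ) (i : ℕ) :
    cycExp σ (σ ^ i) = i % orderOf σ := by
  have h1 : σ ^ cycExp σ (σ ^ i) = σ ^ i := cycExp_spec σ hσ _
  have h2 : cycExp σ (σ ^ i) ≡ i [MOD orderOf σ] := pow_eq_pow_iff_modEq.mp h1
  have h3 := cycExp_lt σ hσ (σ ^ i)
  rw [← Nat.mod_eq_of_lt h3]
  exact h2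

theorem cycExp_mul (σ : G) (hσ : ∀ τ : G, τ ∈ Subgroup.zpowers σ) (τ τ' : G) :
    cycExp σ (τ * τ') = (cycExp σ τ + cycExp σ τ') % orderOf σ := by
  rw [← cycExp_pow σ hσ, pow_add, cycExp_spec σ hσ, cycExp_spec σ hσ]

/-- the carry identity. -/
theorem cycExp_add (σ : G) (hσ : ∀ τ : G, τ ∈ Subgroup.zpowers σ) (τ τ' : G) :
    (orderOf σ ≤ cycExp σ τ + cycExp σ τ' →
        cycExp σ τ + cycExp σ τ' = cycExp σ (τ * τ') + orderOf σ) ∧
      (cycExp σ τ + cycExp σ τ' < orderOf σ →
        cycExp σ τ + cycExp σ τ' = cycExp σ (τ * τ')) := by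
  have h1 := cycExp_lt σ hσ τ
  have h2 := cycExp_lt σ hσ τ'
  rw [cycExp_mul σ hσ]
  constructor
  · intro h
    rw [Nat.mod_eq_sub_mod h, Nat.mod_eq_of_lt (by omega)]
    omega
  · intro h
    rw [Nat.mod_eq_of_lt h]

theorem cycExp_one (σ : G) (hσ : ∀ τ : G, τ ∈ Subgroup.zpowers σ) : cycExp σ (1 : G) = 0 := by
  have := cycExp_pow σ hσ 0
  rwa [pow_zero, Nat.zero_mod] at this

theorem cyc_card_eq (σ : G) (hσ : ∀ τ : G, τ ∈ Subgroup.zpowers σ) :
    Nat.card G = orderOf σ := (orderOf_eq_card_of_forall_mem_zpowers hσ).symm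

end Exp

section Cyc

variable {G : Type} [Group G] [Finite G] {X : Type} [CommGroup X] [MulDistribMulAction G X]

theorem cycCocycle_apply (σ : G) (a : X) (g h : G) :
    cycCocycle σ a (g, h) = if orderOf σ ≤ cycExp σ g + cycExp σ h then a else 1 := rfl

theorem cyc_smul_eq (σ : G) (hσ : ∀ τ : G, τ ∈ Subgroup.zpowers σ) {a : X} (ha : σ • a = a)
    (g : G) : g • a = a := by
  obtain ⟨i, rfl⟩ := cyc_exists_pow σ hσ g
  induction i with
  | zero => simp
  | succ k ih => rw [pow_succ, mul_smul, ha, ih]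

theorem cycCocycle_isMulCocycle₂ (σ : G) (hσ : ∀ τ : G, τ ∈ Subgroup.zpowers σ) (a : X)
    (ha : σ • a = a) : IsMulCocycle₂ (cycCocycle σ a) := by
  have hfix := cyc_smul_eq σ hσ ha
  intro g h j
  have h1 := cycExp_add σ hσ g h
  have h2 := cycExp_add σ hσ (g * h) j
  have h3 := cycExp_add σ hσ h j
  have h4 := cycExp_add σ hσ g (h * j)
  rw [mul_assoc] at h2
  have l1 := cycExp_lt σ hσ g
  have l2 := cycExp_lt σ hσ h
  have l3 := cycExp_lt σ hσ j
  have l4 := cycExp_lt σ hσ (g * h)
  have l5 := cycExp_lt σ hσ (h * j)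
  simp only [cycCocycle_apply]
  split_ifs <;> simp only [hfix, smul_one, mul_one, one_mul] <;> exfalso <;> omega

theorem cycCocycle_mul (σ : G) (a b : X) :
    cycCocycle σ (a * b) = cycCocycle σ a * cycCocycle σ b := by
  funext p
  simp only [cycCocycle, Pi.mul_apply]
  split_ifs <;> simp

/-- partial norms `∏_{i<m} σ^i • x`. -/
noncomputable def cycPartialNorm (σ : G) (x : X) (m : ℕ) : X :=
  ∏ i ∈ Finset.range m, σ ^ i • x

theorem cycPartialNorm_add (σ : G) (x : X) (k m : ℕ) :
    cycPartialNorm σ x (k + m) = cycPartialNorm σ x k * σ ^ k • cycPartialNorm σ x m := by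
  simp only [cycPartialNorm, Finset.prod_range_add, Finset.smul_prod', pow_add, mul_smul]

theorem cycPartialNorm_orderOf (σ : G) (x : X) : cycPartialNorm σ x (orderOf σ) = cycNorm σ x := rfl

theorem cycPartialNorm_orderOf_add (σ : G) (x : X) (m : ℕ) :
    cycPartialNorm σ x (orderOf σ + m) = cycNorm σ x * cycPartialNorm σ x m := by
  rw [cycPartialNorm_add, pow_orderOf_eq_one, one_smul, cycPartialNorm_orderOf]

/-- `cycCocycle σ a` is a coboundary iff `a` is a norm. -/
theorem cycCocycle_isMulCoboundary₂_iff (σ : G) (hσ : ∀ τ : G, τ ∈ Subgroup.zpowers σ) (a : X)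
    (ha : σ • a = a) :
    IsMulCoboundary₂ (cycCocycle σ a) ↔ ∃ x : X, cycNorm σ x = a := by
  constructor
  · rintro ⟨y, hy⟩
    by_cases hn : orderOf σ = 1
    · refine ⟨a, ?_⟩
      rw [cycNorm, hn]
      simp
    · have hn2 : 2 ≤ orderOf σ := by
        have := orderOf_pos σ
        omega
      refine ⟨y σ, ?_⟩
      have hterm : ∀ i ∈ Finset.range (orderOf σ),
          σ ^ i • y σ * (y (σ ^ i) / y (σ ^ (i + 1))) =
            if orderOf σ ≤ i + 1 then a else 1 := by
        intro i hi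
        rw [Finset.mem_range] at hi
        have h1 := hy (σ ^ i) σ
        rw [cycCocycle_apply, cycExp_pow σ hσ, Nat.mod_eq_of_lt hi] at h1
        have h2 : cycExp σ σ = 1 := by
          have := cycExp_pow σ hσ 1
          rwa [pow_one, Nat.mod_eq_of_lt (by omega)] at this
        rw [h2, ← pow_succ] at h1
        rw [← h1]
        have h' : ∀ u v w : X, u * (w / v) = u / v * w := by
          intro u v w
          apply Additive.ofMul.injective
          simp only [ofMul_mul, ofMul_div]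
          abel
        exact h' _ _ _
      have hprod := Finset.prod_congr rfl hterm
      rw [Finset.prod_mul_distrib, Finset.prod_range_div' (fun i => y (σ ^ i)), pow_zero,
        pow_orderOf_eq_one, div_self', mul_one] at hprod
      rw [cycNorm, hprod]
      rw [Finset.prod_eq_single (orderOf σ - 1)]
      · rw [if_pos (by omega)]
      · intro i hi hne
        rw [Finset.mem_range] at hi
        rw [if_neg (by omega)]
      · intro h
        rw [Finset.mem_range] at h
        omega
  · rintro ⟨x, rfl⟩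
    refine ⟨fun τ => cycPartialNorm σ x (cycExp σ τ), fun g h => ?_⟩
    have hadd := cycExp_add σ hσ g h
    have hg : g = σ ^ cycExp σ g := (cycExp_spec σ hσ g).symm
    have hQ := cycPartialNorm_add σ x (cycExp σ g) (cycExp σ h)
    rw [← hg] at hQ
    rw [cycCocycle_apply]
    beta_reduce
    split_ifs with hc
    · have h1 := hadd.1 hc
      rw [h1, add_comm, cycPartialNorm_orderOf_add] at hQ
      have hQ' := congrArg Additive.ofMul hQ
      apply Additive.ofMul.injective
      simp only [ofMul_mul, ofMul_div] at hQ' ⊢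
      linear_combination (norm := abel) (-1 : ℤ) • hQ'
    · have h1 := hadd.2 (not_le.mp hc)
      rw [h1] at hQ
      have hQ' := congrArg Additive.ofMul hQ
      apply Additive.ofMul.injective
      simp only [ofMul_mul, ofMul_div, ofMul_one] at hQ' ⊢
      linear_combination (norm := abel) (-1 : ℤ) • hQ'

/-- partial products `∏_{k<i} c (σ^k, σ)`. -/
noncomputable def cycPartialProd (σ : G) (c : G × G → X) (i : ℕ) : X :=
  ∏ k ∈ Finset.range i, c (σ ^ k, σ)

theorem cycPartialProd_succ (σ : G) (c : G × G → X) (i : ℕ) :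
    cycPartialProd σ c (i + 1) = cycPartialProd σ c i * c (σ ^ i, σ) :=
  Finset.prod_range_succ _ _

theorem cycPartialProd_orderOf_add (σ : G) (c : G × G → X) (m : ℕ) :
    cycPartialProd σ c (orderOf σ + m) = cycPartialProd σ c (orderOf σ) * cycPartialProd σ c m := by
  simp only [cycPartialProd, Finset.prod_range_add, pow_add, pow_orderOf_eq_one, one_mul]

/-- the key identity: `c (σ^i, σ^j) * (P i * σ^i • P j) = σ^i • c(1,1) * P (i + j)`. -/
theorem cyc_key (σ : G) (c : G × G → X) (hc : IsMulCocycle₂ c) (i j : ℕ) :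
    c (σ ^ i, σ ^ j) * (cycPartialProd σ c i * σ ^ i • cycPartialProd σ c j) =
      σ ^ i • c (1, 1) * cycPartialProd σ c (i + j) := by
  induction j with
  | zero =>
    rw [pow_zero, map_one_snd_of_isMulCocycle₂ hc, add_zero]
    simp [cycPartialProd]
  | succ j ih =>
    have h1 := hc (σ ^ i) (σ ^ j) σ
    rw [← pow_add, ← pow_succ] at h1
    rw [← add_assoc, cycPartialProd_succ, cycPartialProd_succ, smul_mul']
    have ih' := congrArg Additive.ofMul ih
    have h1' := congrArg Additive.ofMul h1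
    apply Additive.ofMul.injective
    simp only [ofMul_mul] at ih' h1' ⊢
    linear_combination (norm := abel) ih' - h1'

/-- Every `2`-cocycle of a cyclic group is cohomologous to a cyclic one, namely to
`cycCocycle σ a` with `a = ∏_{i<n} c (σ^i, σ)`. -/
theorem exists_cycCocycle_of_isMulCocycle₂ (σ : G) (hσ : ∀ τ : G, τ ∈ Subgroup.zpowers σ)
    (c : G × G → X) (hc : IsMulCocycle₂ c) :
    (σ • (∏ i ∈ Finset.range (orderOf σ), c (σ ^ i, σ)) =
        ∏ i ∈ Finset.range (orderOf σ), c (σ ^ i, σ)) ∧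
      IsMulCoboundary₂ (c / cycCocycle σ (∏ i ∈ Finset.range (orderOf σ), c (σ ^ i, σ))) := by
  change (σ • cycPartialProd σ c (orderOf σ) = cycPartialProd σ c (orderOf σ)) ∧
    IsMulCoboundary₂ (c / cycCocycle σ (cycPartialProd σ c (orderOf σ)))
  constructor
  · -- `cyc_key` with `i = 1`, `j = n`
    have h := cyc_key σ c hc 1 (orderOf σ)
    rw [pow_orderOf_eq_one, pow_one, map_one_snd_of_isMulCocycle₂ hc, add_comm,
      cycPartialProd_orderOf_add] at h
    have h1 : cycPartialProd σ c 1 = c (1, 1) := by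
      simp [cycPartialProd, map_one_fst_of_isMulCocycle₂ hc]
    rw [h1] at h
    have h' := congrArg Additive.ofMul h
    apply Additive.ofMul.injective
    simp only [ofMul_mul] at h' ⊢
    linear_combination (norm := abel) h'
  · refine ⟨fun τ => c (1, 1) / cycPartialProd σ c (cycExp σ τ), fun g h => ?_⟩
    have hadd := cycExp_add σ hσ g h
    have hg : g = σ ^ cycExp σ g := (cycExp_spec σ hσ g).symm
    have hh : h = σ ^ cycExp σ h := (cycExp_spec σ hσ h).symm
    have hkey := cyc_key σ c hc (cycExp σ g) (cycExp σ h)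
    rw [← hg, ← hh] at hkey
    rw [Pi.div_apply, cycCocycle_apply]
    beta_reduce
    rw [smul_div']
    split_ifs with hcase
    · have h1 := hadd.1 hcase
      rw [h1, add_comm, cycPartialProd_orderOf_add] at hkey
      have hkey' := congrArg Additive.ofMul hkey
      apply Additive.ofMul.injective
      simp only [ofMul_mul, ofMul_div] at hkey' ⊢
      linear_combination (norm := abel) (-1 : ℤ) • hkey'
    · have h1 := hadd.2 (not_le.mp hcase)
      rw [h1] at hkey
      have hkey' := congrArg Additive.ofMul hkey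
      apply Additive.ofMul.injective
      simp only [ofMul_mul, ofMul_div, ofMul_one] at hkey' ⊢
      linear_combination (norm := abel) (-1 : ℤ) • hkey'

/-- the carry identity with a `0/1`-valued carry. -/
theorem cycExp_add_ite (σ : G) (hσ : ∀ τ : G, τ ∈ Subgroup.zpowers σ) (τ τ' : G) :
    cycExp σ τ + cycExp σ τ' = cycExp σ (τ * τ') +
      orderOf σ * (if orderOf σ ≤ cycExp σ τ + cycExp σ τ' then 1 else 0) := by
  have h := cycExp_add σ hσ τ τ'
  split_ifs with hc
  · rw [mul_one]
    exact h.1 hc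
  · rw [mul_zero, add_zero]
    exact h.2 (not_le.mp hc)

theorem cyc_pow_aux {Y : Type} [CommGroup Y] (b : Y) (q q' q'' s t : ℕ)
    (h : q + q' + s = q'' + t) : (b ^ q')⁻¹ / (b ^ q'')⁻¹ * (b ^ q)⁻¹ = b ^ s / b ^ t := by
  have h1 : b ^ (q + q' + s) = b ^ (q'' + t) := by rw [h]
  rw [pow_add, pow_add, pow_add] at h1
  have h1' := congrArg Additive.ofMul h1
  apply Additive.ofMul.injective
  simp only [ofMul_mul, ofMul_div, ofMul_inv] at h1' ⊢
  linear_combination (norm := abel) (-1 : ℤ) • h1'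

/-- Functoriality of cyclic cocycles: `ρ : H → G` a hom of finite cyclic groups with generators
`τ`, `σ` and `ρ τ = σ ^ d`; `j : X → Y` equivariant.  Then the pull-back of `cycCocycle σ a` is
cohomologous to `cycCocycle τ (j a ^ (d * |H| / |G|))`. -/
theorem pullCochain₂_cycCocycle {H : Type} [Group H] [Finite H] {Y : Type} [CommGroup Y]
    [MulDistribMulAction H Y] (ρ : H →* G) (j : X →* Y)
    (hj : ∀ (h : H) (x : X), j (ρ h • x) = h • j x)
    (σ : G) (hσ : ∀ g : G, g ∈ Subgroup.zpowers σ) (τ : H) (hτ : ∀ h : H, h ∈ Subgroup.zpowers τ)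
    (d : ℕ) (hd : ρ τ = σ ^ d) (a : X) (ha : σ • a = a) :
    IsMulCoboundary₂ (pullCochain₂ ρ j (cycCocycle σ a) /
      cycCocycle τ (j a ^ (d * Nat.card H / Nat.card G))) := by
  rw [cyc_card_eq σ hσ, cyc_card_eq τ hτ]
  set n := orderOf σ with hn
  set m := orderOf τ with hm
  have hnpos : 0 < n := orderOf_pos σ
  -- `n ∣ d * m`
  have hdvd : n ∣ d * m := by
    apply orderOf_dvd_of_pow_eq_one
    rw [pow_mul, ← hd, ← map_pow, hm, pow_orderOf_eq_one, map_one]
  obtain ⟨k, hk⟩ := hdvd
  have hkdiv : d * m / n = k := by rw [hk, Nat.mul_div_cancel_left _ hnpos]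
  rw [hkdiv]
  set b := j a with hb
  have hbfix : ∀ h : H, h • b = b := by
    intro h
    rw [hb, ← hj, cyc_smul_eq σ hσ ha]
  refine ⟨fun h => (b ^ ((d * cycExp τ h) / n))⁻¹, fun h h' => ?_⟩
  -- the exponents
  have hρ : ∀ h : H, cycExp σ (ρ h) = (d * cycExp τ h) % n := by
    intro h
    conv_lhs => rw [← cycExp_spec τ hτ h]
    rw [map_pow, hd, ← pow_mul, cycExp_pow σ hσ]
  have hE := cycExp_add_ite τ hτ h h'
  have hR := cycExp_add_ite σ hσ (ρ h) (ρ h')
  rw [← map_mul, hρ, hρ, hρ] at hR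
  have hD1 := Nat.div_add_mod (d * cycExp τ h) n
  have hD2 := Nat.div_add_mod (d * cycExp τ h') n
  have hD3 := Nat.div_add_mod (d * cycExp τ (h * h')) n
  rw [Pi.div_apply, pullCochain₂, cycCocycle_apply, cycCocycle_apply, hρ, hρ]
  beta_reduce
  rw [smul_inv', smul_pow', hbfix]
  set e := cycExp τ h
  set e' := cycExp τ h'
  set e'' := cycExp τ (h * h')
  set εm : ℕ := if m ≤ e + e' then 1 else 0 with hεm
  set εn : ℕ := if n ≤ d * e % n + d * e' % n then 1 else 0 with hεn
  have hclaim : d * e / n + d * e' / n + εn = d * e'' / n + k * εm := by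
    apply Nat.eq_of_mul_eq_mul_left hnpos
    rw [← hm] at hE
    rw [← hn] at hR
    zify at hE hR hD1 hD2 hD3 hk ⊢
    linear_combination hD1 + hD2 - hD3 - hR + (d : ℤ) * hE + (εm : ℤ) * hk
  have hmain := cyc_pow_aux b _ _ _ _ _ hclaim
  rw [hmain]
  have h1 : b ^ εn = j (if n ≤ d * e % n + d * e' % n then a else 1) := by
    rw [hεn]
    split_ifs <;> simp [hb]
  have h2 : b ^ (k * εm) = if m ≤ e + e' then b ^ k else 1 := by
    rw [hεm]
    split_ifs <;> simp
  rw [h1, h2]

end Cyc

end Fermat.Agent.S55
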