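import Mathlib
import Fermat.Agent.S55.CohomDefs
import Fermat.Agent.S55.CF0.InfRes2Core

set_option autoImplicit false

/-!
# CO-b: inflation–restriction in degree 2, multiplicative two-module form

`π : G → Ḡ` surjective with kernel `N`, `j : X̄ → X` injective, equivariant, with image the
`N`-fixed points; `H¹(N, X) = 1`.  Transfer of the additive cochain-level core
(`InfRes2Core.lean`) through `Additive X`.
-/

namespace Fermat.Agent.S55

open groupCohomology

section InfRes

variable {G Gbar : Type} [Group G] [Group Gbar] {X Xbar : Type} [CommGroup X] [CommGroup Xbar]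
  [MulDistribMulAction G X] [MulDistribMulAction Gbar Xbar]

/-- Pull-back of cocycles is a cocycle (no hypotheses on kernels needed). -/
theorem pullCochain₂_isMulCocycle₂ (π : G →* Gbar) (j : Xbar →* X)
    (hj : ∀ (g : G) (x : Xbar), j (π g • x) = g • j x) (c : Gbar × Gbar → Xbar)
    (hc : IsMulCocycle₂ c) : IsMulCocycle₂ (pullCochain₂ π j c) := by
  intro g h k
  have := congrArg j (hc (π g) (π h) (π k))
  simp only [map_mul, hj] at this
  simpa only [pullCochain₂, map_mul] using this

theorem pullCochain₂_isMulCoboundary₂ (π : G →* Gbar) (j : Xbar →* X)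
    (hj : ∀ (g : G) (x : Xbar), j (π g • x) = g • j x) (c : Gbar × Gbar → Xbar)
    (hc : IsMulCoboundary₂ c) : IsMulCoboundary₂ (pullCochain₂ π j c) := by
  obtain ⟨x, hx⟩ := hc
  refine ⟨fun g => j (x (π g)), fun g h => ?_⟩
  have := congrArg j (hx (π g) (π h))
  simp only [map_mul, map_div, hj] at this
  simpa only [pullCochain₂, map_mul] using this

/-- `H¹(N, X) = 1` in the additive cocycle form used by the core -/
lemma cohir_hH1 (π : G →* Gbar)
    (h90 : ∀ f : π.ker → X, IsMulCocycle₁ f → IsMulCoboundary₁ f) :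
    ∀ u : π.ker → Additive X,
      (∀ s t : π.ker, u (s * t) = Representation.ofMulDistribMulAction G X s (u t) + u s) →
      ∃ a : Additive X, ∀ s : π.ker, u s = Representation.ofMulDistribMulAction G X s a - a := by
  intro u hu
  obtain ⟨x, hx⟩ := h90 (fun s => (u s).toMul) (fun s t => congrArg Additive.toMul (hu s t))
  exact ⟨Additive.ofMul x, fun s => (congrArg Additive.ofMul (hx s)).symm⟩

/-- a lift of `π g` differs from `g` by an element of the kernel -/
lemma cohir_surjInv (π : G →* Gbar) (hπ : Function.Surjective π) (g : G) :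
    ∃ s ∈ π.ker, Function.surjInv hπ (π g) = g * s := by
  refine ⟨g⁻¹ * Function.surjInv hπ (π g), ?_, by group⟩
  rw [MonoidHom.mem_ker, map_mul, map_inv, Function.surjInv_eq hπ, inv_mul_cancel]

/-- Exactness at `H²(G, X)`: a cocycle whose restriction to `N` is a coboundary is cohomologous
to an inflated one, if `H¹(N, X) = 1`. -/
theorem exists_pullCochain₂_of_restrict (π : G →* Gbar) (hπ : Function.Surjective π)
    (j : Xbar →* X) (hjinj : Function.Injective j)
    (hj : ∀ (g : G) (x : Xbar), j (π g • x) = g • j x)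
    (hfix : ∀ x : X, (∀ n ∈ π.ker, n • x = x) → ∃ y : Xbar, j y = x)
    (h90 : ∀ f : π.ker → X, IsMulCocycle₁ f → IsMulCoboundary₁ f)
    (c : G × G → X) (hc : IsMulCocycle₂ c)
    (hres : IsMulCoboundary₂ (fun p : π.ker × π.ker => c ((p.1 : G), (p.2 : G)))) :
    ∃ cbar : Gbar × Gbar → Xbar, IsMulCocycle₂ cbar ∧
      IsMulCoboundary₂ (c / pullCochain₂ π j cbar) := by
  set ρ : Representation ℤ G (Additive X) := Representation.ofMulDistribMulAction G X with hρ
  let f : G × G → Additive X := fun p => Additive.ofMul (c p)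
  have hf : Cf0Cocycle₂ ρ f := fun g h k => congrArg Additive.ofMul (hc g h k)
  obtain ⟨x, hx⟩ := hres
  obtain ⟨φ, hcoc, hi1, hi2, hi3⟩ := cf0_infres_core (ρ := ρ) (S := π.ker) (cohir_hH1 π h90) hf
    (fun s => Additive.ofMul (x s)) (fun s t => (congrArg Additive.ofMul (hx s t)).symm)
  have hex : ∀ p : Gbar × Gbar, ∃ y : Xbar,
      j y = ((f - cf0d₁ ρ φ) (Function.surjInv hπ p.1, Function.surjInv hπ p.2)).toMul :=
    fun p => hfix _ (fun n hn => congrArg Additive.toMul (hi3 _ _ n hn))
  choose cbar hcbar using hex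
  have key : ∀ g h : G, j (cbar (π g, π h)) = ((f - cf0d₁ ρ φ) (g, h)).toMul := by
    intro g h
    obtain ⟨s, hs, e1⟩ := cohir_surjInv π hπ g
    obtain ⟨t, ht, e2⟩ := cohir_surjInv π hπ h
    rw [hcbar]
    simp only [e1, e2]
    rw [hi1 _ _ s hs, hi2 _ _ t ht]
  refine ⟨cbar, ?_, fun g => (φ g).toMul, fun g h => ?_⟩
  · intro g' h' k'
    obtain ⟨g, rfl⟩ := hπ g'
    obtain ⟨h, rfl⟩ := hπ h'
    obtain ⟨k, rfl⟩ := hπ k'
    apply hjinj
    rw [map_mul, map_mul, hj, ← map_mul π, ← map_mul π, key, key, key, key]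
    exact congrArg Additive.toMul (hcoc g h k)
  · show _ = c (g, h) / j (cbar (π g, π h))
    rw [key]
    show _ = (f (g, h) - (f (g, h) - cf0d₁ ρ φ (g, h))).toMul
    rw [sub_sub_cancel]
    rfl

/-- Exactness at `H²(Ḡ, X^N)`: inflation is injective if `H¹(N, X) = 1`. -/
theorem isMulCoboundary₂_of_pullCochain₂ (π : G →* Gbar) (hπ : Function.Surjective π)
    (j : Xbar →* X) (hjinj : Function.Injective j)
    (hj : ∀ (g : G) (x : Xbar), j (π g • x) = g • j x)
    (hfix : ∀ x : X, (∀ n ∈ π.ker, n • x = x) → ∃ y : Xbar, j y = x)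
    (h90 : ∀ f : π.ker → X, IsMulCocycle₁ f → IsMulCoboundary₁ f)
    (c : Gbar × Gbar → Xbar) (hc : IsMulCocycle₂ c)
    (hcob : IsMulCoboundary₂ (pullCochain₂ π j c)) : IsMulCoboundary₂ c := by
  set ρ : Representation ℤ G (Additive X) := Representation.ofMulDistribMulAction G X with hρ
  let F : G × G → Additive X := fun p => Additive.ofMul (pullCochain₂ π j c p)
  have hker : ∀ g : G, ∀ s ∈ π.ker, π (g * s) = π g := by
    intro g s hs
    rw [map_mul, MonoidHom.mem_ker.1 hs, mul_one]
  obtain ⟨x, hx⟩ := hcob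
  obtain ⟨φ', hφ', hc1, hc3⟩ := cf0_infres_inj_core (ρ := ρ) (S := π.ker) (cohir_hH1 π h90)
    (F := F)
    (fun g g' s hs => by simp only [F, pullCochain₂, hker g s hs])
    (fun g g' s hs => by simp only [F, pullCochain₂, hker g' s hs])
    (fun g g' s hs => by
      show Additive.ofMul (s • j (c (π g, π g'))) = Additive.ofMul (j (c (π g, π g')))
      rw [← hj, MonoidHom.mem_ker.1 hs, one_smul])
    (fun g => Additive.ofMul (x g))
    (by
      funext ⟨g, h⟩
      exact (congrArg Additive.ofMul (hx g h)).symm)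
  have hex : ∀ g' : Gbar, ∃ y : Xbar, j y = (φ' (Function.surjInv hπ g')).toMul :=
    fun g' => hfix _ (fun n hn => congrArg Additive.toMul (hc3 _ n hn))
  choose xbar hxbar using hex
  have key : ∀ g : G, j (xbar (π g)) = (φ' g).toMul := by
    intro g
    obtain ⟨s, hs, e1⟩ := cohir_surjInv π hπ g
    rw [hxbar, e1, hc1 _ s hs]
  refine ⟨xbar, fun g' h' => ?_⟩
  obtain ⟨g, rfl⟩ := hπ g'
  obtain ⟨h, rfl⟩ := hπ h'
  apply hjinj
  rw [map_mul, map_div, hj, ← map_mul π, key, key, key]
  exact (congrArg Additive.toMul (congrFun hφ' (g, h))).symm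

end InfRes

end Fermat.Agent.S55
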