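/-
S55 CO-c : `|H²(G, X)| ≤ |G|` for a finite group `G` from Hilbert 90 for all subgroups and the
norm-index bound for all cyclic layers of prime order.  Multiplicative low-degree language.
-/
import Mathlib
import Fermat.Agent.S55.CohomDefs
import Fermat.Agent.S55.CohomCyc
import Fermat.Agent.S55.CohomInfRes

set_option autoImplicit false
set_option linter.unusedSimpArgs false
set_option linter.unusedSectionVars false

namespace Fermat.Agent.S55

open groupCohomology

/-! ## Part 0 : closure properties of cocycles and coboundaries -/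

section Basics

variable {Γ : Type} [Group Γ] {Y : Type} [CommGroup Y] [MulDistribMulAction Γ Y]

theorem cohord_cob_one : IsMulCoboundary₂ (1 : Γ × Γ → Y) :=
  ⟨fun _ => 1, fun g h => by simp⟩

theorem cohord_cob_mul {c c' : Γ × Γ → Y} (h : IsMulCoboundary₂ c) (h' : IsMulCoboundary₂ c') :
    IsMulCoboundary₂ (c * c') := by
  obtain ⟨x, hx⟩ := h
  obtain ⟨x', hx'⟩ := h'
  refine ⟨x * x', fun g k => ?_⟩
  simp only [Pi.mul_apply, smul_mul', ← hx g k, ← hx' g k]
  rw [mul_div_mul_comm, mul_mul_mul_comm]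

theorem cohord_cob_inv {c : Γ × Γ → Y} (h : IsMulCoboundary₂ c) : IsMulCoboundary₂ c⁻¹ := by
  obtain ⟨x, hx⟩ := h
  refine ⟨x⁻¹, fun g k => ?_⟩
  simp only [Pi.inv_apply, smul_inv', ← hx g k]
  rw [inv_div_inv, mul_inv, inv_div]

theorem cohord_cob_div {c c' : Γ × Γ → Y} (h : IsMulCoboundary₂ c) (h' : IsMulCoboundary₂ c') :
    IsMulCoboundary₂ (c / c') := by
  rw [div_eq_mul_inv]
  exact cohord_cob_mul h (cohord_cob_inv h')

theorem cohord_cob_pow {c : Γ × Γ → Y} (h : IsMulCoboundary₂ c) (n : ℕ) :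
    IsMulCoboundary₂ (c ^ n) := by
  induction n with
  | zero => rw [pow_zero]; exact cohord_cob_one
  | succ n ih => rw [pow_succ]; exact cohord_cob_mul ih h

/-- The coboundary of a `1`-cochain. -/
def cohordD (x : Γ → Y) : Γ × Γ → Y := fun p => p.1 • x p.2 / x (p.1 * p.2) * x p.1

theorem cohordD_cob (x : Γ → Y) : IsMulCoboundary₂ (cohordD x) := ⟨x, fun _ _ => rfl⟩

theorem cohord_cob_iff {c : Γ × Γ → Y} : IsMulCoboundary₂ c ↔ ∃ x : Γ → Y, c = cohordD x := by
  constructor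
  · rintro ⟨x, hx⟩
    exact ⟨x, funext fun p => (hx p.1 p.2).symm⟩
  · rintro ⟨x, rfl⟩
    exact cohordD_cob x

theorem cohordD_coc (x : Γ → Y) : IsMulCocycle₂ (cohordD x) := by
  intro g h k
  simp only [cohordD, smul_mul', smul_div', smul_smul, mul_assoc]
  apply Additive.ofMul.injective
  simp only [ofMul_mul, ofMul_div, ofMul_inv]
  abel

theorem cohord_coc_of_cob {c : Γ × Γ → Y} (h : IsMulCoboundary₂ c) : IsMulCocycle₂ c := by
  obtain ⟨x, rfl⟩ := cohord_cob_iff.1 h
  exact cohordD_coc x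

theorem cohord_coc_one : IsMulCocycle₂ (1 : Γ × Γ → Y) := fun g h k => by simp

theorem cohord_coc_mul {c c' : Γ × Γ → Y} (h : IsMulCocycle₂ c) (h' : IsMulCocycle₂ c') :
    IsMulCocycle₂ (c * c') := by
  intro g k l
  simp only [Pi.mul_apply, smul_mul']
  rw [mul_mul_mul_comm, h g k l, h' g k l, mul_mul_mul_comm]

theorem cohord_coc_inv {c : Γ × Γ → Y} (h : IsMulCocycle₂ c) : IsMulCocycle₂ c⁻¹ := by
  intro g k l
  simp only [Pi.inv_apply, smul_inv']
  rw [← mul_inv, ← mul_inv, h g k l]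

theorem cohord_coc_div {c c' : Γ × Γ → Y} (h : IsMulCocycle₂ c) (h' : IsMulCocycle₂ c') :
    IsMulCocycle₂ (c / c') := by
  rw [div_eq_mul_inv]
  exact cohord_coc_mul h (cohord_coc_inv h')

variable (Γ Y) in
/-- The group of `2`-cocycles. -/
def cohordZ2 : Subgroup (Γ × Γ → Y) where
  carrier := {c | IsMulCocycle₂ c}
  mul_mem' := cohord_coc_mul
  one_mem' := cohord_coc_one
  inv_mem' := cohord_coc_inv

variable (Γ Y) in
/-- The group of `2`-coboundaries. -/
def cohordB2 : Subgroup (Γ × Γ → Y) where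
  carrier := {c | IsMulCoboundary₂ c}
  mul_mem' := cohord_cob_mul
  one_mem' := cohord_cob_one
  inv_mem' := cohord_cob_inv

theorem cohord_mem_Z2 {c : Γ × Γ → Y} : c ∈ cohordZ2 Γ Y ↔ IsMulCocycle₂ c := Iff.rfl

theorem cohord_mem_B2 {c : Γ × Γ → Y} : c ∈ cohordB2 Γ Y ↔ IsMulCoboundary₂ c := Iff.rfl

theorem cohord_B2_le_Z2 : cohordB2 Γ Y ≤ cohordZ2 Γ Y := fun _ h => cohord_coc_of_cob h

end Basics

/-! ## Part 1 : if the restriction of `c` to `P` is a coboundary then `c ^ [G : P]` is a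
coboundary (no corestriction needed: normalise, then average over the cosets) -/

section Average

variable {G : Type} [Group G] {X : Type} [CommGroup X] [MulDistribMulAction G X]

/-- Step 1 : make the cocycle trivial on `P × P`. -/
theorem cohord_exists_trivial_on (P : Subgroup G) (c : G × G → X) (hc : IsMulCocycle₂ c)
    (hres : IsMulCoboundary₂ (fun p : P × P => c ((p.1 : G), (p.2 : G)))) :
    ∃ c₁ : G × G → X, IsMulCocycle₂ c₁ ∧ IsMulCoboundary₂ (c / c₁) ∧
      ∀ p q : G, p ∈ P → q ∈ P → c₁ (p, q) = 1 := by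
  classical
  obtain ⟨b, hb⟩ := hres
  let bt : G → X := fun g => if h : g ∈ P then b ⟨g, h⟩ else 1
  refine ⟨c / cohordD bt, cohord_coc_div hc (cohordD_coc bt), ?_, ?_⟩
  · rw [div_div_cancel]
    exact cohordD_cob bt
  · intro p q hp hq
    have h1 := hb ⟨p, hp⟩ ⟨q, hq⟩
    have hpq : p * q ∈ P := P.mul_mem hp hq
    simp only [Pi.div_apply, cohordD, bt, dif_pos hp, dif_pos hq, dif_pos hpq]
    rw [div_eq_one]
    exact h1.symm

/-- Step 2 : make the cocycle trivial on `G × P`. -/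
theorem cohord_exists_normalised (P : Subgroup G) (c : G × G → X) (hc : IsMulCocycle₂ c)
    (hres : IsMulCoboundary₂ (fun p : P × P => c ((p.1 : G), (p.2 : G)))) :
    ∃ c₂ : G × G → X, IsMulCocycle₂ c₂ ∧ IsMulCoboundary₂ (c / c₂) ∧
      ∀ g q : G, q ∈ P → c₂ (g, q) = 1 := by
  obtain ⟨c₁, hc₁, hcc₁, h₁⟩ := cohord_exists_trivial_on P c hc hres
  let r : G → G := fun g => ((g : G ⧸ P)).out
  have hr : ∀ g, (r g)⁻¹ * g ∈ P := fun g => by
    rw [← QuotientGroup.eq]
    exact QuotientGroup.out_eq' _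
  have hrq : ∀ g q, q ∈ P → r (g * q) = r g := fun g q hq => by
    show ((g * q : G) : G ⧸ P).out = ((g : G ⧸ P)).out
    rw [QuotientGroup.mk_mul_of_mem g hq]
  have hrP : ∀ q, q ∈ P → r q ∈ P := fun q hq => by
    have := hr q
    have h2 : r q = q * ((r q)⁻¹ * q)⁻¹ := by group
    rw [h2]
    exact P.mul_mem hq (P.inv_mem this)
  let y : G → X := fun g => c₁ (r g, (r g)⁻¹ * g)
  refine ⟨c₁ * cohordD y, cohord_coc_mul hc₁ (cohordD_coc y), ?_, ?_⟩
  · have : c / (c₁ * cohordD y) = (c / c₁) / cohordD y := by rw [div_div]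
    rw [this]
    exact cohord_cob_div hcc₁ (cohordD_cob y)
  · intro g q hq
    have hyq : y q = 1 := h₁ _ _ (hrP q hq) (hr q)
    have hcoc := hc₁ (r g) ((r g)⁻¹ * g) q
    rw [h₁ _ _ (hr g) hq, smul_one, one_mul, mul_inv_cancel_left] at hcoc
    simp only [Pi.mul_apply, cohordD, y, hrq g q hq]
    change c₁ (g, q) * (g • y q / c₁ (r g, (r g)⁻¹ * (g * q)) * c₁ (r g, (r g)⁻¹ * g)) = 1
    rw [hyq, smul_one, ← mul_assoc (r g)⁻¹ g q, ← hcoc]
    apply Additive.ofMul.injective
    simp only [ofMul_mul, ofMul_div, ofMul_inv, ofMul_one]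
    abel

/-- Steps 3 and 4 : a cocycle trivial on `G × P` has `[G : P]`-th power a coboundary. -/
theorem cohord_pow_index_of_normalised (P : Subgroup G) [P.FiniteIndex] (c : G × G → X)
    (hc : IsMulCocycle₂ c) (hn : ∀ g q : G, q ∈ P → c (g, q) = 1) :
    IsMulCoboundary₂ (c ^ P.index) := by
  classical
  let _ : Fintype (G ⧸ P) := Subgroup.fintypeQuotientOfFiniteIndex
  -- `c (g, ·)` is constant on left cosets of `P`
  have hconst : ∀ g h q : G, q ∈ P → c (g, h * q) = c (g, h) := fun g h q hq => by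
    have := hc g h q
    rw [hn _ _ hq, hn _ _ hq, smul_one, one_mul, one_mul] at this
    exact this.symm
  have hconst' : ∀ g a b : G, (a : G ⧸ P) = (b : G ⧸ P) → c (g, a) = c (g, b) := by
    intro g a b hab
    have h1 : a⁻¹ * b ∈ P := QuotientGroup.eq.1 hab
    have h2 := hconst g a _ h1
    rw [mul_inv_cancel_left] at h2
    exact h2.symm
  let x : G → X := fun g => ∏ κ : G ⧸ P, c (g, κ.out)
  refine ⟨x, fun g h => ?_⟩
  have hperm : ∏ κ : G ⧸ P, c (g, h * κ.out) = x g := by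
    have h3 : ∀ κ : G ⧸ P, c (g, h * κ.out) = c (g, (h • κ).out) := fun κ => by
      apply hconst'
      rw [QuotientGroup.out_eq']
      conv_rhs => rw [← QuotientGroup.out_eq' κ]
      rfl
    simp_rw [h3]
    exact Fintype.prod_equiv (MulAction.toPerm h) _ _ (fun κ => rfl)
  have hprod : x (g * h) * c (g, h) ^ P.index = g • x h * x g := by
    have h4 : ∀ κ : G ⧸ P, c (g * h, κ.out) * c (g, h) = g • c (h, κ.out) * c (g, h * κ.out) :=
      fun κ => hc g h κ.out
    have h5 : P.index = Fintype.card (G ⧸ P) := by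
      rw [Subgroup.index_eq_card, Nat.card_eq_fintype_card]
    calc x (g * h) * c (g, h) ^ P.index
        = ∏ κ : G ⧸ P, (c (g * h, κ.out) * c (g, h)) := by
          rw [Finset.prod_mul_distrib, Finset.prod_const, Finset.card_univ, h5]
      _ = ∏ κ : G ⧸ P, (g • c (h, κ.out) * c (g, h * κ.out)) := by simp_rw [h4]
      _ = g • x h * x g := by
          rw [Finset.prod_mul_distrib, hperm]
          congr 1
          exact (map_prod (MulDistribMulAction.toMonoidHom X g) _ _).symm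
  rw [Pi.pow_apply, div_mul_eq_mul_div, div_eq_iff_eq_mul, mul_comm (c (g, h) ^ P.index)]
  exact hprod.symm

/-- The Sylow-type step : if `c` restricted to `P` is a coboundary then `c ^ [G : P]` is a
coboundary. -/
theorem cohord_pow_index_of_restrict (P : Subgroup G) [P.FiniteIndex] (c : G × G → X)
    (hc : IsMulCocycle₂ c)
    (hres : IsMulCoboundary₂ (fun p : P × P => c ((p.1 : G), (p.2 : G)))) :
    IsMulCoboundary₂ (c ^ P.index) := by
  obtain ⟨c₂, hc₂, hcc₂, h₂⟩ := cohord_exists_normalised P c hc hres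
  have h : c ^ P.index = c₂ ^ P.index * (c / c₂) ^ P.index := by
    rw [← mul_pow, mul_div_cancel]
  rw [h]
  exact cohord_cob_mul (cohord_pow_index_of_normalised P c₂ hc₂ h₂) (cohord_cob_pow hcc₂ _)

end Average

section PowCard

variable (G : Type) [Group G] [Finite G] (X : Type) [CommGroup X] [MulDistribMulAction G X]

/-- `H²(G, X)` is killed by `|G|`. -/
theorem isMulCoboundary₂_pow_card (c : G × G → X) (hc : IsMulCocycle₂ c) :
    IsMulCoboundary₂ (c ^ Nat.card G) := by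
  rw [← Subgroup.index_bot]
  apply cohord_pow_index_of_restrict ⊥ c hc
  refine ⟨fun _ => c (1, 1), fun p q => ?_⟩
  have hp : (p : G) = 1 := Subgroup.mem_bot.1 p.2
  have hq : (q : G) = 1 := Subgroup.mem_bot.1 q.2
  have hp' : p = 1 := Subtype.ext hp
  have hq' : q = 1 := Subtype.ext hq
  subst hp' hq'
  simp only [one_smul, mul_one, div_self', one_mul, Subgroup.coe_one]

end PowCard

/-! ## Part 2 : index arithmetic in commutative groups -/

section Index

variable {A A' Abar : Type*} [CommGroup A] [CommGroup A'] [CommGroup Abar]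

/-- Monotonicity: if every class of `Z₁ / B₁` is hit by a class of `Z₂ / B₂`. -/
theorem cohord_relIndex_le_of_map (f : A' →* A) (B₁ Z₁ : Subgroup A) (B₂ Z₂ : Subgroup A')
    (hZ : Z₁ ≤ Z₂.map f ⊔ B₁) (hB : B₂ ≤ B₁.comap f) (h0 : B₂.relIndex Z₂ ≠ 0) :
    B₁.relIndex Z₁ ≠ 0 ∧ B₁.relIndex Z₁ ≤ B₂.relIndex Z₂ := by
  have h1 : (B₁.comap f).relIndex Z₂ ≠ 0 := fun h =>
    h0 (Subgroup.relIndex_eq_zero_of_le_left hB h)
  have h2 : (B₁.comap f).relIndex Z₂ ≤ B₂.relIndex Z₂ := Subgroup.relIndex_le_of_le_left hB h0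
  have h3 : B₁.relIndex (Z₂.map f ⊔ B₁) = (B₁.comap f).relIndex Z₂ := by
    rw [Subgroup.relIndex_sup_right, Subgroup.relIndex_comap]
  have h4 : B₁.relIndex (Z₂.map f ⊔ B₁) ≠ 0 := by rw [h3]; exact h1
  refine ⟨fun h => h4 (Subgroup.relIndex_eq_zero_of_le_right hZ h), ?_⟩
  calc B₁.relIndex Z₁ ≤ B₁.relIndex (Z₂.map f ⊔ B₁) := Subgroup.relIndex_le_of_le_right hZ h4
    _ = (B₁.comap f).relIndex Z₂ := h3
    _ ≤ B₂.relIndex Z₂ := h2

/-- The counting consequence of an exact sequence `Z̄/B̄ → Z/B → Z'/B'`. -/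
theorem cohord_relIndex_le_of_exact (r : A →* A') (i : Abar →* A)
    (B Z : Subgroup A) (B' Z' : Subgroup A') (Bb Zb : Subgroup Abar)
    (hBZ : B ≤ Z) (hrZ : Z ≤ Z'.comap r) (hrB : B ≤ B'.comap r) (hiB : Bb ≤ B.comap i)
    (hex : ∀ c ∈ Z, r c ∈ B' → ∃ cb ∈ Zb, c / i cb ∈ B)
    (h0' : B'.relIndex Z' ≠ 0) (h0b : Bb.relIndex Zb ≠ 0) :
    B.relIndex Z ≠ 0 ∧ B.relIndex Z ≤ Bb.relIndex Zb * B'.relIndex Z' := by
  set K : Subgroup A := Z ⊓ B'.comap r with hK
  have hBK : B ≤ K := le_inf hBZ hrB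
  have hKZ : K ≤ Z := inf_le_left
  have hmul : B.relIndex K * K.relIndex Z = B.relIndex Z := Subgroup.relIndex_mul_relIndex _ _ _ hBK hKZ
  -- the right factor
  have hmap : Z.map r ≤ Z' := Subgroup.map_le_iff_le_comap.2 hrZ
  have h1 : K.relIndex Z = B'.relIndex (Z.map r) := by
    rw [hK, Subgroup.inf_relIndex_left, Subgroup.relIndex_comap]
  have h2 : B'.relIndex (Z.map r) ≠ 0 := fun h =>
    h0' (Subgroup.relIndex_eq_zero_of_le_right hmap h)
  have h3 : B'.relIndex (Z.map r) ≤ B'.relIndex Z' := Subgroup.relIndex_le_of_le_right hmap h0'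
  -- the left factor
  have hKle : K ≤ Zb.map i ⊔ B := by
    intro c hc
    obtain ⟨cb, hcb, hcc⟩ := hex c hc.1 hc.2
    have : c = i cb * (c / i cb) := by rw [mul_div_cancel]
    rw [this]
    exact Subgroup.mul_mem_sup (Subgroup.mem_map_of_mem i hcb) hcc
  obtain ⟨h4, h5⟩ := cohord_relIndex_le_of_map i B K Bb Zb hKle hiB h0b
  refine ⟨?_, ?_⟩
  · rw [← hmul, h1]
    exact mul_ne_zero h4 h2
  · rw [← hmul, h1]
    exact Nat.mul_le_mul h5 h3

/-- From the pigeonhole form to the index form. -/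
theorem cohord_relIndex_le_of_pigeonhole (B Z : Subgroup A) (n : ℕ)
    (h : ∀ y : Fin (n + 1) → A, (∀ i, y i ∈ Z) → ∃ i k, i ≠ k ∧ y i / y k ∈ B) :
    B.relIndex Z ≠ 0 ∧ B.relIndex Z ≤ n := by
  classical
  -- no injection `Fin (n+1) → Z ⧸ B`
  have hno : ∀ f : Fin (n + 1) → (Z ⧸ B.subgroupOf Z), ¬ Function.Injective f := by
    intro f hf
    obtain ⟨i, k, hik, hmem⟩ := h (fun i => ((f i).out : Z)) (fun i => (f i).out.2)
    apply hik
    apply hf
    rw [← QuotientGroup.out_eq' (f i), ← QuotientGroup.out_eq' (f k), QuotientGroup.eq_iff_div_mem,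
      Subgroup.mem_subgroupOf]
    exact hmem
  have hfin : Finite (Z ⧸ B.subgroupOf Z) := by
    by_contra hinf
    rw [not_finite_iff_infinite] at hinf
    exact hno (fun i => Infinite.natEmbedding _ i.1)
      (fun a b hab => Fin.ext ((Infinite.natEmbedding _).injective hab))
  have hcard : Nat.card (Z ⧸ B.subgroupOf Z) ≤ n := by
    by_contra hlt
    rw [not_le] at hlt
    let _ : Fintype (Z ⧸ B.subgroupOf Z) := Fintype.ofFinite _
    rw [Nat.card_eq_fintype_card] at hlt
    have : Fintype.card (Fin (n + 1)) ≤ Fintype.card (Z ⧸ B.subgroupOf Z) := by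
      rw [Fintype.card_fin]; exact hlt
    obtain ⟨e⟩ := Function.Embedding.nonempty_of_card_le this
    exact hno e e.injective
  have hidx : B.relIndex Z = Nat.card (Z ⧸ B.subgroupOf Z) := Subgroup.index_eq_card _
  rw [hidx]
  exact ⟨Nat.card_pos.ne', hcard⟩

/-- From the index form to the pigeonhole form. -/
theorem cohord_pigeonhole_of_relIndex_le (B Z : Subgroup A) (n : ℕ)
    (h0 : B.relIndex Z ≠ 0) (hn : B.relIndex Z ≤ n)
    (y : Fin (n + 1) → A) (hy : ∀ i, y i ∈ Z) : ∃ i k, i ≠ k ∧ y i / y k ∈ B := by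
  classical
  have hidx : B.relIndex Z = Nat.card (Z ⧸ B.subgroupOf Z) := Subgroup.index_eq_card _
  rw [hidx] at h0 hn
  have hfin : Finite (Z ⧸ B.subgroupOf Z) := Nat.finite_of_card_ne_zero h0
  let _ : Fintype (Z ⧸ B.subgroupOf Z) := Fintype.ofFinite _
  rw [Nat.card_eq_fintype_card] at hn
  have hlt : Fintype.card (Z ⧸ B.subgroupOf Z) < Fintype.card (Fin (n + 1)) := by
    rw [Fintype.card_fin]; omega
  obtain ⟨i, k, hik, heq⟩ := Fintype.exists_ne_map_eq_of_card_lt
    (fun i => ((⟨y i, hy i⟩ : Z) : Z ⧸ B.subgroupOf Z)) hlt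
  refine ⟨i, k, hik, ?_⟩
  rw [QuotientGroup.eq_iff_div_mem, Subgroup.mem_subgroupOf] at heq
  exact heq

end Index

/-! ## Part 3 : the quotient group acting on the fixed points of a normal subgroup -/

section QuotAction

variable {Γ : Type} [Group Γ] {X : Type} [CommGroup X] [MulDistribMulAction Γ X]
  (N : Subgroup Γ) [hN : N.Normal]

/-- The subgroup of `N`-fixed points. -/
def cohordFix : Subgroup X where
  carrier := {x | ∀ n ∈ N, n • x = x}
  mul_mem' := by
    intro a b ha hb n hn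
    rw [smul_mul', ha n hn, hb n hn]
  one_mem' := by
    intro n _
    exact smul_one n
  inv_mem' := by
    intro a ha n hn
    rw [smul_inv', ha n hn]

theorem cohord_mem_fix {x : X} : x ∈ cohordFix (X := X) N ↔ ∀ n ∈ N, n • x = x := Iff.rfl

include hN in
theorem cohord_smul_mem_fix (g : Γ) {x : X} (hx : x ∈ cohordFix (X := X) N) :
    g • x ∈ cohordFix (X := X) N := by
  intro n hn
  have h1 : g⁻¹ * n * g ∈ N := by
    have := hN.conj_mem n hn g⁻¹
    rwa [inv_inv] at this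
  calc n • g • x = g • (g⁻¹ * n * g) • x := by
        rw [smul_smul, smul_smul]
        congr 1
        group
    _ = g • x := by rw [hx _ h1]

/-- The action of `Γ ⧸ N` on the `N`-fixed points. -/
instance cohordQuotSMul : SMul (Γ ⧸ N) (cohordFix (X := X) N) where
  smul κ x := Quotient.liftOn' κ
    (fun g => (⟨g • x.1, cohord_smul_mem_fix N g x.2⟩ : cohordFix (X := X) N)) (by
      intro a b hab
      rw [QuotientGroup.leftRel_apply] at hab
      apply Subtype.ext
      show a • x.1 = b • x.1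
      have h1 := x.2 _ hab
      calc a • x.1 = a • (a⁻¹ * b) • x.1 := by rw [h1]
        _ = b • x.1 := by rw [smul_smul, mul_inv_cancel_left])

theorem cohord_mk_smul (g : Γ) (x : cohordFix (X := X) N) :
    (((g : Γ ⧸ N) • x : cohordFix (X := X) N) : X) = g • (x : X) := rfl

instance cohordQuotAction : MulDistribMulAction (Γ ⧸ N) (cohordFix (X := X) N) where
  one_smul x := by
    apply Subtype.ext
    rw [← QuotientGroup.mk_one, cohord_mk_smul, one_smul]
  mul_smul a b x := by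
    induction a using QuotientGroup.induction_on with | _ a => ?_
    induction b using QuotientGroup.induction_on with | _ b => ?_
    apply Subtype.ext
    rw [← QuotientGroup.mk_mul, cohord_mk_smul, cohord_mk_smul, cohord_mk_smul, mul_smul]
  smul_mul a x y := by
    induction a using QuotientGroup.induction_on with | _ a => ?_
    apply Subtype.ext
    rw [Subgroup.coe_mul, cohord_mk_smul, cohord_mk_smul, cohord_mk_smul, Subgroup.coe_mul,
      smul_mul']
  smul_one a := by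
    induction a using QuotientGroup.induction_on with | _ a => ?_
    apply Subtype.ext
    rw [cohord_mk_smul, Subgroup.coe_one, smul_one]

end QuotAction

/-! ## Part 4 : pull-back of cochains as a group homomorphism, transport along isomorphisms -/

section Pull

variable {Γ Γ' : Type} [Group Γ] [Group Γ'] {Y Y' : Type} [CommGroup Y] [CommGroup Y']

/-- Pull-back of `2`-cochains as a group homomorphism. -/
def cohordPull (ρ : Γ' → Γ) (j : Y →* Y') : (Γ × Γ → Y) →* (Γ' × Γ' → Y') where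
  toFun c := pullCochain₂ ρ j c
  map_one' := funext fun _ => map_one j
  map_mul' _ _ := funext fun _ => map_mul j _ _

theorem cohordPull_apply (ρ : Γ' → Γ) (j : Y →* Y') (c : Γ × Γ → Y) :
    cohordPull ρ j c = pullCochain₂ ρ j c := rfl

variable [MulDistribMulAction Γ Y] [MulDistribMulAction Γ' Y]

/-- Transport of the index bound along an equivariant group isomorphism. -/
theorem cohord_relIndex_le_of_equiv (e : Γ' ≃* Γ) (he : ∀ (γ : Γ') (y : Y), e γ • y = γ • y)
    (h0 : (cohordB2 Γ Y).relIndex (cohordZ2 Γ Y) ≠ 0) :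
    (cohordB2 Γ' Y).relIndex (cohordZ2 Γ' Y) ≠ 0 ∧
      (cohordB2 Γ' Y).relIndex (cohordZ2 Γ' Y) ≤ (cohordB2 Γ Y).relIndex (cohordZ2 Γ Y) := by
  apply cohord_relIndex_le_of_map (cohordPull (e : Γ' → Γ) (MonoidHom.id Y)) _ _ _ _ ?_ ?_ h0
  · intro c hc
    apply Subgroup.mem_sup_left
    refine ⟨pullCochain₂ (e.symm : Γ → Γ') (MonoidHom.id Y) c, ?_, ?_⟩
    · refine pullCochain₂_isMulCocycle₂ (e.symm : Γ →* Γ') (MonoidHom.id Y) ?_ c hc
      intro g x
      have := he (e.symm g) x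
      rw [MulEquiv.apply_symm_apply] at this
      exact this.symm
    · funext q
      simp [cohordPull_apply, pullCochain₂]
  · intro c hc
    refine pullCochain₂_isMulCoboundary₂ (e : Γ' →* Γ) (MonoidHom.id Y) ?_ c hc
    intro g x
    exact he g x

end Pull

/-! ## Part 5 : cyclic groups -/

section Cyclic

variable {Γ : Type} [Group Γ] [Finite Γ] {Y : Type} [CommGroup Y] [MulDistribMulAction Γ Y]

theorem cohord_smul_eq_of_mem_zpowers {σ τ : Γ} (hτ : τ ∈ Subgroup.zpowers σ) {a : Y}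
    (ha : σ • a = a) : τ • a = a := by
  have h1 : σ ∈ MulAction.stabilizer Γ a := MulAction.mem_stabilizer_iff.2 ha
  have h2 : Subgroup.zpowers σ ≤ MulAction.stabilizer Γ a := Subgroup.zpowers_le.2 h1
  exact MulAction.mem_stabilizer_iff.1 (h2 hτ)

/-- `|H²| ≤ n` for a cyclic group as soon as the norm group has index at most `n` in the fixed
points (pigeonhole form). -/
theorem cohord_cyclic_bound (σ : Γ) (hσ : ∀ τ : Γ, τ ∈ Subgroup.zpowers σ) (n : ℕ)
    (hnorm : ∀ y : Fin (n + 1) → Y, (∀ i, σ • y i = y i) →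
      ∃ i k : Fin (n + 1), i ≠ k ∧ ∃ x : Y, y i = y k * cycNorm σ x) :
    (cohordB2 Γ Y).relIndex (cohordZ2 Γ Y) ≠ 0 ∧ (cohordB2 Γ Y).relIndex (cohordZ2 Γ Y) ≤ n := by
  apply cohord_relIndex_le_of_pigeonhole
  intro c hc
  let a : Fin (n + 1) → Y := fun i => ∏ t ∈ Finset.range (orderOf σ), c i (σ ^ t, σ)
  have ha : ∀ i, σ • a i = a i ∧ IsMulCoboundary₂ (c i / cycCocycle σ (a i)) := fun i =>
    exists_cycCocycle_of_isMulCocycle₂ σ hσ (c i) (hc i)
  obtain ⟨i, k, hik, x, hx⟩ := hnorm a (fun i => (ha i).1)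
  refine ⟨i, k, hik, ?_⟩
  have hx' : cycNorm σ x = a i / a k := by rw [hx, mul_div_cancel_left]
  have hfix : σ • cycNorm σ x = cycNorm σ x := by
    rw [hx', smul_div', (ha i).1, (ha k).1]
  have h1 : IsMulCoboundary₂ (cycCocycle σ (cycNorm σ x) : Γ × Γ → Y) :=
    (cycCocycle_isMulCoboundary₂_iff σ hσ _ hfix).2 ⟨x, rfl⟩
  have h2 : (cycCocycle σ (a i) : Γ × Γ → Y) =
      cycCocycle σ (a k) * cycCocycle σ (cycNorm σ x) := by
    rw [← cycCocycle_mul, ← hx]
  have h3 : c i / c k = (c i / cycCocycle σ (a i)) * cycCocycle σ (cycNorm σ x) /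
      (c k / cycCocycle σ (a k)) := by
    rw [h2]
    apply Additive.ofMul.injective
    simp only [ofMul_mul, ofMul_div, ofMul_inv]
    abel
  show IsMulCoboundary₂ (c i / c k)
  rw [h3]
  exact cohord_cob_div (cohord_cob_mul (ha i).2 h1) (ha k).2

end Cyclic

/-! ## Part 6 : one step of the `p`-group induction -/

section Step

variable {G : Type} [Group G] [Finite G] {X : Type} [CommGroup X] [MulDistribMulAction G X]

theorem cohord_step (H H' : Subgroup G) (hle : H' ≤ H) (hnorm : (H'.subgroupOf H).Normal)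
    (p : ℕ) (hp : p.Prime) (hrel : H'.relIndex H = p) (h₀ : G) (hh₀ : h₀ ∈ H) (hh₀' : h₀ ∉ H')
    (h90 : ∀ f : H' → X, IsMulCocycle₁ f → IsMulCoboundary₁ f)
    (hidx : ∀ y : Fin (p + 1) → X, (∀ i, ∀ h ∈ H, h • y i = y i) →
        ∃ i k : Fin (p + 1), i ≠ k ∧ ∃ x : X, (∀ h ∈ H', h • x = x) ∧
          y i = y k * ∏ m ∈ Finset.range p, h₀ ^ m • x)
    (m : ℕ) (hm0 : (cohordB2 H' X).relIndex (cohordZ2 H' X) ≠ 0)
    (hm : (cohordB2 H' X).relIndex (cohordZ2 H' X) ≤ m) :
    (cohordB2 H X).relIndex (cohordZ2 H X) ≠ 0 ∧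
      (cohordB2 H X).relIndex (cohordZ2 H X) ≤ p * m := by
  have := hnorm
  have : Fact p.Prime := ⟨hp⟩
  set N : Subgroup H := H'.subgroupOf H with hNdef
  let π : H →* H ⧸ N := QuotientGroup.mk' N
  let j : cohordFix (X := X) N →* X := (cohordFix (X := X) N).subtype
  have hπ : Function.Surjective π := QuotientGroup.mk'_surjective N
  have hker : π.ker = N := QuotientGroup.ker_mk' N
  have hjinj : Function.Injective j := Subtype.val_injective
  have hj : ∀ (g : H) (x : cohordFix (X := X) N), j (π g • x) = g • j x := fun g x => rfl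
  have hfix : ∀ x : X, (∀ n ∈ π.ker, n • x = x) → ∃ y : cohordFix (X := X) N, j y = x :=
    fun x hx => ⟨⟨x, fun n hn => hx n (by rw [hker]; exact hn)⟩, rfl⟩
  -- the isomorphism `π.ker ≃* H'`
  let e : π.ker ≃* H' := (MulEquiv.subgroupCongr hker).trans (Subgroup.subgroupOfEquivOfLe hle)
  have he : ∀ (γ : π.ker) (y : X), e γ • y = γ • y := fun γ y => rfl
  -- Hilbert 90 for the kernel
  have h90' : ∀ f : π.ker → X, IsMulCocycle₁ f → IsMulCoboundary₁ f := by
    intro f hf
    have hf' : IsMulCocycle₁ (fun n : H' => f (e.symm n)) := by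
      intro a b
      have := hf (e.symm a) (e.symm b)
      rw [← map_mul] at this
      show f (e.symm (a * b)) = a • f (e.symm b) * f (e.symm a)
      rw [this]
      rfl
    obtain ⟨x, hx⟩ := h90 _ hf'
    refine ⟨x, fun n => ?_⟩
    have := hx (e n)
    simp only [MulEquiv.symm_apply_apply] at this
    rw [← this]
    rfl
  -- the bound for the kernel
  obtain ⟨hk0, hkm⟩ := cohord_relIndex_le_of_equiv e he hm0
  -- the bound for the cyclic quotient
  have hcard : Nat.card (H ⧸ N) = p := by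
    rw [← Subgroup.index_eq_card]
    exact hrel
  let σ : H ⧸ N := π ⟨h₀, hh₀⟩
  have hσ1 : σ ≠ 1 := by
    intro h1
    have : (⟨h₀, hh₀⟩ : H) ∈ N := (QuotientGroup.eq_one_iff _).1 h1
    exact hh₀' (Subgroup.mem_subgroupOf.1 this)
  have hσ : ∀ τ : H ⧸ N, τ ∈ Subgroup.zpowers σ := fun τ => mem_zpowers_of_prime_card hcard hσ1
  have hord : orderOf σ = p := by
    rw [orderOf_eq_card_of_forall_mem_zpowers hσ, hcard]
  have : Finite (H ⧸ N) := Nat.finite_of_card_ne_zero (hcard ▸ hp.ne_zero)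
  obtain ⟨hq0, hqp⟩ : (cohordB2 (H ⧸ N) (cohordFix (X := X) N)).relIndex
        (cohordZ2 (H ⧸ N) (cohordFix (X := X) N)) ≠ 0 ∧
      (cohordB2 (H ⧸ N) (cohordFix (X := X) N)).relIndex
        (cohordZ2 (H ⧸ N) (cohordFix (X := X) N)) ≤ p := by
    apply cohord_cyclic_bound σ hσ p
    intro yb hyb
    obtain ⟨i, k, hik, x, hxfix, hx⟩ := hidx (fun i => (yb i : X)) (by
      intro i h hh
      have h1 : (π ⟨h, hh⟩) • yb i = yb i := cohord_smul_eq_of_mem_zpowers (hσ _) (hyb i)
      exact congrArg Subtype.val h1)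
    refine ⟨i, k, hik, ⟨x, fun n hn => hxfix _ (Subgroup.mem_subgroupOf.1 hn)⟩, ?_⟩
    apply Subtype.ext
    rw [Subgroup.coe_mul, hx]
    congr 1
    unfold cycNorm
    rw [hord]
    change _ = j (∏ t ∈ Finset.range p, σ ^ t • _)
    rw [map_prod]
    apply Finset.prod_congr rfl
    intro t _
    have : σ ^ t = π (⟨h₀, hh₀⟩ ^ t) := (map_pow π _ t).symm
    rw [this]
    rfl
  -- the exact sequence
  obtain ⟨h0, hle'⟩ := cohord_relIndex_le_of_exact
    (cohordPull (π.ker.subtype : π.ker → H) (MonoidHom.id X)) (cohordPull (π : H → H ⧸ N) j)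
    (cohordB2 H X) (cohordZ2 H X) (cohordB2 π.ker X) (cohordZ2 π.ker X)
    (cohordB2 (H ⧸ N) (cohordFix (X := X) N)) (cohordZ2 (H ⧸ N) (cohordFix (X := X) N))
    cohord_B2_le_Z2
    (fun c hc => pullCochain₂_isMulCocycle₂ π.ker.subtype (MonoidHom.id X) (fun _ _ => rfl) c hc)
    (fun c hc => pullCochain₂_isMulCoboundary₂ π.ker.subtype (MonoidHom.id X)
      (fun _ _ => rfl) c hc)
    (fun c hc => pullCochain₂_isMulCoboundary₂ π j hj c hc)
    (fun c hc hres => by
      obtain ⟨cb, hcb, hcc⟩ := exists_pullCochain₂_of_restrict π hπ j hjinj hj hfix h90' c hc hres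
      exact ⟨cb, hcb, hcc⟩)
    hk0 hq0
  refine ⟨h0, hle'.trans (Nat.mul_le_mul hqp (hkm.trans hm))⟩

/-- The bound for all subgroups of prime power order. -/
theorem cohord_pgroup
    (h90 : ∀ (H : Subgroup G) (f : H → X), IsMulCocycle₁ f → IsMulCoboundary₁ f)
    (hidx : ∀ (H H' : Subgroup G), H' ≤ H → (H'.subgroupOf H).Normal →
      ∀ ℓ : ℕ, ℓ.Prime → H'.relIndex H = ℓ → ∀ h₀ ∈ H, h₀ ∉ H' →
      ∀ y : Fin (ℓ + 1) → X, (∀ i, ∀ h ∈ H, h • y i = y i) →
        ∃ i k : Fin (ℓ + 1), i ≠ k ∧ ∃ x : X, (∀ h ∈ H', h • x = x) ∧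
          y i = y k * ∏ m ∈ Finset.range ℓ, h₀ ^ m • x)
    (p : ℕ) (hp : p.Prime) :
    ∀ (k : ℕ) (H : Subgroup G), Nat.card H = p ^ k →
      (cohordB2 H X).relIndex (cohordZ2 H X) ≠ 0 ∧
        (cohordB2 H X).relIndex (cohordZ2 H X) ≤ p ^ k := by
  have : Fact p.Prime := ⟨hp⟩
  intro k
  induction k with
  | zero =>
    intro H hH
    rw [pow_zero] at hH
    have h1 : (cohordB2 H X).relIndex (cohordZ2 H X) = 1 := by
      rw [Subgroup.relIndex_eq_one]
      intro c hc
      have := isMulCoboundary₂_pow_card H X c hc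
      rwa [hH, pow_one] at this
    rw [h1, pow_zero]
    exact ⟨one_ne_zero, le_rfl⟩
  | succ k ih =>
    intro H hH
    obtain ⟨K, hK⟩ := Sylow.exists_subgroup_card_pow_prime (G := H) p (n := k)
      (by rw [hH]; exact pow_dvd_pow p (Nat.le_succ k))
    have hidxK : K.index = p := by
      have h1 := K.index_mul_card
      rw [hK, hH, pow_succ'] at h1
      exact Nat.eq_of_mul_eq_mul_right (pow_pos hp.pos k) h1
    have hKn : K.Normal := by
      apply Subgroup.normal_of_index_eq_minFac_card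
      rw [hidxK, hH, hp.pow_minFac (Nat.succ_ne_zero k)]
    set H' : Subgroup G := K.map H.subtype with hH'
    have hle : H' ≤ H := Subgroup.map_subtype_le K
    have hsub : H'.subgroupOf H = K :=
      Subgroup.comap_map_eq_self_of_injective H.subtype_injective K
    have hcard' : Nat.card H' = p ^ k := by rw [hH', Subgroup.card_subtype, hK]
    have hrel : H'.relIndex H = p := by
      show (H'.subgroupOf H).index = p
      rw [hsub, hidxK]
    have hne : K ≠ ⊤ := by
      intro h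
      rw [h, Subgroup.index_top] at hidxK
      exact hp.one_lt.ne hidxK
    obtain ⟨x, hx⟩ : ∃ x : H, x ∉ K := by
      by_contra hcon
      simp only [not_exists, not_not] at hcon
      exact hne ((Subgroup.eq_top_iff' K).2 hcon)
    have hx' : (x : G) ∉ H' := by
      rintro ⟨y, hy, hyx⟩
      have : y = x := Subtype.ext hyx
      exact hx (this ▸ hy)
    obtain ⟨ih0, ihle⟩ := ih H' hcard'
    have := cohord_step H H' hle (by rw [hsub]; exact hKn) p hp hrel (x : G) x.2 hx' (h90 H')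
      (hidx H H' hle (by rw [hsub]; exact hKn) p hp hrel (x : G) x.2 hx') (p ^ k) ih0 ihle
    rw [pow_succ']
    exact this

end Step

/-! ## Part 7 : the general bound -/

section Main

variable (G : Type) [Group G] [Finite G] (X : Type) [CommGroup X] [MulDistribMulAction G X]

theorem cohord_mem_B2_of_pow {n : ℕ} (c : G × G → X)
    (hcn : c ^ n ∈ cohordB2 G X)
    (hq : ∀ q : ℕ, q.Prime → q ∣ n → ∃ m : ℕ, ¬ q ∣ m ∧ c ^ m ∈ cohordB2 G X) :
    c ∈ cohordB2 G X := by
  set x : (G × G → X) ⧸ cohordB2 G X := (c : (G × G → X) ⧸ cohordB2 G X) with hx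
  have hpow : ∀ m : ℕ, c ^ m ∈ cohordB2 G X → orderOf x ∣ m := fun m hm => by
    apply orderOf_dvd_of_pow_eq_one
    rw [hx, ← QuotientGroup.mk_pow]
    exact (QuotientGroup.eq_one_iff _).2 hm
  have h1 : orderOf x = 1 := by
    by_contra hne
    obtain ⟨q, hqp, hqd⟩ := Nat.exists_prime_and_dvd hne
    obtain ⟨m, hqm, hm⟩ := hq q hqp (hqd.trans (hpow n hcn))
    exact hqm (hqd.trans (hpow m hm))
  rw [orderOf_eq_one_iff] at h1
  exact (QuotientGroup.eq_one_iff _).1 h1

theorem cohord_relIndex_le_card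
    (h90 : ∀ (H : Subgroup G) (f : H → X), IsMulCocycle₁ f → IsMulCoboundary₁ f)
    (hidx : ∀ (H H' : Subgroup G), H' ≤ H → (H'.subgroupOf H).Normal →
      ∀ ℓ : ℕ, ℓ.Prime → H'.relIndex H = ℓ → ∀ h₀ ∈ H, h₀ ∉ H' →
      ∀ y : Fin (ℓ + 1) → X, (∀ i, ∀ h ∈ H, h • y i = y i) →
        ∃ i k : Fin (ℓ + 1), i ≠ k ∧ ∃ x : X, (∀ h ∈ H', h • x = x) ∧
          y i = y k * ∏ m ∈ Finset.range ℓ, h₀ ^ m • x) :
    (cohordB2 G X).relIndex (cohordZ2 G X) ≠ 0 ∧
      (cohordB2 G X).relIndex (cohordZ2 G X) ≤ Nat.card G := by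
  classical
  set n := Nat.card G
  have hn0 : n ≠ 0 := Nat.card_pos.ne'
  -- Sylow subgroups
  have hS : ∀ p : n.primeFactors, ∃ P : Subgroup G, Nat.card P = (p : ℕ) ^ n.factorization p := by
    intro p
    have : Fact (p : ℕ).Prime := ⟨Nat.prime_of_mem_primeFactors p.2⟩
    exact Sylow.exists_subgroup_card_pow_prime (p : ℕ) (Nat.ordProj_dvd n p)
  choose P hP using hS
  let f : ∀ p : n.primeFactors, (G × G → X) →* (P p × P p → X) := fun p =>
    cohordPull ((P p).subtype : P p → G) (MonoidHom.id X)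
  let K : n.primeFactors → Subgroup (G × G → X) := fun p => (cohordB2 (P p) X).comap (f p)
  -- the bound for each `K p`
  have hK : ∀ p : n.primeFactors, (K p).relIndex (cohordZ2 G X) ≠ 0 ∧
      (K p).relIndex (cohordZ2 G X) ≤ (p : ℕ) ^ n.factorization p := by
    intro p
    obtain ⟨h0, hle⟩ := cohord_pgroup h90 hidx (p : ℕ) (Nat.prime_of_mem_primeFactors p.2)
      (n.factorization p) (P p) (hP p)
    have hmap : (cohordZ2 G X).map (f p) ≤ cohordZ2 (P p) X := by
      rintro _ ⟨c, hc, rfl⟩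
      exact pullCochain₂_isMulCocycle₂ (P p).subtype (MonoidHom.id X) (fun _ _ => rfl) c hc
    have h1 : (K p).relIndex (cohordZ2 G X) =
        (cohordB2 (P p) X).relIndex ((cohordZ2 G X).map (f p)) := Subgroup.relIndex_comap _ _ _
    rw [h1]
    exact ⟨fun h => h0 (Subgroup.relIndex_eq_zero_of_le_right hmap h),
      (Subgroup.relIndex_le_of_le_right hmap h0).trans hle⟩
  -- injectivity
  have hinj : cohordZ2 G X ⊓ ⨅ p, K p ≤ cohordB2 G X := by
    intro c hc
    have hcZ : IsMulCocycle₂ c := hc.1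
    have hcK : ∀ p, c ∈ K p := fun p => (Subgroup.mem_iInf.1 hc.2) p
    apply cohord_mem_B2_of_pow G X c (isMulCoboundary₂_pow_card G X c hcZ)
    intro q hq hqn
    let p : n.primeFactors := ⟨q, Nat.mem_primeFactors.2 ⟨hq, hqn, hn0⟩⟩
    refine ⟨(P p).index, ?_, cohord_pow_index_of_restrict (P p) c hcZ (hcK p)⟩
    have h1 : Nat.card (P p) * (P p).index = n := (P p).card_mul_index
    rw [hP p] at h1
    have h2 : (P p).index = n / q ^ n.factorization q :=
      (Nat.div_eq_of_eq_mul_right (pow_pos hq.pos _) h1.symm).symm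
    rw [h2]
    exact Nat.not_dvd_ordCompl hq hn0
  have h0 : (⨅ p, K p).relIndex (cohordZ2 G X) ≠ 0 :=
    Subgroup.relIndex_iInf_ne_zero fun p => (hK p).1
  have hle : (⨅ p, K p).relIndex (cohordZ2 G X) ≤ n := by
    calc (⨅ p, K p).relIndex (cohordZ2 G X)
        ≤ ∏ p, (K p).relIndex (cohordZ2 G X) := Subgroup.relIndex_iInf_le _
      _ ≤ ∏ p : n.primeFactors, (p : ℕ) ^ n.factorization p :=
          Finset.prod_le_prod' fun p _ => (hK p).2
      _ = n := by
          rw [Finset.prod_coe_sort n.primeFactors (fun p => p ^ n.factorization p)]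
          exact Nat.prod_factorization_pow_eq_self hn0
  have h3 : (cohordZ2 G X ⊓ ⨅ p, K p).relIndex (cohordZ2 G X) =
      (⨅ p, K p).relIndex (cohordZ2 G X) := Subgroup.inf_relIndex_left _ _
  refine ⟨fun h => h0 ?_, ?_⟩
  · rw [← h3]
    exact Subgroup.relIndex_eq_zero_of_le_left hinj h
  · calc (cohordB2 G X).relIndex (cohordZ2 G X)
        ≤ (cohordZ2 G X ⊓ ⨅ p, K p).relIndex (cohordZ2 G X) :=
          Subgroup.relIndex_le_of_le_left hinj (by rw [h3]; exact h0)
      _ = (⨅ p, K p).relIndex (cohordZ2 G X) := h3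
      _ ≤ n := hle

/-- Order bound.  `h90`: Hilbert 90 for all subgroups.  `hidx`: for `H' ⊴ H ≤ G` of prime index `ℓ`
and `h₀ ∈ H \ H'`, the norm group `{∏_{i<ℓ} h₀^i • x | x ∈ X^{H'}}` has index at most `ℓ` in `X^H`,
in the form: among any `ℓ + 1` elements of `X^H` two differ by a norm. -/
theorem card_H2_le_card
    (h90 : ∀ (H : Subgroup G) (f : H → X), IsMulCocycle₁ f → IsMulCoboundary₁ f)
    (hidx : ∀ (H H' : Subgroup G), H' ≤ H → (H'.subgroupOf H).Normal →
      ∀ ℓ : ℕ, ℓ.Prime → H'.relIndex H = ℓ → ∀ h₀ ∈ H, h₀ ∉ H' →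
      ∀ y : Fin (ℓ + 1) → X, (∀ i, ∀ h ∈ H, h • y i = y i) →
        ∃ i k : Fin (ℓ + 1), i ≠ k ∧ ∃ x : X, (∀ h ∈ H', h • x = x) ∧
          y i = y k * ∏ m ∈ Finset.range ℓ, h₀ ^ m • x) :
    Finite (H2 (Rep.ofMulDistribMulAction G X)) ∧
      Nat.card (H2 (Rep.ofMulDistribMulAction G X)) ≤ Nat.card G := by
  obtain ⟨h0, hle⟩ := cohord_relIndex_le_card G X h90 hidx
  have hidxQ : (cohordB2 G X).relIndex (cohordZ2 G X) =
      Nat.card (cohordZ2 G X ⧸ (cohordB2 G X).subgroupOf (cohordZ2 G X)) :=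
    Subgroup.index_eq_card _
  rw [hidxQ] at h0 hle
  have hfin : Finite (cohordZ2 G X ⧸ (cohordB2 G X).subgroupOf (cohordZ2 G X)) :=
    Nat.finite_of_card_ne_zero h0
  let F : (cohordZ2 G X ⧸ (cohordB2 G X).subgroupOf (cohordZ2 G X)) →
      H2 (Rep.ofMulDistribMulAction G X) :=
    fun q => H2π _ (cocyclesOfIsMulCocycle₂ q.out.2)
  have hsurj : Function.Surjective F := by
    intro h
    induction h using H2_induction_on with | h z => ?_
    have hc := isMulCocycle₂_of_mem_cocycles₂ (G := G) (M := X) _ z.2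
    let c : cohordZ2 G X := ⟨_, hc⟩
    refine ⟨(c : cohordZ2 G X ⧸ (cohordB2 G X).subgroupOf (cohordZ2 G X)), ?_⟩
    show H2π _ _ = H2π _ z
    rw [H2π_eq_iff]
    have h1 : ((c : cohordZ2 G X ⧸ (cohordB2 G X).subgroupOf (cohordZ2 G X)).out : cohordZ2 G X) /
        c ∈ (cohordB2 G X).subgroupOf (cohordZ2 G X) := by
      rw [← QuotientGroup.eq_iff_div_mem]
      exact QuotientGroup.out_eq' _
    rw [Subgroup.mem_subgroupOf] at h1
    have h2 := (coboundariesOfIsMulCoboundary₂ (cohord_mem_B2.1 h1)).2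
    convert h2 using 1
    rfl
  exact ⟨Finite.of_surjective F hsurj, (Nat.card_le_card_of_surjective F hsurj).trans hle⟩

/-- Elementary reformulation of the conclusion: among any `|G| + 1` two-cocycles, two are
cohomologous. -/
theorem exists_cohomologous_of_card
    (h90 : ∀ (H : Subgroup G) (f : H → X), IsMulCocycle₁ f → IsMulCoboundary₁ f)
    (hidx : ∀ (H H' : Subgroup G), H' ≤ H → (H'.subgroupOf H).Normal →
      ∀ ℓ : ℕ, ℓ.Prime → H'.relIndex H = ℓ → ∀ h₀ ∈ H, h₀ ∉ H' →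
      ∀ y : Fin (ℓ + 1) → X, (∀ i, ∀ h ∈ H, h • y i = y i) →
        ∃ i k : Fin (ℓ + 1), i ≠ k ∧ ∃ x : X, (∀ h ∈ H', h • x = x) ∧
          y i = y k * ∏ m ∈ Finset.range ℓ, h₀ ^ m • x)
    (c : Fin (Nat.card G + 1) → G × G → X) (hc : ∀ i, IsMulCocycle₂ (c i)) :
    ∃ i k : Fin (Nat.card G + 1), i ≠ k ∧ IsMulCoboundary₂ (c i / c k) := by
  obtain ⟨h0, hle⟩ := cohord_relIndex_le_card G X h90 hidx
  exact cohord_pigeonhole_of_relIndex_le (cohordB2 G X) (cohordZ2 G X) (Nat.card G) h0 hle c hc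

end Main

end Fermat.Agent.S55
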