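/-
S55 / finite-group cohomology toolkit (multiplicative low-degree language): SHIM.
All statements of the former spec are proved in
* `CohomCyc.lean`    (CO-a, helper10)
* `CohomInfRes.lean` (CO-b, helper25)
* `CohomOrder.lean`  (CO-c, helper1)
-/
import Fermat.Agent.S55.CohomCyc
import Fermat.Agent.S55.CohomInfRes
import Fermat.Agent.S55.CohomOrder
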