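/-
S55 / LOCAL layer LD2 "LocalBrauerOrder": Hilbert 90 for all subgroups of `Gal(L/K)`, the norm index
pigeonhole for cyclic layers of prime degree, the order bound `|H²(Gal(L/K), Lˣ)| ≤ [L:K]`,
`cycNorm` = field norm, and "cyclic cocycle is a coboundary iff norm".
Exact statements of section Order of `LocalBrauerSpec.lean` (origin/helper22 0a5c68d).

Black boxes (imported spec files; swap the imports for the real files when they exist):
* `LocalRingSpec` : instances `lfInt_isDiscreteValuationRing`, `lfInt_isAdicComplete`,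
  `lfInt_finite_residueField`, `lfInt_isIntegralClosure`;
* `CohomSpec` : `card_H2_le_card`, `exists_cohomologous_of_card`, `cycCocycle_isMulCoboundary₂_iff`.
Proved input: `LocalNorm/LocalNormIndex.lean` (`ln_index_norm_eq_finrank`).
-/
import Mathlib
import Fermat.Agent.S55.LocalRingSpec
import Fermat.Agent.S55.CohomSpec
import Fermat.Agent.S55.LocalBrauerDefs
import Fermat.Agent.S55.LocalNorm.LocalNormIndex

set_option autoImplicit false
set_option linter.unusedSectionVars false

namespace Fermat.Agent.S55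

open groupCohomology IsLocalRing

/-! ## Pure Galois theory -/

section Galois

variable {K L : Type} [Field K] [Field L] [Algebra K L]

/-- The image of `Gal(L/L^H) → Gal(L/K)` is `H`. -/
theorem lfo_range_galIncl [FiniteDimensional K L] (H : Subgroup (L ≃ₐ[K] L)) :
    (lfGalIncl K (IntermediateField.fixedField H) L).range = H := by
  ext h
  constructor
  · rintro ⟨σ, rfl⟩
    have h1 : lfGalIncl K (IntermediateField.fixedField H) L σ ∈
        (IntermediateField.fixedField H).fixingSubgroup := by
      rw [IntermediateField.mem_fixingSubgroup_iff]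
      intro x hx
      exact σ.commutes ⟨x, hx⟩
    rwa [IntermediateField.fixingSubgroup_fixedField] at h1
  · intro hh
    refine ⟨IntermediateField.subgroupEquivAlgEquiv H ⟨h, hh⟩, ?_⟩
    ext x
    rfl

theorem lfo_galIncl_smul (F : IntermediateField K L) (σ : L ≃ₐ[F] L) (x : Lˣ) :
    lfGalIncl K F L σ • x = σ • x := Units.ext rfl

theorem lfo_galIncl_injective (F : IntermediateField K L) :
    Function.Injective (lfGalIncl K F L) := by
  intro σ τ h
  ext x
  exact DFunLike.congr_fun h x

/-- Hilbert 90 for every subgroup of `Gal(L/K)`. -/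
theorem lfo_hilbert90 [FiniteDimensional K L] (H : Subgroup (L ≃ₐ[K] L)) (f : H → Lˣ)
    (hf : IsMulCocycle₁ f) : IsMulCoboundary₁ f := by
  classical
  have hr := lfo_range_galIncl H
  have hmem : ∀ σ : L ≃ₐ[IntermediateField.fixedField H] L,
      lfGalIncl K (IntermediateField.fixedField H) L σ ∈ H := fun σ => hr.le ⟨σ, rfl⟩
  let f' : (L ≃ₐ[IntermediateField.fixedField H] L) → Lˣ :=
    fun σ => f ⟨lfGalIncl K (IntermediateField.fixedField H) L σ, hmem σ⟩
  have hf' : IsMulCocycle₁ f' := by
    intro σ τ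
    have h1 := hf ⟨lfGalIncl K (IntermediateField.fixedField H) L σ, hmem σ⟩
      ⟨lfGalIncl K (IntermediateField.fixedField H) L τ, hmem τ⟩
    have h2 : f' (σ * τ) = f (⟨lfGalIncl K (IntermediateField.fixedField H) L σ, hmem σ⟩ *
        ⟨lfGalIncl K (IntermediateField.fixedField H) L τ, hmem τ⟩) := by
      change f _ = f _
      congr 1
    rw [h2, h1]
    rfl
  obtain ⟨x, hx⟩ := isMulCoboundary₁_of_isMulCocycle₁_of_aut_to_units f' hf'
  refine ⟨x, fun h => ?_⟩
  obtain ⟨σ, hσ⟩ : (h : L ≃ₐ[K] L) ∈ (lfGalIncl K (IntermediateField.fixedField H) L).range :=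
    hr.ge h.2
  have h3 := hx σ
  have h4 : f' σ = f h := by
    change f _ = f _
    congr 1
    exact Subtype.ext hσ
  rw [h4] at h3
  rw [← h3]
  change (h : L ≃ₐ[K] L) • x / x = _
  rw [← hσ, lfo_galIncl_smul]

/-- The product over the powers of a generator of a cyclic Galois group is the norm. -/
theorem lfo_prod_pow_eq_norm [FiniteDimensional K L] [IsGalois K L] {σ : L ≃ₐ[K] L}
    (hσ : ∀ τ : L ≃ₐ[K] L, τ ∈ Subgroup.zpowers σ) (x : L) :
    ∏ m ∈ Finset.range (orderOf σ), (σ ^ m) x = algebraMap K L (Algebra.norm K x) := by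
  classical
  rw [Algebra.norm_eq_prod_automorphisms, ← IsCyclic.image_range_orderOf hσ, Finset.prod_image]
  intro i hi j hj hij
  exact pow_injOn_Iio_orderOf (Finset.mem_range.mp hi) (Finset.mem_range.mp hj) hij

/-- Pigeonhole in a group: among `n + 1` elements, two lie in the same coset of a subgroup of
index `n ≠ 0`. -/
theorem lfo_pigeonhole_subgroup {Y : Type} [Group Y] (S : Subgroup Y) (n : ℕ) (hn : n ≠ 0)
    (hS : S.index = n) (y : Fin (n + 1) → Y) :
    ∃ i k : Fin (n + 1), i ≠ k ∧ (y k)⁻¹ * y i ∈ S := by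
  classical
  have hfin : Finite (Y ⧸ S) := by
    apply Nat.finite_of_card_ne_zero
    change S.index ≠ 0
    rw [hS]
    exact hn
  have := Fintype.ofFinite (Y ⧸ S)
  have hlt : Fintype.card (Y ⧸ S) < Fintype.card (Fin (n + 1)) := by
    rw [Fintype.card_fin, ← Nat.card_eq_fintype_card]
    change S.index < n + 1
    omega
  obtain ⟨i, k, hik, h⟩ := Fintype.exists_ne_map_eq_of_card_lt
    (fun i => (QuotientGroup.mk (y i) : Y ⧸ S)) hlt
  refine ⟨i, k, hik, ?_⟩
  exact QuotientGroup.eq.mp h.symm

end Galois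

/-! ## Local fields -/

section Local

variable (q : ℕ) [Fact q.Prime]
  (K : Type) [Field K] [Algebra ℚ_[q] K] [FiniteDimensional ℚ_[q] K]
  (L : Type) [Field L] [Algebra ℚ_[q] L] [FiniteDimensional ℚ_[q] L]
  [Algebra K L] [IsScalarTower ℚ_[q] K L]

include q in
/-- The local norm index for cyclic extensions of local fields (helper3's theorem applied to the
rings of integers). -/
theorem lfo_index_norm [IsGalois K L] [IsCyclic (L ≃ₐ[K] L)] :
    (lfNormSubgroup K L).index = Module.finrank K L := by
  have : FiniteDimensional K L := FiniteDimensional.right ℚ_[q] K L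
  exact ln_index_norm_eq_finrank (lfInt q K) (lfInt q L)

omit [FiniteDimensional ℚ_[q] K] [FiniteDimensional ℚ_[q] L] in
theorem lfo_isScalarTower_mid (F : IntermediateField K L) : IsScalarTower ℚ_[q] F L :=
  IsScalarTower.of_algebraMap_eq (fun _ => rfl)

omit [FiniteDimensional ℚ_[q] K] in
theorem lfo_finiteDimensional_mid (F : IntermediateField K L) : FiniteDimensional ℚ_[q] F := by
  have := lfo_isScalarTower_mid q K L F
  exact FiniteDimensional.left ℚ_[q] F L

include q in
/-- The pigeonhole statement for a normal subgroup `N` of prime index of the full Galois group. -/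
theorem lfo_pigeonhole_top [IsGalois K L] (N : Subgroup (L ≃ₐ[K] L)) [N.Normal] (ℓ : ℕ)
    (hℓ : ℓ.Prime) (hidx : N.index = ℓ) (h₀ : L ≃ₐ[K] L) (h₀N : h₀ ∉ N)
    (y : Fin (ℓ + 1) → Kˣ) :
    ∃ i k : Fin (ℓ + 1), i ≠ k ∧ ∃ x : Lˣ, (∀ h ∈ N, h • x = x) ∧
      Units.map (algebraMap K L : K →* L) (y i) =
        Units.map (algebraMap K L : K →* L) (y k) * ∏ m ∈ Finset.range ℓ, h₀ ^ m • x := by
  classical
  have hfd : FiniteDimensional K L := FiniteDimensional.right ℚ_[q] K L
  have hfd' : FiniteDimensional ℚ_[q] (IntermediateField.fixedField N) :=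
    lfo_finiteDimensional_mid q K L _
  have hcard : Nat.card ((IntermediateField.fixedField N) ≃ₐ[K] (IntermediateField.fixedField N))
      = ℓ := by
    rw [← Nat.card_congr (IsGalois.normalAutEquivQuotient N).toEquiv]
    exact hidx
  have : Fact ℓ.Prime := ⟨hℓ⟩
  have : IsCyclic ((IntermediateField.fixedField N) ≃ₐ[K] (IntermediateField.fixedField N)) :=
    isCyclic_of_prime_card hcard
  have hfr : Module.finrank K (IntermediateField.fixedField N) = ℓ := by
    rw [← IsGalois.card_aut_eq_finrank, hcard]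
  have hindex : (lfNormSubgroup K (IntermediateField.fixedField N)).index = ℓ := by
    rw [lfo_index_norm q K (IntermediateField.fixedField N), hfr]
  obtain ⟨i, k, hik, x', hx'⟩ := lfo_pigeonhole_subgroup _ ℓ hℓ.ne_zero hindex y
  -- the generator
  have hτ1 : AlgEquiv.restrictNormalHom (IntermediateField.fixedField N) h₀ ≠ 1 := by
    intro h1
    apply h₀N
    rw [← IntermediateField.fixingSubgroup_fixedField N, IntermediateField.mem_fixingSubgroup_iff]
    intro z hz
    have h2 := AlgEquiv.restrictNormal_commutes h₀ (IntermediateField.fixedField N) ⟨z, hz⟩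
    have h3 : AlgEquiv.restrictNormal h₀ (IntermediateField.fixedField N) = 1 := h1
    rw [h3] at h2
    exact h2.symm
  have hgen : ∀ σ, σ ∈ Subgroup.zpowers
      (AlgEquiv.restrictNormalHom (IntermediateField.fixedField N) h₀) := by
    intro σ
    rw [zpowers_eq_top_of_prime_card hcard hτ1]
    exact Subgroup.mem_top σ
  have hord : orderOf (AlgEquiv.restrictNormalHom (IntermediateField.fixedField N) h₀) = ℓ := by
    rw [orderOf_eq_card_of_forall_mem_zpowers hgen, hcard]
  have hnorm := lfo_prod_pow_eq_norm hgen (x' : IntermediateField.fixedField N)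
  rw [hord] at hnorm
  refine ⟨i, k, hik, Units.map (algebraMap (IntermediateField.fixedField N) L :
    (IntermediateField.fixedField N) →* L) x', ?_, ?_⟩
  · intro h hh
    apply Units.ext
    change h ((x' : IntermediateField.fixedField N) : L) = _
    exact (x' : IntermediateField.fixedField N).2 ⟨h, hh⟩
  · have hyi : y i = y k * lfNormHom K (IntermediateField.fixedField N) x' := by
      rw [hx', mul_inv_cancel_left]
    have hprod : ∀ m : ℕ, ((h₀ ^ m • Units.map (algebraMap (IntermediateField.fixedField N) L :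
        (IntermediateField.fixedField N) →* L) x' : Lˣ) : L) =
        algebraMap (IntermediateField.fixedField N) L
          ((AlgEquiv.restrictNormalHom (IntermediateField.fixedField N) h₀ ^ m)
            (x' : IntermediateField.fixedField N)) := by
      intro m
      rw [← map_pow]
      exact (AlgEquiv.restrictNormal_commutes (h₀ ^ m) (IntermediateField.fixedField N)
        (x' : IntermediateField.fixedField N)).symm
    apply Units.ext
    rw [hyi, Units.val_mul, Units.coe_prod]
    simp only [hprod]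
    rw [← map_prod, hnorm, ← IsScalarTower.algebraMap_apply]
    simp only [Units.coe_map, MonoidHom.coe_coe, Units.val_mul, map_mul]
    rfl

include q in
/-- Hilbert 90 for every subgroup of `Gal(L/K)` (pure field theory, from Mathlib). -/
theorem lf_hilbert90 [IsGalois K L] (H : Subgroup (L ≃ₐ[K] L)) (f : H → Lˣ)
    (hf : IsMulCocycle₁ f) : IsMulCoboundary₁ f := by
  have hfd : FiniteDimensional K L := FiniteDimensional.right ℚ_[q] K L
  exact lfo_hilbert90 H f hf

include q in
/-- Norm index `≤ ℓ` for every cyclic layer of prime degree `ℓ` inside `L/K`, in the pigeonhole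
form required by `card_H2_le_card`. -/
theorem lf_norm_pigeonhole [IsGalois K L] (H H' : Subgroup (L ≃ₐ[K] L)) (hle : H' ≤ H)
    (hn : (H'.subgroupOf H).Normal) (ℓ : ℕ) (hℓ : ℓ.Prime) (hidx : H'.relIndex H = ℓ)
    (h₀ : L ≃ₐ[K] L) (h₀H : h₀ ∈ H) (h₀H' : h₀ ∉ H')
    (y : Fin (ℓ + 1) → Lˣ) (hy : ∀ i, ∀ h ∈ H, h • y i = y i) :
    ∃ i k : Fin (ℓ + 1), i ≠ k ∧ ∃ x : Lˣ, (∀ h ∈ H', h • x = x) ∧
      y i = y k * ∏ m ∈ Finset.range ℓ, h₀ ^ m • x := by
  classical
  have hfd : FiniteDimensional K L := FiniteDimensional.right ℚ_[q] K L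
  have hst : IsScalarTower ℚ_[q] (IntermediateField.fixedField H) L :=
    lfo_isScalarTower_mid q K L _
  have hfdF : FiniteDimensional ℚ_[q] (IntermediateField.fixedField H) :=
    lfo_finiteDimensional_mid q K L _
  have hr := lfo_range_galIncl H
  have hmemH : ∀ σ : L ≃ₐ[IntermediateField.fixedField H] L,
      lfGalIncl K (IntermediateField.fixedField H) L σ ∈ H := fun σ => hr.le ⟨σ, rfl⟩
  -- the normal subgroup of `Gal(L/L^H)` corresponding to `H'`
  have hN : (H'.comap (lfGalIncl K (IntermediateField.fixedField H) L)).Normal := by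
    constructor
    intro n hnN g
    rw [Subgroup.mem_comap] at hnN ⊢
    have h1 := hn.conj_mem ⟨lfGalIncl K (IntermediateField.fixedField H) L n, hmemH n⟩
      (Subgroup.mem_subgroupOf.mpr hnN)
      ⟨lfGalIncl K (IntermediateField.fixedField H) L g, hmemH g⟩
    rw [Subgroup.mem_subgroupOf] at h1
    rw [map_mul, map_mul, map_inv]
    exact h1
  have hidxN : (H'.comap (lfGalIncl K (IntermediateField.fixedField H) L)).index = ℓ := by
    rw [Subgroup.index_comap, hr]
    exact hidx
  obtain ⟨σ₀, hσ₀⟩ : h₀ ∈ (lfGalIncl K (IntermediateField.fixedField H) L).range := hr.ge h₀H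
  have hσ₀N : σ₀ ∉ H'.comap (lfGalIncl K (IntermediateField.fixedField H) L) := by
    rw [Subgroup.mem_comap, hσ₀]
    exact h₀H'
  -- the `y i` come from `L^H`
  have hyF : ∀ i, ((y i : Lˣ) : L) ∈ IntermediateField.fixedField H := by
    intro i
    rw [IntermediateField.mem_fixedField_iff]
    intro f hf
    exact congrArg Units.val (hy i f hf)
  let y' : Fin (ℓ + 1) → (IntermediateField.fixedField H)ˣ := fun i =>
    Units.mk0 ⟨((y i : Lˣ) : L), hyF i⟩ (fun h => (y i).ne_zero (congrArg Subtype.val h))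
  have hy' : ∀ i, Units.map (algebraMap (IntermediateField.fixedField H) L :
      (IntermediateField.fixedField H) →* L) (y' i) = y i := fun i => Units.ext rfl
  obtain ⟨i, k, hik, x, hx, hxy⟩ := lfo_pigeonhole_top q (IntermediateField.fixedField H) L
    (H'.comap (lfGalIncl K (IntermediateField.fixedField H) L)) ℓ hℓ hidxN σ₀ hσ₀N y'
  refine ⟨i, k, hik, x, ?_, ?_⟩
  · intro h hh
    obtain ⟨σ, rfl⟩ : h ∈ (lfGalIncl K (IntermediateField.fixedField H) L).range :=
      hr.ge (hle hh)
    rw [lfo_galIncl_smul]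
    exact hx σ hh
  · rw [hy', hy'] at hxy
    rw [hxy]
    congr 1
    apply Finset.prod_congr rfl
    intro m _
    rw [← hσ₀, ← map_pow, lfo_galIncl_smul]

include q in
/-- `|H²(Gal(L/K), Lˣ)| ≤ [L:K]`. -/
theorem lf_card_H2_le [IsGalois K L] :
    Finite (H2 (Rep.ofAlgebraAutOnUnits K L)) ∧
      Nat.card (H2 (Rep.ofAlgebraAutOnUnits K L)) ≤ Module.finrank K L := by
  have hfd : FiniteDimensional K L := FiniteDimensional.right ℚ_[q] K L
  have h := card_H2_le_card (L ≃ₐ[K] L) Lˣ (fun H f hf => lf_hilbert90 q K L H f hf)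
    (fun H H' hle hn ℓ hℓ hidx h₀ h₀H h₀H' y hy =>
      lf_norm_pigeonhole q K L H H' hle hn ℓ hℓ hidx h₀ h₀H h₀H' y hy)
  rw [IsGalois.card_aut_eq_finrank] at h
  exact h

include q in
/-- Pigeonhole form: among `[L:K] + 1` cocycles two are cohomologous. -/
theorem lf_exists_cohomologous [IsGalois K L]
    (c : Fin (Module.finrank K L + 1) → (L ≃ₐ[K] L) × (L ≃ₐ[K] L) → Lˣ)
    (hc : ∀ i, IsMulCocycle₂ (c i)) :
    ∃ i k : Fin (Module.finrank K L + 1), i ≠ k ∧ IsMulCoboundary₂ (c i / c k) := by
  have hfd : FiniteDimensional K L := FiniteDimensional.right ℚ_[q] K L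
  have hcard : Nat.card (L ≃ₐ[K] L) = Module.finrank K L := IsGalois.card_aut_eq_finrank K L
  revert c
  rw [← hcard]
  intro c hc
  exact exists_cohomologous_of_card (L ≃ₐ[K] L) Lˣ (fun H f hf => lf_hilbert90 q K L H f hf)
    (fun H H' hle hn ℓ hℓ hidx h₀ h₀H h₀H' y hy =>
      lf_norm_pigeonhole q K L H H' hle hn ℓ hℓ hidx h₀ h₀H h₀H' y hy) c hc

include q in
/-- The field norm is the group-theoretic norm: for a generator `σ` of a cyclic `Gal(L/K)`. -/
theorem cycNorm_eq_algebraMap_norm [IsGalois K L] (σ : L ≃ₐ[K] L)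
    (hσ : ∀ τ : L ≃ₐ[K] L, τ ∈ Subgroup.zpowers σ) (x : Lˣ) :
    ((cycNorm σ x : Lˣ) : L) = algebraMap K L (Algebra.norm K (x : L)) := by
  have hfd : FiniteDimensional K L := FiniteDimensional.right ℚ_[q] K L
  rw [← lfo_prod_pow_eq_norm hσ (x : L), cycNorm, Units.coe_prod]
  rfl

include q in
/-- Cyclic case: `cycCocycle σ a` (`a ∈ Kˣ`) is a coboundary iff `a` is a norm from `L`. -/
theorem cycCocycle_isMulCoboundary₂_iff_mem_norm [IsGalois K L] (σ : L ≃ₐ[K] L)
    (hσ : ∀ τ : L ≃ₐ[K] L, τ ∈ Subgroup.zpowers σ) (a : Kˣ) :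
    IsMulCoboundary₂ (cycCocycle σ (Units.map (algebraMap K L : K →* L) a)) ↔
      a ∈ lfNormSubgroup K L := by
  have hfd : FiniteDimensional K L := FiniteDimensional.right ℚ_[q] K L
  have ha : σ • Units.map (algebraMap K L : K →* L) a = Units.map (algebraMap K L : K →* L) a := by
    apply Units.ext
    change σ (algebraMap K L (a : K)) = algebraMap K L (a : K)
    exact σ.commutes _
  rw [cycCocycle_isMulCoboundary₂_iff σ hσ _ ha]
  constructor
  · rintro ⟨x, hx⟩
    refine ⟨x, ?_⟩
    apply Units.ext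
    apply (algebraMap K L).injective
    have h1 := cycNorm_eq_algebraMap_norm q K L σ hσ x
    rw [hx] at h1
    exact h1.symm
  · rintro ⟨x, hx⟩
    refine ⟨x, ?_⟩
    apply Units.ext
    rw [cycNorm_eq_algebraMap_norm q K L σ hσ x, ← hx]
    rfl

include q in
/-- Norm index theorem in the language of this package (helper3's `ln_index_norm_eq_finrank` with
`A = lfInt q K`, `B = lfInt q L`): `[Kˣ : N Lˣ] = [L:K]` for cyclic `L/K`. -/
theorem lfNormSubgroup_index_of_isCyclic [IsGalois K L] [IsCyclic (L ≃ₐ[K] L)] :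
    (lfNormSubgroup K L).index = Module.finrank K L := lfo_index_norm q K L

end Local

end Fermat.Agent.S55
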