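/- SHIM: section Order of the LD spec is proved in `LocalBrauerOrder.lean` (helper13). -/
import Fermat.Agent.S55.LocalUnramSpec
import Fermat.Agent.S55.LocalBrauerOrder
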