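/-
S55 / LOCAL layer LD3 (row 182): unramified extensions of local fields:
units are norms, `a ∈ N Lˣ ↔ [L:K] ∣ v(a)`, the invariant `lfInvUnram` of cocycles of unramified
extensions (additivity, value on cyclic cocycles, `= 0 ↔ coboundary`, torsion, base change),
and base change `lfBC` of cocycles / coboundaries.

Exact statements of sections `Unram` and `UnramBC` of `LocalBrauerSpec.lean`
(origin/helper22 0a5c68d).  Black boxes: `LocalValSpec`, `LocalRingSpec`, `LocalUnramSpec`,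
`CohomSpec` (CO-a, CO-b), `cycCocycle_isMulCoboundary₂_iff_mem_norm` of LD2 (shim
`LocalBrauerOrderSpec`), and helper3's `ln_index_norm_eq_finrank` (LocalNorm package).
All auxiliary declarations carry the prefix `lfu`.
-/
import Fermat.Agent.S55.LocalBrauerOrderSpec
import Fermat.Agent.S55.LocalNorm.LocalNormIndex

set_option autoImplicit false

namespace Fermat.Agent.S55

open groupCohomology IsLocalRing

/-! ## Generalities on multiplicative coboundaries -/

section Cob

variable {G X : Type} [Group G] [CommGroup X] [MulDistribMulAction G X]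

theorem lfu_isMulCoboundary₂_one : IsMulCoboundary₂ (1 : G × G → X) :=
  ⟨fun _ => 1, fun g h => by simp⟩

theorem lfu_isMulCoboundary₂_mul {c c' : G × G → X} (hc : IsMulCoboundary₂ c)
    (hc' : IsMulCoboundary₂ c') : IsMulCoboundary₂ (c * c') := by
  obtain ⟨x, hx⟩ := hc
  obtain ⟨y, hy⟩ := hc'
  refine ⟨x * y, fun g h => ?_⟩
  show g • (x h * y h) / (x (g * h) * y (g * h)) * (x g * y g) = c (g, h) * c' (g, h)
  rw [← hx g h, ← hy g h, smul_mul', mul_div_mul_comm, mul_mul_mul_comm]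

theorem lfu_isMulCoboundary₂_inv {c : G × G → X} (hc : IsMulCoboundary₂ c) :
    IsMulCoboundary₂ c⁻¹ := by
  obtain ⟨x, hx⟩ := hc
  refine ⟨x⁻¹, fun g h => ?_⟩
  show g • (x h)⁻¹ / (x (g * h))⁻¹ * (x g)⁻¹ = (c (g, h))⁻¹
  rw [← hx g h, smul_inv', inv_div_inv, mul_inv, inv_div]

theorem lfu_isMulCoboundary₂_div {c c' : G × G → X} (hc : IsMulCoboundary₂ c)
    (hc' : IsMulCoboundary₂ c') : IsMulCoboundary₂ (c / c') := by
  rw [div_eq_mul_inv]
  exact lfu_isMulCoboundary₂_mul hc (lfu_isMulCoboundary₂_inv hc')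

/-- Cohomologous cochains are simultaneously coboundaries. -/
theorem lfu_isMulCoboundary₂_iff_of_div {c c' : G × G → X} (h : IsMulCoboundary₂ (c / c')) :
    IsMulCoboundary₂ c ↔ IsMulCoboundary₂ c' := by
  constructor
  · intro hc
    have := lfu_isMulCoboundary₂_div hc h
    rwa [div_div_cancel] at this
  · intro hc'
    have := lfu_isMulCoboundary₂_mul h hc'
    rwa [div_mul_cancel] at this

/-- A coboundary is a cocycle. -/
theorem lfu_isMulCocycle₂_of_isMulCoboundary₂ {c : G × G → X} (hc : IsMulCoboundary₂ c) :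
    IsMulCocycle₂ c := by
  have h1 := (coboundariesOfIsMulCoboundary₂ hc).2
  have h2 := coboundaries₂_le_cocycles₂ _ h1
  exact isMulCocycle₂_of_mem_cocycles₂ _ h2

theorem lfu_isMulCocycle₂_mul {c c' : G × G → X} (hc : IsMulCocycle₂ c)
    (hc' : IsMulCocycle₂ c') : IsMulCocycle₂ (c * c') := by
  intro g h j
  simp only [Pi.mul_apply, smul_mul']
  rw [mul_mul_mul_comm, hc g h j, hc' g h j, mul_mul_mul_comm]

theorem lfu_isMulCocycle₂_inv {c : G × G → X} (hc : IsMulCocycle₂ c) :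
    IsMulCocycle₂ c⁻¹ := by
  intro g h j
  simp only [Pi.inv_apply, smul_inv']
  rw [← mul_inv, ← mul_inv, hc g h j]

theorem lfu_isMulCocycle₂_div {c c' : G × G → X} (hc : IsMulCocycle₂ c)
    (hc' : IsMulCocycle₂ c') : IsMulCocycle₂ (c / c') := by
  rw [div_eq_mul_inv]
  exact lfu_isMulCocycle₂_mul hc (lfu_isMulCocycle₂_inv hc')

end Cob

/-! ## Small generalities -/

section Misc

theorem lfu_cycExp_pow {G : Type} [Group G] (σ : G) {i : ℕ} (hi : i < orderOf σ) :
    cycExp σ (σ ^ i) = i := by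
  have hmem : i ∈ {k : ℕ | σ ^ k = σ ^ i} := rfl
  have hle : cycExp σ (σ ^ i) ≤ i := Nat.sInf_le hmem
  have hin : σ ^ (cycExp σ (σ ^ i)) = σ ^ i := Nat.sInf_mem (s := {k : ℕ | σ ^ k = σ ^ i}) ⟨i, hmem⟩
  exact pow_injOn_Iio_orderOf (lt_of_le_of_lt hle hi) hi hin

/-- The coercion `ℚ → ℚ/ℤ` of `m / n` vanishes iff `n ∣ m`. -/
theorem lfu_addCircle_div_eq_zero_iff (m : ℤ) (n : ℕ) (hn : n ≠ 0) :
    ((((m : ℚ) / (n : ℚ) : ℚ)) : AddCircle (1 : ℚ)) = 0 ↔ (n : ℤ) ∣ m := by
  have hn' : (n : ℚ) ≠ 0 := by exact_mod_cast hn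
  rw [AddCircle.coe_eq_zero_iff]
  constructor
  · rintro ⟨k, hk⟩
    refine ⟨k, ?_⟩
    rw [zsmul_eq_mul, mul_one, eq_div_iff hn'] at hk
    have : ((k * n : ℤ) : ℚ) = (m : ℚ) := by push_cast; exact hk
    have := Int.cast_injective this
    rw [← this, mul_comm]
  · rintro ⟨k, rfl⟩
    refine ⟨k, ?_⟩
    rw [zsmul_eq_mul, mul_one, eq_div_iff hn']
    push_cast
    ring

end Misc

/-! ## The valuation modulo `n` -/

section OrdMod

variable (q : ℕ) [Fact q.Prime] (K : Type) [Field K] [Algebra ℚ_[q] K] [FiniteDimensional ℚ_[q] K]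

/-- `a ↦ v_K(a) mod n` as a monoid hom `Kˣ →* Multiplicative (ZMod n)`. -/
noncomputable def lfuOrdModHom (n : ℕ) : Kˣ →* Multiplicative (ZMod n) where
  toFun a := Multiplicative.ofAdd ((lfOrd q K (a : K) : ℤ) : ZMod n)
  map_one' := by
    rw [Units.val_one, lfOrd_one, Int.cast_zero, ofAdd_zero]
  map_mul' a b := by
    rw [Units.val_mul, lfOrd_mul q K a.ne_zero b.ne_zero, Int.cast_add, ofAdd_add]

theorem lfuOrdModHom_apply (n : ℕ) (a : Kˣ) :
    lfuOrdModHom q K n a = Multiplicative.ofAdd ((lfOrd q K (a : K) : ℤ) : ZMod n) := rfl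

theorem lfu_mem_ker_ordModHom (n : ℕ) (a : Kˣ) :
    a ∈ (lfuOrdModHom q K n).ker ↔ (n : ℤ) ∣ lfOrd q K (a : K) := by
  rw [MonoidHom.mem_ker, lfuOrdModHom_apply, ofAdd_eq_one, ZMod.intCast_zmod_eq_zero_iff_dvd]

theorem lfuOrdModHom_surjective (n : ℕ) [NeZero n] :
    Function.Surjective (lfuOrdModHom q K n) := by
  intro z
  obtain ⟨π, hπ⟩ := exists_isLfUniformizer q K
  have hπ0 : π ≠ 0 := hπ.ne_zero
  refine ⟨Units.mk0 π hπ0 ^ (Multiplicative.toAdd z).val, ?_⟩
  rw [lfuOrdModHom_apply, Units.val_pow_eq_pow_val, Units.val_mk0, lfOrd_pow, hπ, mul_one,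
    Int.cast_natCast, ZMod.natCast_zmod_val, ofAdd_toAdd]

theorem lfu_index_ker_ordModHom (n : ℕ) [NeZero n] : (lfuOrdModHom q K n).ker.index = n := by
  rw [Subgroup.index_ker, MonoidHom.range_eq_top.2 (lfuOrdModHom_surjective q K n),
    Subgroup.card_top, Nat.card_congr Multiplicative.toAdd, Nat.card_zmod]

end OrdMod

/-! ## LD3: unramified extensions -/

section Unram

variable (q : ℕ) [Fact q.Prime]
  (K : Type) [Field K] [Algebra ℚ_[q] K] [FiniteDimensional ℚ_[q] K]
  (L : Type) [Field L] [Algebra ℚ_[q] L] [FiniteDimensional ℚ_[q] L]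
  [Algebra K L] [IsScalarTower ℚ_[q] K L]

include q in
omit [FiniteDimensional ℚ_[q] K] in
theorem lfu_finiteDimensional : FiniteDimensional K L := FiniteDimensional.right ℚ_[q] K L

include q in
omit [FiniteDimensional ℚ_[q] K] in
theorem lfu_finrank_pos : 0 < Module.finrank K L := by
  have := lfu_finiteDimensional q K L
  exact Module.finrank_pos

omit [FiniteDimensional ℚ_[q] K] [FiniteDimensional ℚ_[q] L] [IsScalarTower ℚ_[q] K L] in
theorem lfu_inertiaDeg_eq (h : LfUnramified q K L) :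
    lfInertiaDeg q K L = Module.finrank K L := by
  have h1 : lfRamIdx q K L = 1 := h
  rw [lfInertiaDeg, h1, Nat.div_one]

/-- The local norm index theorem for unramified extensions. -/
theorem lfu_index_norm (h : LfUnramified q K L) :
    (lfNormSubgroup K L).index = Module.finrank K L := by
  have := h.isGalois
  have := h.isCyclic
  have := lfu_finiteDimensional q K L
  exact ln_index_norm_eq_finrank (lfInt q K) (lfInt q L)

theorem lfu_norm_le_ker (h : LfUnramified q K L) :
    lfNormSubgroup K L ≤ (lfuOrdModHom q K (Module.finrank K L)).ker := by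
  rintro _ ⟨w, rfl⟩
  rw [lfu_mem_ker_ordModHom]
  show (Module.finrank K L : ℤ) ∣ lfOrd q K (Algebra.norm K (w : L))
  rw [lfOrd_norm, lfu_inertiaDeg_eq q K L h]
  exact dvd_mul_right _ _

/-- For unramified `L/K`: `a ∈ N Lˣ ↔ [L:K] ∣ v_K(a)`. -/
theorem lfUnramified_mem_norm_iff (h : LfUnramified q K L) (a : Kˣ) :
    a ∈ lfNormSubgroup K L ↔ (Module.finrank K L : ℤ) ∣ lfOrd q K (a : K) := by
  have hn : 0 < Module.finrank K L := lfu_finrank_pos q K L
  have : NeZero (Module.finrank K L) := ⟨hn.ne'⟩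
  have hle := lfu_norm_le_ker q K L h
  have hrel : (lfNormSubgroup K L).relIndex (lfuOrdModHom q K (Module.finrank K L)).ker = 1 := by
    have h1 := Subgroup.relIndex_mul_index hle
    rw [lfu_index_norm q K L h, lfu_index_ker_ordModHom] at h1
    exact Nat.eq_of_mul_eq_mul_right hn (by rw [h1, one_mul])
  have hge := Subgroup.relIndex_eq_one.1 hrel
  rw [← lfu_mem_ker_ordModHom]
  exact ⟨fun ha => hle ha, fun ha => hge ha⟩

/-- In an unramified extension every unit of `K` is a norm of a unit of `L`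
(corollary of the norm index theorem and `v_K ∘ N = n · v_L`). -/
theorem lfUnramified_norm_surjective_units (h : LfUnramified q K L) {u : Kˣ}
    (hu : u ∈ lfUnits q K) : ∃ w : Lˣ, w ∈ lfUnits q L ∧ lfNormHom K L w = u := by
  have hn : 0 < Module.finrank K L := lfu_finrank_pos q K L
  have hu0 : lfOrd q K (u : K) = 0 := (mem_lfUnits_iff q K u).1 hu
  have hmem : u ∈ lfNormSubgroup K L := by
    rw [lfUnramified_mem_norm_iff q K L h, hu0]
    exact dvd_zero _
  obtain ⟨w, hw⟩ := hmem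
  refine ⟨w, ?_, hw⟩
  rw [mem_lfUnits_iff]
  have h1 : lfOrd q K (Algebra.norm K (w : L)) = 0 := by
    have : ((lfNormHom K L w : Kˣ) : K) = Algebra.norm K (w : L) := rfl
    rw [← this, hw, hu0]
  rw [lfOrd_norm, lfu_inertiaDeg_eq q K L h] at h1
  rcases mul_eq_zero.1 h1 with h2 | h2
  · exact absurd (by exact_mod_cast h2) hn.ne'
  · exact h2

/-! ### The invariant of unramified cocycles -/

omit [IsScalarTower ℚ_[q] K L] in
theorem lfu_unramRep_mul (c c' : (L ≃ₐ[K] L) × (L ≃ₐ[K] L) → Lˣ) :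
    lfUnramRep q K L (c * c') = lfUnramRep q K L c * lfUnramRep q K L c' :=
  Finset.prod_mul_distrib

set_option linter.unusedSectionVars false in
theorem lfInvUnram_mul (c c' : (L ≃ₐ[K] L) × (L ≃ₐ[K] L) → Lˣ) :
    lfInvUnram q K L (c * c') = lfInvUnram q K L c + lfInvUnram q K L c' := by
  unfold lfInvUnram
  rw [lfu_unramRep_mul, Units.val_mul, lfOrd_mul q L (Units.ne_zero _) (Units.ne_zero _),
    Int.cast_add, add_div, AddCircle.coe_add]

/-- `lfInvUnram` in terms of an element of `K` representing `lfUnramRep`. -/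
theorem lfu_invUnram_eq_of_rep (h : LfUnramified q K L)
    (c : (L ≃ₐ[K] L) × (L ≃ₐ[K] L) → Lˣ) (a : K)
    (ha : ((lfUnramRep q K L c : Lˣ) : L) = algebraMap K L a) :
    lfInvUnram q K L c = (((lfOrd q K a : ℤ) : ℚ) / (Module.finrank K L : ℚ) : ℚ) := by
  have h1 : lfRamIdx q K L = 1 := h
  unfold lfInvUnram
  rw [ha, lfOrd_algebraMap, h1, Nat.cast_one, one_mul]

theorem lfu_unramRep_cycCocycle (b : Lˣ) (hn : orderOf (lfFrob q K L) ≠ 1) :
    lfUnramRep q K L (cycCocycle (lfFrob q K L) b) = b := by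
  have := lfu_finiteDimensional q K L
  set φ := lfFrob q K L with hφ
  have hpos : 0 < orderOf φ := orderOf_pos φ
  have h2 : 1 < orderOf φ := lt_of_le_of_ne hpos (Ne.symm hn)
  have hφ1 : cycExp φ φ = 1 := by
    have := lfu_cycExp_pow φ h2
    rwa [pow_one] at this
  unfold lfUnramRep
  rw [← hφ, Finset.prod_eq_single (orderOf φ - 1)]
  · unfold cycCocycle
    rw [if_pos]
    show orderOf φ ≤ cycExp φ (φ ^ (orderOf φ - 1)) + cycExp φ φ
    rw [hφ1, lfu_cycExp_pow φ (by omega)]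
    omega
  · intro i hi hne
    unfold cycCocycle
    rw [if_neg]
    show ¬ orderOf φ ≤ cycExp φ (φ ^ i) + cycExp φ φ
    rw [hφ1, lfu_cycExp_pow φ (Finset.mem_range.1 hi)]
    have := Finset.mem_range.1 hi
    omega
  · intro hi
    exact absurd (Finset.mem_range.2 (by omega)) hi

omit [IsScalarTower ℚ_[q] K L] in
theorem lfu_unramRep_of_orderOf_eq_one (b : Lˣ) (hn : orderOf (lfFrob q K L) = 1) :
    lfUnramRep q K L (cycCocycle (lfFrob q K L) b) = 1 := by
  have h1 : lfFrob q K L = 1 := orderOf_eq_one_iff.1 hn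
  unfold lfUnramRep
  rw [hn, Finset.prod_range_one, pow_zero]
  unfold cycCocycle
  rw [if_neg]
  show ¬ orderOf (lfFrob q K L) ≤ cycExp (lfFrob q K L) 1 + cycExp (lfFrob q K L) (lfFrob q K L)
  have h0 : cycExp (lfFrob q K L) 1 = 0 := by
    have := lfu_cycExp_pow (lfFrob q K L) (i := 0) (by rw [hn]; exact Nat.one_pos)
    rwa [pow_zero] at this
  rw [hn]
  nth_rewrite 3 [h1]
  rw [h0]
  exact Nat.not_succ_le_zero 0

theorem lfInvUnram_cycCocycle (h : LfUnramified q K L) (a : Kˣ) :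
    lfInvUnram q K L (cycCocycle (lfFrob q K L) (Units.map (algebraMap K L : K →* L) a)) =
      (((lfOrd q K (a : K) : ℤ) : ℚ) / (Module.finrank K L : ℚ) : ℚ) := by
  by_cases hn : orderOf (lfFrob q K L) = 1
  · have hfin : Module.finrank K L = 1 := by rw [← orderOf_lfFrob q K L h, hn]
    have hL : lfInvUnram q K L
        (cycCocycle (lfFrob q K L) (Units.map (algebraMap K L : K →* L) a)) = 0 := by
      unfold lfInvUnram
      rw [lfu_unramRep_of_orderOf_eq_one q K L _ hn, Units.val_one, lfOrd_one, Int.cast_zero,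
        zero_div, AddCircle.coe_zero]
    rw [hL, eq_comm, lfu_addCircle_div_eq_zero_iff _ _ (by rw [hfin]; exact one_ne_zero), hfin]
    exact one_dvd _
  · apply lfu_invUnram_eq_of_rep q K L h
    rw [lfu_unramRep_cycCocycle q K L _ hn]
    rfl

/-- For a cocycle `c` of an unramified extension, `lfUnramRep c` lies in `Kˣ`, and `c` is
cohomologous to the corresponding cyclic cocycle. -/
theorem lfu_exists_rep (h : LfUnramified q K L)
    (c : (L ≃ₐ[K] L) × (L ≃ₐ[K] L) → Lˣ) (hc : IsMulCocycle₂ c) :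
    ∃ a : Kˣ, lfUnramRep q K L c = Units.map (algebraMap K L : K →* L) a ∧
      IsMulCoboundary₂
        (c / cycCocycle (lfFrob q K L) (Units.map (algebraMap K L : K →* L) a)) := by
  have := lfu_finiteDimensional q K L
  have := h.isGalois
  have hσ := mem_zpowers_lfFrob q K L h
  obtain ⟨hfix, hcob⟩ := exists_cycCocycle_of_isMulCocycle₂ (lfFrob q K L) hσ c hc
  change lfFrob q K L • lfUnramRep q K L c = lfUnramRep q K L c at hfix
  change IsMulCoboundary₂ (c / cycCocycle (lfFrob q K L) (lfUnramRep q K L c)) at hcob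
  have hall : ∀ τ : L ≃ₐ[K] L,
      τ ((lfUnramRep q K L c : Lˣ) : L) = ((lfUnramRep q K L c : Lˣ) : L) := by
    intro τ
    obtain ⟨k, rfl⟩ := Subgroup.mem_zpowers_iff.1 (hσ τ)
    have h1 : (lfFrob q K L ^ k) • lfUnramRep q K L c = lfUnramRep q K L c :=
      MulAction.mem_stabilizer_iff.1
        (Subgroup.zpow_mem _ (MulAction.mem_stabilizer_iff.2 hfix) k)
    exact congrArg Units.val h1
  obtain ⟨a₀, ha₀⟩ := (IsGalois.mem_range_algebraMap_iff_fixed _).2 hall
  have ha₀0 : a₀ ≠ 0 := by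
    rintro rfl
    rw [map_zero] at ha₀
    exact (Units.ne_zero _) ha₀.symm
  have hrep : lfUnramRep q K L c = Units.map (algebraMap K L : K →* L) (Units.mk0 a₀ ha₀0) := by
    apply Units.ext
    rw [← ha₀]
    rfl
  exact ⟨Units.mk0 a₀ ha₀0, hrep, by rwa [← hrep]⟩

theorem lfInvUnram_eq_zero_iff (h : LfUnramified q K L)
    (c : (L ≃ₐ[K] L) × (L ≃ₐ[K] L) → Lˣ) (hc : IsMulCocycle₂ c) :
    lfInvUnram q K L c = 0 ↔ IsMulCoboundary₂ c := by
  have := h.isGalois
  obtain ⟨a, ha, hcob⟩ := lfu_exists_rep q K L h c hc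
  rw [lfu_isMulCoboundary₂_iff_of_div hcob,
    cycCocycle_isMulCoboundary₂_iff_mem_norm q K L _ (mem_zpowers_lfFrob q K L h) a,
    lfUnramified_mem_norm_iff q K L h,
    lfu_invUnram_eq_of_rep q K L h c (a : K) (by rw [ha]; rfl),
    lfu_addCircle_div_eq_zero_iff _ _ (lfu_finrank_pos q K L).ne']

theorem lfInvUnram_nsmul (h : LfUnramified q K L)
    (c : (L ≃ₐ[K] L) × (L ≃ₐ[K] L) → Lˣ) (hc : IsMulCocycle₂ c) :
    Module.finrank K L • lfInvUnram q K L c = 0 := by
  have _ := h
  have _ := hc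
  unfold lfInvUnram
  rw [← AddCircle.coe_nsmul, AddCircle.coe_eq_zero_iff]
  refine ⟨lfOrd q L ((lfUnramRep q K L c : Lˣ) : L), ?_⟩
  have hn : (Module.finrank K L : ℚ) ≠ 0 := by exact_mod_cast (lfu_finrank_pos q K L).ne'
  rw [zsmul_eq_mul, mul_one, nsmul_eq_mul, mul_div_cancel₀ _ hn]

/-- Cohomologous cocycles of an unramified extension have the same invariant. -/
theorem lfu_invUnram_eq_of_div (h : LfUnramified q K L)
    {c c' : (L ≃ₐ[K] L) × (L ≃ₐ[K] L) → Lˣ} (hcob : IsMulCoboundary₂ (c / c')) :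
    lfInvUnram q K L c = lfInvUnram q K L c' := by
  have h1 : c = c' * (c / c') := by rw [mul_div_cancel]
  have h2 : lfInvUnram q K L (c / c') = 0 :=
    (lfInvUnram_eq_zero_iff q K L h _ (lfu_isMulCocycle₂_of_isMulCoboundary₂ hcob)).2 hcob
  conv_lhs => rw [h1]
  rw [lfInvUnram_mul, h2, add_zero]

end Unram

section UnramBC

variable (q : ℕ) [Fact q.Prime]
  (K : Type) [Field K] [Algebra ℚ_[q] K] [FiniteDimensional ℚ_[q] K]
  (L : Type) [Field L] [Algebra ℚ_[q] L] [FiniteDimensional ℚ_[q] L]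
  (K' : Type) [Field K'] [Algebra ℚ_[q] K'] [FiniteDimensional ℚ_[q] K']
  (M : Type) [Field M] [Algebra ℚ_[q] M] [FiniteDimensional ℚ_[q] M]
  [Algebra K L] [IsScalarTower ℚ_[q] K L] [Algebra K K'] [IsScalarTower ℚ_[q] K K']
  [Algebra L M] [IsScalarTower ℚ_[q] L M] [Algebra K' M] [IsScalarTower ℚ_[q] K' M]
  [Algebra K M] [IsScalarTower ℚ_[q] K M] [IsScalarTower K L M] [IsScalarTower K K' M]

/-- Equivariance of `Lˣ → Mˣ` with respect to `lfGalRes`. -/
theorem lfu_galRes_smul [Normal K L] (σ : M ≃ₐ[K'] M) (x : Lˣ) :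
    Units.map (algebraMap L M : L →* M) (lfGalRes K L K' M σ • x) =
      σ • Units.map (algebraMap L M : L →* M) x := by
  apply Units.ext
  exact lfGalRes_commutes K L K' M σ (x : L)

/-- Base change of cocycles is a cocycle (pure algebra). -/
theorem lfBC_isMulCocycle₂ [Normal K L] (c : (L ≃ₐ[K] L) × (L ≃ₐ[K] L) → Lˣ)
    (hc : IsMulCocycle₂ c) : IsMulCocycle₂ (lfBC K L K' M c) :=
  pullCochain₂_isMulCocycle₂ (lfGalRes K L K' M) (Units.map (algebraMap L M : L →* M))
    (lfu_galRes_smul K L K' M) c hc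

theorem lfBC_isMulCoboundary₂ [Normal K L] (c : (L ≃ₐ[K] L) × (L ≃ₐ[K] L) → Lˣ)
    (hc : IsMulCoboundary₂ c) : IsMulCoboundary₂ (lfBC K L K' M c) :=
  pullCochain₂_isMulCoboundary₂ (lfGalRes K L K' M) (Units.map (algebraMap L M : L →* M))
    (lfu_galRes_smul K L K' M) c hc

theorem lfu_lfBC_div [Normal K L] (c c' : (L ≃ₐ[K] L) × (L ≃ₐ[K] L) → Lˣ) :
    lfBC K L K' M (c / c') = lfBC K L K' M c / lfBC K L K' M c' := by
  funext p
  show Units.map (algebraMap L M : L →* M) (c (_, _) / c' (_, _)) = _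
  rw [map_div]
  rfl

/-- Base change between unramified extensions multiplies the invariant by `[K':K]`. -/
theorem lfInvUnram_baseChange (h : LfUnramified q K L) [Normal K L] (h' : LfUnramified q K' M)
    (c : (L ≃ₐ[K] L) × (L ≃ₐ[K] L) → Lˣ) (hc : IsMulCocycle₂ c) :
    lfInvUnram q K' M (lfBC K L K' M c) = Module.finrank K K' • lfInvUnram q K L c := by
  have hfdL := lfu_finiteDimensional q K L
  have hfdM := lfu_finiteDimensional q K' M
  have hgalL := h.isGalois
  have hgalM := h'.isGalois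
  have hφ := mem_zpowers_lfFrob q K L h
  have hφ' := mem_zpowers_lfFrob q K' M h'
  have hnL : orderOf (lfFrob q K L) = Module.finrank K L := orderOf_lfFrob q K L h
  have hnM : orderOf (lfFrob q K' M) = Module.finrank K' M := orderOf_lfFrob q K' M h'
  have hnLpos : 0 < Module.finrank K L := lfu_finrank_pos q K L
  have hnMpos : 0 < Module.finrank K' M := lfu_finrank_pos q K' M
  -- `ρ φ' = φ ^ f`
  have hd : lfGalRes K L K' M (lfFrob q K' M) = lfFrob q K L ^ lfInertiaDeg q K K' :=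
    lfFrob_baseChange q K L K' M h h'
  -- `n ∣ f * n'`
  have hdvd : Module.finrank K L ∣ lfInertiaDeg q K K' * Module.finrank K' M := by
    rw [← hnL]
    apply orderOf_dvd_of_pow_eq_one
    rw [pow_mul, ← hd, ← map_pow, ← hnM, pow_orderOf_eq_one, map_one]
  obtain ⟨t, ht⟩ := hdvd
  -- reduce to a cyclic cocycle
  obtain ⟨a, ha, hcob⟩ := lfu_exists_rep q K L h c hc
  have hcob1 : IsMulCoboundary₂ (lfBC K L K' M c /
      lfBC K L K' M (cycCocycle (lfFrob q K L) (Units.map (algebraMap K L : K →* L) a))) := by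
    rw [← lfu_lfBC_div]
    exact lfBC_isMulCoboundary₂ K L K' M _ hcob
  have hfix : lfFrob q K L • Units.map (algebraMap K L : K →* L) a =
      Units.map (algebraMap K L : K →* L) a := by
    apply Units.ext
    exact (lfFrob q K L).commutes (a : K)
  have hcob2 : IsMulCoboundary₂
      (lfBC K L K' M (cycCocycle (lfFrob q K L) (Units.map (algebraMap K L : K →* L) a)) /
        cycCocycle (lfFrob q K' M)
          (Units.map (algebraMap L M : L →* M) (Units.map (algebraMap K L : K →* L) a) ^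
            (lfInertiaDeg q K K' * Nat.card (M ≃ₐ[K'] M) / Nat.card (L ≃ₐ[K] L)))) :=
    pullCochain₂_cycCocycle (lfGalRes K L K' M)
      (Units.map (algebraMap L M : L →* M)) (lfu_galRes_smul K L K' M)
      (lfFrob q K L) hφ (lfFrob q K' M) hφ' (lfInertiaDeg q K K') hd
      (Units.map (algebraMap K L : K →* L) a) hfix
  have hexp : lfInertiaDeg q K K' * Nat.card (M ≃ₐ[K'] M) / Nat.card (L ≃ₐ[K] L) = t := by
    rw [IsGalois.card_aut_eq_finrank, IsGalois.card_aut_eq_finrank, ht,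
      Nat.mul_div_cancel_left _ hnLpos]
  rw [hexp] at hcob2
  have hval : Units.map (algebraMap L M : L →* M) (Units.map (algebraMap K L : K →* L) a) ^ t =
      Units.map (algebraMap K' M : K' →* M) (Units.map (algebraMap K K' : K →* K') a ^ t) := by
    apply Units.ext
    rw [map_pow]
    show (algebraMap L M (algebraMap K L (a : K))) ^ t = (algebraMap K' M (algebraMap K K' (a : K))) ^ t
    rw [← IsScalarTower.algebraMap_apply K L M, ← IsScalarTower.algebraMap_apply K K' M]
  rw [hval] at hcob2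
  have hcob3 : IsMulCoboundary₂ (lfBC K L K' M c / cycCocycle (lfFrob q K' M)
      (Units.map (algebraMap K' M : K' →* M) (Units.map (algebraMap K K' : K →* K') a ^ t))) := by
    have := lfu_isMulCoboundary₂_mul hcob1 hcob2
    rwa [div_mul_div_cancel] at this
  rw [lfu_invUnram_eq_of_div q K' M h' hcob3, lfInvUnram_cycCocycle q K' M h',
    lfu_invUnram_eq_of_rep q K L h c (a : K) (by rw [ha]; rfl), ← AddCircle.coe_nsmul]
  congr 1
  rw [Units.val_pow_eq_pow_val, lfOrd_pow]
  show (((t : ℤ) * lfOrd q K' (algebraMap K K' (a : K)) : ℤ) : ℚ) / _ = _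
  rw [lfOrd_algebraMap, ← lfRamIdx_mul_lfInertiaDeg q K K', nsmul_eq_mul]
  have h1 : (Module.finrank K L : ℚ) ≠ 0 := by exact_mod_cast hnLpos.ne'
  have h2 : (Module.finrank K' M : ℚ) ≠ 0 := by exact_mod_cast hnMpos.ne'
  have h3 : (lfInertiaDeg q K K' : ℚ) * (Module.finrank K' M : ℚ) = (Module.finrank K L : ℚ) * t := by
    exact_mod_cast ht
  push_cast
  field_simp
  linear_combination (-(lfRamIdx q K K' : ℚ) * (lfOrd q K (a : K) : ℚ)) * h3

end UnramBC

end Fermat.Agent.S55
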