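import Fermat.Agent.S55.LocalBrauerOrder
import Fermat.Agent.S55.LocalBrauerUnram

/-!
# S55 / LOCAL layer, leaf LD4a `LocalBrauerUgly.lean`

`lfBC_inflation_injective` (inflation is injective on classes) and the "ugly lemma"
`lf_exists_unram_cohomologous`.  Helper names are prefixed `lbu`.
-/

set_option autoImplicit false
set_option linter.unusedSectionVars false
set_option linter.style.haveILetI false

namespace Fermat.Agent.S55

open groupCohomology

/-! ### Products and quotients of cocycles and coboundaries -/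

section CobAlgebra

variable {G : Type} [Group G] {X : Type} [CommGroup X] [MulDistribMulAction G X]

theorem lbu_cob_mul {f f' : G × G → X} (hf : IsMulCoboundary₂ f) (hf' : IsMulCoboundary₂ f') :
    IsMulCoboundary₂ (f * f') := by
  obtain ⟨x, hx⟩ := hf
  obtain ⟨x', hx'⟩ := hf'
  refine ⟨fun g => x g * x' g, fun g h => ?_⟩
  simp only [Pi.mul_apply, ← hx g h, ← hx' g h, smul_mul', div_eq_mul_inv, mul_inv]
  ac_rfl

theorem lbu_cob_inv {f : G × G → X} (hf : IsMulCoboundary₂ f) : IsMulCoboundary₂ f⁻¹ := by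
  obtain ⟨x, hx⟩ := hf
  refine ⟨fun g => (x g)⁻¹, fun g h => ?_⟩
  simp only [Pi.inv_apply, ← hx g h, smul_inv', div_eq_mul_inv, mul_inv, inv_inv]

theorem lbu_cob_div {f f' : G × G → X} (hf : IsMulCoboundary₂ f) (hf' : IsMulCoboundary₂ f') :
    IsMulCoboundary₂ (f / f') := by
  rw [div_eq_mul_inv]
  exact lbu_cob_mul hf (lbu_cob_inv hf')

theorem lbu_coc_mul {f f' : G × G → X} (hf : IsMulCocycle₂ f) (hf' : IsMulCocycle₂ f') :
    IsMulCocycle₂ (f * f') := by
  intro g h j
  simp only [Pi.mul_apply, smul_mul']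
  rw [mul_mul_mul_comm, hf g h j, hf' g h j, mul_mul_mul_comm]

theorem lbu_coc_inv {f : G × G → X} (hf : IsMulCocycle₂ f) : IsMulCocycle₂ f⁻¹ := by
  intro g h j
  simp only [Pi.inv_apply, smul_inv']
  rw [← mul_inv, ← mul_inv, hf g h j]

theorem lbu_coc_div {f f' : G × G → X} (hf : IsMulCocycle₂ f) (hf' : IsMulCocycle₂ f') :
    IsMulCocycle₂ (f / f') := by
  rw [div_eq_mul_inv]
  exact lbu_coc_mul hf (lbu_coc_inv hf')

end CobAlgebra

/-! ### Base change along a commutative square -/

section Square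

variable (K L K' M : Type) [Field K] [Field L] [Field K'] [Field M]
  [Algebra K L] [Algebra K K'] [Algebra L M] [Algebra K' M] [Algebra K M]
  [IsScalarTower K L M] [IsScalarTower K K' M]

theorem lbu_equivariant [Normal K L] (g : M ≃ₐ[K'] M) (x : Lˣ) :
    Units.map (algebraMap L M : L →* M) (lfGalRes K L K' M g • x) =
      g • Units.map (algebraMap L M : L →* M) x := by
  apply Units.ext
  simp only [Units.coe_map, MonoidHom.coe_coe]
  exact lfGalRes_commutes K L K' M g x

theorem lbu_lfBC_cocycle [Normal K L] (c : (L ≃ₐ[K] L) × (L ≃ₐ[K] L) → Lˣ)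
    (hc : IsMulCocycle₂ c) : IsMulCocycle₂ (lfBC K L K' M c) :=
  pullCochain₂_isMulCocycle₂ (lfGalRes K L K' M) (Units.map (algebraMap L M : L →* M))
    (lbu_equivariant K L K' M) c hc

theorem lbu_lfBC_coboundary [Normal K L] (c : (L ≃ₐ[K] L) × (L ≃ₐ[K] L) → Lˣ)
    (hc : IsMulCoboundary₂ c) : IsMulCoboundary₂ (lfBC K L K' M c) :=
  pullCochain₂_isMulCoboundary₂ (lfGalRes K L K' M) (Units.map (algebraMap L M : L →* M))
    (lbu_equivariant K L K' M) c hc

theorem lbu_lfBC_div [Normal K L] (c c' : (L ≃ₐ[K] L) × (L ≃ₐ[K] L) → Lˣ) :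
    lfBC K L K' M (c / c') = lfBC K L K' M c / lfBC K L K' M c' := by
  funext p
  simp [lfBC, pullCochain₂]

end Square

/-! ### Inflation `Gal(M/K) → Gal(L/K)` -/

section Infl

variable (K L M : Type) [Field K] [Field L] [Field M]
  [Algebra K L] [Algebra L M] [Algebra K M] [IsScalarTower K L M]

theorem lbu_lfGalRes_surjective [Normal K L] [Normal K M] :
    Function.Surjective (lfGalRes K L K M) := by
  intro τ
  obtain ⟨σ, hσ⟩ := AlgEquiv.restrictNormalHom_surjective M τ
  exact ⟨σ, hσ⟩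

theorem lbu_mem_ker_iff [Normal K L] (n : M ≃ₐ[K] M) :
    n ∈ (lfGalRes K L K M).ker ↔ ∀ x : L, n (algebraMap L M x) = algebraMap L M x := by
  rw [MonoidHom.mem_ker]
  constructor
  · intro h x
    rw [← lfGalRes_commutes K L K M n x, h]
    rfl
  · intro h
    apply AlgEquiv.ext
    intro x
    apply (algebraMap L M).injective
    rw [lfGalRes_commutes K L K M n x, h]
    rfl

theorem lbu_fixed [FiniteDimensional K M] [IsGalois K L] [IsGalois K M] (x : Mˣ)
    (hx : ∀ n ∈ (lfGalRes K L K M).ker, n • x = x) :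
    ∃ y : Lˣ, Units.map (algebraMap L M : L →* M) y = x := by
  have : IsGalois L M := IsGalois.tower_top_of_isGalois K L M
  have : FiniteDimensional L M := FiniteDimensional.right K L M
  have hfix : ∀ f : M ≃ₐ[L] M, f (x : M) = x := by
    intro f
    have hmem : f.restrictScalars K ∈ (lfGalRes K L K M).ker := by
      rw [lbu_mem_ker_iff]
      intro y
      exact f.commutes y
    have := hx _ hmem
    exact congrArg Units.val this
  obtain ⟨y, hy⟩ := (IsGalois.mem_range_algebraMap_iff_fixed (F := L) (E := M) (x : M)).2 hfix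
  have hy0 : y ≠ 0 := by
    rintro rfl
    rw [map_zero] at hy
    exact x.ne_zero hy.symm
  exact ⟨Units.mk0 y hy0, Units.ext hy⟩

/-- an element of the kernel of the restriction, as an `L`-automorphism -/
def lbuLift [Normal K L] (n : (lfGalRes K L K M).ker) : M ≃ₐ[L] M :=
  { (n : M ≃ₐ[K] M).toRingEquiv with
    commutes' := (lbu_mem_ker_iff K L M n).1 n.2 }

theorem lbuLift_mul [Normal K L] (n m : (lfGalRes K L K M).ker) :
    lbuLift K L M (n * m) = lbuLift K L M n * lbuLift K L M m :=
  AlgEquiv.ext fun _ => rfl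

end Infl

/-! ### Restriction to the kernel is base change to `L` -/

section RestrictKer

variable (K U L M : Type) [Field K] [Field U] [Field L] [Field M]
  [Algebra K U] [Algebra K L] [Algebra U M] [Algebra L M] [Algebra K M]
  [IsScalarTower K U M] [IsScalarTower K L M]

theorem lbu_lfGalRes_lift [Normal K U] [Normal K L] (n : (lfGalRes K L K M).ker) :
    lfGalRes K U L M (lbuLift K L M n) = lfGalRes K U K M (n : M ≃ₐ[K] M) := by
  apply AlgEquiv.ext
  intro x
  apply (algebraMap U M).injective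
  rw [lfGalRes_commutes K U L M, lfGalRes_commutes K U K M]
  rfl

theorem lbu_restrict_ker [Normal K U] [Normal K L]
    (u : (U ≃ₐ[K] U) × (U ≃ₐ[K] U) → Uˣ)
    (h : IsMulCoboundary₂ (lfBC K U L M u)) :
    IsMulCoboundary₂ (fun p : (lfGalRes K L K M).ker × (lfGalRes K L K M).ker =>
      lfBC K U K M u ((p.1 : M ≃ₐ[K] M), (p.2 : M ≃ₐ[K] M))) := by
  obtain ⟨x, hx⟩ := h
  refine ⟨fun n => x (lbuLift K L M n), fun n m => ?_⟩
  have h1 := hx (lbuLift K L M n) (lbuLift K L M m)
  rw [lfBC_apply, lbu_lfGalRes_lift, lbu_lfGalRes_lift, ← lbuLift_mul] at h1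
  show _ = lfBC K U K M u ((n : M ≃ₐ[K] M), (m : M ≃ₐ[K] M))
  rw [lfBC_apply, ← h1]
  rfl

end RestrictKer

/-! ### Transitivity of base change -/

section Comp

/- `K ⊆ U ⊆ U' ⊆ M`, `K ⊆ L ⊆ U'`. -/
variable (K U L U' M : Type) [Field K] [Field U] [Field L] [Field U'] [Field M]
  [Algebra K U] [Algebra K L] [Algebra U U'] [Algebra L U'] [Algebra K U']
  [Algebra U' M] [Algebra U M] [Algebra L M] [Algebra K M]
  [IsScalarTower K U U'] [IsScalarTower K L U'] [IsScalarTower K U M] [IsScalarTower K L M]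
  [IsScalarTower U U' M] [IsScalarTower L U' M]

theorem lbu_lfGalRes_comp [Normal K U] [Normal L U'] (σ : M ≃ₐ[L] M) :
    lfGalRes K U L U' (lfGalRes L U' L M σ) = lfGalRes K U L M σ := by
  apply AlgEquiv.ext
  intro x
  apply (algebraMap U M).injective
  rw [lfGalRes_commutes K U L M σ x, IsScalarTower.algebraMap_apply U U' M,
    lfGalRes_commutes K U L U', lfGalRes_commutes L U' L M, ← IsScalarTower.algebraMap_apply U U' M]

theorem lbu_lfBC_comp [Normal K U] [Normal L U']
    (u : (U ≃ₐ[K] U) × (U ≃ₐ[K] U) → Uˣ) :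
    lfBC L U' L M (lfBC K U L U' u) = lfBC K U L M u := by
  funext p
  obtain ⟨σ, τ⟩ := p
  rw [lfBC_apply, lfBC_apply, lfBC_apply, lbu_lfGalRes_comp, lbu_lfGalRes_comp]
  apply Units.ext
  simp only [Units.coe_map, MonoidHom.coe_coe]
  rw [← IsScalarTower.algebraMap_apply U U' M]

end Comp

/-! ### The inflation of an unramified class of degree `[L:K]` dies on `Gal(M/L)` -/

section RestrictCob

variable (q : ℕ) [Fact q.Prime]
  (K : Type) [Field K] [Algebra ℚ_[q] K] [FiniteDimensional ℚ_[q] K]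
  (U : Type) [Field U] [Algebra ℚ_[q] U] [FiniteDimensional ℚ_[q] U]
  (L : Type) [Field L] [Algebra ℚ_[q] L] [FiniteDimensional ℚ_[q] L]
  (U' : Type) [Field U'] [Algebra ℚ_[q] U'] [FiniteDimensional ℚ_[q] U']
  (M : Type) [Field M] [Algebra ℚ_[q] M] [FiniteDimensional ℚ_[q] M]
  [Algebra K U] [IsScalarTower ℚ_[q] K U] [Algebra K L] [IsScalarTower ℚ_[q] K L]
  [Algebra U U'] [IsScalarTower ℚ_[q] U U'] [Algebra L U'] [IsScalarTower ℚ_[q] L U']
  [Algebra K U'] [IsScalarTower ℚ_[q] K U'] [IsScalarTower K U U'] [IsScalarTower K L U']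
  [Algebra U' M] [IsScalarTower ℚ_[q] U' M] [Algebra U M] [Algebra L M] [Algebra K M]
  [IsScalarTower K U M] [IsScalarTower K L M] [IsScalarTower U U' M] [IsScalarTower L U' M]

theorem lbu_restrict_coboundary_aux (hU : LfUnramified q K U) [Normal K U]
    (hU' : LfUnramified q L U') (hdeg : Module.finrank K U = Module.finrank K L)
    (u : (U ≃ₐ[K] U) × (U ≃ₐ[K] U) → Uˣ) (hu : IsMulCocycle₂ u) :
    IsMulCoboundary₂ (lfBC K U L M u) := by
  haveI : IsGalois L U' := LfUnramified.isGalois q L U' hU'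
  have h1 : lfInvUnram q L U' (lfBC K U L U' u) = 0 := by
    rw [lfInvUnram_baseChange q K U L U' hU hU' u hu, ← hdeg]
    exact lfInvUnram_nsmul q K U hU u hu
  have h2 : IsMulCoboundary₂ (lfBC K U L U' u) :=
    (lfInvUnram_eq_zero_iff q L U' hU' _ (lbu_lfBC_cocycle K U L U' u hu)).1 h1
  rw [← lbu_lfBC_comp K U L U' M u]
  exact lbu_lfBC_coboundary L U' L M _ h2

end RestrictCob

/-! ### The unramified family with invariants `k/n` -/

section Family

variable (q : ℕ) [Fact q.Prime]
  (K : Type) [Field K] [Algebra ℚ_[q] K] [FiniteDimensional ℚ_[q] K]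
  (U : Type) [Field U] [Algebra ℚ_[q] U] [FiniteDimensional ℚ_[q] U]
  [Algebra K U] [IsScalarTower ℚ_[q] K U]

/-- the unramified cocycle with invariant `k/n`, for a uniformizer `a` -/
noncomputable def lbuFam (a : Kˣ) (k : ℕ) : (U ≃ₐ[K] U) × (U ≃ₐ[K] U) → Uˣ :=
  cycCocycle (lfFrob q K U) (Units.map (algebraMap K U : K →* U) (a ^ k))

theorem lbuFam_cocycle (hU : LfUnramified q K U) (a : Kˣ) (k : ℕ) :
    IsMulCocycle₂ (lbuFam q K U a k) := by
  haveI : FiniteDimensional K U := FiniteDimensional.right ℚ_[q] K U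
  refine cycCocycle_isMulCocycle₂ (lfFrob q K U) (mem_zpowers_lfFrob q K U hU) _ ?_
  apply Units.ext
  exact (lfFrob q K U).commutes _

theorem lbuFam_inv (hU : LfUnramified q K U) (a : Kˣ) (ha : IsLfUniformizer q K (a : K)) (k : ℕ) :
    lfInvUnram q K U (lbuFam q K U a k) = (((k : ℚ) / (Module.finrank K U : ℚ) : ℚ) : AddCircle (1 : ℚ)) := by
  rw [lbuFam, lfInvUnram_cycCocycle q K U hU (a ^ k)]
  rw [Units.val_pow_eq_pow_val, lfOrd_pow, ha]
  simp

theorem lbu_addCircle_ne {n i k : ℕ} (hi : i < n) (hk : k < n) (hik : i ≠ k) :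
    (((i : ℚ) / (n : ℚ) : ℚ) : AddCircle (1 : ℚ)) ≠ (((k : ℚ) / (n : ℚ) : ℚ) : AddCircle (1 : ℚ)) := by
  intro h
  have hn : (0 : ℚ) < n := by
    have : 0 < n := lt_of_le_of_lt (Nat.zero_le _) hi
    exact_mod_cast this
  rw [AddCircle.coe_eq_coe_iff_of_mem_Ico (a := 0)] at h
  · rw [div_left_inj' hn.ne'] at h
    exact hik (by exact_mod_cast h)
  · constructor
    · positivity
    · rw [zero_add, div_lt_one hn]
      exact_mod_cast hi
  · constructor
    · positivity
    · rw [zero_add, div_lt_one hn]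
      exact_mod_cast hk

theorem lbuFam_not_cohomologous (hU : LfUnramified q K U) (a : Kˣ)
    (ha : IsLfUniformizer q K (a : K)) {i k : ℕ} (hi : i < Module.finrank K U)
    (hk : k < Module.finrank K U) (hik : i ≠ k) :
    ¬ IsMulCoboundary₂ (lbuFam q K U a i / lbuFam q K U a k) := by
  intro h
  have hcoc : IsMulCocycle₂ (lbuFam q K U a i / lbuFam q K U a k) :=
    lbu_coc_div (lbuFam_cocycle q K U hU a i) (lbuFam_cocycle q K U hU a k)
  have h0 := (lfInvUnram_eq_zero_iff q K U hU _ hcoc).2 h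
  have h1 : lbuFam q K U a i = (lbuFam q K U a i / lbuFam q K U a k) * lbuFam q K U a k := by
    rw [div_mul_cancel]
  have h2 := congrArg (lfInvUnram q K U) h1
  rw [lfInvUnram_mul, h0, zero_add, lbuFam_inv q K U hU a ha, lbuFam_inv q K U hU a ha] at h2
  exact lbu_addCircle_ne hi hk hik h2

end Family

section Ugly

variable (q : ℕ) [Fact q.Prime]
  (K : Type) [Field K] [Algebra ℚ_[q] K] [FiniteDimensional ℚ_[q] K]
  (L : Type) [Field L] [Algebra ℚ_[q] L] [FiniteDimensional ℚ_[q] L]
  (U : Type) [Field U] [Algebra ℚ_[q] U] [FiniteDimensional ℚ_[q] U]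
  (M : Type) [Field M] [Algebra ℚ_[q] M] [FiniteDimensional ℚ_[q] M]
  [Algebra K L] [IsScalarTower ℚ_[q] K L] [Algebra K U] [IsScalarTower ℚ_[q] K U]
  [Algebra L M] [IsScalarTower ℚ_[q] L M] [Algebra U M] [IsScalarTower ℚ_[q] U M]
  [Algebra K M] [IsScalarTower ℚ_[q] K M] [IsScalarTower K L M] [IsScalarTower K U M]

/-- the compositum `U·L ⊆ M` as the intermediate type -/
theorem lbu_restrict_coboundary (hU : LfUnramified q K U) [Normal K U]
    (hdeg : Module.finrank K U = Module.finrank K L)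
    (u : (U ≃ₐ[K] U) × (U ≃ₐ[K] U) → Uˣ) (hu : IsMulCocycle₂ u) :
    IsMulCoboundary₂ (lfBC K U L M u) := by
  let U' : IntermediateField L M := IntermediateField.adjoin L (Set.range (algebraMap U M))
  letI algUU' : Algebra U U' :=
    ((algebraMap U M).codRestrict U'
      (fun x => IntermediateField.subset_adjoin L _ ⟨x, rfl⟩)).toAlgebra
  haveI : FiniteDimensional L M := FiniteDimensional.right ℚ_[q] L M
  haveI : FiniteDimensional ℚ_[q] U' := FiniteDimensional.trans ℚ_[q] L U'
  haveI : IsScalarTower ℚ_[q] K U' := IsScalarTower.of_algebraMap_eq (fun r => Subtype.ext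
    (IsScalarTower.algebraMap_apply ℚ_[q] K M r))
  haveI : IsScalarTower ℚ_[q] U U' := IsScalarTower.of_algebraMap_eq (fun r => Subtype.ext
    (IsScalarTower.algebraMap_apply ℚ_[q] U M r))
  haveI : IsScalarTower K U U' := IsScalarTower.of_algebraMap_eq (fun r => Subtype.ext
    (IsScalarTower.algebraMap_apply K U M r))
  haveI : IsScalarTower U U' M := IsScalarTower.of_algebraMap_eq (fun _ => rfl)
  haveI : IsScalarTower ℚ_[q] U' M := IsScalarTower.of_algebraMap_eq (fun _ => rfl)
  have hM : Algebra.adjoin L (Set.range (algebraMap U U')) = ⊤ := by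
    have halg : ∀ x ∈ Set.range (algebraMap U M), IsAlgebraic L x :=
      fun x _ => Algebra.IsAlgebraic.isAlgebraic x
    have h1 : U'.toSubalgebra = Algebra.adjoin L (Set.range (algebraMap U M)) :=
      IntermediateField.adjoin_toSubalgebra_of_isAlgebraic halg
    apply Subalgebra.map_injective (f := U'.val) Subtype.val_injective
    rw [AlgHom.map_adjoin, Algebra.map_top, ← Set.range_comp]
    have h2 : (U'.val : U' → M) ∘ (algebraMap U U') = algebraMap U M := rfl
    rw [h2, ← h1]
    exact (IntermediateField.range_val U').symm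
  have hU' : LfUnramified q L U' := lfUnramified_baseChange q K U L U' hU hM
  exact lbu_restrict_coboundary_aux q K U L U' M hU hU' hdeg u hu

include q in
/-- Inflation is injective on classes (CO-b + Hilbert 90). -/
theorem lfBC_inflation_injective [IsGalois K L] [IsGalois K M]
    (c : (L ≃ₐ[K] L) × (L ≃ₐ[K] L) → Lˣ) (hc : IsMulCocycle₂ c)
    (h : IsMulCoboundary₂ (lfBC K L K M c)) : IsMulCoboundary₂ c :=
  have : FiniteDimensional K M := FiniteDimensional.right ℚ_[q] K M
  isMulCoboundary₂_of_pullCochain₂ (lfGalRes K L K M) (lbu_lfGalRes_surjective K L M)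
    (Units.map (algebraMap L M : L →* M)) (Units.map_injective (algebraMap L M).injective)
    (lbu_equivariant K L K M) (lbu_fixed K L M)
    (fun f hf => lf_hilbert90 q K M (lfGalRes K L K M).ker f hf) c hc h

/-- every inflated unramified class of degree `[L:K]` is inflated from `L/K` -/
theorem lbu_exists_descent [IsGalois K L] [IsGalois K M] (hU : LfUnramified q K U)
    [Normal K U] (hdeg : Module.finrank K U = Module.finrank K L)
    (u : (U ≃ₐ[K] U) × (U ≃ₐ[K] U) → Uˣ) (hu : IsMulCocycle₂ u) :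
    ∃ cbar : (L ≃ₐ[K] L) × (L ≃ₐ[K] L) → Lˣ, IsMulCocycle₂ cbar ∧
      IsMulCoboundary₂ (lfBC K U K M u / lfBC K L K M cbar) :=
  have : FiniteDimensional K M := FiniteDimensional.right ℚ_[q] K M
  exists_pullCochain₂_of_restrict (lfGalRes K L K M) (lbu_lfGalRes_surjective K L M)
    (Units.map (algebraMap L M : L →* M)) (Units.map_injective (algebraMap L M).injective)
    (lbu_equivariant K L K M) (lbu_fixed K L M)
    (fun f hf => lf_hilbert90 q K M (lfGalRes K L K M).ker f hf)
    (lfBC K U K M u) (lbu_lfBC_cocycle K U K M u hu)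
    (lbu_restrict_ker K U L M u (lbu_restrict_coboundary q K L U M hU hdeg u hu))

/-- Converse half (first step of the proof of the ugly lemma; requested by LD4b for surjectivity
of the invariant): every class of the unramified `U/K` of degree `[L:K]` becomes, after inflation
to `M`, the inflation of a class of `L/K` (its restriction to `L` has invariant `n · inv = 0`;
then CO-b). -/
theorem lf_exists_cohomologous_of_unram [IsGalois K L] [IsGalois K M] (hU : LfUnramified q K U)
    [Normal K U] (hdeg : Module.finrank K U = Module.finrank K L)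
    (u : (U ≃ₐ[K] U) × (U ≃ₐ[K] U) → Uˣ) (hu : IsMulCocycle₂ u) :
    ∃ c : (L ≃ₐ[K] L) × (L ≃ₐ[K] L) → Lˣ, IsMulCocycle₂ c ∧
      IsMulCoboundary₂ (lfBC K U K M u / lfBC K L K M c) :=
  lbu_exists_descent q K L U M hU hdeg u hu

/-- The "ugly lemma": inside a Galois `M/K`, every class of `L/K` is the inflation of a class of
the unramified extension `U/K` of the same degree. -/
theorem lf_exists_unram_cohomologous [IsGalois K L] [IsGalois K M] (hU : LfUnramified q K U)
    [Normal K U] (hdeg : Module.finrank K U = Module.finrank K L)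
    (c : (L ≃ₐ[K] L) × (L ≃ₐ[K] L) → Lˣ) (hc : IsMulCocycle₂ c) :
    ∃ u : (U ≃ₐ[K] U) × (U ≃ₐ[K] U) → Uˣ, IsMulCocycle₂ u ∧
      IsMulCoboundary₂ (lfBC K L K M c / lfBC K U K M u) := by
  haveI : IsGalois K U := LfUnramified.isGalois q K U hU
  obtain ⟨ϖ, hϖ⟩ := exists_isLfUniformizer q K
  set a : Kˣ := Units.mk0 ϖ (IsLfUniformizer.ne_zero q K hϖ) with ha_def
  have ha : IsLfUniformizer q K (a : K) := hϖ
  set n := Module.finrank K L with hn_def
  -- descents of the unramified family
  have hdesc : ∀ k : ℕ, ∃ cbar : (L ≃ₐ[K] L) × (L ≃ₐ[K] L) → Lˣ, IsMulCocycle₂ cbar ∧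
      IsMulCoboundary₂ (lfBC K U K M (lbuFam q K U a k) / lfBC K L K M cbar) :=
    fun k => lbu_exists_descent q K L U M hU hdeg _ (lbuFam_cocycle q K U hU a k)
  choose cbar hcbar_coc hcbar_cob using hdesc
  -- the pigeonhole family
  let d : Fin (n + 1) → (L ≃ₐ[K] L) × (L ≃ₐ[K] L) → Lˣ :=
    fun i => if (i : ℕ) < n then cbar i else c
  have hd : ∀ i, IsMulCocycle₂ (d i) := by
    intro i
    by_cases hi : (i : ℕ) < n
    · simp only [d, if_pos hi]; exact hcbar_coc i
    · simp only [d, if_neg hi]; exact hc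
  obtain ⟨i, k, hik, hcob⟩ := lf_exists_cohomologous q K L d hd
  -- two members of the family are never cohomologous
  have hclaim : ∀ i k : ℕ, i < n → k < n → i ≠ k → ¬ IsMulCoboundary₂ (cbar i / cbar k) := by
    intro i k hi hk hik h
    have h1 : IsMulCoboundary₂ (lfBC K L K M (cbar i) / lfBC K L K M (cbar k)) := by
      rw [← lbu_lfBC_div]
      exact lbu_lfBC_coboundary K L K M _ h
    have h2 : IsMulCoboundary₂
        (lfBC K U K M (lbuFam q K U a i) / lfBC K U K M (lbuFam q K U a k)) := by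
      have := lbu_cob_div (lbu_cob_mul (hcbar_cob i) h1) (hcbar_cob k)
      convert this using 1
      rw [div_mul_div_cancel, div_div_div_cancel_right]
    rw [← lbu_lfBC_div] at h2
    have h3 := lfBC_inflation_injective q K U M _
      (lbu_coc_div (lbuFam_cocycle q K U hU a i) (lbuFam_cocycle q K U hU a k)) h2
    exact lbuFam_not_cohomologous q K U hU a ha (hdeg ▸ hi) (hdeg ▸ hk) hik h3
  -- hence `c` is cohomologous to a member
  have hmain : ∃ k : ℕ, IsMulCoboundary₂ (c / cbar k) := by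
    by_cases hi : (i : ℕ) < n
    · by_cases hk : (k : ℕ) < n
      · exfalso
        simp only [d, if_pos hi, if_pos hk] at hcob
        exact hclaim i k hi hk (fun h => hik (Fin.ext h)) hcob
      · simp only [d, if_pos hi, if_neg hk] at hcob
        refine ⟨i, ?_⟩
        have := lbu_cob_inv hcob
        rwa [inv_div] at this
    · by_cases hk : (k : ℕ) < n
      · simp only [d, if_neg hi, if_pos hk] at hcob
        exact ⟨k, hcob⟩
      · exfalso
        have h1 : (i : ℕ) = n := le_antisymm (Nat.lt_succ_iff.mp i.2) (not_lt.mp hi)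
        have h2 : (k : ℕ) = n := le_antisymm (Nat.lt_succ_iff.mp k.2) (not_lt.mp hk)
        exact hik (Fin.ext (h1.trans h2.symm))
  obtain ⟨k, hk⟩ := hmain
  refine ⟨lbuFam q K U a k, lbuFam_cocycle q K U hU a k, ?_⟩
  have h1 : IsMulCoboundary₂ (lfBC K L K M c / lfBC K L K M (cbar k)) := by
    rw [← lbu_lfBC_div]
    exact lbu_lfBC_coboundary K L K M _ hk
  have := lbu_cob_div h1 (hcbar_cob k)
  rwa [div_div_div_cancel_right] at this

end Ugly

end Fermat.Agent.S55
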