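/-
S55 / LOCAL layer LD4b, part (b): field-theoretic constructions with all instances, in
continuation-passing form (so that the produced instances are ordinary local instances):
* `lfinv_amalgam_elim`  : two finite extensions of `L` embed over `L` into a common finite Galois
                          extension of `K`;
* `lfinv_amalgam_elim'` : the same over the base `K` itself;
* `lfinv_compositum_elim` : the compositum `B·A` inside `N`, with `Algebra.adjoin B (range A) = ⊤`;
* `lfinv_unramExt_elim` : an unramified extension of every degree.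
Imports `LocalBrauerUgly` (LD4a) and through it the other LOCAL leaves (here only `lfUnramExt`
and its three lemmas are used).
-/
import Fermat.Agent.S55.LocalBrauerBC
import Fermat.Agent.S55.LocalBrauerUgly

set_option autoImplicit false
set_option linter.style.haveILetI false
set_option linter.unusedSectionVars false

namespace Fermat.Agent.S55

section Amalgam

variable (q : ℕ) [Fact q.Prime]
  (K : Type) [Field K] [Algebra ℚ_[q] K] [FiniteDimensional ℚ_[q] K]
  (L : Type) [Field L] [Algebra ℚ_[q] L] [FiniteDimensional ℚ_[q] L]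
  [Algebra K L] [IsScalarTower ℚ_[q] K L]
  (N₁ : Type) [Field N₁] [Algebra ℚ_[q] N₁] [FiniteDimensional ℚ_[q] N₁]
  [Algebra K N₁] [IsScalarTower ℚ_[q] K N₁] [Algebra L N₁] [IsScalarTower ℚ_[q] L N₁]
  [IsScalarTower K L N₁]
  (N₂ : Type) [Field N₂] [Algebra ℚ_[q] N₂] [FiniteDimensional ℚ_[q] N₂]
  [Algebra K N₂] [IsScalarTower ℚ_[q] K N₂] [Algebra L N₂] [IsScalarTower ℚ_[q] L N₂]
  [IsScalarTower K L N₂]

local notation "Ω₁" => AlgebraicClosure N₁

/-- Amalgam: two finite extensions `N₁`, `N₂` of `L` embed over `L` into a common finite Galois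
extension of `K` (continuation-passing form). -/
theorem lfinv_amalgam_elim {P : Prop}
    (h : ∀ (N : Type) [Field N] [Algebra ℚ_[q] N] [FiniteDimensional ℚ_[q] N]
      [Algebra K N] [IsScalarTower ℚ_[q] K N] [Algebra L N] [IsScalarTower ℚ_[q] L N]
      [IsScalarTower K L N]
      [Algebra N₁ N] [IsScalarTower ℚ_[q] N₁ N] [IsScalarTower K N₁ N] [IsScalarTower L N₁ N]
      [Algebra N₂ N] [IsScalarTower ℚ_[q] N₂ N] [IsScalarTower K N₂ N] [IsScalarTower L N₂ N]
      [IsGalois K N], P) : P := by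
  haveI : CharZero K := charZero_of_injective_algebraMap (algebraMap ℚ_[q] K).injective
  haveI : FiniteDimensional K N₁ := FiniteDimensional.right ℚ_[q] K N₁
  haveI : FiniteDimensional K N₂ := FiniteDimensional.right ℚ_[q] K N₂
  haveI : FiniteDimensional L N₂ := FiniteDimensional.right ℚ_[q] L N₂
  let φ : N₂ →ₐ[L] Ω₁ := IsAlgClosed.lift
  let f₁ : N₁ →ₐ[K] Ω₁ := IsScalarTower.toAlgHom K N₁ Ω₁
  let f₂ : N₂ →ₐ[K] Ω₁ := φ.restrictScalars K
  let E : IntermediateField K Ω₁ :=
    IntermediateField.normalClosure K N₁ Ω₁ ⊔ IntermediateField.normalClosure K N₂ Ω₁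
  have h₁ : ∀ x : N₁, algebraMap N₁ Ω₁ x ∈ E := fun x =>
    (le_sup_left : _ ≤ E) (f₁.fieldRange_le_normalClosure ⟨x, rfl⟩)
  have h₂ : ∀ x : N₂, φ x ∈ E := fun x =>
    (le_sup_right : _ ≤ E) (f₂.fieldRange_le_normalClosure ⟨x, rfl⟩)
  have hL : ∀ x : L, algebraMap L Ω₁ x ∈ E := fun x => by
    rw [IsScalarTower.algebraMap_apply L N₁ Ω₁ x]
    exact h₁ _
  letI aL : Algebra L E := ((algebraMap L Ω₁).codRestrict E hL).toAlgebra
  letI a₁ : Algebra N₁ E := ((algebraMap N₁ Ω₁).codRestrict E h₁).toAlgebra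
  letI a₂ : Algebra N₂ E := ((φ : N₂ →+* Ω₁).codRestrict E h₂).toAlgebra
  haveI : IsScalarTower ℚ_[q] L E := IsScalarTower.of_algebraMap_eq fun x =>
    Subtype.ext (IsScalarTower.algebraMap_apply ℚ_[q] L Ω₁ x)
  haveI : IsScalarTower K L E := IsScalarTower.of_algebraMap_eq fun x =>
    Subtype.ext (IsScalarTower.algebraMap_apply K L Ω₁ x)
  haveI : IsScalarTower ℚ_[q] N₁ E := IsScalarTower.of_algebraMap_eq fun x =>
    Subtype.ext (IsScalarTower.algebraMap_apply ℚ_[q] N₁ Ω₁ x)
  haveI : IsScalarTower K N₁ E := IsScalarTower.of_algebraMap_eq fun x =>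
    Subtype.ext (IsScalarTower.algebraMap_apply K N₁ Ω₁ x)
  haveI : IsScalarTower L N₁ E := IsScalarTower.of_algebraMap_eq fun x =>
    Subtype.ext (IsScalarTower.algebraMap_apply L N₁ Ω₁ x)
  haveI : IsScalarTower ℚ_[q] N₂ E := IsScalarTower.of_algebraMap_eq fun x =>
    Subtype.ext ((φ.restrictScalars ℚ_[q]).commutes x).symm
  haveI : IsScalarTower K N₂ E := IsScalarTower.of_algebraMap_eq fun x =>
    Subtype.ext (f₂.commutes x).symm
  haveI : IsScalarTower L N₂ E := IsScalarTower.of_algebraMap_eq fun x =>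
    Subtype.ext (φ.commutes x).symm
  haveI : FiniteDimensional K E := inferInstance
  haveI : FiniteDimensional ℚ_[q] E := FiniteDimensional.trans ℚ_[q] K E
  haveI : Normal K Ω₁ := IsAlgClosure.normal K Ω₁
  haveI : Normal K E := inferInstance
  haveI : IsGalois K E := {}
  exact h E

end Amalgam

section Amalgam'

variable (q : ℕ) [Fact q.Prime]
  (K : Type) [Field K] [Algebra ℚ_[q] K] [FiniteDimensional ℚ_[q] K]
  (N₁ : Type) [Field N₁] [Algebra ℚ_[q] N₁] [FiniteDimensional ℚ_[q] N₁]
  [Algebra K N₁] [IsScalarTower ℚ_[q] K N₁]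
  (N₂ : Type) [Field N₂] [Algebra ℚ_[q] N₂] [FiniteDimensional ℚ_[q] N₂]
  [Algebra K N₂] [IsScalarTower ℚ_[q] K N₂]

local notation "Ω₁" => AlgebraicClosure N₁

/-- Amalgam over the base: two finite extensions `N₁`, `N₂` of `K` embed over `K` into a common
finite Galois extension of `K` (continuation-passing form). -/
theorem lfinv_amalgam_elim' {P : Prop}
    (h : ∀ (N : Type) [Field N] [Algebra ℚ_[q] N] [FiniteDimensional ℚ_[q] N]
      [Algebra K N] [IsScalarTower ℚ_[q] K N]
      [Algebra N₁ N] [IsScalarTower ℚ_[q] N₁ N] [IsScalarTower K N₁ N]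
      [Algebra N₂ N] [IsScalarTower ℚ_[q] N₂ N] [IsScalarTower K N₂ N]
      [IsGalois K N], P) : P := by
  haveI : CharZero K := charZero_of_injective_algebraMap (algebraMap ℚ_[q] K).injective
  haveI : FiniteDimensional K N₁ := FiniteDimensional.right ℚ_[q] K N₁
  haveI : FiniteDimensional K N₂ := FiniteDimensional.right ℚ_[q] K N₂
  let φ : N₂ →ₐ[K] Ω₁ := IsAlgClosed.lift
  let f₁ : N₁ →ₐ[K] Ω₁ := IsScalarTower.toAlgHom K N₁ Ω₁
  let E : IntermediateField K Ω₁ :=
    IntermediateField.normalClosure K N₁ Ω₁ ⊔ IntermediateField.normalClosure K N₂ Ω₁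
  have h₁ : ∀ x : N₁, algebraMap N₁ Ω₁ x ∈ E := fun x =>
    (le_sup_left : _ ≤ E) (f₁.fieldRange_le_normalClosure ⟨x, rfl⟩)
  have h₂ : ∀ x : N₂, φ x ∈ E := fun x =>
    (le_sup_right : _ ≤ E) (φ.fieldRange_le_normalClosure ⟨x, rfl⟩)
  letI a₁ : Algebra N₁ E := ((algebraMap N₁ Ω₁).codRestrict E h₁).toAlgebra
  letI a₂ : Algebra N₂ E := ((φ : N₂ →+* Ω₁).codRestrict E h₂).toAlgebra
  haveI : IsScalarTower ℚ_[q] N₁ E := IsScalarTower.of_algebraMap_eq fun x =>
    Subtype.ext (IsScalarTower.algebraMap_apply ℚ_[q] N₁ Ω₁ x)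
  haveI : IsScalarTower K N₁ E := IsScalarTower.of_algebraMap_eq fun x =>
    Subtype.ext (IsScalarTower.algebraMap_apply K N₁ Ω₁ x)
  haveI : IsScalarTower ℚ_[q] N₂ E := IsScalarTower.of_algebraMap_eq fun x =>
    Subtype.ext ((φ.restrictScalars ℚ_[q]).commutes x).symm
  haveI : IsScalarTower K N₂ E := IsScalarTower.of_algebraMap_eq fun x =>
    Subtype.ext (φ.commutes x).symm
  haveI : FiniteDimensional K E := inferInstance
  haveI : FiniteDimensional ℚ_[q] E := FiniteDimensional.trans ℚ_[q] K E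
  haveI : Normal K Ω₁ := IsAlgClosure.normal K Ω₁
  haveI : Normal K E := inferInstance
  haveI : IsGalois K E := {}
  exact h E

end Amalgam'

section Compositum

variable (q : ℕ) [Fact q.Prime]
  (K : Type) [Field K] [Algebra ℚ_[q] K] [FiniteDimensional ℚ_[q] K]
  (A : Type) [Field A] [Algebra ℚ_[q] A] [FiniteDimensional ℚ_[q] A]
  [Algebra K A] [IsScalarTower ℚ_[q] K A]
  (B : Type) [Field B] [Algebra ℚ_[q] B] [FiniteDimensional ℚ_[q] B]
  [Algebra K B] [IsScalarTower ℚ_[q] K B]
  (N : Type) [Field N] [Algebra ℚ_[q] N] [FiniteDimensional ℚ_[q] N]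
  [Algebra K N] [IsScalarTower ℚ_[q] K N]
  [Algebra A N] [IsScalarTower ℚ_[q] A N] [IsScalarTower K A N]
  [Algebra B N] [IsScalarTower ℚ_[q] B N] [IsScalarTower K B N]

/-- The compositum `B·A` inside `N` (continuation-passing form). -/
theorem lfinv_compositum_elim {P : Prop}
    (h : ∀ (C : Type) [Field C] [Algebra ℚ_[q] C] [FiniteDimensional ℚ_[q] C]
      [Algebra K C] [IsScalarTower ℚ_[q] K C]
      [Algebra A C] [IsScalarTower ℚ_[q] A C] [IsScalarTower K A C]
      [Algebra B C] [IsScalarTower ℚ_[q] B C] [IsScalarTower K B C]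
      [Algebra C N] [IsScalarTower ℚ_[q] C N] [IsScalarTower K C N] [IsScalarTower A C N]
      [IsScalarTower B C N],
      Algebra.adjoin B (Set.range (algebraMap A C)) = ⊤ → P) : P := by
  let C : IntermediateField B N := IntermediateField.adjoin B (Set.range (algebraMap A N))
  have hA : ∀ x : A, algebraMap A N x ∈ C := fun x =>
    IntermediateField.subset_adjoin B _ ⟨x, rfl⟩
  letI aA : Algebra A C := ((algebraMap A N).codRestrict C hA).toAlgebra
  haveI : IsScalarTower A C N := IsScalarTower.of_algebraMap_eq fun x => rfl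
  haveI : IsScalarTower K C N := IsScalarTower.of_algebraMap_eq fun x => rfl
  haveI : IsScalarTower ℚ_[q] C N := IsScalarTower.of_algebraMap_eq fun x => rfl
  haveI : IsScalarTower K A C := IsScalarTower.of_algebraMap_eq fun x =>
    Subtype.ext (IsScalarTower.algebraMap_apply K A N x)
  haveI : IsScalarTower ℚ_[q] A C := IsScalarTower.of_algebraMap_eq fun x =>
    Subtype.ext (IsScalarTower.algebraMap_apply ℚ_[q] A N x)
  haveI : IsScalarTower ℚ_[q] K C := IsScalarTower.of_algebraMap_eq fun x =>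
    Subtype.ext (IsScalarTower.algebraMap_apply ℚ_[q] K N x)
  haveI : FiniteDimensional B N := FiniteDimensional.right ℚ_[q] B N
  haveI : FiniteDimensional B C := inferInstance
  haveI : FiniteDimensional ℚ_[q] C := FiniteDimensional.trans ℚ_[q] B C
  refine h C ?_
  rw [eq_top_iff]
  rintro ⟨x, hx⟩ -
  have h1 : C.toSubalgebra = Algebra.adjoin B (Set.range (algebraMap A N)) :=
    IntermediateField.adjoin_toSubalgebra _
  have hx' : x ∈ Algebra.adjoin B (Set.range (algebraMap A N)) := by
    rw [← h1]; exact hx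
  have h2 : Algebra.adjoin B (Set.range (algebraMap A N)) =
      (Algebra.adjoin B (Set.range (algebraMap A C))).map C.val := by
    rw [AlgHom.map_adjoin, ← Set.range_comp]
    rfl
  rw [h2] at hx'
  obtain ⟨y, hy, hyx⟩ := hx'
  have : y = ⟨x, hx⟩ := Subtype.ext hyx
  rw [← this]
  exact hy

end Compositum

section UnramExt

variable (q : ℕ) [Fact q.Prime]
  (K : Type) [Field K] [Algebra ℚ_[q] K] [FiniteDimensional ℚ_[q] K]

/-- An unramified extension of every degree `n > 0` exists (continuation-passing form). -/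
theorem lfinv_unramExt_elim {P : Prop} (n : ℕ) (hn : 0 < n)
    (h : ∀ (U : Type) [Field U] [Algebra ℚ_[q] U] [FiniteDimensional ℚ_[q] U]
      [Algebra K U] [IsScalarTower ℚ_[q] K U],
      LfUnramified q K U → Module.finrank K U = n → P) : P := by
  haveI := lfUnramExt_finiteDimensional' q K (AlgebraicClosure K) n hn
  exact h (lfUnramExt q K (AlgebraicClosure K) n)
    (lfUnramExt_unramified q K (AlgebraicClosure K) n hn)
    (lfUnramExt_finrank q K (AlgebraicClosure K) n hn)

end UnramExt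

end Fermat.Agent.S55
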