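/-
S55 / LOCAL layer LD4b: the local invariant `exists_localInv`.

`inv K L c` is defined through "witnesses": a finite Galois `N/K` containing `L`, an unramified
`U/K` inside `N`, and a cocycle `u` of `U/K` whose inflation to `N` is cohomologous to the
inflation of `c`; the invariant is `lfInvUnram q K U u`.  Uniqueness (independence of the witness)
comes from amalgamating two witnesses; existence from the "ugly lemma".
Imports `LocalBrauerAmalgam` -> `LocalBrauerUgly` (LD4a, real file of helper16; the converse half of the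
ugly lemma is used under helper16's name `lbu_exists_descent` = spec `lf_exists_cohomologous_of_unram`).
-/
import Fermat.Agent.S55.LocalBrauerAmalgam

set_option autoImplicit false
set_option linter.style.haveILetI false
set_option linter.unusedSectionVars false

namespace Fermat.Agent.S55

open groupCohomology

/-! ## Core lemmas (variable style) -/

section CoreS

variable (q : ℕ) [Fact q.Prime]
  (K : Type) [Field K] [Algebra ℚ_[q] K] [FiniteDimensional ℚ_[q] K]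
  (U : Type) [Field U] [Algebra ℚ_[q] U] [FiniteDimensional ℚ_[q] U]
  [Algebra K U] [IsScalarTower ℚ_[q] K U]
  (N : Type) [Field N] [Algebra ℚ_[q] N] [FiniteDimensional ℚ_[q] N]
  [Algebra K N] [IsScalarTower ℚ_[q] K N]
  [Algebra U N] [IsScalarTower ℚ_[q] U N] [IsScalarTower K U N]

/-- Two cocycles of an unramified `U/K` that become cohomologous in a Galois `N/K` have the same
invariant. -/
theorem lfinv_unram_eq_of_cob (hU : LfUnramified q K U) [Normal K U] [IsGalois K N]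
    (v₁ v₂ : (U ≃ₐ[K] U) × (U ≃ₐ[K] U) → Uˣ) (h₁ : IsMulCocycle₂ v₁) (h₂ : IsMulCocycle₂ v₂)
    (h : IsMulCoboundary₂ (lfBC K U K N v₁ / lfBC K U K N v₂)) :
    lfInvUnram q K U v₁ = lfInvUnram q K U v₂ := by
  haveI : IsGalois K U := LfUnramified.isGalois q K U hU
  rw [← lfinv_BC_div] at h
  have hd : IsMulCocycle₂ (v₁ / v₂) := lfinv_coc_div h₁ h₂
  have h' := lfBC_inflation_injective q K U N (v₁ / v₂) hd h
  have hz := (lfInvUnram_eq_zero_iff q K U hU _ hd).2 h'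
  have e : v₁ = v₁ / v₂ * v₂ := (div_mul_cancel v₁ v₂).symm
  rw [e, lfInvUnram_mul, hz, zero_add]

/-- The invariant of the trivial cocycle is zero. -/
theorem lfinv_unram_one : lfInvUnram q K U (1 : (U ≃ₐ[K] U) × (U ≃ₐ[K] U) → Uˣ) = 0 := by
  have h := lfInvUnram_mul q K U 1 1
  rw [mul_one] at h
  exact left_eq_add.1 h

end CoreS

section CoreI

variable (q : ℕ) [Fact q.Prime]
  (K : Type) [Field K] [Algebra ℚ_[q] K] [FiniteDimensional ℚ_[q] K]
  (U : Type) [Field U] [Algebra ℚ_[q] U] [FiniteDimensional ℚ_[q] U]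
  [Algebra K U] [IsScalarTower ℚ_[q] K U]
  (U' : Type) [Field U'] [Algebra ℚ_[q] U'] [FiniteDimensional ℚ_[q] U']
  [Algebra K U'] [IsScalarTower ℚ_[q] K U']
  [Algebra U U'] [IsScalarTower ℚ_[q] U U'] [IsScalarTower K U U']

/-- Inflation between unramified extensions preserves the invariant. -/
theorem lfinv_unram_inflate (hU : LfUnramified q K U) (hU' : LfUnramified q K U') [Normal K U]
    (u : (U ≃ₐ[K] U) × (U ≃ₐ[K] U) → Uˣ) (hu : IsMulCocycle₂ u) :
    lfInvUnram q K U' (lfBC K U K U' u) = lfInvUnram q K U u := by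
  rw [lfInvUnram_baseChange q K U K U' hU hU' u hu, Module.finrank_self, one_smul]

end CoreI

section CoreM

variable (K L U N K' N' : Type) [Field K] [Field L] [Field U] [Field N] [Field K'] [Field N']
  [Algebra K L] [Algebra K U] [Algebra K N] [Algebra L N] [Algebra U N]
  [IsScalarTower K L N] [IsScalarTower K U N]
  [Algebra K K'] [Algebra K N'] [Algebra K' N'] [Algebra N N'] [Algebra L N'] [Algebra U N']
  [IsScalarTower K K' N'] [IsScalarTower K N N'] [IsScalarTower L N N'] [IsScalarTower U N N']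
  [IsScalarTower K L N'] [IsScalarTower K U N']
  [Normal K L] [Normal K U] [Normal K N]

/-- A cohomology relation in `N/K` persists after base change to `N'/K'`. -/
theorem lfinv_cob_baseChange (c : (L ≃ₐ[K] L) × (L ≃ₐ[K] L) → Lˣ)
    (u : (U ≃ₐ[K] U) × (U ≃ₐ[K] U) → Uˣ)
    (h : IsMulCoboundary₂ (lfBC K L K N c / lfBC K U K N u)) :
    IsMulCoboundary₂ (lfBC K L K' N' c / lfBC K U K' N' u) := by
  rw [← lfinv_BC_trans K L K N K' N' c, ← lfinv_BC_trans K U K N K' N' u, ← lfinv_BC_div]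
  exact lfinv_BC_cob K N K' N' _ h

end CoreM

/-! ## Uniqueness -/

section Unique

variable (q : ℕ) [Fact q.Prime]
  (K : Type) [Field K] [Algebra ℚ_[q] K] [FiniteDimensional ℚ_[q] K]
  (L : Type) [Field L] [Algebra ℚ_[q] L] [FiniteDimensional ℚ_[q] L]
  [Algebra K L] [IsScalarTower ℚ_[q] K L]
  (N₁ : Type) [Field N₁] [Algebra ℚ_[q] N₁] [FiniteDimensional ℚ_[q] N₁]
  [Algebra K N₁] [IsScalarTower ℚ_[q] K N₁] [Algebra L N₁] [IsScalarTower ℚ_[q] L N₁]
  [IsScalarTower K L N₁]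
  (U₁ : Type) [Field U₁] [Algebra ℚ_[q] U₁] [FiniteDimensional ℚ_[q] U₁]
  [Algebra K U₁] [IsScalarTower ℚ_[q] K U₁] [Algebra U₁ N₁] [IsScalarTower ℚ_[q] U₁ N₁]
  [IsScalarTower K U₁ N₁]
  (N₂ : Type) [Field N₂] [Algebra ℚ_[q] N₂] [FiniteDimensional ℚ_[q] N₂]
  [Algebra K N₂] [IsScalarTower ℚ_[q] K N₂] [Algebra L N₂] [IsScalarTower ℚ_[q] L N₂]
  [IsScalarTower K L N₂]
  (U₂ : Type) [Field U₂] [Algebra ℚ_[q] U₂] [FiniteDimensional ℚ_[q] U₂]
  [Algebra K U₂] [IsScalarTower ℚ_[q] K U₂] [Algebra U₂ N₂] [IsScalarTower ℚ_[q] U₂ N₂]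
  [IsScalarTower K U₂ N₂]

/-- Independence of the witness. -/
theorem lfinv_unique [Normal K L] [IsGalois K N₁] [IsGalois K N₂] [Normal K U₁] [Normal K U₂]
    (hU₁ : LfUnramified q K U₁) (hU₂ : LfUnramified q K U₂)
    (c : (L ≃ₐ[K] L) × (L ≃ₐ[K] L) → Lˣ)
    (u₁ : (U₁ ≃ₐ[K] U₁) × (U₁ ≃ₐ[K] U₁) → U₁ˣ) (hu₁ : IsMulCocycle₂ u₁)
    (u₂ : (U₂ ≃ₐ[K] U₂) × (U₂ ≃ₐ[K] U₂) → U₂ˣ) (hu₂ : IsMulCocycle₂ u₂)
    (h₁ : IsMulCoboundary₂ (lfBC K L K N₁ c / lfBC K U₁ K N₁ u₁))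
    (h₂ : IsMulCoboundary₂ (lfBC K L K N₂ c / lfBC K U₂ K N₂ u₂)) :
    lfInvUnram q K U₁ u₁ = lfInvUnram q K U₂ u₂ := by
  apply lfinv_amalgam_elim q K L N₁ N₂
  intro N _ _ _ _ _ _ _ _ _ _ _ _ _ _ _ _ _
  letI : Algebra U₁ N := ((algebraMap N₁ N).comp (algebraMap U₁ N₁)).toAlgebra
  haveI : IsScalarTower U₁ N₁ N := IsScalarTower.of_algebraMap_eq fun x => rfl
  haveI : IsScalarTower K U₁ N := IsScalarTower.of_algebraMap_eq fun x => by
    change algebraMap K N x = algebraMap N₁ N (algebraMap U₁ N₁ (algebraMap K U₁ x))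
    rw [← IsScalarTower.algebraMap_apply K U₁ N₁, ← IsScalarTower.algebraMap_apply K N₁ N]
  haveI : IsScalarTower ℚ_[q] U₁ N := IsScalarTower.of_algebraMap_eq fun x => by
    change algebraMap ℚ_[q] N x = algebraMap N₁ N (algebraMap U₁ N₁ (algebraMap ℚ_[q] U₁ x))
    rw [← IsScalarTower.algebraMap_apply ℚ_[q] U₁ N₁, ← IsScalarTower.algebraMap_apply ℚ_[q] N₁ N]
  letI : Algebra U₂ N := ((algebraMap N₂ N).comp (algebraMap U₂ N₂)).toAlgebra
  haveI : IsScalarTower U₂ N₂ N := IsScalarTower.of_algebraMap_eq fun x => rfl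
  haveI : IsScalarTower K U₂ N := IsScalarTower.of_algebraMap_eq fun x => by
    change algebraMap K N x = algebraMap N₂ N (algebraMap U₂ N₂ (algebraMap K U₂ x))
    rw [← IsScalarTower.algebraMap_apply K U₂ N₂, ← IsScalarTower.algebraMap_apply K N₂ N]
  haveI : IsScalarTower ℚ_[q] U₂ N := IsScalarTower.of_algebraMap_eq fun x => by
    change algebraMap ℚ_[q] N x = algebraMap N₂ N (algebraMap U₂ N₂ (algebraMap ℚ_[q] U₂ x))
    rw [← IsScalarTower.algebraMap_apply ℚ_[q] U₂ N₂, ← IsScalarTower.algebraMap_apply ℚ_[q] N₂ N]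
  apply lfinv_compositum_elim q K U₁ U₂ N
  intro U₃ _ _ _ _ _ _ _ _ _ _ _ _ _ _ _ _ hM
  have hU₂₃ : LfUnramified q U₂ U₃ := lfUnramified_baseChange q K U₁ U₂ U₃ hU₁ hM
  have hU₃ : LfUnramified q K U₃ := (lfUnramified_tower_iff q K U₂ U₃).2 ⟨hU₂, hU₂₃⟩
  haveI : IsGalois K U₃ := LfUnramified.isGalois q K U₃ hU₃
  have hv₁ : IsMulCocycle₂ (lfBC K U₁ K U₃ u₁) := lfinv_BC_coc K U₁ K U₃ u₁ hu₁
  have hv₂ : IsMulCocycle₂ (lfBC K U₂ K U₃ u₂) := lfinv_BC_coc K U₂ K U₃ u₂ hu₂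
  have e₁ := lfinv_unram_inflate q K U₁ U₃ hU₁ hU₃ u₁ hu₁
  have e₂ := lfinv_unram_inflate q K U₂ U₃ hU₂ hU₃ u₂ hu₂
  rw [← e₁, ← e₂]
  apply lfinv_unram_eq_of_cob q K U₃ N hU₃ _ _ hv₁ hv₂
  rw [lfinv_BC_trans K U₁ K U₃ K N u₁, lfinv_BC_trans K U₂ K U₃ K N u₂]
  have m₁ : IsMulCoboundary₂ (lfBC K L K N c / lfBC K U₁ K N u₁) :=
    lfinv_cob_baseChange K L U₁ N₁ K N c u₁ h₁
  have m₂ : IsMulCoboundary₂ (lfBC K L K N c / lfBC K U₂ K N u₂) :=
    lfinv_cob_baseChange K L U₂ N₂ K N c u₂ h₂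
  exact lfinv_cob_trans (lfinv_cob_symm m₁) m₂

end Unique

/-! ## Witnesses and the definition of the invariant -/

section Witness

variable (q : ℕ) [Fact q.Prime]
  (K : Type) [Field K] [Algebra ℚ_[q] K] [FiniteDimensional ℚ_[q] K]
  (L : Type) [Field L] [Algebra ℚ_[q] L] [FiniteDimensional ℚ_[q] L]
  [Algebra K L] [IsScalarTower ℚ_[q] K L]

/-- `r` is the invariant of `c`, as witnessed by some `(N, U, u)`. -/
def LfInvWitness (c : (L ≃ₐ[K] L) × (L ≃ₐ[K] L) → Lˣ) (r : AddCircle (1 : ℚ)) : Prop :=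
  ∃ (_ : Normal K L) (N : Type) (_ : Field N) (_ : Algebra ℚ_[q] N)
    (_ : FiniteDimensional ℚ_[q] N) (_ : Algebra K N) (_ : IsScalarTower ℚ_[q] K N)
    (_ : Algebra L N) (_ : IsScalarTower ℚ_[q] L N) (_ : IsScalarTower K L N) (_ : IsGalois K N)
    (U : Type) (_ : Field U) (_ : Algebra ℚ_[q] U) (_ : FiniteDimensional ℚ_[q] U)
    (_ : Algebra K U) (_ : IsScalarTower ℚ_[q] K U) (_ : Algebra U N)
    (_ : IsScalarTower ℚ_[q] U N) (_ : IsScalarTower K U N) (_ : Normal K U)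
    (_ : LfUnramified q K U) (u : (U ≃ₐ[K] U) × (U ≃ₐ[K] U) → Uˣ),
    IsMulCocycle₂ u ∧ IsMulCoboundary₂ (lfBC K L K N c / lfBC K U K N u) ∧
      r = lfInvUnram q K U u

variable {q K L}

theorem lfinv_witness_unique {c : (L ≃ₐ[K] L) × (L ≃ₐ[K] L) → Lˣ} {r r' : AddCircle (1 : ℚ)}
    (w : LfInvWitness q K L c r) (w' : LfInvWitness q K L c r') : r = r' := by
  obtain ⟨_, N₁, _, _, _, _, _, _, _, _, _, U₁, _, _, _, _, _, _, _, _, _, hU₁, u₁, hu₁, h₁, rfl⟩ := w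
  obtain ⟨_, N₂, _, _, _, _, _, _, _, _, _, U₂, _, _, _, _, _, _, _, _, _, hU₂, u₂, hu₂, h₂, rfl⟩ := w'
  exact lfinv_unique q K L N₁ U₁ N₂ U₂ hU₁ hU₂ c u₁ hu₁ u₂ hu₂ h₁ h₂

variable (q K L)

open Classical in
/-- The local invariant of a `2`-cochain. -/
noncomputable def lfInv (c : (L ≃ₐ[K] L) × (L ≃ₐ[K] L) → Lˣ) : AddCircle (1 : ℚ) :=
  if h : ∃ r, LfInvWitness q K L c r then h.choose else 0

variable {q K L}

theorem lfInv_eq_of_witness {c : (L ≃ₐ[K] L) × (L ≃ₐ[K] L) → Lˣ} {r : AddCircle (1 : ℚ)}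
    (w : LfInvWitness q K L c r) : lfInv q K L c = r := by
  have h : ∃ r, LfInvWitness q K L c r := ⟨r, w⟩
  rw [lfInv, dif_pos h]
  exact lfinv_witness_unique h.choose_spec w

end Witness

section WitnessMk

variable (q : ℕ) [Fact q.Prime]
  (K : Type) [Field K] [Algebra ℚ_[q] K] [FiniteDimensional ℚ_[q] K]
  (L : Type) [Field L] [Algebra ℚ_[q] L] [FiniteDimensional ℚ_[q] L]
  [Algebra K L] [IsScalarTower ℚ_[q] K L]
  (N : Type) [Field N] [Algebra ℚ_[q] N] [FiniteDimensional ℚ_[q] N]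
  [Algebra K N] [IsScalarTower ℚ_[q] K N] [Algebra L N] [IsScalarTower ℚ_[q] L N]
  [IsScalarTower K L N]
  (U : Type) [Field U] [Algebra ℚ_[q] U] [FiniteDimensional ℚ_[q] U]
  [Algebra K U] [IsScalarTower ℚ_[q] K U] [Algebra U N] [IsScalarTower ℚ_[q] U N]
  [IsScalarTower K U N]

theorem lfinv_witness_mk [Normal K L] [IsGalois K N] [Normal K U] (hU : LfUnramified q K U)
    (c : (L ≃ₐ[K] L) × (L ≃ₐ[K] L) → Lˣ)
    (u : (U ≃ₐ[K] U) × (U ≃ₐ[K] U) → Uˣ) (hu : IsMulCocycle₂ u)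
    (h : IsMulCoboundary₂ (lfBC K L K N c / lfBC K U K N u)) :
    LfInvWitness q K L c (lfInvUnram q K U u) :=
  ⟨inferInstance, N, inferInstance, inferInstance, inferInstance, inferInstance, inferInstance,
    inferInstance, inferInstance, inferInstance, inferInstance, U, inferInstance, inferInstance,
    inferInstance, inferInstance, inferInstance, inferInstance, inferInstance, inferInstance,
    inferInstance, hU, u, hu, h, rfl⟩

end WitnessMk

/-! ## Existence of witnesses -/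

section Exist

variable (q : ℕ) [Fact q.Prime]
  (K : Type) [Field K] [Algebra ℚ_[q] K] [FiniteDimensional ℚ_[q] K]
  (L : Type) [Field L] [Algebra ℚ_[q] L] [FiniteDimensional ℚ_[q] L]
  [Algebra K L] [IsScalarTower ℚ_[q] K L]

/-- A pair `(N, U)` with `N/K` finite Galois containing `L` and the unramified `U/K` of degree
`[L:K]` (continuation-passing form). -/
theorem lfinv_canonical_elim {P : Prop}
    (h : ∀ (N : Type) [Field N] [Algebra ℚ_[q] N] [FiniteDimensional ℚ_[q] N]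
      [Algebra K N] [IsScalarTower ℚ_[q] K N] [Algebra L N] [IsScalarTower ℚ_[q] L N]
      [IsScalarTower K L N] [IsGalois K N]
      (U : Type) [Field U] [Algebra ℚ_[q] U] [FiniteDimensional ℚ_[q] U]
      [Algebra K U] [IsScalarTower ℚ_[q] K U] [Algebra U N] [IsScalarTower ℚ_[q] U N]
      [IsScalarTower K U N] [Normal K U],
      LfUnramified q K U → Module.finrank K U = Module.finrank K L → P) : P := by
  haveI : FiniteDimensional K L := FiniteDimensional.right ℚ_[q] K L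
  have hn : 0 < Module.finrank K L := Module.finrank_pos
  apply lfinv_unramExt_elim q K (Module.finrank K L) hn
  intro U _ _ _ _ _ hU hdeg
  apply lfinv_amalgam_elim' q K L U
  intro N _ _ _ _ _ _ _ _ _ _ _ _
  haveI : IsGalois K U := LfUnramified.isGalois q K U hU
  exact h N U hU hdeg

end Exist

/-! ## The clauses -/

theorem lfinv_torsion_eq (n : ℕ) (hn : 0 < n) (r : AddCircle (1 : ℚ)) (hr : n • r = 0) :
    ∃ k : ℤ, r = (((k : ℚ) / (n : ℚ) : ℚ) : AddCircle (1 : ℚ)) := by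
  obtain ⟨x, rfl⟩ := QuotientAddGroup.mk_surjective r
  change n • (x : AddCircle (1 : ℚ)) = 0 at hr
  rw [← AddCircle.coe_nsmul, AddCircle.coe_eq_zero_iff] at hr
  obtain ⟨k, hk⟩ := hr
  refine ⟨k, ?_⟩
  change (x : AddCircle (1 : ℚ)) = _
  congr 1
  have hn' : (n : ℚ) ≠ 0 := Nat.cast_ne_zero.2 hn.ne'
  rw [eq_div_iff hn']
  simp only [zsmul_eq_mul, mul_one, nsmul_eq_mul] at hk
  rw [hk, mul_comm]

section Clauses

variable (q : ℕ) [Fact q.Prime]
  (K : Type) [Field K] [Algebra ℚ_[q] K] [FiniteDimensional ℚ_[q] K]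
  (L : Type) [Field L] [Algebra ℚ_[q] L] [FiniteDimensional ℚ_[q] L]
  [Algebra K L] [IsScalarTower ℚ_[q] K L]

theorem lfInv_mul [IsGalois K L] (c c' : (L ≃ₐ[K] L) × (L ≃ₐ[K] L) → Lˣ)
    (hc : IsMulCocycle₂ c) (hc' : IsMulCocycle₂ c') :
    lfInv q K L (c * c') = lfInv q K L c + lfInv q K L c' := by
  apply lfinv_canonical_elim q K L
  intro N _ _ _ _ _ _ _ _ _ U _ _ _ _ _ _ _ _ _ hU hdeg
  obtain ⟨u, hu, h⟩ := lf_exists_unram_cohomologous q K L U N hU hdeg c hc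
  obtain ⟨u', hu', h'⟩ := lf_exists_unram_cohomologous q K L U N hU hdeg c' hc'
  rw [lfInv_eq_of_witness (lfinv_witness_mk q K L N U hU c u hu h),
    lfInv_eq_of_witness (lfinv_witness_mk q K L N U hU c' u' hu' h'), ← lfInvUnram_mul]
  apply lfInv_eq_of_witness
  apply lfinv_witness_mk q K L N U hU (c * c') (u * u') (lfinv_coc_mul hu hu')
  rw [lfinv_BC_mul, lfinv_BC_mul, mul_div_mul_comm]
  exact lfinv_cob_mul h h'

theorem lfInv_eq_zero_iff [IsGalois K L] (c : (L ≃ₐ[K] L) × (L ≃ₐ[K] L) → Lˣ)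
    (hc : IsMulCocycle₂ c) : lfInv q K L c = 0 ↔ IsMulCoboundary₂ c := by
  apply lfinv_canonical_elim q K L
  intro N _ _ _ _ _ _ _ _ _ U _ _ _ _ _ _ _ _ _ hU hdeg
  obtain ⟨u, hu, h⟩ := lf_exists_unram_cohomologous q K L U N hU hdeg c hc
  rw [lfInv_eq_of_witness (lfinv_witness_mk q K L N U hU c u hu h)]
  haveI : IsGalois K U := LfUnramified.isGalois q K U hU
  constructor
  · intro hz
    have hub := (lfInvUnram_eq_zero_iff q K U hU u hu).1 hz
    have h1 : IsMulCoboundary₂ (lfBC K U K N u) := lfinv_BC_cob K U K N u hub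
    have h2 : IsMulCoboundary₂ (lfBC K L K N c) := by
      have := lfinv_cob_mul h h1
      rwa [div_mul_cancel] at this
    exact lfBC_inflation_injective q K L N c hc h2
  · intro hcb
    have h1 : IsMulCoboundary₂ (lfBC K L K N c) := lfinv_BC_cob K L K N c hcb
    have h2 : IsMulCoboundary₂ (lfBC K U K N u) := by
      have := lfinv_cob_div h1 h
      rwa [div_div_cancel] at this
    exact (lfInvUnram_eq_zero_iff q K U hU u hu).2 (lfBC_inflation_injective q K U N u hu h2)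

theorem lfInv_nsmul [IsGalois K L] (c : (L ≃ₐ[K] L) × (L ≃ₐ[K] L) → Lˣ)
    (hc : IsMulCocycle₂ c) : Module.finrank K L • lfInv q K L c = 0 := by
  apply lfinv_canonical_elim q K L
  intro N _ _ _ _ _ _ _ _ _ U _ _ _ _ _ _ _ _ _ hU hdeg
  obtain ⟨u, hu, h⟩ := lf_exists_unram_cohomologous q K L U N hU hdeg c hc
  rw [lfInv_eq_of_witness (lfinv_witness_mk q K L N U hU c u hu h), ← hdeg]
  exact lfInvUnram_nsmul q K U hU u hu

theorem lfinv_cycCocycle_coc (hU : LfUnramified q K L) (a : Kˣ) :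
    IsMulCocycle₂ (cycCocycle (lfFrob q K L) (Units.map (algebraMap K L : K →* L) a)) := by
  haveI : IsGalois K L := LfUnramified.isGalois q K L hU
  haveI : FiniteDimensional K L := FiniteDimensional.right ℚ_[q] K L
  refine cycCocycle_isMulCocycle₂ _ (mem_zpowers_lfFrob q K L hU) _ ?_
  apply Units.ext
  exact AlgEquiv.commutes _ _

theorem lfInv_surjective [IsGalois K L] (r : AddCircle (1 : ℚ))
    (hr : Module.finrank K L • r = 0) :
    ∃ c : (L ≃ₐ[K] L) × (L ≃ₐ[K] L) → Lˣ, IsMulCocycle₂ c ∧ lfInv q K L c = r := by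
  apply lfinv_canonical_elim q K L
  intro N _ _ _ _ _ _ _ _ _ U _ _ _ _ _ _ _ _ _ hU hdeg
  haveI : FiniteDimensional K L := FiniteDimensional.right ℚ_[q] K L
  obtain ⟨k, hk⟩ := lfinv_torsion_eq (Module.finrank K L) Module.finrank_pos r hr
  obtain ⟨π, hπ⟩ := exists_isLfUniformizer q K
  have hπ0 : π ≠ 0 := IsLfUniformizer.ne_zero q K hπ
  have ha : lfOrd q K ((Units.mk0 (π ^ k) (zpow_ne_zero k hπ0) : Kˣ) : K) = k := by
    rw [Units.val_mk0, lfOrd_zpow, hπ, mul_one]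
  have hu := lfinv_cycCocycle_coc q K U hU (Units.mk0 (π ^ k) (zpow_ne_zero k hπ0))
  have hval := lfInvUnram_cycCocycle q K U hU (Units.mk0 (π ^ k) (zpow_ne_zero k hπ0))
  rw [ha, hdeg, ← hk] at hval
  obtain ⟨c, hc, h⟩ := lbu_exists_descent q K L U N hU hdeg _ hu
  refine ⟨c, hc, ?_⟩
  rw [← hval]
  exact lfInv_eq_of_witness (lfinv_witness_mk q K L N U hU c _ hu (lfinv_cob_symm h))

theorem lfInv_unramified (hU : LfUnramified q K L) (a : Kˣ) :
    lfInv q K L (cycCocycle (lfFrob q K L) (Units.map (algebraMap K L : K →* L) a)) =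
      (((lfOrd q K (a : K) : ℤ) : ℚ) / (Module.finrank K L : ℚ) : ℚ) := by
  haveI : IsGalois K L := LfUnramified.isGalois q K L hU
  rw [← lfInvUnram_cycCocycle q K L hU a]
  exact lfInv_eq_of_witness (lfinv_witness_mk q K L L L hU _ _ (lfinv_cycCocycle_coc q K L hU a)
    (lfinv_cob_refl _))

theorem lfinv_exists_witness [IsGalois K L] (c : (L ≃ₐ[K] L) × (L ≃ₐ[K] L) → Lˣ)
    (hc : IsMulCocycle₂ c) : ∃ r, LfInvWitness q K L c r := by
  apply lfinv_canonical_elim q K L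
  intro N _ _ _ _ _ _ _ _ _ U _ _ _ _ _ _ _ _ _ hU hdeg
  obtain ⟨u, hu, h⟩ := lf_exists_unram_cohomologous q K L U N hU hdeg c hc
  exact ⟨_, lfinv_witness_mk q K L N U hU c u hu h⟩

end Clauses

/-! ## Base change -/

section BaseChange

variable (q : ℕ) [Fact q.Prime]
  (K : Type) [Field K] [Algebra ℚ_[q] K] [FiniteDimensional ℚ_[q] K]
  (L : Type) [Field L] [Algebra ℚ_[q] L] [FiniteDimensional ℚ_[q] L]
  (K' : Type) [Field K'] [Algebra ℚ_[q] K'] [FiniteDimensional ℚ_[q] K']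
  (M : Type) [Field M] [Algebra ℚ_[q] M] [FiniteDimensional ℚ_[q] M]
  [Algebra K L] [IsScalarTower ℚ_[q] K L] [Algebra K K'] [IsScalarTower ℚ_[q] K K']
  [Algebra L M] [IsScalarTower ℚ_[q] L M] [Algebra K' M] [IsScalarTower ℚ_[q] K' M]
  [Algebra K M] [IsScalarTower ℚ_[q] K M] [IsScalarTower K L M] [IsScalarTower K K' M]

/-- A witness for `c` produces a witness for its base change, with invariant multiplied by
`[K':K]`. -/
theorem lfinv_witness_baseChange [IsGalois K L] [IsGalois K' M]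
    (c : (L ≃ₐ[K] L) × (L ≃ₐ[K] L) → Lˣ) {r : AddCircle (1 : ℚ)}
    (w : LfInvWitness q K L c r) :
    LfInvWitness q K' M (lfBC K L K' M c) (Module.finrank K K' • r) := by
  obtain ⟨_, N₁, _, _, _, _, _, _, _, _, _, U₁, _, _, _, _, _, _, _, _, _, hU₁, u₁, hu₁, h₁, rfl⟩ := w
  apply lfinv_amalgam_elim q K L N₁ M
  intro N₂ _ _ _ _ _ _ _ _ _ _ _ _ _ _ _ _ _
  letI : Algebra K' N₂ := ((algebraMap M N₂).comp (algebraMap K' M)).toAlgebra
  haveI : IsScalarTower K' M N₂ := IsScalarTower.of_algebraMap_eq fun x => rfl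
  haveI : IsScalarTower K K' N₂ := IsScalarTower.of_algebraMap_eq fun x => by
    change algebraMap K N₂ x = algebraMap M N₂ (algebraMap K' M (algebraMap K K' x))
    rw [← IsScalarTower.algebraMap_apply K K' M, ← IsScalarTower.algebraMap_apply K M N₂]
  haveI : IsScalarTower ℚ_[q] K' N₂ := IsScalarTower.of_algebraMap_eq fun x => by
    change algebraMap ℚ_[q] N₂ x = algebraMap M N₂ (algebraMap K' M (algebraMap ℚ_[q] K' x))
    rw [← IsScalarTower.algebraMap_apply ℚ_[q] K' M, ← IsScalarTower.algebraMap_apply ℚ_[q] M N₂]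
  haveI : IsGalois K' N₂ := IsGalois.tower_top_of_isGalois K K' N₂
  letI : Algebra U₁ N₂ := ((algebraMap N₁ N₂).comp (algebraMap U₁ N₁)).toAlgebra
  haveI : IsScalarTower U₁ N₁ N₂ := IsScalarTower.of_algebraMap_eq fun x => rfl
  haveI : IsScalarTower K U₁ N₂ := IsScalarTower.of_algebraMap_eq fun x => by
    change algebraMap K N₂ x = algebraMap N₁ N₂ (algebraMap U₁ N₁ (algebraMap K U₁ x))
    rw [← IsScalarTower.algebraMap_apply K U₁ N₁, ← IsScalarTower.algebraMap_apply K N₁ N₂]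
  haveI : IsScalarTower ℚ_[q] U₁ N₂ := IsScalarTower.of_algebraMap_eq fun x => by
    change algebraMap ℚ_[q] N₂ x = algebraMap N₁ N₂ (algebraMap U₁ N₁ (algebraMap ℚ_[q] U₁ x))
    rw [← IsScalarTower.algebraMap_apply ℚ_[q] U₁ N₁,
      ← IsScalarTower.algebraMap_apply ℚ_[q] N₁ N₂]
  apply lfinv_compositum_elim q K U₁ K' N₂
  intro U₂ _ _ _ _ _ _ _ _ _ _ _ _ _ _ _ _ hM
  have hU₂ : LfUnramified q K' U₂ := lfUnramified_baseChange q K U₁ K' U₂ hU₁ hM
  haveI : IsGalois K' U₂ := LfUnramified.isGalois q K' U₂ hU₂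
  have hu₂ : IsMulCocycle₂ (lfBC K U₁ K' U₂ u₁) := lfinv_BC_coc K U₁ K' U₂ u₁ hu₁
  have hval := lfInvUnram_baseChange q K U₁ K' U₂ hU₁ hU₂ u₁ hu₁
  rw [← hval]
  apply lfinv_witness_mk q K' M N₂ U₂ hU₂ _ _ hu₂
  rw [lfinv_BC_trans K L K' M K' N₂ c, lfinv_BC_trans K U₁ K' U₂ K' N₂ u₁]
  exact lfinv_cob_baseChange K L U₁ N₁ K' N₂ c u₁ h₁

theorem lfInv_baseChange [IsGalois K L] [IsGalois K' M]
    (c : (L ≃ₐ[K] L) × (L ≃ₐ[K] L) → Lˣ) (hc : IsMulCocycle₂ c) :
    lfInv q K' M (lfBC K L K' M c) = Module.finrank K K' • lfInv q K L c := by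
  obtain ⟨r, w⟩ := lfinv_exists_witness q K L c hc
  rw [lfInv_eq_of_witness w]
  exact lfInv_eq_of_witness (lfinv_witness_baseChange q K L K' M c w)

end BaseChange

/-! ## The theorem -/

/-- THE LOCAL INVARIANT (final theorem of LD). -/
theorem exists_localInv (q : ℕ) [Fact q.Prime] :
    ∃ inv : ∀ (K : Type) [Field K] [Algebra ℚ_[q] K] [FiniteDimensional ℚ_[q] K]
        (L : Type) [Field L] [Algebra ℚ_[q] L] [FiniteDimensional ℚ_[q] L]
        [Algebra K L] [IsScalarTower ℚ_[q] K L],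
        ((L ≃ₐ[K] L) × (L ≃ₐ[K] L) → Lˣ) → AddCircle (1 : ℚ),
      (∀ (K : Type) [Field K] [Algebra ℚ_[q] K] [FiniteDimensional ℚ_[q] K]
        (L : Type) [Field L] [Algebra ℚ_[q] L] [FiniteDimensional ℚ_[q] L]
        [Algebra K L] [IsScalarTower ℚ_[q] K L] [IsGalois K L]
        (c c' : (L ≃ₐ[K] L) × (L ≃ₐ[K] L) → Lˣ),
        IsMulCocycle₂ c → IsMulCocycle₂ c' → inv K L (c * c') = inv K L c + inv K L c') ∧
      (∀ (K : Type) [Field K] [Algebra ℚ_[q] K] [FiniteDimensional ℚ_[q] K]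
        (L : Type) [Field L] [Algebra ℚ_[q] L] [FiniteDimensional ℚ_[q] L]
        [Algebra K L] [IsScalarTower ℚ_[q] K L] [IsGalois K L]
        (c : (L ≃ₐ[K] L) × (L ≃ₐ[K] L) → Lˣ),
        IsMulCocycle₂ c → (inv K L c = 0 ↔ IsMulCoboundary₂ c)) ∧
      (∀ (K : Type) [Field K] [Algebra ℚ_[q] K] [FiniteDimensional ℚ_[q] K]
        (L : Type) [Field L] [Algebra ℚ_[q] L] [FiniteDimensional ℚ_[q] L]
        [Algebra K L] [IsScalarTower ℚ_[q] K L] [IsGalois K L]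
        (c : (L ≃ₐ[K] L) × (L ≃ₐ[K] L) → Lˣ),
        IsMulCocycle₂ c → Module.finrank K L • inv K L c = 0) ∧
      (∀ (K : Type) [Field K] [Algebra ℚ_[q] K] [FiniteDimensional ℚ_[q] K]
        (L : Type) [Field L] [Algebra ℚ_[q] L] [FiniteDimensional ℚ_[q] L]
        [Algebra K L] [IsScalarTower ℚ_[q] K L] [IsGalois K L]
        (r : AddCircle (1 : ℚ)), Module.finrank K L • r = 0 →
        ∃ c : (L ≃ₐ[K] L) × (L ≃ₐ[K] L) → Lˣ, IsMulCocycle₂ c ∧ inv K L c = r) ∧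
      (∀ (K : Type) [Field K] [Algebra ℚ_[q] K] [FiniteDimensional ℚ_[q] K]
        (L : Type) [Field L] [Algebra ℚ_[q] L] [FiniteDimensional ℚ_[q] L]
        [Algebra K L] [IsScalarTower ℚ_[q] K L],
        LfUnramified q K L → ∀ a : Kˣ,
        inv K L (cycCocycle (lfFrob q K L) (Units.map (algebraMap K L : K →* L) a)) =
          (((lfOrd q K (a : K) : ℤ) : ℚ) / (Module.finrank K L : ℚ) : ℚ)) ∧
      (∀ (K : Type) [Field K] [Algebra ℚ_[q] K] [FiniteDimensional ℚ_[q] K]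
        (L : Type) [Field L] [Algebra ℚ_[q] L] [FiniteDimensional ℚ_[q] L]
        (K' : Type) [Field K'] [Algebra ℚ_[q] K'] [FiniteDimensional ℚ_[q] K']
        (M : Type) [Field M] [Algebra ℚ_[q] M] [FiniteDimensional ℚ_[q] M]
        [Algebra K L] [IsScalarTower ℚ_[q] K L] [Algebra K K'] [IsScalarTower ℚ_[q] K K']
        [Algebra L M] [IsScalarTower ℚ_[q] L M] [Algebra K' M] [IsScalarTower ℚ_[q] K' M]
        [Algebra K M] [IsScalarTower ℚ_[q] K M] [IsScalarTower K L M] [IsScalarTower K K' M]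
        [IsGalois K L] [IsGalois K' M]
        (c : (L ≃ₐ[K] L) × (L ≃ₐ[K] L) → Lˣ), IsMulCocycle₂ c →
        inv K' M (lfBC K L K' M c) = Module.finrank K K' • inv K L c) :=
  ⟨fun K _ _ _ L _ _ _ _ _ c => lfInv q K L c,
    fun K _ _ _ L _ _ _ _ _ _ c c' hc hc' => lfInv_mul q K L c c' hc hc',
    fun K _ _ _ L _ _ _ _ _ _ c hc => lfInv_eq_zero_iff q K L c hc,
    fun K _ _ _ L _ _ _ _ _ _ c hc => lfInv_nsmul q K L c hc,
    fun K _ _ _ L _ _ _ _ _ _ r hr => lfInv_surjective q K L r hr,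
    fun K _ _ _ L _ _ _ _ _ hU a => lfInv_unramified q K L hU a,
    fun K _ _ _ L _ _ _ K' _ _ _ M _ _ _ _ _ _ _ _ _ _ _ _ _ _ _ _ _ c hc =>
      lfInv_baseChange q K L K' M c hc⟩

end Fermat.Agent.S55
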