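/-
S55 / LOCAL layer LD3b (row 195): the cohomology of the unit group of an unramified extension
of local fields is trivial in degrees `1` and `2` (unit-valued cocycles are coboundaries of
unit-valued cochains); `lfInvUnram = 0` on unit-valued cocycles.

Exact statements of section `UnramUnits` of `LocalBrauerSpec.lean` (origin/helper22 fc1a090).
Black boxes: `LocalBrauerUnram` (LD3, mine) and through it `LocalValSpec`, `LocalUnramSpec`,
`CohomSpec` (CO-a, applied to the module `X = 𝒪_Lˣ`), LD2 `cycNorm_eq_algebraMap_norm`.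
All auxiliary declarations carry the prefix `lfv`.
-/
import Fermat.Agent.S55.LocalBrauerUnram

set_option autoImplicit false
set_option linter.style.haveILetI false

namespace Fermat.Agent.S55

open groupCohomology IsLocalRing

/-! ## Stable subgroups as modules -/

section Sub

variable {G X : Type} [Group G] [CommGroup X] [MulDistribMulAction G X]

/-- The action on a stable subgroup (not an instance). -/
@[reducible] def lfvSubAction (S : Subgroup X) (hS : ∀ (g : G) (s : X), s ∈ S → g • s ∈ S) :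
    MulDistribMulAction G S where
  smul g s := ⟨g • (s : X), hS g s s.2⟩
  one_smul s := Subtype.ext (one_smul G (s : X))
  mul_smul g h s := Subtype.ext (mul_smul g h (s : X))
  smul_mul g s t := Subtype.ext (smul_mul' g (s : X) (t : X))
  smul_one g := Subtype.ext (smul_one g)

theorem lfv_coe_smul (S : Subgroup X) (hS : ∀ (g : G) (s : X), s ∈ S → g • s ∈ S) (g : G)
    (s : S) :
    letI := lfvSubAction S hS
    ((g • s : S) : X) = g • (s : X) := rfl

theorem lfv_coe_cycNorm (S : Subgroup X) (hS : ∀ (g : G) (s : X), s ∈ S → g • s ∈ S) (σ : G)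
    (s : S) :
    letI := lfvSubAction S hS
    ((cycNorm σ s : S) : X) = cycNorm σ (s : X) := by
  letI := lfvSubAction S hS
  unfold cycNorm
  rw [Subgroup.val_finsetProd]
  rfl

theorem lfv_isMulCocycle₂_sub (S : Subgroup X) (hS : ∀ (g : G) (s : X), s ∈ S → g • s ∈ S)
    (c : G × G → S) (hc : IsMulCocycle₂ (fun p => ((c p : S) : X))) :
    letI := lfvSubAction S hS
    IsMulCocycle₂ c := by
  letI := lfvSubAction S hS
  intro g h j
  apply Subtype.ext
  exact hc g h j

theorem lfv_isMulCoboundary₂_coe (S : Subgroup X) (hS : ∀ (g : G) (s : X), s ∈ S → g • s ∈ S)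
    (c : G × G → S)
    (hc : letI := lfvSubAction S hS
      IsMulCoboundary₂ c) :
    ∃ x : G → X, (∀ g, x g ∈ S) ∧ ∀ g h : G, g • x h / x (g * h) * x g = ((c (g, h) : S) : X) := by
  letI := lfvSubAction S hS
  obtain ⟨x, hx⟩ := hc
  refine ⟨fun g => (x g : X), fun g => (x g).2, fun g h => ?_⟩
  have := congrArg (Subtype.val) (hx g h)
  exact this

end Sub

/-! ## LD3b -/

section UnramUnits

variable (q : ℕ) [Fact q.Prime]
  (K : Type) [Field K] [Algebra ℚ_[q] K] [FiniteDimensional ℚ_[q] K]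
  (L : Type) [Field L] [Algebra ℚ_[q] L] [FiniteDimensional ℚ_[q] L]
  [Algebra K L] [IsScalarTower ℚ_[q] K L]

/-- The unit group of `L` is stable under `Gal(L/K)`. -/
theorem lfv_smul_mem_lfUnits (σ : L ≃ₐ[K] L) (u : Lˣ) (hu : u ∈ lfUnits q L) :
    σ • u ∈ lfUnits q L := by
  rw [mem_lfUnits_iff] at hu ⊢
  have : ((σ • u : Lˣ) : L) = σ (u : L) := rfl
  rw [this, lfOrd_algEquiv, hu]

/-- `H¹(Gal(L/K), 𝒪_Lˣ) = 1` for unramified `L/K` (Hilbert 90 + a uniformizer of `K` is one of `L`). -/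
theorem lfUnramified_units_isMulCoboundary₁ (h : LfUnramified q K L) (f : (L ≃ₐ[K] L) → Lˣ)
    (hf : IsMulCocycle₁ f) (hu : ∀ σ, f σ ∈ lfUnits q L) :
    ∃ w : Lˣ, w ∈ lfUnits q L ∧ ∀ σ : L ≃ₐ[K] L, σ • w / w = f σ := by
  have _ := hu
  have := lfu_finiteDimensional q K L
  obtain ⟨x, hx⟩ := isMulCoboundary₁_of_isMulCocycle₁_of_aut_to_units f hf
  obtain ⟨π, hπ⟩ := exists_isLfUniformizer q K
  have hπL : IsLfUniformizer q L (algebraMap K L π) := h.isLfUniformizer q K L hπ
  have hπ0 : algebraMap K L π ≠ 0 := hπL.ne_zero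
  set P : Lˣ := Units.mk0 (algebraMap K L π) hπ0 with hP
  have hPfix : ∀ σ : L ≃ₐ[K] L, σ • P = P := by
    intro σ
    apply Units.ext
    exact σ.commutes π
  set m : ℤ := lfOrd q L (x : L) with hm
  refine ⟨x / P ^ m, ?_, fun σ => ?_⟩
  · rw [mem_lfUnits_iff, Units.val_div_eq_div_val, div_eq_mul_inv,
      lfOrd_mul q L x.ne_zero (inv_ne_zero (Units.ne_zero _)), lfOrd_inv, Units.val_zpow_eq_zpow_val,
      lfOrd_zpow]
    have : lfOrd q L ((P : Lˣ) : L) = 1 := hπL
    rw [this, mul_one, ← hm, add_neg_cancel]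
  · rw [← hx σ, smul_div', smul_zpow', hPfix σ, div_div_div_cancel_right]

/-- `H²(Gal(L/K), 𝒪_Lˣ) = 1` for unramified `L/K` (cyclic reduction with unit-valued cochains +
units are norms of units). -/
theorem lfUnramified_units_isMulCoboundary₂ (h : LfUnramified q K L)
    (c : (L ≃ₐ[K] L) × (L ≃ₐ[K] L) → Lˣ) (hc : IsMulCocycle₂ c) (hu : ∀ s, c s ∈ lfUnits q L) :
    ∃ x : (L ≃ₐ[K] L) → Lˣ, (∀ σ, x σ ∈ lfUnits q L) ∧
      ∀ σ τ : L ≃ₐ[K] L, σ • x τ / x (σ * τ) * x σ = c (σ, τ) := by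
  have := lfu_finiteDimensional q K L
  have := h.isGalois
  have hφ := mem_zpowers_lfFrob q K L h
  have hS := lfv_smul_mem_lfUnits q K L
  letI := lfvSubAction (lfUnits q L) hS
  -- the cocycle with values in the unit group
  set c' : (L ≃ₐ[K] L) × (L ≃ₐ[K] L) → lfUnits q L := fun s => ⟨c s, hu s⟩ with hc'def
  have hc' : IsMulCocycle₂ c' := lfv_isMulCocycle₂_sub (lfUnits q L) hS c' hc
  obtain ⟨hfix, hcob⟩ := exists_cycCocycle_of_isMulCocycle₂ (lfFrob q K L) hφ c' hc'
  set b' : lfUnits q L :=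
    ∏ i ∈ Finset.range (orderOf (lfFrob q K L)), c' (lfFrob q K L ^ i, lfFrob q K L) with hb'
  -- `b'` comes from a unit of `K`
  have hall : ∀ τ : L ≃ₐ[K] L, τ (((b' : lfUnits q L) : Lˣ) : L) = (((b' : lfUnits q L) : Lˣ) : L) := by
    intro τ
    obtain ⟨k, rfl⟩ := Subgroup.mem_zpowers_iff.1 (hφ τ)
    have h1 : (lfFrob q K L ^ k) • b' = b' :=
      MulAction.mem_stabilizer_iff.1
        (Subgroup.zpow_mem _ (MulAction.mem_stabilizer_iff.2 hfix) k)
    exact congrArg (fun z : lfUnits q L => ((z : Lˣ) : L)) h1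
  obtain ⟨a₀, ha₀⟩ := (IsGalois.mem_range_algebraMap_iff_fixed _).2 hall
  have ha₀0 : a₀ ≠ 0 := by
    rintro rfl
    rw [map_zero] at ha₀
    exact (Units.ne_zero _) ha₀.symm
  have haU : Units.mk0 a₀ ha₀0 ∈ lfUnits q K := by
    rw [mem_lfUnits_iff, Units.val_mk0]
    have h1 : lfOrd q L (algebraMap K L a₀) = 0 := by
      rw [ha₀]
      exact (mem_lfUnits_iff q L _).1 b'.2
    have h2 : lfRamIdx q K L = 1 := h
    rwa [lfOrd_algebraMap, h2, Nat.cast_one, one_mul] at h1
  obtain ⟨w, hwU, hw⟩ := lfUnramified_norm_surjective_units q K L h haU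
  -- `b'` is the norm of the unit `w`
  have hnorm : cycNorm (lfFrob q K L) (⟨w, hwU⟩ : lfUnits q L) = b' := by
    apply Subtype.ext
    apply Units.ext
    rw [lfv_coe_cycNorm (lfUnits q L) hS, cycNorm_eq_algebraMap_norm q K L _ hφ, ← ha₀]
    congr 1
    exact congrArg Units.val hw
  have hcyc : IsMulCoboundary₂ (cycCocycle (lfFrob q K L) b') :=
    (cycCocycle_isMulCoboundary₂_iff (lfFrob q K L) hφ b' hfix).2 ⟨_, hnorm⟩
  have hcob' : IsMulCoboundary₂ c' := (lfu_isMulCoboundary₂_iff_of_div hcob).2 hcyc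
  exact lfv_isMulCoboundary₂_coe (lfUnits q L) hS c' hcob'

set_option linter.unusedSectionVars false in
/-- A `2`-cocycle of an unramified extension is cohomologous to a unit-valued one iff its invariant
vanishes; in particular unit-valued cocycles have invariant `0`. -/
theorem lfInvUnram_eq_zero_of_units (h : LfUnramified q K L)
    (c : (L ≃ₐ[K] L) × (L ≃ₐ[K] L) → Lˣ) (hc : IsMulCocycle₂ c) (hu : ∀ s, c s ∈ lfUnits q L) :
    lfInvUnram q K L c = 0 := by
  have _ := h
  have _ := hc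
  have hmem : lfUnramRep q K L c ∈ lfUnits q L := Subgroup.prod_mem _ (fun i _ => hu _)
  unfold lfInvUnram
  rw [(mem_lfUnits_iff q L _).1 hmem, Int.cast_zero, zero_div, AddCircle.coe_zero]

end UnramUnits

end Fermat.Agent.S55
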