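/-
S55 / LOCAL layer LD: the Brauer group of a local field in cocycle language and the invariant map.
SHIM: every statement of the former spec is proved in the leaf files
* LD2  `LocalBrauerOrder.lean` (helper13), LD3 `LocalBrauerUnram.lean`, LD3b `LocalBrauerUnits.lean`
  (helper7), LD4a `LocalBrauerUgly.lean` (helper16),
* LD4b `LocalBrauerBC.lean`, `LocalBrauerAmalgam.lean`, `LocalBrauerInv.lean` (helper27):
  `exists_localInv`.
-/
import Fermat.Agent.S55.LocalUnramSpec
import Fermat.Agent.S55.LocalBrauerDefs
import Fermat.Agent.S55.CohomSpec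
import Fermat.Agent.S55.LocalBrauerOrder
import Fermat.Agent.S55.LocalBrauerUnram
import Fermat.Agent.S55.LocalBrauerUnits
import Fermat.Agent.S55.LocalBrauerUgly
import Fermat.Agent.S55.LocalBrauerInv
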