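/-
S55 / LOCAL layer: the local invariant `localInv` and its API, extracted from `exists_localInv`.
(No sorry of its own; at the moment it imports the SPEC file, later the real `LocalBrauerInv`.)
-/
import Fermat.Agent.S55.LocalBrauerSpec

set_option autoImplicit false

namespace Fermat.Agent.S55

open groupCohomology

/-- The local invariant of a `2`-cochain of a finite extension `L/K` of local fields over `ℚ_q`
(meaningful for cocycles of Galois extensions), with values in `ℚ/ℤ`. -/
noncomputable def localInv (q : ℕ) [Fact q.Prime]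
    (K : Type) [Field K] [Algebra ℚ_[q] K] [FiniteDimensional ℚ_[q] K]
    (L : Type) [Field L] [Algebra ℚ_[q] L] [FiniteDimensional ℚ_[q] L]
    [Algebra K L] [IsScalarTower ℚ_[q] K L]
    (c : (L ≃ₐ[K] L) × (L ≃ₐ[K] L) → Lˣ) : AddCircle (1 : ℚ) :=
  Classical.choose (exists_localInv q) K L c

section API

variable (q : ℕ) [Fact q.Prime]
  (K : Type) [Field K] [Algebra ℚ_[q] K] [FiniteDimensional ℚ_[q] K]
  (L : Type) [Field L] [Algebra ℚ_[q] L] [FiniteDimensional ℚ_[q] L]
  [Algebra K L] [IsScalarTower ℚ_[q] K L]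

theorem localInv_mul [IsGalois K L] {c c' : (L ≃ₐ[K] L) × (L ≃ₐ[K] L) → Lˣ}
    (hc : IsMulCocycle₂ c) (hc' : IsMulCocycle₂ c') :
    localInv q K L (c * c') = localInv q K L c + localInv q K L c' :=
  (Classical.choose_spec (exists_localInv q)).1 K L c c' hc hc'

theorem localInv_eq_zero_iff [IsGalois K L] {c : (L ≃ₐ[K] L) × (L ≃ₐ[K] L) → Lˣ}
    (hc : IsMulCocycle₂ c) : localInv q K L c = 0 ↔ IsMulCoboundary₂ c :=
  (Classical.choose_spec (exists_localInv q)).2.1 K L c hc

theorem localInv_nsmul [IsGalois K L] {c : (L ≃ₐ[K] L) × (L ≃ₐ[K] L) → Lˣ}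
    (hc : IsMulCocycle₂ c) : Module.finrank K L • localInv q K L c = 0 :=
  (Classical.choose_spec (exists_localInv q)).2.2.1 K L c hc

theorem localInv_surjective [IsGalois K L] (r : AddCircle (1 : ℚ))
    (hr : Module.finrank K L • r = 0) :
    ∃ c : (L ≃ₐ[K] L) × (L ≃ₐ[K] L) → Lˣ, IsMulCocycle₂ c ∧ localInv q K L c = r :=
  (Classical.choose_spec (exists_localInv q)).2.2.2.1 K L r hr

theorem localInv_unramified (h : LfUnramified q K L) (a : Kˣ) :
    localInv q K L (cycCocycle (lfFrob q K L) (Units.map (algebraMap K L : K →* L) a)) =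
      (((lfOrd q K (a : K) : ℤ) : ℚ) / (Module.finrank K L : ℚ) : ℚ) :=
  (Classical.choose_spec (exists_localInv q)).2.2.2.2.1 K L h a

/-- Cohomologous cocycles have the same invariant. -/
theorem localInv_eq_of_div [IsGalois K L] {c c' : (L ≃ₐ[K] L) × (L ≃ₐ[K] L) → Lˣ}
    (hc' : IsMulCocycle₂ c') (hcob : IsMulCoboundary₂ (c / c')) :
    localInv q K L c = localInv q K L c' := by
  have h1 : c = c' * (c / c') := by rw [mul_div_cancel]
  have hcoc : IsMulCocycle₂ (c / c') := lfu_isMulCocycle₂_of_isMulCoboundary₂ hcob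
  have h2 : localInv q K L (c / c') = 0 := (localInv_eq_zero_iff q K L hcoc).2 hcob
  conv_lhs => rw [h1]
  rw [localInv_mul q K L hc' hcoc, h2, add_zero]

/-- On unramified extensions the invariant is the explicit `lfInvUnram`. -/
theorem localInv_eq_lfInvUnram (h : LfUnramified q K L)
    {c : (L ≃ₐ[K] L) × (L ≃ₐ[K] L) → Lˣ} (hc : IsMulCocycle₂ c) :
    localInv q K L c = lfInvUnram q K L c := by
  have := h.isGalois
  have : FiniteDimensional K L := FiniteDimensional.right ℚ_[q] K L
  obtain ⟨a, -, hcob⟩ := lfu_exists_rep q K L h c hc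
  have hfix : lfFrob q K L • Units.map (algebraMap K L : K →* L) a =
      Units.map (algebraMap K L : K →* L) a := by
    apply Units.ext
    exact (lfFrob q K L).commutes (a : K)
  have hcyc : IsMulCocycle₂
      (cycCocycle (lfFrob q K L) (Units.map (algebraMap K L : K →* L) a)) :=
    cycCocycle_isMulCocycle₂ (lfFrob q K L) (mem_zpowers_lfFrob q K L h) _ hfix
  rw [localInv_eq_of_div q K L hcyc hcob, lfu_invUnram_eq_of_div q K L h hcob,
    localInv_unramified q K L h a, lfInvUnram_cycCocycle q K L h a]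

/-- Unit-valued cocycles of unramified extensions have invariant `0`. -/
theorem localInv_eq_zero_of_units (h : LfUnramified q K L)
    {c : (L ≃ₐ[K] L) × (L ≃ₐ[K] L) → Lˣ} (hc : IsMulCocycle₂ c)
    (hu : ∀ s, c s ∈ lfUnits q L) : localInv q K L c = 0 := by
  rw [localInv_eq_lfInvUnram q K L h hc, lfInvUnram_eq_zero_of_units q K L h c hc hu]

end API

section BaseChange

variable (q : ℕ) [Fact q.Prime]
  (K : Type) [Field K] [Algebra ℚ_[q] K] [FiniteDimensional ℚ_[q] K]
  (L : Type) [Field L] [Algebra ℚ_[q] L] [FiniteDimensional ℚ_[q] L]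
  (K' : Type) [Field K'] [Algebra ℚ_[q] K'] [FiniteDimensional ℚ_[q] K']
  (M : Type) [Field M] [Algebra ℚ_[q] M] [FiniteDimensional ℚ_[q] M]
  [Algebra K L] [IsScalarTower ℚ_[q] K L] [Algebra K K'] [IsScalarTower ℚ_[q] K K']
  [Algebra L M] [IsScalarTower ℚ_[q] L M] [Algebra K' M] [IsScalarTower ℚ_[q] K' M]
  [Algebra K M] [IsScalarTower ℚ_[q] K M] [IsScalarTower K L M] [IsScalarTower K K' M]

/-- Base change formula: inflation (`K' = K`), restriction (`M = L`), isomorphisms. -/
theorem localInv_baseChange [IsGalois K L] [IsGalois K' M]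
    {c : (L ≃ₐ[K] L) × (L ≃ₐ[K] L) → Lˣ} (hc : IsMulCocycle₂ c) :
    localInv q K' M (lfBC K L K' M c) = Module.finrank K K' • localInv q K L c :=
  (Classical.choose_spec (exists_localInv q)).2.2.2.2.2 K L K' M c hc

end BaseChange

end Fermat.Agent.S55
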