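/-
S55 / LOCAL layer LE: definitions of the Kummer-symbol layer
(verbatim copy of section `Defs` of `LocalKummerSpec.lean`, origin/helper22 fc1a090).
-/
import Fermat.Agent.S55.LocalInv

set_option autoImplicit false

namespace Fermat.Agent.S55

open groupCohomology IsLocalRing

/-! ## Definitions -/

section Defs

variable {K : Type} [Field K] {M : Type} [Field M] [Algebra K M]

/-- Kummer exponent: the least `k` with `σ β = ζ^k β` (for `β^n ∈ K`, `ζ` a primitive `n`-th root of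
unity in `K`, this is the unique such `k < n`). -/
noncomputable def lfKumExp (ζ : K) (β : M) (σ : M ≃ₐ[K] M) : ℕ :=
  sInf {k : ℕ | σ β = algebraMap K M ζ ^ k * β}

/-- The symbol cocycle `a ∪ δχ_β`: `(σ, τ) ↦ a` if `k(σ) + k(τ) ≥ n`, else `1`. -/
noncomputable def lfSymbolCocycle (n : ℕ) (ζ : K) (a : Kˣ) (β : M) :
    (M ≃ₐ[K] M) × (M ≃ₐ[K] M) → Mˣ :=
  fun s => if n ≤ lfKumExp ζ β s.1 + lfKumExp ζ β s.2
    then Units.map (algebraMap K M : K →* M) a else 1

/-- The cup-product cocycle `χ_β ∪ κ_α`: `(σ, τ) ↦ (τ α / α) ^ k_β(σ)` (values in `μ_n`). -/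
noncomputable def lfCupCocycle (ζ : K) (α β : Mˣ) :
    (M ≃ₐ[K] M) × (M ≃ₐ[K] M) → Mˣ :=
  fun s => (Units.map (s.2 : M →* M) α / α) ^ lfKumExp ζ (β : M) s.1

end Defs

end Fermat.Agent.S55
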