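/-
S55 / LOCAL layer LE: calculus of the Kummer exponent `lfKumExp` (pure field theory).
-/
import Fermat.Agent.S55.LocalKummerDefs
import Fermat.Agent.S55.KummerCocycle

set_option autoImplicit false
set_option linter.unusedSectionVars false

namespace Fermat.Agent.S55

open groupCohomology Polynomial

section KumExp

variable {K : Type} [Field K] {M : Type} [Field M] [Algebra K M]
  {n : ℕ} [NeZero n] {ζ : K} (hζ : IsPrimitiveRoot ζ n)

include hζ

theorem lke_primitive : IsPrimitiveRoot (algebraMap K M ζ) n :=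
  hζ.map_of_injective (algebraMap K M).injective

/-- Two `n`-th roots of the same nonzero element differ by a power of `ζ`. -/
theorem lke_exists_pow_mul {β β₁ : M} (hβ0 : β ≠ 0) (h : β₁ ^ n = β ^ n) :
    ∃ i < n, β₁ = algebraMap K M ζ ^ i * β := by
  have h1 : (β₁ / β) ^ n = 1 := by
    rw [div_pow, h, div_self (pow_ne_zero n hβ0)]
  obtain ⟨i, hi, hi'⟩ := (lke_primitive (M := M) hζ).eq_pow_of_pow_eq_one h1
  refine ⟨i, hi, ?_⟩
  rw [hi', div_mul_cancel₀ _ hβ0]

variable {b : K} (hb : b ≠ 0) {β : M} (hβ : β ^ n = algebraMap K M b)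

include hb hβ

theorem lke_root_ne_zero : β ≠ 0 := by
  intro h
  rw [h, zero_pow (NeZero.ne n)] at hβ
  exact hb ((map_eq_zero (algebraMap K M)).1 hβ.symm)

/-- (F1) the defining property of the Kummer exponent. -/
theorem lke_spec (σ : M ≃ₐ[K] M) :
    σ β = algebraMap K M ζ ^ lfKumExp ζ β σ * β ∧ lfKumExp ζ β σ < n := by
  have hβ0 : β ≠ 0 := lke_root_ne_zero hζ hb hβ
  have h1 : (σ β) ^ n = β ^ n := by
    rw [← map_pow, hβ, σ.commutes]
  obtain ⟨i, hi, hi'⟩ := lke_exists_pow_mul (M := M) hζ hβ0 h1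
  have hmem : i ∈ {k : ℕ | σ β = algebraMap K M ζ ^ k * β} := hi'
  have hle : lfKumExp ζ β σ ≤ i := Nat.sInf_le hmem
  exact ⟨Nat.sInf_mem ⟨i, hmem⟩, lt_of_le_of_lt hle hi⟩

/-- (F1') uniqueness of the Kummer exponent. -/
theorem lke_eq_of_lt (σ : M ≃ₐ[K] M) {j : ℕ} (hj : j < n)
    (h : σ β = algebraMap K M ζ ^ j * β) : lfKumExp ζ β σ = j := by
  obtain ⟨h1, h2⟩ := lke_spec hζ hb hβ σ
  have hβ0 : β ≠ 0 := lke_root_ne_zero hζ hb hβ
  rw [h] at h1
  exact ((lke_primitive (M := M) hζ).pow_inj hj h2 (mul_right_cancel₀ hβ0 h1)).symm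

theorem lke_eq_of_eq (σ : M ≃ₐ[K] M) {j : ℕ}
    (h : σ β = algebraMap K M ζ ^ j * β) : lfKumExp ζ β σ = j % n := by
  apply lke_eq_of_lt hζ hb hβ σ (Nat.mod_lt _ (NeZero.pos n))
  rw [h]
  congr 1
  have h1 : orderOf (algebraMap K M ζ) = n := ((lke_primitive (M := M) hζ).eq_orderOf).symm
  conv_lhs => rw [← pow_mod_orderOf, h1]

/-- (F2) the Kummer exponent is a Kummer character. -/
theorem lke_kumcChar : KumcChar n (lfKumExp ζ β) where
  lt σ := (lke_spec hζ hb hβ σ).2
  mul σ τ := by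
    apply lke_eq_of_eq hζ hb hβ
    rw [AlgEquiv.mul_apply, (lke_spec hζ hb hβ τ).1, map_mul, map_pow, σ.commutes,
      (lke_spec hζ hb hβ σ).1, ← mul_assoc, ← pow_add, add_comm]

/-- (F3) the Kummer exponent is injective if `β` generates `M`. -/
theorem lke_injective (htop : Algebra.adjoin K {β} = ⊤) :
    Function.Injective (lfKumExp ζ β : (M ≃ₐ[K] M) → ℕ) := by
  intro σ τ h
  have h1 : σ β = τ β := by
    rw [(lke_spec hζ hb hβ σ).1, (lke_spec hζ hb hβ τ).1, h]
  have h2 : (σ : M →ₐ[K] M) = (τ : M →ₐ[K] M) :=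
    AlgHom.ext_of_adjoin_eq_top htop (fun x hx => by
      rw [Set.mem_singleton_iff] at hx
      rw [hx]
      exact h1)
  exact AlgEquiv.coe_toAlgHom_injective h2

/-- (F5) invariance under `β ↦ ζ^j β`. -/
theorem lke_pow_mul (j : ℕ) :
    lfKumExp ζ (algebraMap K M ζ ^ j * β) = lfKumExp ζ β := by
  funext σ
  have hβ' : (algebraMap K M ζ ^ j * β) ^ n = algebraMap K M b := by
    rw [mul_pow, ← pow_mul, mul_comm j n, pow_mul, ← map_pow, hζ.pow_eq_one, map_one, one_pow,
      one_mul, hβ]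
  apply lke_eq_of_lt hζ hb hβ' σ (lke_spec hζ hb hβ σ).2
  rw [map_mul, map_pow, σ.commutes, (lke_spec hζ hb hβ σ).1]
  ring

/-- (F5') any two roots of `X^n - b` have the same Kummer exponents. -/
theorem lke_eq_of_root {β₁ : M} (hβ₁ : β₁ ^ n = algebraMap K M b) :
    lfKumExp ζ β₁ = lfKumExp ζ β := by
  have hβ0 : β ≠ 0 := lke_root_ne_zero hζ hb hβ
  obtain ⟨i, _, hi⟩ := lke_exists_pow_mul (M := M) hζ hβ0 (hβ₁.trans hβ.symm)
  rw [hi]
  exact lke_pow_mul hζ hb hβ i

/-- (F8) the Kummer exponent of a product of roots. -/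
theorem lke_mul {b' : K} (hb' : b' ≠ 0) {β' : M} (hβ' : β' ^ n = algebraMap K M b') :
    lfKumExp ζ (β * β') = fun σ => (lfKumExp ζ β σ + lfKumExp ζ β' σ) % n := by
  funext σ
  have hprod : (β * β') ^ n = algebraMap K M (b * b') := by
    rw [mul_pow, hβ, hβ', map_mul]
  apply lke_eq_of_eq hζ (mul_ne_zero hb hb') hprod
  rw [map_mul, (lke_spec hζ hb hβ σ).1, (lke_spec hζ hb' hβ' σ).1, pow_add]
  ring

/-- the symbol cocycle is the abstract Kummer cochain. -/
theorem lke_symbolCocycle_eq (a : Kˣ) :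
    lfSymbolCocycle n ζ a β =
      kumcCochain n (lfKumExp ζ β) (Units.map (algebraMap K M : K →* M) a) := rfl

end KumExp

section Fixed

variable {K : Type} [Field K] {M : Type} [Field M] [Algebra K M]

theorem lke_smul_units_map (σ : M ≃ₐ[K] M) (a : Kˣ) :
    σ • Units.map (algebraMap K M : K →* M) a = Units.map (algebraMap K M : K →* M) a := by
  apply Units.ext
  show σ (algebraMap K M a) = algebraMap K M a
  exact σ.commutes _

end Fixed

end Fermat.Agent.S55
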