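/-
S55 / LOCAL layer LE1: the degree-`n` norm residue (Kummer) symbol of a local field containing `μ_n`:
existence, bimultiplicativity, norm criterion.
-/
import Fermat.Agent.S55.LocalKummerExp

set_option autoImplicit false
set_option linter.unusedSectionVars false

namespace Fermat.Agent.S55

open groupCohomology IsLocalRing Polynomial

/-! ## The embedding `ℤ/n → ℚ/ℤ` -/

section Iota

variable (n : ℕ) [NeZero n]

/-- The embedding `ℤ/n → ℚ/ℤ`, `j ↦ j/n`. -/
noncomputable def lksIota (j : ZMod n) : AddCircle (1 : ℚ) :=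
  ((((j.val : ℕ) : ℚ) / (n : ℚ) : ℚ) : AddCircle (1 : ℚ))

theorem lks_coe_int (m : ℤ) : (((m : ℚ) : ℚ) : AddCircle (1 : ℚ)) = 0 := by
  rw [AddCircle.coe_eq_zero_iff]
  exact ⟨m, by simp⟩

theorem lks_coe_nat_div (x : ℕ) :
    ((((x : ℕ) : ℚ) / (n : ℚ) : ℚ) : AddCircle (1 : ℚ)) = lksIota n (x : ZMod n) := by
  have hn : (n : ℚ) ≠ 0 := Nat.cast_ne_zero.2 (NeZero.ne n)
  have h1 : ((x : ℕ) : ℚ) / (n : ℚ) = ((x / n : ℕ) : ℚ) + ((x % n : ℕ) : ℚ) / (n : ℚ) := by
    have := Nat.div_add_mod x n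
    have h2 : (x : ℚ) = (n : ℚ) * ((x / n : ℕ) : ℚ) + ((x % n : ℕ) : ℚ) := by
      exact_mod_cast this.symm
    rw [h2]
    field_simp
  rw [lksIota, ZMod.val_natCast, h1, AddCircle.coe_add]
  have h3 : ((((x / n : ℕ) : ℚ) : ℚ) : AddCircle (1 : ℚ)) = 0 := by
    rw [AddCircle.coe_eq_zero_iff]
    exact ⟨((x / n : ℕ) : ℤ), by rw [zsmul_eq_mul, mul_one, Int.cast_natCast]⟩
  rw [h3, zero_add]

theorem lksIota_add (j j' : ZMod n) : lksIota n (j + j') = lksIota n j + lksIota n j' := by
  have h1 : j + j' = ((j.val + j'.val : ℕ) : ZMod n) := by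
    rw [Nat.cast_add, ZMod.natCast_zmod_val, ZMod.natCast_zmod_val]
  rw [h1, ← lks_coe_nat_div, Nat.cast_add, add_div, AddCircle.coe_add]
  rfl

theorem lksIota_zero : lksIota n 0 = 0 := by
  simp [lksIota]

theorem lksIota_injective : Function.Injective (lksIota n) := by
  intro j j' h
  have hn : (0 : ℚ) < (n : ℚ) := Nat.cast_pos.2 (NeZero.pos n)
  have hmem : ∀ i : ZMod n, (((i.val : ℕ) : ℚ) / (n : ℚ)) ∈ Set.Ico (0 : ℚ) (0 + 1) := by
    intro i
    constructor
    · positivity
    · rw [zero_add, div_lt_one hn]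
      exact_mod_cast ZMod.val_lt i
  have : Fact ((0 : ℚ) < 1) := ⟨one_pos⟩
  have h1 := (AddCircle.coe_eq_coe_iff_of_mem_Ico (p := (1 : ℚ)) (hmem j) (hmem j')).1 h
  have h2 : ((j.val : ℕ) : ℚ) = ((j'.val : ℕ) : ℚ) := by
    field_simp at h1
    exact h1
  exact ZMod.val_injective n (by exact_mod_cast h2)

theorem lksIota_eq_zero_iff (j : ZMod n) : lksIota n j = 0 ↔ j = 0 := by
  constructor
  · intro h
    apply lksIota_injective n
    rw [h, lksIota_zero]
  · rintro rfl
    exact lksIota_zero n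

theorem lks_exists_of_nsmul_eq_zero (r : AddCircle (1 : ℚ)) (h : n • r = 0) :
    ∃ j : ZMod n, r = lksIota n j := by
  have hn : (n : ℚ) ≠ 0 := Nat.cast_ne_zero.2 (NeZero.ne n)
  obtain ⟨x, rfl⟩ := QuotientAddGroup.mk_surjective r
  have h1 : (((n • x : ℚ) : ℚ) : AddCircle (1 : ℚ)) = 0 := h
  rw [AddCircle.coe_eq_zero_iff] at h1
  obtain ⟨m, hm⟩ := h1
  have hx : x = (m : ℚ) / (n : ℚ) := by
    rw [eq_div_iff hn]
    simp only [zsmul_eq_mul, mul_one, nsmul_eq_mul] at hm
    rw [hm]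
    ring
  have hmod : 0 ≤ m % (n : ℤ) := Int.emod_nonneg _ (Int.natCast_ne_zero.2 (NeZero.ne n))
  obtain ⟨t, ht⟩ := Int.eq_ofNat_of_zero_le hmod
  refine ⟨(t : ZMod n), ?_⟩
  rw [← lks_coe_nat_div]
  have h2 : (m : ℚ) / (n : ℚ) = ((m / (n : ℤ) : ℤ) : ℚ) + ((t : ℕ) : ℚ) / (n : ℚ) := by
    have h3 := Int.mul_ediv_add_emod m (n : ℤ)
    rw [ht] at h3
    have h4 : (m : ℚ) = (n : ℚ) * ((m / (n : ℤ) : ℤ) : ℚ) + ((t : ℕ) : ℚ) := by
      exact_mod_cast h3.symm
    rw [h4]
    field_simp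
  show ((x : ℚ) : AddCircle (1 : ℚ)) = _
  rw [hx, h2, AddCircle.coe_add, lks_coe_int, zero_add]

end Iota

/-! ## The symbol cocycle: cocycle property, powers, base change -/

section Cocycle

variable {K : Type} [Field K] {M : Type} [Field M] [Algebra K M]
  {n : ℕ} [NeZero n] {ζ : K} (hζ : IsPrimitiveRoot ζ n)

include hζ

theorem lks_isMulCocycle₂ (a b : Kˣ) {β : M} (hβ : β ^ n = algebraMap K M (b : K)) :
    IsMulCocycle₂ (lfSymbolCocycle n ζ a β) :=
  kumc_isMulCocycle₂ (lke_kumcChar hζ b.ne_zero hβ) _ (fun σ => lke_smul_units_map σ a)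

theorem lks_pow_isMulCoboundary₂ (a b : Kˣ) {β : M} (hβ : β ^ n = algebraMap K M (b : K)) :
    IsMulCoboundary₂ (lfSymbolCocycle n ζ (a ^ n) β) := by
  have := kumc_pow_isMulCoboundary₂ (lke_kumcChar hζ b.ne_zero hβ)
    (Units.map (algebraMap K M : K →* M) a) (fun σ => lke_smul_units_map σ a)
  rwa [← map_pow] at this

omit hζ in
theorem lks_mul_left (a a' : Kˣ) (β : M) :
    lfSymbolCocycle n ζ (a * a') β = lfSymbolCocycle n ζ a β * lfSymbolCocycle n ζ a' β := by
  show kumcCochain n (lfKumExp ζ β) (Units.map (algebraMap K M : K →* M) (a * a')) = _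
  rw [map_mul, kumcCochain_mul]
  rfl

theorem lks_mul_right_isMulCoboundary₂ (a b b' : Kˣ) {β β' : M}
    (hβ : β ^ n = algebraMap K M (b : K)) (hβ' : β' ^ n = algebraMap K M (b' : K)) :
    IsMulCoboundary₂ (lfSymbolCocycle n ζ a β * lfSymbolCocycle n ζ a β' /
      lfSymbolCocycle n ζ a (β * β')) := by
  have := kumc_add_isMulCoboundary₂ (lke_kumcChar hζ b.ne_zero hβ)
    (lke_kumcChar hζ b'.ne_zero hβ') (Units.map (algebraMap K M : K →* M) a)
    (fun σ => lke_smul_units_map σ a)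
  rw [← lke_mul hζ b.ne_zero hβ b'.ne_zero hβ'] at this
  exact this

end Cocycle

section BaseChange

variable {K : Type} [Field K] {M₁ : Type} [Field M₁] [Algebra K M₁] {M : Type} [Field M]
  [Algebra K M] [Algebra M₁ M] [IsScalarTower K M₁ M] [IsScalarTower K K M]
  {n : ℕ} [NeZero n] {ζ : K} (hζ : IsPrimitiveRoot ζ n)

include hζ

/-- Inflation of the symbol cocycle along `M₁ ⊆ M`. -/
theorem lks_lfBC_symbolCocycle [Normal K M₁] (a b : Kˣ) {β₁ : M₁}
    (hβ₁ : β₁ ^ n = algebraMap K M₁ (b : K)) :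
    lfBC K M₁ K M (lfSymbolCocycle n ζ a β₁) =
      lfSymbolCocycle n ζ a (algebraMap M₁ M β₁) := by
  have hβ : (algebraMap M₁ M β₁) ^ n = algebraMap K M (b : K) := by
    rw [← map_pow, hβ₁, ← IsScalarTower.algebraMap_apply]
  have hk : lfKumExp ζ β₁ ∘ (lfGalRes K M₁ K M) = lfKumExp ζ (algebraMap M₁ M β₁) := by
    funext σ
    symm
    apply lke_eq_of_lt hζ b.ne_zero hβ σ (lke_spec hζ b.ne_zero hβ₁ _).2
    rw [← lfGalRes_commutes K M₁ K M σ β₁, (lke_spec hζ b.ne_zero hβ₁ _).1, map_mul, map_pow,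
      ← IsScalarTower.algebraMap_apply]
  have ha : Units.map (algebraMap M₁ M : M₁ →* M) (Units.map (algebraMap K M₁ : K →* M₁) a) =
      Units.map (algebraMap K M : K →* M) a := by
    apply Units.ext
    show algebraMap M₁ M (algebraMap K M₁ (a : K)) = algebraMap K M (a : K)
    rw [← IsScalarTower.algebraMap_apply]
  show pullCochain₂ (lfGalRes K M₁ K M) (Units.map (algebraMap M₁ M : M₁ →* M))
    (kumcCochain n (lfKumExp ζ β₁) (Units.map (algebraMap K M₁ : K →* M₁) a)) = _
  rw [pullCochain₂_kumcCochain, hk, ha]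
  rfl

end BaseChange

/-! ## The local part -/

section Local

variable (q : ℕ) [Fact q.Prime]
  (K : Type) [Field K] [Algebra ℚ_[q] K] [FiniteDimensional ℚ_[q] K]
  (n : ℕ) [NeZero n] (ζ : K)

include q in
theorem lks_charZero : CharZero K :=
  charZero_of_injective_algebraMap (algebraMap ℚ_[q] K).injective

/-- The invariant of the symbol cocycle is killed by `n`. -/
theorem lks_nsmul_localInv (hζ : IsPrimitiveRoot ζ n)
    (M : Type) [Field M] [Algebra ℚ_[q] M] [FiniteDimensional ℚ_[q] M] [Algebra K M]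
    [IsScalarTower ℚ_[q] K M] [IsGalois K M] (a b : Kˣ) (β : M)
    (hβ : β ^ n = algebraMap K M (b : K)) :
    n • localInv q K M (lfSymbolCocycle n ζ a β) = 0 := by
  have hpow : ∀ m : ℕ, localInv q K M (lfSymbolCocycle n ζ (a ^ m) β) =
      m • localInv q K M (lfSymbolCocycle n ζ a β) := by
    intro m
    induction m with
    | zero =>
      rw [pow_zero, zero_smul, localInv_eq_zero_iff q K M (lks_isMulCocycle₂ hζ 1 b hβ)]
      have := lks_pow_isMulCoboundary₂ hζ 1 b hβ
      rwa [one_pow] at this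
    | succ m ih =>
      rw [pow_succ, lks_mul_left, localInv_mul q K M (lks_isMulCocycle₂ hζ _ b hβ)
        (lks_isMulCocycle₂ hζ a b hβ), ih, succ_nsmul]
  rw [← hpow n, localInv_eq_zero_iff q K M (lks_isMulCocycle₂ hζ _ b hβ)]
  exact lks_pow_isMulCoboundary₂ hζ a b hβ

/-- Independence of the field: inflation. -/
theorem lks_localInv_inflation (hζ : IsPrimitiveRoot ζ n)
    (M₁ : Type) [Field M₁] [Algebra ℚ_[q] M₁] [FiniteDimensional ℚ_[q] M₁] [Algebra K M₁]
    [IsScalarTower ℚ_[q] K M₁] [IsGalois K M₁]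
    (M : Type) [Field M] [Algebra ℚ_[q] M] [FiniteDimensional ℚ_[q] M] [Algebra K M]
    [IsScalarTower ℚ_[q] K M] [IsGalois K M]
    [Algebra M₁ M] [IsScalarTower ℚ_[q] M₁ M] [IsScalarTower K M₁ M]
    (a b : Kˣ) (β₁ : M₁) (hβ₁ : β₁ ^ n = algebraMap K M₁ (b : K))
    (β : M) (hβ : β ^ n = algebraMap K M (b : K)) :
    localInv q K M (lfSymbolCocycle n ζ a β) = localInv q K M₁ (lfSymbolCocycle n ζ a β₁) := by
  have h1 := localInv_baseChange q K M₁ K M (lks_isMulCocycle₂ hζ a b hβ₁)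
  rw [Module.finrank_self, one_smul, lks_lfBC_symbolCocycle hζ a b hβ₁] at h1
  rw [← h1]
  have hβ' : (algebraMap M₁ M β₁) ^ n = algebraMap K M (b : K) := by
    rw [← map_pow, hβ₁, ← IsScalarTower.algebraMap_apply]
  have hk := lke_eq_of_root hζ b.ne_zero hβ' hβ
  show localInv q K M (kumcCochain n (lfKumExp ζ β) _) =
    localInv q K M (kumcCochain n (lfKumExp ζ (algebraMap M₁ M β₁)) _)
  rw [hk]

/-- A root of `X^n - b` in the splitting field of any nonzero multiple of `X^n - b`. -/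
theorem lks_exists_root (f : K[X]) (hf : f ≠ 0) (b : Kˣ) (hdvd : X ^ n - C (b : K) ∣ f) :
    ∃ β : f.SplittingField, β ^ n = algebraMap K f.SplittingField (b : K) := by
  have h1 : ((X ^ n - C (b : K)).map (algebraMap K f.SplittingField)).Splits :=
    (SplittingField.splits f).of_dvd (Polynomial.map_ne_zero hf) (Polynomial.map_dvd _ hdvd)
  have hdeg : ((X ^ n - C (b : K)).map (algebraMap K f.SplittingField)).degree ≠ 0 := by
    rw [Polynomial.degree_map, degree_X_pow_sub_C (NeZero.pos n)]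
    exact_mod_cast NeZero.ne n
  obtain ⟨β, hβ⟩ := h1.exists_eval_eq_zero hdeg
  refine ⟨β, ?_⟩
  simpa [sub_eq_zero] using hβ

/-- The value of the symbol: one `j : ZMod n` computing the invariant of the symbol cocycle in
every finite Galois `M/K` containing an `n`-th root of `b`. -/
theorem lks_exists_value (hζ : IsPrimitiveRoot ζ n) (a b : Kˣ) :
    ∃ j : ZMod n, ∀ (M : Type) [Field M] [Algebra ℚ_[q] M] [FiniteDimensional ℚ_[q] M]
      [Algebra K M] [IsScalarTower ℚ_[q] K M] [IsGalois K M] (β : M),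
      β ^ n = algebraMap K M (b : K) →
      localInv q K M (lfSymbolCocycle n ζ a β) = lksIota n j := by
  have hchar : CharZero K := lks_charZero q K
  let f : K[X] := X ^ n - C (b : K)
  have hf : f ≠ 0 := X_pow_sub_C_ne_zero (NeZero.pos n) _
  have hfin : FiniteDimensional ℚ_[q] f.SplittingField :=
    FiniteDimensional.trans ℚ_[q] K f.SplittingField
  have hgal : IsGalois K f.SplittingField := {}
  obtain ⟨β₀, hβ₀⟩ := lks_exists_root K n f hf b dvd_rfl
  obtain ⟨j, hj⟩ := lks_exists_of_nsmul_eq_zero n _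
    (lks_nsmul_localInv q K n ζ hζ f.SplittingField a b β₀ hβ₀)
  refine ⟨j, ?_⟩
  intro M _ _ _ _ _ _ β hβ
  have hsplits : (f.map (algebraMap K M)).Splits := by
    have := X_pow_sub_C_splits_of_isPrimitiveRoot (lke_primitive (M := M) hζ) hβ
    simpa [f] using this
  let φ : f.SplittingField →ₐ[K] M := IsSplittingField.lift f.SplittingField f hsplits
  let _ : Algebra f.SplittingField M := φ.toRingHom.toAlgebra
  have htower : IsScalarTower K f.SplittingField M :=
    IsScalarTower.of_algebraMap_eq (fun x => (φ.commutes x).symm)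
  have htower' : IsScalarTower ℚ_[q] f.SplittingField M :=
    IsScalarTower.of_algebraMap_eq (fun x => by
      rw [IsScalarTower.algebraMap_apply ℚ_[q] K M,
        IsScalarTower.algebraMap_apply ℚ_[q] K f.SplittingField]
      exact (φ.commutes _).symm)
  exact (lks_localInv_inflation q K n ζ hζ f.SplittingField M a b β₀ hβ₀ β hβ).trans hj

end Local

/-! ## LE1: the symbol -/

section Symbol

variable (q : ℕ) [Fact q.Prime]
  (K : Type) [Field K] [Algebra ℚ_[q] K] [FiniteDimensional ℚ_[q] K]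
  (n : ℕ) [NeZero n] (ζ : K)

/-- Existence of the symbol: a bimultiplicative map `Kˣ × Kˣ → ZMod n` computing the invariant of
the symbol cocycle in EVERY finite Galois `M/K` containing an `n`-th root `β` of `b`, and vanishing
exactly when `a` is a norm from `K(β)`. -/
theorem exists_lfSymbol (hζ : IsPrimitiveRoot ζ n) :
    ∃ s : Kˣ → Kˣ → ZMod n,
      (∀ (M : Type) [Field M] [Algebra ℚ_[q] M] [FiniteDimensional ℚ_[q] M] [Algebra K M]
        [IsScalarTower ℚ_[q] K M] [IsGalois K M] (a b : Kˣ) (β : M),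
        β ^ n = algebraMap K M (b : K) →
        localInv q K M (lfSymbolCocycle n ζ a β) = ((((s a b).val : ℕ) : ℚ) / (n : ℚ) : ℚ)) ∧
      (∀ a a' b : Kˣ, s (a * a') b = s a b + s a' b) ∧
      (∀ a b b' : Kˣ, s a (b * b') = s a b + s a b') ∧
      (∀ (L : Type) [Field L] [Algebra ℚ_[q] L] [FiniteDimensional ℚ_[q] L] [Algebra K L]
        [IsScalarTower ℚ_[q] K L] (a b : Kˣ) (β : L),
        β ^ n = algebraMap K L (b : K) → Algebra.adjoin K {β} = ⊤ →
        (s a b = 0 ↔ a ∈ lfNormSubgroup K L)) := by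
  have hchar : CharZero K := lks_charZero q K
  choose s hs using lks_exists_value q K n ζ hζ
  refine ⟨s, ?_, ?_, ?_, ?_⟩
  · intro M _ _ _ _ _ _ a b β hβ
    exact hs a b M β hβ
  · -- additivity in `a`
    intro a a' b
    let f : K[X] := X ^ n - C (b : K)
    have hf : f ≠ 0 := X_pow_sub_C_ne_zero (NeZero.pos n) _
    have hfin : FiniteDimensional ℚ_[q] f.SplittingField :=
      FiniteDimensional.trans ℚ_[q] K f.SplittingField
    have hgal : IsGalois K f.SplittingField := {}
    obtain ⟨β, hβ⟩ := lks_exists_root K n f hf b dvd_rfl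
    apply lksIota_injective n
    rw [lksIota_add, ← hs (a * a') b f.SplittingField β hβ, ← hs a b f.SplittingField β hβ,
      ← hs a' b f.SplittingField β hβ, lks_mul_left,
      localInv_mul q K f.SplittingField (lks_isMulCocycle₂ hζ a b hβ)
        (lks_isMulCocycle₂ hζ a' b hβ)]
  · -- additivity in `b`
    intro a b b'
    let f : K[X] := (X ^ n - C (b : K)) * (X ^ n - C (b' : K))
    have hf : f ≠ 0 := mul_ne_zero (X_pow_sub_C_ne_zero (NeZero.pos n) _)
      (X_pow_sub_C_ne_zero (NeZero.pos n) _)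
    have hfin : FiniteDimensional ℚ_[q] f.SplittingField :=
      FiniteDimensional.trans ℚ_[q] K f.SplittingField
    have hgal : IsGalois K f.SplittingField := {}
    obtain ⟨β, hβ⟩ := lks_exists_root K n f hf b (dvd_mul_right _ _)
    obtain ⟨β', hβ'⟩ := lks_exists_root K n f hf b' (dvd_mul_left _ _)
    have hprod : (β * β') ^ n = algebraMap K f.SplittingField ((b * b' : Kˣ) : K) := by
      rw [mul_pow, hβ, hβ', Units.val_mul, map_mul]
    apply lksIota_injective n
    rw [lksIota_add, ← hs a (b * b') f.SplittingField (β * β') hprod,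
      ← hs a b f.SplittingField β hβ, ← hs a b' f.SplittingField β' hβ',
      ← localInv_mul q K f.SplittingField (lks_isMulCocycle₂ hζ a b hβ)
        (lks_isMulCocycle₂ hζ a b' hβ')]
    -- the two cocycles differ by a coboundary
    have hcob := lks_mul_right_isMulCoboundary₂ hζ a b b' hβ hβ'
    have hcoc := lks_isMulCocycle₂ hζ a (b * b') hprod
    have hcocD : IsMulCocycle₂ (lfSymbolCocycle n ζ a β * lfSymbolCocycle n ζ a β' /
        lfSymbolCocycle n ζ a (β * β')) := by
      obtain ⟨x, hx⟩ := hcob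
      intro g h j
      rw [← hx, ← hx, ← hx, ← hx]
      simp only [smul_mul', smul_div', smul_smul, mul_assoc]
      apply Additive.ofMul.injective
      simp only [ofMul_mul, ofMul_div]
      abel
    have hsplit : lfSymbolCocycle n ζ a β * lfSymbolCocycle n ζ a β' =
        lfSymbolCocycle n ζ a (β * β') * (lfSymbolCocycle n ζ a β * lfSymbolCocycle n ζ a β' /
          lfSymbolCocycle n ζ a (β * β')) := by
      rw [mul_div_cancel]
    rw [hsplit, localInv_mul q K f.SplittingField hcoc hcocD,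
      (localInv_eq_zero_iff q K f.SplittingField hcocD).2 hcob, add_zero]
  · -- the norm criterion
    intro L _ _ _ _ _ a b β hβ htop
    have hKL : FiniteDimensional K L := FiniteDimensional.right ℚ_[q] K L
    have hn0 : ((n : ℕ) : K) ≠ 0 := Nat.cast_ne_zero.2 (NeZero.ne n)
    have hsplit : IsSplittingField K L (X ^ n - C (b : K)) := by
      refine ⟨?_, ?_⟩
      · have := X_pow_sub_C_splits_of_isPrimitiveRoot (lke_primitive (M := L) hζ) hβ
        simpa using this
      · rw [eq_top_iff, ← htop]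
        apply Algebra.adjoin_mono
        rw [Set.singleton_subset_iff, mem_rootSet]
        refine ⟨X_pow_sub_C_ne_zero (NeZero.pos n) _, ?_⟩
        simp [hβ]
    have hgal : IsGalois K L :=
      IsGalois.of_separable_splitting_field (separable_X_pow_sub_C (b : K) hn0 b.ne_zero)
    obtain ⟨σ₁, hσ₁, hcyc⟩ := kumc_exists_eq_cycCocycle (X := Lˣ)
      (lke_kumcChar hζ b.ne_zero hβ) (lke_injective hζ b.ne_zero hβ htop)
    have h1 := hs a b L β hβ
    rw [← lksIota_eq_zero_iff n, ← h1,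
      localInv_eq_zero_iff q K L (lks_isMulCocycle₂ hζ a b hβ),
      lke_symbolCocycle_eq hζ b.ne_zero hβ, hcyc]
    exact cycCocycle_isMulCoboundary₂_iff_mem_norm q K L σ₁ hσ₁ a

open Classical in
/-- The degree-`n` norm residue symbol `(a, b) ∈ ZMod n` (with respect to `ζ`); junk `0` if `ζ` is
not a primitive `n`-th root of unity. -/
noncomputable def lfSymbol (a b : Kˣ) : ZMod n :=
  if hζ : IsPrimitiveRoot ζ n then Classical.choose (exists_lfSymbol q K n ζ hζ) a b else 0

end Symbol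

section Props

variable (q : ℕ) [Fact q.Prime]
  (K : Type) [Field K] [Algebra ℚ_[q] K] [FiniteDimensional ℚ_[q] K]
  (n : ℕ) [NeZero n] (ζ : K) (hζ : IsPrimitiveRoot ζ n)

include hζ

theorem localInv_lfSymbolCocycle
    (M : Type) [Field M] [Algebra ℚ_[q] M] [FiniteDimensional ℚ_[q] M] [Algebra K M]
    [IsScalarTower ℚ_[q] K M] [IsGalois K M] (a b : Kˣ) (β : M)
    (hβ : β ^ n = algebraMap K M (b : K)) :
    localInv q K M (lfSymbolCocycle n ζ a β) =
      ((((lfSymbol q K n ζ a b).val : ℕ) : ℚ) / (n : ℚ) : ℚ) := by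
  rw [lfSymbol, dif_pos hζ]
  exact (Classical.choose_spec (exists_lfSymbol q K n ζ hζ)).1 M a b β hβ

theorem lfSymbol_mul_left (a a' b : Kˣ) :
    lfSymbol q K n ζ (a * a') b = lfSymbol q K n ζ a b + lfSymbol q K n ζ a' b := by
  simp only [lfSymbol, dif_pos hζ]
  exact (Classical.choose_spec (exists_lfSymbol q K n ζ hζ)).2.1 a a' b

theorem lfSymbol_mul_right (a b b' : Kˣ) :
    lfSymbol q K n ζ a (b * b') = lfSymbol q K n ζ a b + lfSymbol q K n ζ a b' := by
  simp only [lfSymbol, dif_pos hζ]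
  exact (Classical.choose_spec (exists_lfSymbol q K n ζ hζ)).2.2.1 a b b'

/-- Norm criterion. -/
theorem lfSymbol_eq_zero_iff (L : Type) [Field L] [Algebra ℚ_[q] L] [FiniteDimensional ℚ_[q] L]
    [Algebra K L] [IsScalarTower ℚ_[q] K L] (a b : Kˣ) (β : L)
    (hβ : β ^ n = algebraMap K L (b : K)) (htop : Algebra.adjoin K {β} = ⊤) :
    lfSymbol q K n ζ a b = 0 ↔ a ∈ lfNormSubgroup K L := by
  simp only [lfSymbol, dif_pos hζ]
  exact (Classical.choose_spec (exists_lfSymbol q K n ζ hζ)).2.2.2 L a b β hβ htop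

end Props

end Fermat.Agent.S55
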