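/-
S55 / LOCAL layer LE3 (part): functoriality of the norm residue symbol under a finite extension
`K'/K`: `(a,b)_{K'} = [K':K] (a,b)_K` (`lfSymbol_baseChange`, exact `LocalKummerSpec` statement).

Route: `L` = splitting field of `X^n - b` over `K`, `M` = splitting field of `X^n - b` over `K'`,
`L → M` by `IsSplittingField.lift`; the base change `lfBC K L K' M` of the symbol cocycle of
`(ζ, a, β₀)` is the symbol cocycle of `(ζ, a, β₀)` over `K'` (`lkbc_lfBC_symbolCocycle`, valid for
every commutative square `K ⊆ L ⊆ M`, `K ⊆ K' ⊆ M`); then `localInv_baseChange` and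
`localInv_lfSymbolCocycle` on both sides.  Imports the LE1 leaf `LocalKummerSymbol.lean`
(helper names used: `lks_charZero`, `lks_exists_root`, `lks_isMulCocycle₂`, `lksIota*`, `lke_*`,
`pullCochain₂_kumcCochain`).  Own helper names have the prefix `lkbc_`.
-/
import Fermat.Agent.S55.LocalKummerSymbol

set_option autoImplicit false

namespace Fermat.Agent.S55

open groupCohomology IsLocalRing Polynomial

section Square

variable {K : Type} [Field K] {L : Type} [Field L] [Algebra K L] {K' : Type} [Field K']
  [Algebra K K'] {M : Type} [Field M] [Algebra L M] [Algebra K' M] [Algebra K M]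
  [IsScalarTower K L M] [IsScalarTower K K' M]
  {n : ℕ} [NeZero n] {ζ : K} (hζ : IsPrimitiveRoot ζ n)

include hζ

/-- Base change of the symbol cocycle along a commutative square `K ⊆ L ⊆ M`, `K ⊆ K' ⊆ M`. -/
theorem lkbc_lfBC_symbolCocycle [Normal K L] (a b : Kˣ) {β₁ : L}
    (hβ₁ : β₁ ^ n = algebraMap K L (b : K)) :
    lfBC K L K' M (lfSymbolCocycle n ζ a β₁) =
      lfSymbolCocycle n (algebraMap K K' ζ) (Units.map (algebraMap K K' : K →* K') a)
        (algebraMap L M β₁) := by
  have hζ' : IsPrimitiveRoot (algebraMap K K' ζ) n :=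
    hζ.map_of_injective (algebraMap K K').injective
  have hb' : algebraMap K K' (b : K) ≠ 0 :=
    (map_ne_zero_iff _ (algebraMap K K').injective).2 b.ne_zero
  have hsq : ∀ x : K, algebraMap L M (algebraMap K L x) = algebraMap K' M (algebraMap K K' x) := by
    intro x
    rw [← IsScalarTower.algebraMap_apply K L M, ← IsScalarTower.algebraMap_apply K K' M]
  have hβ : (algebraMap L M β₁) ^ n = algebraMap K' M (algebraMap K K' (b : K)) := by
    rw [← map_pow, hβ₁, hsq]
  have hk : lfKumExp ζ β₁ ∘ (lfGalRes K L K' M) =
      lfKumExp (algebraMap K K' ζ) (algebraMap L M β₁) := by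
    funext σ
    symm
    apply lke_eq_of_lt hζ' hb' hβ σ (lke_spec hζ b.ne_zero hβ₁ _).2
    rw [← lfGalRes_commutes K L K' M σ β₁, (lke_spec hζ b.ne_zero hβ₁ _).1, map_mul, map_pow,
      hsq]
  have ha : Units.map (algebraMap L M : L →* M) (Units.map (algebraMap K L : K →* L) a) =
      Units.map (algebraMap K' M : K' →* M) (Units.map (algebraMap K K' : K →* K') a) := by
    apply Units.ext
    exact hsq (a : K)
  show pullCochain₂ (lfGalRes K L K' M) (Units.map (algebraMap L M : L →* M))
    (kumcCochain n (lfKumExp ζ β₁) (Units.map (algebraMap K L : K →* L) a)) = _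
  rw [pullCochain₂_kumcCochain, hk, ha]
  rfl

end Square

section Iota

variable (n : ℕ) [NeZero n]

theorem lkbc_lksIota_natCast_mul (d : ℕ) (x : ZMod n) :
    lksIota n ((d : ZMod n) * x) = d • lksIota n x := by
  induction d with
  | zero => rw [Nat.cast_zero, zero_mul, zero_smul, lksIota_zero]
  | succ d ih => rw [Nat.cast_succ, add_mul, one_mul, lksIota_add, ih, succ_nsmul]

end Iota

section Main

variable (q : ℕ) [Fact q.Prime]
  (K : Type) [Field K] [Algebra ℚ_[q] K] [FiniteDimensional ℚ_[q] K]
  (n : ℕ) [NeZero n] (ζ : K)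

/-- Functoriality under a finite extension `K'/K`: `(a,b)_{K'} = [K':K] (a,b)_K` for `a, b ∈ K`. -/
theorem lfSymbol_baseChange (hζ : IsPrimitiveRoot ζ n)
    (K' : Type) [Field K'] [Algebra ℚ_[q] K'] [FiniteDimensional ℚ_[q] K']
    [Algebra K K'] [IsScalarTower ℚ_[q] K K'] (a b : Kˣ) :
    lfSymbol q K' n (algebraMap K K' ζ) (Units.map (algebraMap K K' : K →* K') a)
        (Units.map (algebraMap K K' : K →* K') b) =
      (Module.finrank K K' : ZMod n) * lfSymbol q K n ζ a b := by
  have hchar : CharZero K := lks_charZero q K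
  have hchar' : CharZero K' := lks_charZero q K'
  have hζ' : IsPrimitiveRoot (algebraMap K K' ζ) n :=
    hζ.map_of_injective (algebraMap K K').injective
  let f : K[X] := X ^ n - C (b : K)
  have hf : f ≠ 0 := X_pow_sub_C_ne_zero (NeZero.pos n) _
  let f' : K'[X] := f.map (algebraMap K K')
  have hf' : f' ≠ 0 := Polynomial.map_ne_zero hf
  -- the two splitting fields
  have hfinL : FiniteDimensional ℚ_[q] f.SplittingField :=
    FiniteDimensional.trans ℚ_[q] K f.SplittingField
  have hfinM : FiniteDimensional ℚ_[q] f'.SplittingField :=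
    FiniteDimensional.trans ℚ_[q] K' f'.SplittingField
  have hgalL : IsGalois K f.SplittingField := {}
  have hgalM : IsGalois K' f'.SplittingField := {}
  obtain ⟨β₀, hβ₀⟩ := lks_exists_root K n f hf b dvd_rfl
  -- `K ⊆ M`
  have htKM : IsScalarTower ℚ_[q] K f'.SplittingField :=
    IsScalarTower.of_algebraMap_eq (fun x => by
      rw [IsScalarTower.algebraMap_apply ℚ_[q] K' f'.SplittingField,
        IsScalarTower.algebraMap_apply ℚ_[q] K K',
        ← IsScalarTower.algebraMap_apply K K' f'.SplittingField])
  -- `L ⊆ M`
  have hsplits : (f.map (algebraMap K f'.SplittingField)).Splits := by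
    have h1 : f.map (algebraMap K f'.SplittingField) =
        f'.map (algebraMap K' f'.SplittingField) := by
      rw [Polynomial.map_map, ← IsScalarTower.algebraMap_eq]
    rw [h1]
    exact SplittingField.splits f'
  let φ : f.SplittingField →ₐ[K] f'.SplittingField :=
    IsSplittingField.lift f.SplittingField f hsplits
  let _ : Algebra f.SplittingField f'.SplittingField := φ.toRingHom.toAlgebra
  have htower : IsScalarTower K f.SplittingField f'.SplittingField :=
    IsScalarTower.of_algebraMap_eq (fun x => (φ.commutes x).symm)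
  have htower' : IsScalarTower ℚ_[q] f.SplittingField f'.SplittingField :=
    IsScalarTower.of_algebraMap_eq (fun x => by
      rw [IsScalarTower.algebraMap_apply ℚ_[q] K f'.SplittingField,
        IsScalarTower.algebraMap_apply ℚ_[q] K f.SplittingField]
      exact (φ.commutes _).symm)
  -- base change of the invariant
  have h1 := localInv_baseChange q K f.SplittingField K' f'.SplittingField
    (lks_isMulCocycle₂ hζ a b hβ₀)
  rw [lkbc_lfBC_symbolCocycle hζ a b hβ₀] at h1
  have hβ : (algebraMap f.SplittingField f'.SplittingField β₀) ^ n =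
      algebraMap K' f'.SplittingField
        ((Units.map (algebraMap K K' : K →* K') b : K'ˣ) : K') := by
    rw [← map_pow, hβ₀, ← IsScalarTower.algebraMap_apply K f.SplittingField f'.SplittingField,
      IsScalarTower.algebraMap_apply K K' f'.SplittingField]
    rfl
  rw [localInv_lfSymbolCocycle q K' n (algebraMap K K' ζ) hζ' f'.SplittingField _ _ _ hβ,
    localInv_lfSymbolCocycle q K n ζ hζ f.SplittingField a b β₀ hβ₀] at h1
  apply lksIota_injective n
  rw [lkbc_lksIota_natCast_mul]
  exact h1

end Main

end Fermat.Agent.S55
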