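/-
S55 / LOCAL layer LE2a "LocalKummerDual" (helper19): duality properties of the degree-`n` norm
residue symbol `lfSymbol` (`μ_n ⊆ K`, `n ≥ 1` arbitrary): `lfSymbol_pow_left/right`,
`lfSymbol_self_neg`, `lfSymbol_swap`, `lfSymbol_steinberg`, `localInv_lfCupCocycle`,
`lfSymbol_nondegenerate_right/left`.
EXACT statements of `LocalKummerSpec.lean` (origin/helper22 fc1a090).  Black boxes: the LE1 part of
that spec through `LocalKummerLE1Spec` (= the spec cut before LE2), the `LocalInv` API and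
`lfNormSubgroup_index_of_isCyclic` (LD2).  Helper names are prefixed `lkd`/`Lkd`.
Reusable: Kummer exponent calculus (`lkd_kumExp_spec`, `lkd_kumExp_mul`, `lkdChar` + injectivity,
`lkd_isCyclic`, `lkd_finrank_dvd`), `lkd_exists_norm_eq` (`x ^ n - b` is a norm from `K(b^{1/n})`),
the field `LkdField K g` (= `K[X]/(g)`, a local field when `K` is) with `lkd_isGalois`.
-/
import Fermat.Agent.S55.LocalKummerSymbol
set_option autoImplicit false
set_option linter.unusedSectionVars false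
namespace Fermat.Agent.S55
open groupCohomology IsLocalRing Polynomial

section RangeProd

theorem lkd_prod_range_mul {X : Type} [CommMonoid X] (g : ℕ → X) (t e : ℕ) :
    ∏ r ∈ Finset.range t, ∏ j ∈ Finset.range e, g (r + t * j) = ∏ i ∈ Finset.range (t * e), g i := by
  induction e with
  | zero => simp
  | succ e ih =>
    rw [Nat.mul_succ, Finset.prod_range_add, ← ih, ← Finset.prod_mul_distrib]
    refine Finset.prod_congr rfl fun r _ => ?_
    rw [Finset.prod_range_succ, add_comm (t * e) r]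

end RangeProd

section KumExp

variable {K : Type} [Field K] {M : Type} [Field M] [Algebra K M] {n : ℕ} [NeZero n] {ζ : K}

theorem lkd_modEq_of_pow_eq {R : Type} [Field R] {z : R} {n : ℕ} (hz : IsPrimitiveRoot z n)
    (hn : n ≠ 0) {i j : ℕ} (h : z ^ i = z ^ j) : i ≡ j [MOD n] := by
  have hz0 : z ≠ 0 := hz.ne_zero hn
  rw [Nat.modEq_iff_dvd]
  rw [← hz.zpow_eq_one_iff_dvd, zpow_sub₀ hz0, zpow_natCast, zpow_natCast, h, div_self]
  exact pow_ne_zero _ hz0

theorem lkd_kumExp_spec (hζ : IsPrimitiveRoot ζ n) (β : M) (hβ0 : β ≠ 0)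
    (hβ : ∃ b : K, β ^ n = algebraMap K M b) (σ : M ≃ₐ[K] M) :
    σ β = algebraMap K M ζ ^ lfKumExp ζ β σ * β ∧ lfKumExp ζ β σ < n := by
  have hζ' : IsPrimitiveRoot (algebraMap K M ζ) n := hζ.map_of_injective (algebraMap K M).injective
  obtain ⟨b, hb⟩ := hβ
  have h1 : (σ β / β) ^ n = 1 := by
    rw [div_pow, ← map_pow, hb, AlgEquiv.commutes, div_self]
    rw [← hb]
    exact pow_ne_zero _ hβ0
  obtain ⟨i, hi, hi'⟩ := hζ'.eq_pow_of_pow_eq_one h1
  have hmem : i ∈ {k : ℕ | σ β = algebraMap K M ζ ^ k * β} := by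
    change σ β = algebraMap K M ζ ^ i * β
    rw [hi', div_mul_cancel₀ _ hβ0]
  exact ⟨Nat.sInf_mem ⟨i, hmem⟩, lt_of_le_of_lt (Nat.sInf_le hmem) hi⟩

theorem lkd_kumExp_mul (hζ : IsPrimitiveRoot ζ n) (β : M) (hβ0 : β ≠ 0)
    (hβ : ∃ b : K, β ^ n = algebraMap K M b) (σ τ : M ≃ₐ[K] M) :
    lfKumExp ζ β (σ * τ) ≡ lfKumExp ζ β σ + lfKumExp ζ β τ [MOD n] := by
  have hζ' : IsPrimitiveRoot (algebraMap K M ζ) n := hζ.map_of_injective (algebraMap K M).injective
  have h1 := (lkd_kumExp_spec hζ β hβ0 hβ (σ * τ)).1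
  have h2 := (lkd_kumExp_spec hζ β hβ0 hβ σ).1
  have h3 := (lkd_kumExp_spec hζ β hβ0 hβ τ).1
  rw [AlgEquiv.mul_apply, h3, map_mul, map_pow, AlgEquiv.commutes, h2, ← mul_assoc, ← pow_add] at h1
  have h4 := mul_right_cancel₀ hβ0 h1
  have h5 := lkd_modEq_of_pow_eq hζ' (NeZero.ne n) h4
  rw [add_comm] at h5
  exact h5.symm

/-- The Kummer character as a homomorphism to `ZMod n`. -/
noncomputable def lkdChar (hζ : IsPrimitiveRoot ζ n) (β : M) (hβ0 : β ≠ 0)
    (hβ : ∃ b : K, β ^ n = algebraMap K M b) : (M ≃ₐ[K] M) →* Multiplicative (ZMod n) :=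
  MonoidHom.mk' (fun σ => Multiplicative.ofAdd ((lfKumExp ζ β σ : ℕ) : ZMod n)) (by
    intro σ τ
    rw [← ofAdd_add, ← Nat.cast_add]
    congr 1
    exact (ZMod.natCast_eq_natCast_iff _ _ _).2 (lkd_kumExp_mul hζ β hβ0 hβ σ τ))

theorem lkdChar_injective (hζ : IsPrimitiveRoot ζ n) (β : M) (hβ0 : β ≠ 0)
    (hβ : ∃ b : K, β ^ n = algebraMap K M b) (htop : Algebra.adjoin K {β} = ⊤) :
    Function.Injective (lkdChar hζ β hβ0 hβ) := by
  intro σ τ h
  have h1 : ((lfKumExp ζ β σ : ℕ) : ZMod n) = ((lfKumExp ζ β τ : ℕ) : ZMod n) :=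
    Multiplicative.ofAdd.injective h
  have h2 : lfKumExp ζ β σ = lfKumExp ζ β τ :=
    Nat.ModEq.eq_of_lt_of_lt ((ZMod.natCast_eq_natCast_iff _ _ _).1 h1)
      (lkd_kumExp_spec hζ β hβ0 hβ σ).2 (lkd_kumExp_spec hζ β hβ0 hβ τ).2
  have h3 : σ β = τ β := by
    rw [(lkd_kumExp_spec hζ β hβ0 hβ σ).1, (lkd_kumExp_spec hζ β hβ0 hβ τ).1, h2]
  have key : (σ : M →ₐ[K] M) = (τ : M →ₐ[K] M) := by
    apply AlgHom.ext_of_adjoin_eq_top htop
    intro y hy
    rw [Set.mem_singleton_iff] at hy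
    subst hy
    exact h3
  ext y
  exact congrArg (fun f : M →ₐ[K] M => f y) key

end KumExp
section KummerNorm

variable {K L : Type} [Field K] [Field L] [Algebra K L] [FiniteDimensional K L] [IsGalois K L]
  {n : ℕ} [NeZero n] {ζ : K}

theorem lkd_finrank_dvd (hζ : IsPrimitiveRoot ζ n) (β : L) (hβ0 : β ≠ 0)
    (hβ : ∃ b : K, β ^ n = algebraMap K L b) (htop : Algebra.adjoin K {β} = ⊤) :
    Module.finrank K L ∣ n := by
  have h := Subgroup.card_dvd_of_injective (lkdChar hζ β hβ0 hβ) (lkdChar_injective hζ β hβ0 hβ htop)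
  rw [IsGalois.card_aut_eq_finrank, Nat.card_eq_fintype_card] at h
  simpa using h

theorem lkd_isCyclic (hζ : IsPrimitiveRoot ζ n) (β : L) (hβ0 : β ≠ 0)
    (hβ : ∃ b : K, β ^ n = algebraMap K L b) (htop : Algebra.adjoin K {β} = ⊤) :
    IsCyclic (L ≃ₐ[K] L) :=
  isCyclic_of_injective (lkdChar hζ β hβ0 hβ) (lkdChar_injective hζ β hβ0 hβ htop)

theorem lkd_kumExp_injective (hζ : IsPrimitiveRoot ζ n) (β : L) (hβ0 : β ≠ 0)
    (hβ : ∃ b : K, β ^ n = algebraMap K L b) (htop : Algebra.adjoin K {β} = ⊤) :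
    Function.Injective (lfKumExp ζ β : (L ≃ₐ[K] L) → ℕ) := by
  intro σ τ h
  apply lkdChar_injective hζ β hβ0 hβ htop
  change Multiplicative.ofAdd ((lfKumExp ζ β σ : ℕ) : ZMod n)
    = Multiplicative.ofAdd ((lfKumExp ζ β τ : ℕ) : ZMod n)
  rw [h]

theorem lkd_dvd_kumExp (hζ : IsPrimitiveRoot ζ n) (β : L) (hβ0 : β ≠ 0)
    (hβ : ∃ b : K, β ^ n = algebraMap K L b) (htop : Algebra.adjoin K {β} = ⊤)
    (σ : L ≃ₐ[K] L) : (n / Module.finrank K L) ∣ lfKumExp ζ β σ := by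
  have hdvd := lkd_finrank_dvd hζ β hβ0 hβ htop
  have hepos : 0 < Module.finrank K L := Module.finrank_pos
  have h1 : σ ^ Module.finrank K L = 1 := by
    rw [← IsGalois.card_aut_eq_finrank]
    exact pow_card_eq_one'
  have h2 : (lkdChar hζ β hβ0 hβ σ) ^ Module.finrank K L = 1 := by
    rw [← map_pow, h1, map_one]
  have h3 : ((Module.finrank K L * lfKumExp ζ β σ : ℕ) : ZMod n) = 0 := by
    have : Multiplicative.toAdd ((lkdChar hζ β hβ0 hβ σ) ^ Module.finrank K L) = 0 := by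
      rw [h2]; rfl
    rw [toAdd_pow] at this
    change Module.finrank K L • ((lfKumExp ζ β σ : ℕ) : ZMod n) = 0 at this
    rw [nsmul_eq_mul] at this
    push_cast
    exact this
  rw [ZMod.natCast_eq_zero_iff] at h3
  obtain ⟨t, ht⟩ := hdvd
  have ht' : n / Module.finrank K L = t := by
    rw [ht, Nat.mul_div_cancel_left _ hepos]
  rw [ht']
  rw [ht] at h3
  exact Nat.dvd_of_mul_dvd_mul_left hepos h3

theorem lkd_prod_aut (hζ : IsPrimitiveRoot ζ n) (β : L) (hβ0 : β ≠ 0)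
    (hβ : ∃ b : K, β ^ n = algebraMap K L b) (htop : Algebra.adjoin K {β} = ⊤)
    (F : ℕ → L) :
    ∏ σ : (L ≃ₐ[K] L), F (lfKumExp ζ β σ)
      = ∏ j ∈ Finset.range (Module.finrank K L), F (n / Module.finrank K L * j) := by
  classical
  have hdvd := lkd_finrank_dvd hζ β hβ0 hβ htop
  have hepos : 0 < Module.finrank K L := Module.finrank_pos
  set e := Module.finrank K L with he
  set t := n / e with ht
  have hn : n = t * e := (Nat.div_mul_cancel hdvd).symm
  have htpos : 0 < t := by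
    rcases Nat.eq_zero_or_pos t with h0 | h0
    · rw [h0, zero_mul] at hn
      exact absurd hn (NeZero.ne n)
    · exact h0
  let ψ : (L ≃ₐ[K] L) → ℕ := fun σ => lfKumExp ζ β σ / t
  have hψ : ∀ σ, t * ψ σ = lfKumExp ζ β σ := fun σ =>
    Nat.mul_div_cancel' (lkd_dvd_kumExp hζ β hβ0 hβ htop σ)
  have hψinj : Function.Injective ψ := by
    intro σ τ h
    apply lkd_kumExp_injective hζ β hβ0 hβ htop
    rw [← hψ σ, ← hψ τ, h]
  have himg : (Finset.univ.image ψ) = Finset.range e := by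
    apply Finset.eq_of_subset_of_card_le
    · intro j hj
      obtain ⟨σ, -, rfl⟩ := Finset.mem_image.1 hj
      rw [Finset.mem_range]
      apply Nat.div_lt_of_lt_mul
      rw [← hn]
      exact (lkd_kumExp_spec hζ β hβ0 hβ σ).2
    · rw [Finset.card_image_of_injective _ hψinj, Finset.card_range, Finset.card_univ,
        ← Nat.card_eq_fintype_card, IsGalois.card_aut_eq_finrank]
  rw [← himg, Finset.prod_image (fun σ _ τ _ h => hψinj h)]
  refine Finset.prod_congr rfl fun σ _ => ?_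
  rw [hψ σ]

theorem lkd_exists_norm_eq (hζ : IsPrimitiveRoot ζ n) (β : L) (hβ0 : β ≠ 0) (b : K)
    (hβ : β ^ n = algebraMap K L b) (htop : Algebra.adjoin K {β} = ⊤) (x : K) :
    ∃ w : L, Algebra.norm K w = x ^ n - b := by
  classical
  have hβ' : ∃ b : K, β ^ n = algebraMap K L b := ⟨b, hβ⟩
  have hdvd := lkd_finrank_dvd hζ β hβ0 hβ' htop
  have hζ' : IsPrimitiveRoot (algebraMap K L ζ) n := hζ.map_of_injective (algebraMap K L).injective
  set e := Module.finrank K L with he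
  set t := n / e with ht
  have hn : t * e = n := Nat.div_mul_cancel hdvd
  refine ⟨∏ r ∈ Finset.range t, (algebraMap K L x - algebraMap K L ζ ^ r * β), ?_⟩
  apply (algebraMap K L).injective
  rw [Algebra.norm_eq_prod_automorphisms]
  have h1 : ∀ σ : L ≃ₐ[K] L,
      σ (∏ r ∈ Finset.range t, (algebraMap K L x - algebraMap K L ζ ^ r * β))
        = ∏ r ∈ Finset.range t,
          (algebraMap K L x - algebraMap K L ζ ^ (r + lfKumExp ζ β σ) * β) := by
    intro σ
    rw [map_prod]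
    refine Finset.prod_congr rfl fun r _ => ?_
    rw [map_sub, map_mul, map_pow, AlgEquiv.commutes, AlgEquiv.commutes,
      (lkd_kumExp_spec hζ β hβ0 hβ' σ).1, ← mul_assoc, ← pow_add]
  simp_rw [h1]
  rw [Finset.prod_comm]
  have h2 : ∀ r ∈ Finset.range t,
      ∏ σ : (L ≃ₐ[K] L), (algebraMap K L x - algebraMap K L ζ ^ (r + lfKumExp ζ β σ) * β)
        = ∏ j ∈ Finset.range e, (algebraMap K L x - algebraMap K L ζ ^ (r + t * j) * β) := by
    intro r _
    exact lkd_prod_aut hζ β hβ0 hβ' htop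
      (fun k => algebraMap K L x - algebraMap K L ζ ^ (r + k) * β)
  rw [Finset.prod_congr rfl h2,
    lkd_prod_range_mul (fun i => algebraMap K L x - algebraMap K L ζ ^ i * β) t e, hn]
  have h3 := congrArg (Polynomial.eval (algebraMap K L x))
    (X_pow_sub_C_eq_prod hζ' (NeZero.pos n) (rfl : β ^ n = β ^ n))
  simp only [eval_sub, eval_pow, eval_X, eval_C, eval_prod] at h3
  rw [← h3, hβ, map_sub, map_pow]

end KummerNorm

section KummerField

variable (K : Type) [Field K]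

/-- The field `K[X]/(g)` as a type synonym of `AdjoinRoot g` (a synonym, so that only the instances
declared below are found by instance search). -/
def LkdField (g : K[X]) : Type := AdjoinRoot g

variable {K}
variable (g : K[X]) [Fact (Irreducible g)]

noncomputable instance lkdField_field : Field (LkdField K g) :=
  inferInstanceAs (Field (AdjoinRoot g))

noncomputable instance lkdField_algebra : Algebra K (LkdField K g) :=
  inferInstanceAs (Algebra K (AdjoinRoot g))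

/-- The distinguished root of `g`. -/
noncomputable def lkdRoot : LkdField K g := AdjoinRoot.root g

theorem lkd_aeval_root : Polynomial.aeval (lkdRoot g) g = 0 := by
  have h := AdjoinRoot.eval₂_root g
  exact h

theorem lkd_adjoin_root : Algebra.adjoin K {lkdRoot g} = ⊤ :=
  AdjoinRoot.adjoinRoot_eq_top (f := g)

instance lkd_finiteDimensional : FiniteDimensional K (LkdField K g) :=
  (AdjoinRoot.powerBasis (Fact.out : Irreducible g).ne_zero).finite

theorem lkd_exists_factor (n : ℕ) [NeZero n] (b : K) :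
    ∃ g : K[X], Irreducible g ∧ g ∣ X ^ n - C b := by
  have hmonic : (X ^ n - C b : K[X]).Monic := monic_X_pow_sub_C b (NeZero.ne n)
  have hunit : ¬ IsUnit (X ^ n - C b : K[X]) := by
    apply Polynomial.not_isUnit_of_natDegree_pos
    rw [natDegree_X_pow_sub_C]
    exact NeZero.pos n
  exact WfDvdMonoid.exists_irreducible_factor hunit hmonic.ne_zero

variable {g}

theorem lkd_root_pow {n : ℕ} {b : K} (hg : g ∣ X ^ n - C b) :
    (lkdRoot g) ^ n = algebraMap K (LkdField K g) b := by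
  have h := Polynomial.aeval_eq_zero_of_dvd_aeval_eq_zero hg (lkd_aeval_root g)
  simp only [map_sub, map_pow, aeval_X, aeval_C] at h
  exact sub_eq_zero.1 h

theorem lkd_root_ne_zero {n : ℕ} [NeZero n] {b : K} (hb : b ≠ 0) (hg : g ∣ X ^ n - C b) :
    lkdRoot g ≠ 0 := by
  intro h0
  have h := lkd_root_pow hg
  rw [h0, zero_pow (NeZero.ne n)] at h
  exact hb ((_root_.map_eq_zero _).1 h.symm)

theorem lkd_isGalois [CharZero K] {n : ℕ} [NeZero n] {ζ : K} (hζ : IsPrimitiveRoot ζ n) {b : K}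
    (hg : g ∣ X ^ n - C b) : IsGalois K (LkdField K g) := by
  have hζ' : IsPrimitiveRoot (algebraMap K (LkdField K g) ζ) n :=
    hζ.map_of_injective (algebraMap K (LkdField K g)).injective
  have hne : (X ^ n - C b : K[X]) ≠ 0 := (monic_X_pow_sub_C b (NeZero.ne n)).ne_zero
  have hsf : IsSplittingField K (LkdField K g) (X ^ n - C b) := by
    constructor
    · have := X_pow_sub_C_splits_of_isPrimitiveRoot hζ' (lkd_root_pow hg)
      simpa using this
    · rw [eq_top_iff, ← lkd_adjoin_root g]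
      apply Algebra.adjoin_mono
      rw [Set.singleton_subset_iff, Polynomial.mem_rootSet]
      refine ⟨hne, ?_⟩
      exact Polynomial.aeval_eq_zero_of_dvd_aeval_eq_zero hg (lkd_aeval_root g)
  have : Normal K (LkdField K g) := Normal.of_isSplittingField (X ^ n - C b)
  have : Algebra.IsSeparable K (LkdField K g) := Algebra.IsAlgebraic.isSeparable_of_perfectField
  exact ⟨⟩

end KummerField

section KummerLocal

variable (q : ℕ) [Fact q.Prime] (K : Type) [Field K] [Algebra ℚ_[q] K]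
  (g : K[X]) [Fact (Irreducible g)]

noncomputable instance lkdField_algebraPadic : Algebra ℚ_[q] (LkdField K g) :=
  ((algebraMap K (LkdField K g)).comp (algebraMap ℚ_[q] K)).toAlgebra

instance lkdField_isScalarTower : IsScalarTower ℚ_[q] K (LkdField K g) :=
  IsScalarTower.of_algebraMap_eq (fun _ => rfl)

instance lkdField_finiteDimensionalPadic [FiniteDimensional ℚ_[q] K] :
    FiniteDimensional ℚ_[q] (LkdField K g) :=
  FiniteDimensional.trans ℚ_[q] K _

end KummerLocal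

section Cocycle

variable {G X : Type} [Group G] [CommGroup X] [MulDistribMulAction G X]

theorem lkd_isMulCocycle₂_of_isMulCoboundary₂ {f : G × G → X} (hf : IsMulCoboundary₂ f) :
    IsMulCocycle₂ f := by
  obtain ⟨x, hx⟩ := hf
  intro g h j
  rw [← hx, ← hx, ← hx, ← hx]
  simp only [smul_mul', smul_div', mul_smul, mul_assoc]
  apply Additive.ofMul.injective
  simp only [ofMul_mul, ofMul_div]
  abel

theorem lkd_isMulCocycle₂_mul {f f' : G × G → X} (hf : IsMulCocycle₂ f) (hf' : IsMulCocycle₂ f') :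
    IsMulCocycle₂ (f * f') := by
  intro g h j
  simp only [Pi.mul_apply, smul_mul']
  rw [mul_mul_mul_comm, hf g h j, hf' g h j, mul_mul_mul_comm]

end Cocycle

section Cup

variable {K : Type} [Field K] {M : Type} [Field M] [Algebra K M] {n : ℕ} [NeZero n] {ζ : K}

theorem lkd_pow_eq_of_modEq {X : Type} [Monoid X] {z : X} {n : ℕ} (hz : z ^ n = 1) {i j : ℕ}
    (h : i ≡ j [MOD n]) : z ^ i = z ^ j := by
  rw [pow_eq_pow_mod i hz, pow_eq_pow_mod j hz, h]

/-- `ζ` as a unit of `M`. -/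
noncomputable def lkdZ (hζ : IsPrimitiveRoot ζ n) : Mˣ :=
  Units.mk0 (algebraMap K M ζ)
    ((_root_.map_ne_zero _).2 (hζ.ne_zero (NeZero.ne n)))

theorem lkdZ_pow (hζ : IsPrimitiveRoot ζ n) : (lkdZ (M := M) hζ) ^ n = 1 := by
  apply Units.ext
  simp [lkdZ, ← map_pow, hζ.pow_eq_one]

theorem lkdZ_smul (hζ : IsPrimitiveRoot ζ n) (σ : M ≃ₐ[K] M) :
    σ • (lkdZ (M := M) hζ) = lkdZ hζ := by
  apply Units.ext
  simp [lkdZ, AlgEquiv.smul_units_def]

theorem lkd_smul_eq (hζ : IsPrimitiveRoot ζ n) (α : Mˣ)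
    (hα : ∃ a : K, (α : M) ^ n = algebraMap K M a) (σ : M ≃ₐ[K] M) :
    σ • α = (lkdZ hζ) ^ lfKumExp ζ (α : M) σ * α := by
  apply Units.ext
  have h := (lkd_kumExp_spec hζ (α : M) α.ne_zero hα σ).1
  simpa [lkdZ, AlgEquiv.smul_units_def] using h

theorem lkd_cup_apply (hζ : IsPrimitiveRoot ζ n) (α β : Mˣ)
    (hα : ∃ a : K, (α : M) ^ n = algebraMap K M a) (σ τ : M ≃ₐ[K] M) :
    lfCupCocycle ζ α β (σ, τ)
      = (lkdZ hζ) ^ (lfKumExp ζ (α : M) τ * lfKumExp ζ (β : M) σ) := by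
  have h := lkd_smul_eq hζ α hα τ
  rw [AlgEquiv.smul_units_def] at h
  simp only [lfCupCocycle]
  rw [h, mul_div_assoc, div_self', mul_one, ← pow_mul]

/-- The `1`-cochain whose coboundary compares the symbol cocycle and the cup cocycle. -/
noncomputable def lkdCochain (hζ : IsPrimitiveRoot ζ n) (α β : Mˣ) (ρ : M ≃ₐ[K] M) : Mˣ :=
  α ^ lfKumExp ζ (β : M) ρ * (lkdZ hζ) ^ (lfKumExp ζ (α : M) ρ * lfKumExp ζ (β : M) ρ)

theorem lkd_cup_identity (hζ : IsPrimitiveRoot ζ n) (α β : Mˣ) (a : Kˣ)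
    (hα : (α : M) ^ n = algebraMap K M (a : K))
    (hβ : ∃ b : K, (β : M) ^ n = algebraMap K M b) (σ τ : M ≃ₐ[K] M) :
    lfSymbolCocycle n ζ a (β : M) (σ, τ) * lkdCochain hζ α β (σ * τ)
      = lfCupCocycle ζ α β (σ, τ) * (σ • lkdCochain hζ α β τ) * lkdCochain hζ α β σ := by
  have hα' : ∃ a : K, (α : M) ^ n = algebraMap K M a := ⟨a, hα⟩
  have hαp : α ^ n = Units.map (algebraMap K M : K →* M) a := by
    apply Units.ext
    simpa using hα
  have hk := lkd_kumExp_mul hζ (β : M) β.ne_zero hβ σ τ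
  have hl := lkd_kumExp_mul hζ (α : M) α.ne_zero hα' σ τ
  rw [lkd_cup_apply hζ α β hα' σ τ]
  simp only [lkdCochain, smul_mul', smul_pow', lkdZ_smul, lkd_smul_eq hζ α hα' σ, mul_pow]
  have hkσ := (lkd_kumExp_spec hζ (β : M) β.ne_zero hβ σ).2
  have hkτ := (lkd_kumExp_spec hζ (β : M) β.ne_zero hβ τ).2
  have hkστ := (lkd_kumExp_spec hζ (β : M) β.ne_zero hβ (σ * τ)).2
  set kσ := lfKumExp ζ (β : M) σ
  set kτ := lfKumExp ζ (β : M) τ
  set kστ := lfKumExp ζ (β : M) (σ * τ)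
  set lσ := lfKumExp ζ (α : M) σ
  set lτ := lfKumExp ζ (α : M) τ
  set lστ := lfKumExp ζ (α : M) (σ * τ)
  set z : Mˣ := lkdZ hζ
  have hzp : z ^ n = 1 := lkdZ_pow hζ
  -- the `α`-part
  have hα_part : lfSymbolCocycle n ζ a (β : M) (σ, τ) * α ^ kστ = α ^ kτ * α ^ kσ := by
    simp only [lfSymbolCocycle]
    by_cases hc : n ≤ kσ + kτ
    · rw [if_pos hc, ← hαp, ← pow_add, ← pow_add]
      congr 1
      have h1 : kστ ≡ kσ + kτ - n [MOD n] := by
        have h2 : kσ + kτ - n + n = kσ + kτ := Nat.sub_add_cancel hc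
        have h3 : kσ + kτ - n + n ≡ kσ + kτ - n [MOD n] := Nat.add_modEq_right
        rw [h2] at h3
        exact hk.trans h3
      have h4 : kστ = kσ + kτ - n := Nat.ModEq.eq_of_lt_of_lt h1 hkστ (by omega)
      omega
    · rw [if_neg hc, one_mul, ← pow_add]
      congr 1
      have h4 : kστ = kσ + kτ := Nat.ModEq.eq_of_lt_of_lt hk hkστ (by omega)
      omega
  -- the `z`-part
  have hz_part : z ^ (lστ * kστ) = z ^ (lτ * kσ) * ((z ^ lσ) ^ kτ * z ^ (lτ * kτ)) * z ^ (lσ * kσ) := by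
    rw [← pow_mul, ← pow_add, ← pow_add, ← pow_add]
    apply lkd_pow_eq_of_modEq hzp
    have := Nat.ModEq.mul hl hk
    refine this.trans ?_
    have h5 : (lσ + lτ) * (kσ + kτ) = lτ * kσ + (lσ * kτ + lτ * kτ) + lσ * kσ := by ring
    rw [h5]
  calc lfSymbolCocycle n ζ a (β : M) (σ, τ) * (α ^ kστ * z ^ (lστ * kστ))
      = (lfSymbolCocycle n ζ a (β : M) (σ, τ) * α ^ kστ) * z ^ (lστ * kστ) := by rw [mul_assoc]
    _ = (α ^ kτ * α ^ kσ) *
        (z ^ (lτ * kσ) * ((z ^ lσ) ^ kτ * z ^ (lτ * kτ)) * z ^ (lσ * kσ)) := by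
      rw [hα_part, hz_part]
    _ = _ := by
      simp only [mul_comm, mul_assoc, mul_left_comm]

theorem lkd_cup_isMulCocycle₂ (hζ : IsPrimitiveRoot ζ n) (α β : Mˣ)
    (hα : ∃ a : K, (α : M) ^ n = algebraMap K M a)
    (hβ : ∃ b : K, (β : M) ^ n = algebraMap K M b) : IsMulCocycle₂ (lfCupCocycle ζ α β) := by
  intro σ τ ρ
  rw [lkd_cup_apply hζ α β hα, lkd_cup_apply hζ α β hα, lkd_cup_apply hζ α β hα,
    lkd_cup_apply hζ α β hα, smul_pow', lkdZ_smul, ← pow_add, ← pow_add]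
  apply lkd_pow_eq_of_modEq (lkdZ_pow hζ)
  have hk := lkd_kumExp_mul hζ (β : M) β.ne_zero hβ σ τ
  have hl := lkd_kumExp_mul hζ (α : M) α.ne_zero hα τ ρ
  have h1 : lfKumExp ζ (α : M) ρ * lfKumExp ζ (β : M) (σ * τ)
      + lfKumExp ζ (α : M) τ * lfKumExp ζ (β : M) σ
      ≡ lfKumExp ζ (α : M) ρ * (lfKumExp ζ (β : M) σ + lfKumExp ζ (β : M) τ)
      + lfKumExp ζ (α : M) τ * lfKumExp ζ (β : M) σ [MOD n] :=
    (hk.mul_left _).add_right _
  have h2 : lfKumExp ζ (α : M) ρ * lfKumExp ζ (β : M) τ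
      + lfKumExp ζ (α : M) (τ * ρ) * lfKumExp ζ (β : M) σ
      ≡ lfKumExp ζ (α : M) ρ * lfKumExp ζ (β : M) τ
      + (lfKumExp ζ (α : M) τ + lfKumExp ζ (α : M) ρ) * lfKumExp ζ (β : M) σ [MOD n] :=
    (hl.mul_right _).add_left _
  refine h1.trans (Nat.ModEq.trans ?_ h2.symm)
  have : lfKumExp ζ (α : M) ρ * (lfKumExp ζ (β : M) σ + lfKumExp ζ (β : M) τ)
      + lfKumExp ζ (α : M) τ * lfKumExp ζ (β : M) σ
      = lfKumExp ζ (α : M) ρ * lfKumExp ζ (β : M) τ
      + (lfKumExp ζ (α : M) τ + lfKumExp ζ (α : M) ρ) * lfKumExp ζ (β : M) σ := by ring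
  rw [this]

theorem lkd_symbol_div_cup_isMulCoboundary₂ (hζ : IsPrimitiveRoot ζ n) (α β : Mˣ) (a : Kˣ)
    (hα : (α : M) ^ n = algebraMap K M (a : K))
    (hβ : ∃ b : K, (β : M) ^ n = algebraMap K M b) :
    IsMulCoboundary₂ (lfSymbolCocycle n ζ a (β : M) / lfCupCocycle ζ α β) := by
  refine ⟨lkdCochain hζ α β, fun σ τ => ?_⟩
  have h := lkd_cup_identity hζ α β a hα hβ σ τ
  rw [Pi.div_apply, div_mul_eq_mul_div, div_eq_div_iff_mul_eq_mul, h]
  simp only [mul_comm, mul_left_comm]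

end Cup

section Props

variable (q : ℕ) [Fact q.Prime]
  (K : Type) [Field K] [Algebra ℚ_[q] K] [FiniteDimensional ℚ_[q] K]
  (n : ℕ) [NeZero n] (ζ : K) (hζ : IsPrimitiveRoot ζ n)

include hζ

theorem lkd_symbol_one_left (b : Kˣ) : lfSymbol q K n ζ 1 b = 0 := by
  have h := lfSymbol_mul_left q K n ζ hζ 1 1 b
  rw [mul_one] at h
  exact left_eq_add.1 h

theorem lkd_symbol_one_right (a : Kˣ) : lfSymbol q K n ζ a 1 = 0 := by
  have h := lfSymbol_mul_right q K n ζ hζ a 1 1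
  rw [mul_one] at h
  exact left_eq_add.1 h

theorem lkd_symbol_npow_left (a b : Kˣ) (m : ℕ) :
    lfSymbol q K n ζ (a ^ m) b = m • lfSymbol q K n ζ a b := by
  induction m with
  | zero => simpa using lkd_symbol_one_left q K n ζ hζ b
  | succ m ih => rw [pow_succ, lfSymbol_mul_left q K n ζ hζ, ih, succ_nsmul]

theorem lkd_symbol_npow_right (a b : Kˣ) (m : ℕ) :
    lfSymbol q K n ζ a (b ^ m) = m • lfSymbol q K n ζ a b := by
  induction m with
  | zero => simpa using lkd_symbol_one_right q K n ζ hζ a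
  | succ m ih => rw [pow_succ, lfSymbol_mul_right q K n ζ hζ, ih, succ_nsmul]

theorem lfSymbol_pow_left (a b : Kˣ) : lfSymbol q K n ζ (a ^ n) b = 0 := by
  rw [lkd_symbol_npow_left q K n ζ hζ, nsmul_eq_mul, ZMod.natCast_self, zero_mul]

theorem lfSymbol_pow_right (a b : Kˣ) : lfSymbol q K n ζ a (b ^ n) = 0 := by
  rw [lkd_symbol_npow_right q K n ζ hζ, nsmul_eq_mul, ZMod.natCast_self, zero_mul]

/-- Key norm lemma: if `a = x ^ n - b` for some `x ∈ K` then `(a, b) = 0`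
(`x ^ n - b` is a product of norms `N(x - ζ^r β)`, `β ^ n = b`). -/
theorem lkd_symbol_eq_zero_of_eq (a b : Kˣ) (x : K) (hx : x ^ n - (b : K) = (a : K)) :
    lfSymbol q K n ζ a b = 0 := by
  obtain ⟨g, hgirr, hg⟩ := lkd_exists_factor n (b : K)
  have : Fact (Irreducible g) := ⟨hgirr⟩
  have : CharZero K := charZero_of_injective_algebraMap (algebraMap ℚ_[q] K).injective
  have : IsGalois K (LkdField K g) := lkd_isGalois hζ hg
  rw [lfSymbol_eq_zero_iff q K n ζ hζ (LkdField K g) a b (lkdRoot g) (lkd_root_pow hg)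
    (lkd_adjoin_root g)]
  obtain ⟨w, hw⟩ := lkd_exists_norm_eq hζ (lkdRoot g) (lkd_root_ne_zero b.ne_zero hg) (b : K)
    (lkd_root_pow hg) (lkd_adjoin_root g) x
  rw [hx] at hw
  have hne : w ≠ 0 := by
    intro h0
    rw [h0, Algebra.norm_zero] at hw
    exact a.ne_zero hw.symm
  refine ⟨Units.mk0 w hne, ?_⟩
  apply Units.ext
  simpa [lfNormHom] using hw

theorem lfSymbol_self_neg (a : Kˣ) : lfSymbol q K n ζ a (-a) = 0 := by
  apply lkd_symbol_eq_zero_of_eq q K n ζ hζ a (-a) 0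
  simp [zero_pow (NeZero.ne n)]

/-- Antisymmetry. -/
theorem lfSymbol_swap (a b : Kˣ) : lfSymbol q K n ζ a b = - lfSymbol q K n ζ b a := by
  have h1 := lfSymbol_self_neg q K n ζ hζ (a * b)
  have h2 : -(a * b) = (-a) * b := (neg_mul a b).symm
  have h3 : -(a * b) = a * (-b) := (mul_neg a b).symm
  rw [lfSymbol_mul_left q K n ζ hζ] at h1
  nth_rewrite 1 [h2] at h1
  rw [h3, lfSymbol_mul_right q K n ζ hζ, lfSymbol_mul_right q K n ζ hζ,
    lfSymbol_self_neg q K n ζ hζ a, lfSymbol_self_neg q K n ζ hζ b, zero_add, add_zero] at h1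
  exact eq_neg_of_add_eq_zero_left h1

/-- Steinberg relation. -/
theorem lfSymbol_steinberg (a : Kˣ) (h : (1 : K) - a ≠ 0) :
    lfSymbol q K n ζ a (Units.mk0 ((1 : K) - a) h) = 0 := by
  apply lkd_symbol_eq_zero_of_eq q K n ζ hζ a _ 1
  simp

/-- Cup-product form: the `μ_n`-valued cocycle `χ_β ∪ κ_α` has invariant `(a,b)/n`. -/
theorem localInv_lfCupCocycle
    (M : Type) [Field M] [Algebra ℚ_[q] M] [FiniteDimensional ℚ_[q] M] [Algebra K M]
    [IsScalarTower ℚ_[q] K M] [IsGalois K M] (a b : Kˣ) (α β : Mˣ)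
    (hα : (α : M) ^ n = algebraMap K M (a : K)) (hβ : (β : M) ^ n = algebraMap K M (b : K)) :
    IsMulCocycle₂ (lfCupCocycle ζ α β) ∧
    localInv q K M (lfCupCocycle ζ α β) =
      ((((lfSymbol q K n ζ a b).val : ℕ) : ℚ) / (n : ℚ) : ℚ) := by
  have hcup : IsMulCocycle₂ (lfCupCocycle ζ α β) :=
    lkd_cup_isMulCocycle₂ hζ α β ⟨_, hα⟩ ⟨_, hβ⟩
  have hcob : IsMulCoboundary₂ (lfSymbolCocycle n ζ a (β : M) / lfCupCocycle ζ α β) :=
    lkd_symbol_div_cup_isMulCoboundary₂ hζ α β a hα ⟨_, hβ⟩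
  have hcoc := lkd_isMulCocycle₂_of_isMulCoboundary₂ hcob
  refine ⟨hcup, ?_⟩
  have h1 := localInv_lfSymbolCocycle q K n ζ hζ M a b (β : M) hβ
  have hsym : lfSymbolCocycle n ζ a (β : M)
      = lfCupCocycle ζ α β * (lfSymbolCocycle n ζ a (β : M) / lfCupCocycle ζ α β) := by
    rw [mul_div_cancel]
  rw [hsym, localInv_mul q K M hcup hcoc, (localInv_eq_zero_iff q K M hcoc).2 hcob, add_zero] at h1
  exact h1

/-- Right non-degeneracy (= norm index `[K(b^{1/n}):K]` for the cyclic extension `K(b^{1/n})/K`). -/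
theorem lfSymbol_nondegenerate_right (b : Kˣ) (h : ∀ a : Kˣ, lfSymbol q K n ζ a b = 0) :
    ∃ c : Kˣ, c ^ n = b := by
  obtain ⟨g, hgirr, hg⟩ := lkd_exists_factor n (b : K)
  have : Fact (Irreducible g) := ⟨hgirr⟩
  have : CharZero K := charZero_of_injective_algebraMap (algebraMap ℚ_[q] K).injective
  have : IsGalois K (LkdField K g) := lkd_isGalois hζ hg
  have hβ0 : lkdRoot g ≠ 0 := lkd_root_ne_zero b.ne_zero hg
  have : IsCyclic (LkdField K g ≃ₐ[K] LkdField K g) :=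
    lkd_isCyclic hζ (lkdRoot g) hβ0 ⟨_, lkd_root_pow hg⟩ (lkd_adjoin_root g)
  have hidx := lfNormSubgroup_index_of_isCyclic q K (LkdField K g)
  have htop : lfNormSubgroup K (LkdField K g) = ⊤ := by
    rw [eq_top_iff]
    intro a _
    exact (lfSymbol_eq_zero_iff q K n ζ hζ (LkdField K g) a b (lkdRoot g) (lkd_root_pow hg)
      (lkd_adjoin_root g)).1 (h a)
  rw [htop, Subgroup.index_top] at hidx
  have hbot : (⊥ : Subalgebra K (LkdField K g)) = ⊤ :=
    Subalgebra.bot_eq_top_of_finrank_eq_one hidx.symm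
  have hmem : lkdRoot g ∈ (⊥ : Subalgebra K (LkdField K g)) := by
    rw [hbot]; exact Algebra.mem_top
  obtain ⟨c, hc⟩ := Algebra.mem_bot.1 hmem
  have hc0 : c ≠ 0 := by
    rintro rfl
    rw [map_zero] at hc
    exact hβ0 hc.symm
  refine ⟨Units.mk0 c hc0, Units.ext ?_⟩
  apply (algebraMap K (LkdField K g)).injective
  rw [Units.val_pow_eq_pow_val, Units.val_mk0, map_pow, hc]
  exact lkd_root_pow hg

/-- Left non-degeneracy. -/
theorem lfSymbol_nondegenerate_left (a : Kˣ) (h : ∀ b : Kˣ, lfSymbol q K n ζ a b = 0) :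
    ∃ c : Kˣ, c ^ n = a := by
  apply lfSymbol_nondegenerate_right q K n ζ hζ a
  intro b
  rw [lfSymbol_swap q K n ζ hζ, h b, neg_zero]

end Props

end Fermat.Agent.S55
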