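import Mathlib

/-!
# S55 / LOCAL layer, leaf LE2b, abstract core `LocalKummerIndexCore.lean`

The index of the `p`-th powers in the multiplicative group of a local field
(helper names prefixed `lki`).
-/

set_option autoImplicit false
set_option linter.unusedSectionVars false
set_option linter.style.haveILetI false
set_option linter.unnecessarySimpa false

namespace Fermat.Agent.S55

open IsLocalRing

section GroupTheory

variable {G : Type*} [CommGroup G]

/-- Successive approximation with a source filtration `V` and a target filtration `W`. -/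
theorem lki_approx_surj (V W : ℕ → Subgroup G) (φ : G →* G)
    (hcomplete : ∀ v : ℕ → G, (∀ j, v j ∈ V j) →
      ∃ p ∈ V 0, ∀ j, (∏ i ∈ Finset.range j, v i)⁻¹ * p ∈ V j)
    (hsep : ∀ u : G, (∀ j, u ∈ W j) → u = 1)
    (hφ : ∀ j, ∀ v ∈ V j, φ v ∈ W j)
    (hgr : ∀ j, ∀ w ∈ W j, ∃ v ∈ V j, w / φ v ∈ W (j + 1)) :
    ∀ w ∈ W 0, ∃ v ∈ V 0, φ v = w := by
  intro w hw0
  classical
  have hgr' : ∀ j : ℕ, ∀ w : G, ∃ v : G, w ∈ W j → (v ∈ V j ∧ w / φ v ∈ W (j + 1)) := by
    intro j w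
    by_cases h : w ∈ W j
    · obtain ⟨v, hv, hv'⟩ := hgr j w h
      exact ⟨v, fun _ => ⟨hv, hv'⟩⟩
    · exact ⟨1, fun h' => absurd h' h⟩
  choose c hc using hgr'
  let Z : ℕ → G := fun j => Nat.rec w (fun j wj => wj / φ (c j wj)) j
  have hZ0 : Z 0 = w := rfl
  have hZs : ∀ j, Z (j + 1) = Z j / φ (c j (Z j)) := fun j => rfl
  have hZmem : ∀ j, Z j ∈ W j := by
    intro j
    induction j with
    | zero => exact hw0
    | succ j ih =>
      rw [hZs]
      exact (hc j (Z j) ih).2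
  let v : ℕ → G := fun j => c j (Z j)
  have hv : ∀ j, v j ∈ V j := fun j => (hc j (Z j) (hZmem j)).1
  have hprod : ∀ j, Z j * φ (∏ i ∈ Finset.range j, v i) = w := by
    intro j
    induction j with
    | zero => simp [hZ0]
    | succ j ih =>
      rw [Finset.prod_range_succ, map_mul, hZs, ← ih]
      have : ∀ a b c : G, a / c * (b * c) = a * b := by
        intro a b c
        rw [div_mul_eq_mul_div, mul_div_assoc, mul_div_assoc, div_self', mul_one]
      exact this _ _ _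
  obtain ⟨p, hp0, hp⟩ := hcomplete v hv
  refine ⟨p, hp0, ?_⟩
  have : w / φ p = 1 := by
    apply hsep
    intro j
    have h1 : w / φ p = Z j / φ ((∏ i ∈ Finset.range j, v i)⁻¹ * p) := by
      rw [← hprod j, map_mul, map_inv]
      have : ∀ a b c : G, a * b / c = a / (b⁻¹ * c) := by
        intro a b c
        rw [div_eq_div_iff_mul_eq_mul]
        simp only [mul_assoc, mul_inv_cancel_left]
      exact this _ _ _
    rw [h1]
    exact (W j).div_mem (hZmem j) (hφ j _ (hp j))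
  exact (div_eq_one.mp this).symm

/-- index formula: `[G : V] = [ker g : V ∩ ker g] * [g G : g V]` -/
theorem lki_index_eq {Y : Type*} [Group Y] (g : G →* Y) (V : Subgroup G) :
    V.index = V.relIndex g.ker * (V.map g).relIndex g.range := by
  have h1 : V.relIndex (V ⊔ g.ker) * (V ⊔ g.ker).index = V.index :=
    Subgroup.relIndex_mul_index le_sup_left
  have h2 : V.relIndex (V ⊔ g.ker) = V.relIndex g.ker := Subgroup.relIndex_sup_left g.ker V
  have h3 : (V.map g).relIndex g.range = (V ⊔ g.ker).index := by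
    have := Subgroup.relIndex_map_map g V ⊤
    rw [← MonoidHom.range_eq_map] at this
    rw [this, top_sup_eq, Subgroup.relIndex_top_right]
  rw [← h1, h2, h3]

/-- relative index formula: `[U : V] = [U ∩ ker f : V ∩ ker f] * [f U : f V]` -/
theorem lki_relIndex_eq {Y : Type*} [Group Y] (f : G →* Y) (U V : Subgroup G)
    (hVU : V ≤ U) :
    V.relIndex U = V.relIndex (U ⊓ f.ker) * (V.map f).relIndex (U.map f) := by
  have key := lki_index_eq (f.comp U.subtype) (V.subgroupOf U)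
  have e1 : (V.subgroupOf U).index = V.relIndex U := rfl
  have e2 : (V.subgroupOf U).relIndex (f.comp U.subtype).ker = V.relIndex (U ⊓ f.ker) := by
    have : (f.comp U.subtype).ker = (U ⊓ f.ker).subgroupOf U := by
      ext x
      simp [Subgroup.mem_subgroupOf, MonoidHom.mem_ker]
    rw [this, Subgroup.relIndex_subgroupOf inf_le_left]
  have e3 : (V.subgroupOf U).map (f.comp U.subtype) = V.map f := by
    ext y
    simp only [Subgroup.mem_map, Subgroup.mem_subgroupOf, MonoidHom.comp_apply,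
      Subgroup.coe_subtype]
    constructor
    · rintro ⟨x, hx, rfl⟩
      exact ⟨x, hx, rfl⟩
    · rintro ⟨x, hx, rfl⟩
      exact ⟨⟨x, hVU hx⟩, hx, rfl⟩
  have e4 : (f.comp U.subtype).range = U.map f := by
    rw [MonoidHom.range_eq_map, ← Subgroup.map_map, ← MonoidHom.range_eq_map, Subgroup.range_subtype]
  rw [e1, e2, e3, e4] at key
  exact key

/-- `[G : G^(ab)] ≠ 0` from `[G : G^a] ≠ 0` and `[G : G^b] ≠ 0`. -/
theorem lki_index_pow_mul (a b : ℕ) (ha : (powMonoidHom a : G →* G).range.index ≠ 0)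
    (hb : (powMonoidHom b : G →* G).range.index ≠ 0) :
    (powMonoidHom (a * b) : G →* G).range.index ≠ 0 := by
  have h1 := lki_index_eq (powMonoidHom a : G →* G) (powMonoidHom b : G →* G).range
  have h2 : ((powMonoidHom b : G →* G).range.map (powMonoidHom a : G →* G)) =
      (powMonoidHom (a * b) : G →* G).range := by
    ext y
    simp only [Subgroup.mem_map, MonoidHom.mem_range, powMonoidHom_apply]
    constructor
    · rintro ⟨x, ⟨z, rfl⟩, rfl⟩
      exact ⟨z, by rw [mul_comm, pow_mul]⟩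
    · rintro ⟨z, rfl⟩
      exact ⟨z ^ b, ⟨z, rfl⟩, by rw [mul_comm, pow_mul]⟩
  rw [h2] at h1
  have h3 : (powMonoidHom (a * b) : G →* G).range.relIndex (powMonoidHom a : G →* G).range ≠ 0 := by
    intro h0
    rw [h0, mul_zero] at h1
    exact hb h1
  have hle : (powMonoidHom (a * b) : G →* G).range ≤ (powMonoidHom a : G →* G).range := by
    rintro y ⟨z, rfl⟩
    exact ⟨z ^ b, by simp only [powMonoidHom_apply, ← pow_mul, mul_comm]⟩
  rw [← Subgroup.relIndex_mul_index hle]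
  exact mul_ne_zero h3 ha

end GroupTheory


theorem lki_one_add_pow {R : Type*} [CommRing R] {ℓ : ℕ} (hℓ : ℓ.Prime) (x : R) :
    ∃ y : R, (1 + x) ^ ℓ = 1 + (ℓ : R) * x * (1 + x * y) + x ^ ℓ := by
  have h := add_pow_prime_eq hℓ x (1 : R)
  have h2 : 2 ≤ ℓ := hℓ.two_le
  have hIoo : Finset.Ioo 0 ℓ = Finset.Ico 1 ℓ := by
    ext k
    simp only [Finset.mem_Ioo, Finset.mem_Ico]
    omega
  rw [hIoo, Finset.sum_eq_sum_Ico_succ_bot (by omega : 1 < ℓ)] at h
  simp only [one_pow, mul_one, Nat.sub_self, pow_zero, Nat.choose_one_right, one_mul] at h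
  rw [Nat.div_self hℓ.pos, Nat.cast_one] at h
  refine ⟨∑ k ∈ Finset.Ico (1 + 1) ℓ, x ^ (k - 2) * ((ℓ.choose k / ℓ : ℕ) : R), ?_⟩
  have h3 : ∑ k ∈ Finset.Ico (1 + 1) ℓ, x ^ (k - 1) * ((ℓ.choose k / ℓ : ℕ) : R) =
      x * ∑ k ∈ Finset.Ico (1 + 1) ℓ, x ^ (k - 2) * ((ℓ.choose k / ℓ : ℕ) : R) := by
    rw [Finset.mul_sum]
    apply Finset.sum_congr rfl
    intro k hk
    rw [Finset.mem_Ico] at hk
    have : k - 1 = (k - 2) + 1 := by omega
    rw [this, pow_succ]
    ring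
  rw [h3] at h
  rw [add_comm 1 x, h]
  ring


section DVR

variable (R : Type*) [CommRing R] [IsDomain R] [IsDiscreteValuationRing R]

/-- the higher unit groups `1 + 𝔪^s` -/
def lkiU (s : ℕ) : Subgroup Rˣ :=
  (Units.map ((Ideal.Quotient.mk (maximalIdeal R ^ s)) : R →* R ⧸ maximalIdeal R ^ s)).ker

variable {R}

theorem mem_lkiU_iff (s : ℕ) (u : Rˣ) : u ∈ lkiU R s ↔ (u : R) - 1 ∈ maximalIdeal R ^ s := by
  rw [lkiU, MonoidHom.mem_ker, Units.ext_iff, Units.coe_map, Units.val_one]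
  rw [← Ideal.Quotient.eq]
  simp

theorem lkiU_antitone {s t : ℕ} (h : s ≤ t) : lkiU R t ≤ lkiU R s := by
  intro u hu
  rw [mem_lkiU_iff] at hu ⊢
  exact Ideal.pow_le_pow_right h hu

theorem lkiU_div_mem_iff (s : ℕ) (a b : Rˣ) :
    a / b ∈ lkiU R s ↔ (a : R) - b ∈ maximalIdeal R ^ s := by
  rw [mem_lkiU_iff]
  have h1 : ((a / b : Rˣ) : R) - 1 = ((a : R) - b) * ((b⁻¹ : Rˣ) : R) := by
    rw [div_eq_mul_inv, Units.val_mul, sub_mul, Units.mul_inv]
  rw [h1]
  constructor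
  · intro h
    have := Ideal.mul_mem_right (b : R) _ h
    rwa [mul_assoc, Units.inv_mul, mul_one] at this
  · intro h
    exact Ideal.mul_mem_right _ _ h

theorem lkiU_inv_mul_mem_iff (s : ℕ) (a b : Rˣ) :
    a⁻¹ * b ∈ lkiU R s ↔ (b : R) - a ∈ maximalIdeal R ^ s := by
  rw [← lkiU_div_mem_iff, div_eq_mul_inv, mul_comm]

/-- `1 + x` as a unit for `x ∈ 𝔪` -/
theorem lki_isUnit_one_add {x : R} (hx : x ∈ maximalIdeal R) : IsUnit (1 + x) := by
  by_contra h
  have h1 : 1 + x ∈ maximalIdeal R := (mem_maximalIdeal _).2 h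
  have h2 : (1 : R) ∈ maximalIdeal R := by
    have := Ideal.sub_mem _ h1 hx
    simpa using this
  exact (Ideal.ne_top_iff_one _).1 (maximalIdeal.isMaximal R).ne_top h2

variable [Finite (ResidueField R)]

theorem lki_card_quot_pow (s : ℕ) :
    Nat.card (R ⧸ maximalIdeal R ^ s) = Nat.card (ResidueField R) ^ s := by
  have hne : maximalIdeal R ≠ ⊥ := IsDiscreteValuationRing.not_a_field R
  have := cardQuot_pow_of_prime (P := maximalIdeal R) hne (i := s)
  rw [Submodule.cardQuot_apply, Submodule.cardQuot_apply] at this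
  exact this

theorem lki_finite_quot_pow (s : ℕ) : Finite (R ⧸ maximalIdeal R ^ s) := by
  apply Nat.finite_of_card_ne_zero
  rw [lki_card_quot_pow]
  exact pow_ne_zero _ Nat.card_pos.ne'

theorem lkiU_index_ne_zero (s : ℕ) : (lkiU R s).index ≠ 0 := by
  haveI := lki_finite_quot_pow (R := R) s
  rw [lkiU, Subgroup.index_ker]
  exact Nat.card_pos.ne'

/-- `[U_r : U_(r+c)] = |k|^c` for `r ≥ 1`. -/
theorem lkiU_relIndex (r c : ℕ) (hr : 1 ≤ r) :
    (lkiU R (r + c)).relIndex (lkiU R r) = Nat.card (ResidueField R) ^ c := by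
  have hTS : maximalIdeal R ^ (r + c) ≤ maximalIdeal R ^ r :=
    Ideal.pow_le_pow_right (Nat.le_add_right r c)
  -- the map `u ↦ u - 1`
  let F : ↥(lkiU R r) →
      ↥(Submodule.map (Submodule.mkQ (maximalIdeal R ^ (r + c))) (maximalIdeal R ^ r)) := fun u =>
    ⟨Submodule.mkQ (maximalIdeal R ^ (r + c)) (((u : Rˣ) : R) - 1),
      Submodule.mem_map_of_mem ((mem_lkiU_iff (R := R) r (u : Rˣ)).1 u.2)⟩
  have hF : ∀ u v : ↥(lkiU R r),
      (QuotientGroup.leftRel ((lkiU R (r + c)).subgroupOf (lkiU R r))) u v ↔ F u = F v := by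
    intro u v
    rw [QuotientGroup.leftRel_apply, Subgroup.mem_subgroupOf]
    simp only [F, Subtype.mk.injEq, Submodule.mkQ_apply]
    rw [Submodule.Quotient.eq]
    have : ((u⁻¹ * v : ↥(lkiU R r)) : Rˣ) = (u : Rˣ)⁻¹ * (v : Rˣ) := rfl
    rw [this, lkiU_inv_mul_mem_iff]
    have h2 : ((u : Rˣ) : R) - 1 - (((v : Rˣ) : R) - 1) = -(((v : Rˣ) : R) - ((u : Rˣ) : R)) := by
      ring
    rw [h2, neg_mem_iff]
  let Fq : (↥(lkiU R r) ⧸ (lkiU R (r + c)).subgroupOf (lkiU R r)) →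
      ↥(Submodule.map (Submodule.mkQ (maximalIdeal R ^ (r + c))) (maximalIdeal R ^ r)) :=
    Quotient.lift F (fun u v h => (hF u v).1 h)
  have hbij : Function.Bijective Fq := by
    constructor
    · intro a b
      induction a using Quotient.inductionOn
      induction b using Quotient.inductionOn
      intro h
      exact Quotient.sound ((hF _ _).2 h)
    · rintro ⟨y, hy⟩
      obtain ⟨x, hx, rfl⟩ := Submodule.mem_map.1 hy
      have hxm : x ∈ maximalIdeal R := by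
        have := Ideal.pow_le_pow_right hr hx
        rwa [pow_one] at this
      obtain ⟨u, hu⟩ := lki_isUnit_one_add hxm
      have hur : u ∈ lkiU R r := by
        rw [mem_lkiU_iff, hu]
        simpa using hx
      refine ⟨Quotient.mk _ ⟨u, hur⟩, ?_⟩
      show F ⟨u, hur⟩ = _
      simp only [F, Subtype.mk.injEq, hu]
      congr 1
      ring
  have hcard : (lkiU R (r + c)).relIndex (lkiU R r) = Nat.card
      ↥(Submodule.map (Submodule.mkQ (maximalIdeal R ^ (r + c))) (maximalIdeal R ^ r)) := by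
    rw [Subgroup.relIndex, Subgroup.index_eq_card]
    exact Nat.card_congr (Equiv.ofBijective Fq hbij)
  rw [hcard]
  have h3 := Submodule.card_quotient_mul_card_quotient (maximalIdeal R ^ r)
    (maximalIdeal R ^ (r + c)) hTS
  rw [lki_card_quot_pow, lki_card_quot_pow] at h3
  have hpos : 0 < Nat.card (ResidueField R) ^ r := pow_pos Nat.card_pos _
  have h4 : Nat.card (ResidueField R) ^ (r + c) =
      Nat.card (ResidueField R) ^ c * Nat.card (ResidueField R) ^ r := by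
    rw [pow_add, mul_comm]
  rw [h4] at h3
  exact Nat.eq_of_mul_eq_mul_right hpos h3

end DVR

section Pow

variable {R : Type*} [CommRing R] [IsDomain R] [IsDiscreteValuationRing R]
  {ℓ : ℕ} (hℓ : ℓ.Prime) {c : ℕ} (hc : Ideal.span {(ℓ : R)} = maximalIdeal R ^ c)
  {r : ℕ} (hr : 1 ≤ r) (hrc : c < r * (ℓ - 1))

include hℓ hc hr hrc

theorem lki_pow_sub_one_mem {s : ℕ} (hs : r ≤ s) {x : R} (hx : x ∈ maximalIdeal R ^ s) :
    ∃ y : R, (1 + x) ^ ℓ = 1 + (ℓ : R) * x * (1 + x * y) + x ^ ℓ ∧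
      (ℓ : R) * x ∈ maximalIdeal R ^ (s + c) ∧ x ^ ℓ ∈ maximalIdeal R ^ (s + c + 1) := by
  obtain ⟨y, hy⟩ := lki_one_add_pow hℓ x
  refine ⟨y, hy, ?_, ?_⟩
  · rw [add_comm s c, pow_add, ← hc]
    exact Ideal.mul_mem_mul (Ideal.mem_span_singleton_self _) hx
  · have h1 : x ^ ℓ ∈ (maximalIdeal R ^ s) ^ ℓ := Ideal.pow_mem_pow hx ℓ
    rw [← pow_mul] at h1
    refine Ideal.pow_le_pow_right ?_ h1
    have h2 : 1 ≤ ℓ := hℓ.one_lt.le
    have h3 : s * ℓ = s + s * (ℓ - 1) := by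
      conv_lhs => rw [← Nat.sub_add_cancel h2]
      ring
    have h4 : r * (ℓ - 1) ≤ s * (ℓ - 1) := Nat.mul_le_mul_right _ hs
    omega

theorem lki_pow_mem {s : ℕ} (hs : r ≤ s) {u : Rˣ} (hu : u ∈ lkiU R s) :
    u ^ ℓ ∈ lkiU R (s + c) := by
  rw [mem_lkiU_iff] at hu ⊢
  obtain ⟨y, hy, h1, h2⟩ := lki_pow_sub_one_mem hℓ hc hr hrc hs hu
  have h3 : ((u ^ ℓ : Rˣ) : R) - 1 = (ℓ : R) * ((u : R) - 1) * (1 + ((u : R) - 1) * y)
      + ((u : R) - 1) ^ ℓ := by
    have : (u : R) = 1 + ((u : R) - 1) := by ring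
    rw [Units.val_pow_eq_pow_val]
    conv_lhs => rw [this, hy]
    ring
  rw [h3]
  exact Ideal.add_mem _ (Ideal.mul_mem_right _ _ h1)
    (Ideal.pow_le_pow_right (Nat.le_succ _) h2)

theorem lki_graded_surj {s : ℕ} (hs : r ≤ s) {w : Rˣ} (hw : w ∈ lkiU R (s + c)) :
    ∃ v ∈ lkiU R s, w / v ^ ℓ ∈ lkiU R (s + c + 1) := by
  rw [mem_lkiU_iff] at hw
  rw [add_comm s c, pow_add, ← hc] at hw
  obtain ⟨x, hx, hxw⟩ := Ideal.mem_span_singleton_mul.1 hw
  have hxm : x ∈ maximalIdeal R := by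
    have := Ideal.pow_le_pow_right (hr.trans hs) hx
    rwa [pow_one] at this
  obtain ⟨v, hv⟩ := lki_isUnit_one_add hxm
  have hvs : v ∈ lkiU R s := by
    rw [mem_lkiU_iff, hv]
    simpa using hx
  refine ⟨v, hvs, ?_⟩
  rw [lkiU_div_mem_iff]
  obtain ⟨y, hy, h1, h2⟩ := lki_pow_sub_one_mem hℓ hc hr hrc hs hx
  have h3 : (w : R) - ((v ^ ℓ : Rˣ) : R) = -((ℓ : R) * x * (x * y)) - x ^ ℓ := by
    rw [Units.val_pow_eq_pow_val, hv, hy]
    have : (w : R) = 1 + (ℓ : R) * x := by rw [hxw]; ring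
    rw [this]
    ring
  rw [h3]
  refine Ideal.sub_mem _ (Ideal.neg_mem_iff _ |>.2 ?_) h2
  have h4 : (ℓ : R) * x * (x * y) ∈ maximalIdeal R ^ (s + c) * maximalIdeal R :=
    Ideal.mul_mem_mul h1 (Ideal.mul_mem_right _ _ hxm)
  rwa [← pow_succ] at h4

theorem lki_pow_injective {u : Rˣ} (hu : u ∈ lkiU R r) (h1 : u ^ ℓ = 1) : u = 1 := by
  by_contra hne
  rw [mem_lkiU_iff] at hu
  set x : R := (u : R) - 1 with hx
  have hx0 : x ≠ 0 := by
    intro h0
    apply hne
    apply Units.ext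
    rw [Units.val_one]
    exact sub_eq_zero.1 h0
  obtain ⟨y, hy⟩ := lki_one_add_pow hℓ x
  have h2 : (1 + x) ^ ℓ = 1 := by
    have : 1 + x = (u : R) := by rw [hx]; ring
    rw [this, ← Units.val_pow_eq_pow_val, h1, Units.val_one]
  rw [h2] at hy
  have hℓ1 : ℓ = (ℓ - 1) + 1 := (Nat.sub_add_cancel hℓ.one_lt.le).symm
  have h3 : x * ((ℓ : R) * (1 + x * y) + x ^ (ℓ - 1)) = 0 := by
    have : x ^ ℓ = x * x ^ (ℓ - 1) := by
      conv_lhs => rw [hℓ1, pow_succ']
    rw [this] at hy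
    linear_combination -hy
  have h4 : (ℓ : R) * (1 + x * y) + x ^ (ℓ - 1) = 0 := (mul_eq_zero.1 h3).resolve_left hx0
  have hxm : x ∈ maximalIdeal R := by
    have := Ideal.pow_le_pow_right hr hu
    rwa [pow_one] at this
  obtain ⟨e, he⟩ := lki_isUnit_one_add (Ideal.mul_mem_right y _ hxm)
  -- `ℓ = - x^(ℓ-1) * e⁻¹ ∈ 𝔪^(c+1)`
  have h5 : (ℓ : R) = -(x ^ (ℓ - 1)) * ((e⁻¹ : Rˣ) : R) := by
    have : (ℓ : R) * (e : R) = -(x ^ (ℓ - 1)) := by
      rw [he]; linear_combination h4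
    rw [← this, mul_assoc, Units.mul_inv, mul_one]
  have h6 : x ^ (ℓ - 1) ∈ maximalIdeal R ^ (c + 1) := by
    have h7 : x ^ (ℓ - 1) ∈ (maximalIdeal R ^ r) ^ (ℓ - 1) := Ideal.pow_mem_pow hu _
    rw [← pow_mul] at h7
    exact Ideal.pow_le_pow_right hrc h7
  have h8 : (ℓ : R) ∈ maximalIdeal R ^ (c + 1) := by
    rw [h5]
    exact Ideal.mul_mem_right _ _ (Ideal.neg_mem_iff _ |>.2 h6)
  have h9 : maximalIdeal R ^ c ≤ maximalIdeal R ^ (c + 1) := by
    rw [← hc, Ideal.span_singleton_le_iff_mem]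
    exact h8
  have hne' : maximalIdeal R ≠ ⊥ := IsDiscreteValuationRing.not_a_field R
  exact absurd h9 (not_le_of_gt (Ideal.pow_succ_lt_pow hne' c))

end Pow


section Complete

variable {R : Type*} [CommRing R] [IsDomain R] [IsDiscreteValuationRing R]
  [IsAdicComplete (maximalIdeal R) R]

theorem lkiU_separated (u : Rˣ) (h : ∀ n, u ∈ lkiU R n) : u = 1 := by
  have h0 : (u : R) - 1 = 0 := by
    apply IsHausdorff.haus' (I := maximalIdeal R) ((u : R) - 1)
    intro n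
    rw [SModEq.zero, smul_eq_mul, Ideal.mul_top]
    exact (mem_lkiU_iff n u).1 (h n)
  apply Units.ext
  rw [Units.val_one]
  exact sub_eq_zero.1 h0

theorem lkiU_complete {r : ℕ} (hr : 1 ≤ r) (v : ℕ → Rˣ) (hv : ∀ j, v j ∈ lkiU R (r + j)) :
    ∃ p ∈ lkiU R (r + 0), ∀ j, (∏ i ∈ Finset.range j, v i)⁻¹ * p ∈ lkiU R (r + j) := by
  have hstep : ∀ m n, m ≤ n →
      (((∏ i ∈ Finset.range n, v i : Rˣ) : R) - ((∏ i ∈ Finset.range m, v i : Rˣ) : R))
        ∈ maximalIdeal R ^ (r + m) := by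
    intro m n hmn
    rw [← lkiU_div_mem_iff, ← Finset.prod_Ico_eq_div _ hmn]
    apply Subgroup.prod_mem
    intro i hi
    rw [Finset.mem_Ico] at hi
    exact lkiU_antitone (Nat.add_le_add_left hi.1 r) (hv i)
  obtain ⟨L, hL⟩ := IsPrecomplete.prec' (I := maximalIdeal R)
    (fun n => ((∏ i ∈ Finset.range n, v i : Rˣ) : R)) (by
      intro m n hmn
      rw [SModEq.sub_mem, smul_eq_mul, Ideal.mul_top]
      have := hstep m n hmn
      rw [← Ideal.neg_mem_iff, neg_sub] at this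
      exact Ideal.pow_le_pow_right (Nat.le_add_left m r) this)
  have hL' : ∀ j, L - ((∏ i ∈ Finset.range j, v i : Rˣ) : R) ∈ maximalIdeal R ^ (r + j) := by
    intro j
    have h1 := hL (r + j)
    rw [SModEq.sub_mem, smul_eq_mul, Ideal.mul_top] at h1
    have h2 := hstep j (r + j) (Nat.le_add_left j r)
    have h3 : L - ((∏ i ∈ Finset.range j, v i : Rˣ) : R) =
        -(((∏ i ∈ Finset.range (r + j), v i : Rˣ) : R) - L) +
        (((∏ i ∈ Finset.range (r + j), v i : Rˣ) : R) -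
          ((∏ i ∈ Finset.range j, v i : Rˣ) : R)) := by ring
    rw [h3]
    exact Ideal.add_mem _ (Ideal.neg_mem_iff _ |>.2 h1) h2
  have hLm : L - 1 ∈ maximalIdeal R := by
    have := hL' 0
    simp only [Finset.range_zero, Finset.prod_empty, Units.val_one, add_zero] at this
    have := Ideal.pow_le_pow_right hr this
    rwa [pow_one] at this
  obtain ⟨p, hp⟩ := lki_isUnit_one_add hLm
  have hpL : (p : R) = L := by rw [hp]; ring
  refine ⟨p, ?_, fun j => ?_⟩
  · rw [mem_lkiU_iff, hpL]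
    have := hL' 0
    simpa using this
  · rw [lkiU_inv_mul_mem_iff, hpL]
    exact hL' j

end Complete


section Herbrand

variable {R : Type*} [CommRing R] [IsDomain R] [IsDiscreteValuationRing R]
  [IsAdicComplete (maximalIdeal R) R] [Finite (ResidueField R)]
  {ℓ : ℕ} (hℓ : ℓ.Prime) {c : ℕ} (hc : Ideal.span {(ℓ : R)} = maximalIdeal R ^ c)

include hℓ hc

theorem lki_pow_surj {r : ℕ} (hr : 1 ≤ r) (hrc : c < r * (ℓ - 1)) :
    ∀ w ∈ lkiU R (r + c), ∃ v ∈ lkiU R r, v ^ ℓ = w := by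
  have key := lki_approx_surj (G := Rˣ) (fun j => lkiU R (r + j)) (fun j => lkiU R (r + j + c))
    (powMonoidHom ℓ) (fun v hv => lkiU_complete hr v hv)
    (fun u hu => lkiU_separated u (fun n =>
      lkiU_antitone (by omega : n ≤ r + n + c) (hu n)))
    (fun j v hv => lki_pow_mem hℓ hc hr hrc (Nat.le_add_right r j) hv)
    (fun j w hw => by
      obtain ⟨v, hv, hv'⟩ := lki_graded_surj hℓ hc hr hrc (Nat.le_add_right r j) hw
      exact ⟨v, hv, lkiU_antitone (by omega : r + (j + 1) + c ≤ r + j + c + 1) hv'⟩)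
  intro w hw
  obtain ⟨v, hv, hvw⟩ := key w hw
  exact ⟨v, hv, hvw⟩

theorem lki_index_pow :
    (powMonoidHom ℓ : Rˣ →* Rˣ).range.index =
      Nat.card (powMonoidHom ℓ : Rˣ →* Rˣ).ker * Nat.card (ResidueField R) ^ c := by
  have hr : 1 ≤ c + 1 := Nat.le_add_left 1 c
  have hrc : c < (c + 1) * (ℓ - 1) := by
    have : 1 ≤ ℓ - 1 := Nat.le_sub_one_of_lt hℓ.one_lt
    calc c < c + 1 := Nat.lt_succ_self c
      _ = (c + 1) * 1 := (mul_one _).symm
      _ ≤ (c + 1) * (ℓ - 1) := Nat.mul_le_mul_left _ this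
  set r := c + 1 with hr_def
  set φ : Rˣ →* Rˣ := powMonoidHom ℓ with hφ
  have hmap : (lkiU R r).map φ = lkiU R (r + c) := by
    ext w
    constructor
    · rintro ⟨v, hv, rfl⟩
      exact lki_pow_mem hℓ hc hr hrc le_rfl hv
    · intro hw
      obtain ⟨v, hv, hvw⟩ := lki_pow_surj hℓ hc hr hrc w hw
      exact ⟨v, hv, hvw⟩
  have hinf : lkiU R r ⊓ φ.ker = ⊥ := by
    rw [eq_bot_iff]
    rintro u ⟨hu, hk⟩
    rw [Subgroup.mem_bot]
    exact lki_pow_injective hℓ hc hr hrc hu hk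
  have h1 := lki_relIndex_eq φ ⊤ (lkiU R r) le_top
  rw [Subgroup.relIndex_top_right, top_inf_eq, hmap, ← MonoidHom.range_eq_map,
    ← Subgroup.inf_relIndex_right, hinf, Subgroup.relIndex_bot_left] at h1
  have hle : lkiU R (r + c) ≤ φ.range := by
    rw [← hmap]
    exact Subgroup.map_le_range φ _
  have h2 := Subgroup.relIndex_mul_index hle
  have h3 := Subgroup.relIndex_mul_index (lkiU_antitone (R := R) (Nat.le_add_right r c))
  rw [lkiU_relIndex r c hr, h1] at h3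
  have hne : (lkiU R (r + c)).relIndex φ.range ≠ 0 := by
    intro h0
    rw [h0, zero_mul] at h2
    exact lkiU_index_ne_zero (R := R) (r + c) h2.symm
  have h4 : (lkiU R (r + c)).relIndex φ.range * φ.range.index =
      (lkiU R (r + c)).relIndex φ.range * (Nat.card φ.ker * Nat.card (ResidueField R) ^ c) := by
    rw [h2, ← h3]
    ring
  exact Nat.eq_of_mul_eq_mul_left (Nat.pos_of_ne_zero hne) h4

end Herbrand

end Fermat.Agent.S55
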