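import Fermat.Agent.S55.LocalRingSpec
import Fermat.Agent.S55.LocalKummerIndexCore

/-!
# S55 / LOCAL layer, leaf LE2b `LocalKummerIndex.lean`

The index of the `p`-th powers in the multiplicative group of a local field
(helper names prefixed `lki`; the abstract complete-DVR computation is in
`LocalKummerIndexCore.lean`).
-/

set_option autoImplicit false
set_option linter.unusedSectionVars false
set_option linter.style.haveILetI false
set_option linter.unnecessarySimpa false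

namespace Fermat.Agent.S55

open IsLocalRing

section Local

variable (q : ℕ) [Fact q.Prime]
  (K : Type) [Field K] [Algebra ℚ_[q] K] [FiniteDimensional ℚ_[q] K]

/-- `lfOrd` of a prime `ℓ ≠ q` is zero. -/
theorem lki_lfOrd_natCast_of_ne (ℓ : ℕ) [Fact ℓ.Prime] (h : q ≠ ℓ) : lfOrd q K ((ℓ : ℕ) : K) = 0 := by
  have h1 : ((ℓ : ℕ) : K) = algebraMap ℚ_[q] K ((ℓ : ℕ) : ℚ_[q]) := (map_natCast _ _).symm
  rw [lfOrd, lfVq, h1, Algebra.norm_algebraMap, Padic.valuation_pow, Padic.valuation_natCast,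
    padicValNat_primes h]
  simp

/-- the exponent `c` with `(ℓ) = 𝔪^c` is `lfOrd ℓ` -/
theorem lki_exists_span_eq (ℓ : ℕ) (hℓ : ℓ ≠ 0) :
    ∃ c : ℕ, Ideal.span {((ℓ : ℕ) : lfInt q K)} = maximalIdeal (lfInt q K) ^ c ∧
      (c : ℤ) = lfOrd q K ((ℓ : ℕ) : K) := by
  have hchar : CharZero K := by
    haveI : CharZero ℚ_[q] := inferInstance
    exact charZero_of_injective_algebraMap (algebraMap ℚ_[q] K).injective
  have hx0 : ((ℓ : ℕ) : lfInt q K) ≠ 0 := by
    intro h0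
    have := congrArg (fun x : lfInt q K => (x : K)) h0
    simp only [ZeroMemClass.coe_zero] at this
    have h2 : ((ℓ : ℕ) : K) = 0 := by exact_mod_cast this
    exact hℓ (by exact_mod_cast h2)
  obtain ⟨ϖ, hϖ⟩ := IsDiscreteValuationRing.exists_irreducible (lfInt q K)
  have hs : Ideal.span {((ℓ : ℕ) : lfInt q K)} ≠ ⊥ := by
    rw [Ne, Ideal.span_singleton_eq_bot]
    exact hx0
  obtain ⟨c, hc⟩ := IsDiscreteValuationRing.ideal_eq_span_pow_irreducible hs hϖ
  have hc' : Ideal.span {((ℓ : ℕ) : lfInt q K)} = maximalIdeal (lfInt q K) ^ c := by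
    rw [hc, hϖ.maximalIdeal_eq, Ideal.span_singleton_pow]
  refine ⟨c, hc', ?_⟩
  have hmem : ((ℓ : ℕ) : lfInt q K) ∈ maximalIdeal (lfInt q K) ^ c := by
    rw [← hc']
    exact Ideal.mem_span_singleton_self _
  have hnmem : ((ℓ : ℕ) : lfInt q K) ∉ maximalIdeal (lfInt q K) ^ (c + 1) := by
    intro h
    have h9 : maximalIdeal (lfInt q K) ^ c ≤ maximalIdeal (lfInt q K) ^ (c + 1) := by
      rw [← hc', Ideal.span_singleton_le_iff_mem]
      exact h
    have hne' : maximalIdeal (lfInt q K) ≠ ⊥ := IsDiscreteValuationRing.not_a_field _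
    exact absurd h9 (not_le_of_gt (Ideal.pow_succ_lt_pow hne' c))
  rw [mem_maximalIdeal_pow_lfInt_iff q K _ hx0] at hmem hnmem
  have hcoe : ((((ℓ : ℕ) : lfInt q K) : lfInt q K) : K) = ((ℓ : ℕ) : K) := by
    simp
  rw [hcoe] at hmem hnmem
  push_cast at hnmem
  omega


/-- an `m`-th root of a unit is a unit -/
theorem lki_mem_lfUnits_of_pow {m : ℕ} (hm : m ≠ 0) {x : Kˣ} (h : x ^ m ∈ lfUnits q K) :
    x ∈ lfUnits q K := by
  rw [mem_lfUnits_iff] at h ⊢
  rw [Units.val_pow_eq_pow_val, lfOrd_pow] at h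
  have hm' : (m : ℤ) ≠ 0 := by exact_mod_cast hm
  exact (mul_eq_zero.1 h).resolve_left hm'

/-- the units of `K` as the unit group of the ring of integers -/
noncomputable def lkiEquiv : ↥(lfUnits q K) ≃* (lfInt q K)ˣ :=
  (lfInt q K).unitGroupMulEquiv

theorem lkiEquiv_coe (u : ↥(lfUnits q K)) :
    ((lkiEquiv q K u : lfInt q K) : K) = ((u : Kˣ) : K) := rfl

theorem lkiEquiv_symm_coe (z : (lfInt q K)ˣ) :
    ((((lkiEquiv q K).symm z : ↥(lfUnits q K)) : Kˣ) : K) = ((z : lfInt q K) : K) := rfl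

/-- transfer of the unit index to the unit group of the ring of integers -/
theorem lki_units_index_eq (m : ℕ) (hm : m ≠ 0) :
    ((powMonoidHom m : Kˣ →* Kˣ).range.subgroupOf (lfUnits q K)).index =
      (powMonoidHom m : (lfInt q K)ˣ →* (lfInt q K)ˣ).range.index := by
  have hmap : ((powMonoidHom m : Kˣ →* Kˣ).range.subgroupOf (lfUnits q K)).map
      (lkiEquiv q K : ↥(lfUnits q K) →* (lfInt q K)ˣ) =
      (powMonoidHom m : (lfInt q K)ˣ →* (lfInt q K)ˣ).range := by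
    ext y
    constructor
    · rintro ⟨u, hu, rfl⟩
      rw [SetLike.mem_coe, Subgroup.mem_subgroupOf] at hu
      obtain ⟨x, hx⟩ := hu
      rw [powMonoidHom_apply] at hx
      have hxU : x ∈ lfUnits q K := by
        apply lki_mem_lfUnits_of_pow q K hm
        rw [hx]
        exact u.2
      refine ⟨lkiEquiv q K ⟨x, hxU⟩, ?_⟩
      rw [powMonoidHom_apply]
      show (lkiEquiv q K ⟨x, hxU⟩) ^ m = lkiEquiv q K u
      rw [← map_pow]
      congr 1
      exact Subtype.ext hx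
    · rintro ⟨z, rfl⟩
      refine ⟨((lkiEquiv q K).symm z) ^ m, ?_, ?_⟩
      · rw [SetLike.mem_coe, Subgroup.mem_subgroupOf]
        exact ⟨(((lkiEquiv q K).symm z : ↥(lfUnits q K)) : Kˣ), rfl⟩
      · rw [powMonoidHom_apply]
        show lkiEquiv q K (((lkiEquiv q K).symm z) ^ m) = z ^ m
        rw [map_pow, MulEquiv.apply_symm_apply]
  rw [← hmap]
  exact (Subgroup.index_map_equiv _ (lkiEquiv q K)).symm


/-- the valuation modulo `m` as a homomorphism -/
noncomputable def lkiOrdMod (m : ℕ) : Kˣ →* Multiplicative (ZMod m) where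
  toFun x := Multiplicative.ofAdd ((lfOrd q K (x : K) : ℤ) : ZMod m)
  map_one' := by
    rw [Units.val_one, lfOrd_one]
    simp
  map_mul' x y := by
    rw [Units.val_mul, lfOrd_mul q K x.ne_zero y.ne_zero, Int.cast_add, ofAdd_add]

theorem lkiOrdMod_apply (m : ℕ) (x : Kˣ) :
    lkiOrdMod q K m x = Multiplicative.ofAdd ((lfOrd q K (x : K) : ℤ) : ZMod m) := rfl

theorem lkiOrdMod_surjective (m : ℕ) [NeZero m] : Function.Surjective (lkiOrdMod q K m) := by
  intro y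
  obtain ⟨ϖ, hϖ⟩ := exists_isLfUniformizer q K
  refine ⟨(Units.mk0 ϖ (IsLfUniformizer.ne_zero q K hϖ)) ^ (Multiplicative.toAdd y).val, ?_⟩
  rw [lkiOrdMod_apply, Units.val_pow_eq_pow_val, Units.val_mk0, lfOrd_pow, hϖ]
  simp

/-- `[Kˣ : Kˣᵐ] = [U : U ∩ Kˣᵐ] * m` -/
theorem lki_index_eq_units_index_mul (m : ℕ) [NeZero m] :
    (powMonoidHom m : Kˣ →* Kˣ).range.index =
      ((powMonoidHom m : Kˣ →* Kˣ).range.subgroupOf (lfUnits q K)).index * m := by
  have h1 := lki_index_eq (lkiOrdMod q K m) (powMonoidHom m : Kˣ →* Kˣ).range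
  have hbot : (powMonoidHom m : Kˣ →* Kˣ).range.map (lkiOrdMod q K m) = ⊥ := by
    rw [eq_bot_iff]
    rintro y ⟨x, ⟨z, rfl⟩, rfl⟩
    rw [Subgroup.mem_bot, powMonoidHom_apply, map_pow, lkiOrdMod_apply, ← ofAdd_nsmul]
    simp
  have hrange : (lkiOrdMod q K m).range = ⊤ :=
    MonoidHom.range_eq_top.2 (lkiOrdMod_surjective q K m)
  have hcard : Nat.card (Multiplicative (ZMod m)) = m := by
    rw [Nat.card_eq_fintype_card, Fintype.card_multiplicative, ZMod.card]
  rw [hbot, hrange, Subgroup.relIndex_bot_left, Subgroup.card_top, hcard] at h1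
  -- the kernel is `H ⊔ U`
  have hker : (lkiOrdMod q K m).ker = (powMonoidHom m : Kˣ →* Kˣ).range ⊔ lfUnits q K := by
    apply le_antisymm
    · intro x hx
      rw [MonoidHom.mem_ker, lkiOrdMod_apply, ofAdd_eq_one,
        ZMod.intCast_zmod_eq_zero_iff_dvd] at hx
      obtain ⟨k, hk⟩ := hx
      obtain ⟨ϖ, hϖ⟩ := exists_isLfUniformizer q K
      set π : Kˣ := Units.mk0 ϖ (IsLfUniformizer.ne_zero q K hϖ) with hπ
      rw [Subgroup.mem_sup]
      refine ⟨(π ^ k) ^ m, ⟨π ^ k, rfl⟩, x * ((π ^ k) ^ m)⁻¹, ?_, by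
        rw [mul_comm, inv_mul_cancel_right]⟩
      rw [mem_lfUnits_iff, Units.val_mul, lfOrd_mul q K x.ne_zero (Units.ne_zero _), hk,
        Units.val_inv_eq_inv_val, lfOrd_inv, Units.val_pow_eq_pow_val, lfOrd_pow,
        Units.val_zpow_eq_zpow_val, lfOrd_zpow, hπ, Units.val_mk0, hϖ]
      ring
    · rw [sup_le_iff]
      constructor
      · rintro y ⟨z, rfl⟩
        rw [MonoidHom.mem_ker, powMonoidHom_apply, map_pow, lkiOrdMod_apply, ← ofAdd_nsmul]
        simp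
      · intro u hu
        rw [MonoidHom.mem_ker, lkiOrdMod_apply, (mem_lfUnits_iff q K u).1 hu]
        simp
  rw [hker, Subgroup.relIndex_sup_left] at h1
  exact h1


theorem lki_ker_eq_rootsOfUnity (R : Type*) [CommRing R] (m : ℕ) :
    (powMonoidHom m : Rˣ →* Rˣ).ker = rootsOfUnity m R := by
  ext x
  rw [MonoidHom.mem_ker, powMonoidHom_apply, mem_rootsOfUnity]

theorem lki_card_ker_ne_zero (m : ℕ) [NeZero m] :
    Nat.card (powMonoidHom m : (lfInt q K)ˣ →* (lfInt q K)ˣ).ker ≠ 0 := by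
  rw [lki_ker_eq_rootsOfUnity]
  exact Nat.card_pos.ne'

theorem lki_card_ker_eq (p : ℕ) [NeZero p] (ζ : K) (hζ : IsPrimitiveRoot ζ p) :
    Nat.card (powMonoidHom p : (lfInt q K)ˣ →* (lfInt q K)ˣ).ker = p := by
  rw [lki_ker_eq_rootsOfUnity]
  have hp0 : p ≠ 0 := NeZero.ne p
  have hζ0 : ζ ≠ 0 := hζ.ne_zero hp0
  have h2 : Units.mk0 ζ hζ0 ∈ lfUnits q K := by
    apply lki_mem_lfUnits_of_pow q K hp0
    have : (Units.mk0 ζ hζ0) ^ p = 1 := by
      apply Units.ext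
      rw [Units.val_pow_eq_pow_val, Units.val_mk0, hζ.pow_eq_one, Units.val_one]
    rw [this]
    exact Subgroup.one_mem _
  have h3 : IsPrimitiveRoot ((lkiEquiv q K ⟨Units.mk0 ζ hζ0, h2⟩ : (lfInt q K)ˣ) : lfInt q K) p := by
    refine IsPrimitiveRoot.of_map_of_injective (f := (lfInt q K).subtype) ?_ Subtype.val_injective
    exact hζ
  exact h3.card_rootsOfUnity

/-- the unit index for a prime `ℓ`: `[U : U ∩ Kˣ^ℓ] = |μ_ℓ(K)| · |k|^(v(ℓ))` -/
theorem lki_units_index (ℓ : ℕ) [Fact ℓ.Prime] :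
    ∃ c : ℕ, (c : ℤ) = lfOrd q K ((ℓ : ℕ) : K) ∧
      ((powMonoidHom ℓ : Kˣ →* Kˣ).range.subgroupOf (lfUnits q K)).index =
        Nat.card (powMonoidHom ℓ : (lfInt q K)ˣ →* (lfInt q K)ˣ).ker * lfResCard q K ^ c := by
  have hℓ : ℓ.Prime := Fact.out
  obtain ⟨c, hc, hcv⟩ := lki_exists_span_eq q K ℓ hℓ.ne_zero
  refine ⟨c, hcv, ?_⟩
  rw [lki_units_index_eq q K ℓ hℓ.ne_zero, lki_index_pow hℓ hc]
  rfl

end Local

section Index

variable (q : ℕ) [Fact q.Prime]
  (K : Type) [Field K] [Algebra ℚ_[q] K] [FiniteDimensional ℚ_[q] K]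
  (p : ℕ) [Fact p.Prime] (ζ : K) (hζ : IsPrimitiveRoot ζ p)

include q in
omit [Fact p.Prime] in
/-- `Kˣ / Kˣᵐ` is finite for every `m ≥ 1` (no root of unity needed). -/
theorem lf_index_pow_ne_zero (m : ℕ) (hm : m ≠ 0) :
    (powMonoidHom m : Kˣ →* Kˣ).range.index ≠ 0 := by
  induction m using Nat.recOnMul with
  | zero => exact absurd rfl hm
  | one =>
    have : (powMonoidHom 1 : Kˣ →* Kˣ).range = ⊤ := by
      rw [MonoidHom.range_eq_top]
      intro x
      exact ⟨x, by simp⟩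
    rw [this, Subgroup.index_top]
    exact one_ne_zero
  | prime ℓ hℓ =>
    haveI : Fact ℓ.Prime := ⟨hℓ⟩
    haveI : NeZero ℓ := ⟨hℓ.ne_zero⟩
    rw [lki_index_eq_units_index_mul q K ℓ]
    obtain ⟨c, -, hc⟩ := lki_units_index q K ℓ
    rw [hc]
    have h1 := lki_card_ker_ne_zero q K ℓ
    have h2 : lfResCard q K ≠ 0 := by
      unfold lfResCard
      exact Nat.card_pos.ne'
    exact mul_ne_zero (mul_ne_zero h1 (pow_ne_zero _ h2)) hℓ.ne_zero
  | mul a b iha ihb =>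
    have ha : a ≠ 0 := fun h => hm (by rw [h, zero_mul])
    have hb : b ≠ 0 := fun h => hm (by rw [h, mul_zero])
    exact lki_index_pow_mul a b (iha ha) (ihb hb)

include hζ

/-- Unit version (needed for the local Euler characteristic / `[b1]` count):
`[𝒪ˣ : 𝒪ˣᵖ] = p` if `q ≠ p`, `p^(1 + [K:ℚ_p])` if `q = p`. -/
theorem lf_units_index_pow_of_ne (hqp : q ≠ p) :
    ((powMonoidHom p : Kˣ →* Kˣ).range.subgroupOf (lfUnits q K)).index = p := by
  haveI : NeZero p := ⟨(Fact.out : p.Prime).ne_zero⟩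
  obtain ⟨c, hcv, hc⟩ := lki_units_index q K p
  rw [lki_lfOrd_natCast_of_ne q K p hqp] at hcv
  have hc0 : c = 0 := by exact_mod_cast hcv
  rw [hc, lki_card_ker_eq q K p ζ hζ, hc0, pow_zero, mul_one]

theorem lf_units_index_pow_of_eq (hqp : q = p) :
    ((powMonoidHom p : Kˣ →* Kˣ).range.subgroupOf (lfUnits q K)).index =
      p ^ (1 + Module.finrank ℚ_[q] K) := by
  subst hqp
  haveI : NeZero q := ⟨(Fact.out : q.Prime).ne_zero⟩
  obtain ⟨c, hcv, hc⟩ := lki_units_index q K q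
  rw [hc, lki_card_ker_eq q K q ζ hζ, lfResCard_eq, ← pow_mul]
  have h1 := lfOrd_prime_mul_lfAbsInertiaDeg q K
  rw [← hcv] at h1
  have h2 : c * lfAbsInertiaDeg q K = Module.finrank ℚ_[q] K := by exact_mod_cast h1
  rw [mul_comm (lfAbsInertiaDeg q K) c, h2, pow_add, pow_one]

/-- `[Kˣ : Kˣᵖ] = p^2` if `q ≠ p` (`μ_p ⊆ K`) ... -/
theorem lf_index_pow_of_ne (hqp : q ≠ p) : (powMonoidHom p : Kˣ →* Kˣ).range.index = p ^ 2 := by
  haveI : NeZero p := ⟨(Fact.out : p.Prime).ne_zero⟩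
  rw [lki_index_eq_units_index_mul q K p, lf_units_index_pow_of_ne q K p ζ hζ hqp, sq]

/-- ... and `p^(2 + [K:ℚ_p])` if `q = p`. -/
theorem lf_index_pow_of_eq (hqp : q = p) :
    (powMonoidHom p : Kˣ →* Kˣ).range.index = p ^ (2 + Module.finrank ℚ_[q] K) := by
  haveI : NeZero p := ⟨(Fact.out : p.Prime).ne_zero⟩
  rw [lki_index_eq_units_index_mul q K p, lf_units_index_pow_of_eq q K p ζ hζ hqp]
  ring

end Index

end Fermat.Agent.S55
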