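/-
S55 / LOCAL layer LE3 "LocalKummerTame": tame formulas, units, functoriality of the degree-`n`
norm residue symbol `lfSymbol`.  EXACT statements of `LocalKummerSpec.lean` part LE3
(except `lfSymbol_baseChange`, in `LocalKummerBC.lean`).  Black boxes: LE1 + LE2a
(`LocalKummerSymbol`, `LocalKummerDual`), `LocalInv` API, `LocalUnram`, `CohomCyc`.  Helper lemmas: prefix `lkt_`.
-/
import Fermat.Agent.S55.LocalKummerSymbol
import Fermat.Agent.S55.LocalKummerDual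

set_option autoImplicit false
set_option linter.unusedSectionVars false
set_option linter.style.haveILetI false

namespace Fermat.Agent.S55

open groupCohomology IsLocalRing

/-! ## Kummer exponents -/

section KumExp

variable {K : Type} [Field K] {M : Type} [Field M] [Algebra K M]
  {n : ℕ} [NeZero n] {ζ : K}

theorem lkt_isPrimitiveRoot_map (hζ : IsPrimitiveRoot ζ n) :
    IsPrimitiveRoot (algebraMap K M ζ) n :=
  hζ.map_of_injective (algebraMap K M).injective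

/-- `σ β = ζ ^ k(σ) β` with `k(σ) < n`. -/
theorem lkt_kumExp_spec (hζ : IsPrimitiveRoot ζ n) {β : M} (hβ0 : β ≠ 0)
    (hβ : ∃ b : K, β ^ n = algebraMap K M b) (σ : M ≃ₐ[K] M) :
    σ β = algebraMap K M ζ ^ lfKumExp ζ β σ * β ∧ lfKumExp ζ β σ < n := by
  obtain ⟨b, hb⟩ := hβ
  have hζ' := lkt_isPrimitiveRoot_map (M := M) hζ
  have h1 : (σ β / β) ^ n = 1 := by
    rw [div_pow, ← map_pow, hb, AlgEquiv.commutes, div_self]
    rw [← hb]
    exact pow_ne_zero _ hβ0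
  obtain ⟨i, hi, hi'⟩ := hζ'.eq_pow_of_pow_eq_one h1
  have hmem : i ∈ {k : ℕ | σ β = algebraMap K M ζ ^ k * β} := by
    show σ β = algebraMap K M ζ ^ i * β
    rw [hi', div_mul_cancel₀ _ hβ0]
  have hne : {k : ℕ | σ β = algebraMap K M ζ ^ k * β}.Nonempty := ⟨i, hmem⟩
  exact ⟨Nat.sInf_mem hne, lt_of_le_of_lt (Nat.sInf_le hmem) hi⟩

theorem lkt_kumExp_unique (hζ : IsPrimitiveRoot ζ n) {β : M} (hβ0 : β ≠ 0)
    (hβ : ∃ b : K, β ^ n = algebraMap K M b) (σ : M ≃ₐ[K] M) {k : ℕ} (hk : k < n)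
    (h : σ β = algebraMap K M ζ ^ k * β) : lfKumExp ζ β σ = k := by
  obtain ⟨h1, h2⟩ := lkt_kumExp_spec hζ hβ0 hβ σ
  have hζ' := lkt_isPrimitiveRoot_map (M := M) hζ
  rw [h] at h1
  exact (hζ'.pow_inj hk h2 (mul_right_cancel₀ hβ0 h1)).symm

/-- `k(σ) ≡ j` as soon as `σ β = ζ ^ j β`. -/
theorem lkt_kumExp_modEq (hζ : IsPrimitiveRoot ζ n) {β : M} (hβ0 : β ≠ 0)
    (hβ : ∃ b : K, β ^ n = algebraMap K M b) (σ : M ≃ₐ[K] M) {j : ℕ}
    (h : σ β = algebraMap K M ζ ^ j * β) : lfKumExp ζ β σ ≡ j [MOD n] := by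
  have hζ' := lkt_isPrimitiveRoot_map (M := M) hζ
  have hj : j % n < n := Nat.mod_lt _ (NeZero.pos n)
  have h' : σ β = algebraMap K M ζ ^ (j % n) * β := by
    rw [h]
    congr 1
    exact pow_eq_pow_mod j hζ'.pow_eq_one
  rw [lkt_kumExp_unique hζ hβ0 hβ σ hj h']
  exact Nat.mod_modEq j n

theorem lkt_kumExp_mul (hζ : IsPrimitiveRoot ζ n) {β : M} (hβ0 : β ≠ 0)
    (hβ : ∃ b : K, β ^ n = algebraMap K M b) (σ τ : M ≃ₐ[K] M) :
    lfKumExp ζ β (σ * τ) ≡ lfKumExp ζ β σ + lfKumExp ζ β τ [MOD n] := by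
  apply lkt_kumExp_modEq hζ hβ0 hβ
  rw [AlgEquiv.mul_apply, (lkt_kumExp_spec hζ hβ0 hβ τ).1, map_mul, map_pow, AlgEquiv.commutes,
    (lkt_kumExp_spec hζ hβ0 hβ σ).1, pow_add]
  ring

theorem lkt_kumExp_pow (hζ : IsPrimitiveRoot ζ n) {β : M} (hβ0 : β ≠ 0)
    (hβ : ∃ b : K, β ^ n = algebraMap K M b) (σ : M ≃ₐ[K] M) (i : ℕ) :
    lfKumExp ζ β (σ ^ i) ≡ i * lfKumExp ζ β σ [MOD n] := by
  induction i with
  | zero =>
    rw [pow_zero, zero_mul]
    apply lkt_kumExp_modEq hζ hβ0 hβ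
    simp
  | succ i ih =>
    rw [pow_succ]
    refine (lkt_kumExp_mul hζ hβ0 hβ _ _).trans ?_
    rw [add_mul, one_mul]
    exact ih.add_right _

/-- the carry: `n * ε(σ,τ) = k(σ) + k(τ) - k(στ)` with `ε = 1` iff `k(σ) + k(τ) ≥ n`. -/
theorem lkt_kumExp_carry (hζ : IsPrimitiveRoot ζ n) {β : M} (hβ0 : β ≠ 0)
    (hβ : ∃ b : K, β ^ n = algebraMap K M b) (σ τ : M ≃ₐ[K] M) :
    ((n : ℤ) * (if n ≤ lfKumExp ζ β σ + lfKumExp ζ β τ then 1 else 0 : ℤ)) =
      (lfKumExp ζ β σ : ℤ) + lfKumExp ζ β τ - lfKumExp ζ β (σ * τ) := by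
  have h1 := (lkt_kumExp_spec hζ hβ0 hβ σ).2
  have h2 := (lkt_kumExp_spec hζ hβ0 hβ τ).2
  have h3 := (lkt_kumExp_spec hζ hβ0 hβ (σ * τ)).2
  have h4 := lkt_kumExp_mul hζ hβ0 hβ σ τ
  unfold Nat.ModEq at h4
  rw [Nat.mod_eq_of_lt h3] at h4
  split_ifs with hc
  · have h5 : (lfKumExp ζ β σ + lfKumExp ζ β τ) % n = lfKumExp ζ β σ + lfKumExp ζ β τ - n := by
      rw [Nat.mod_eq_sub_mod hc, Nat.mod_eq_of_lt (by omega)]
    rw [h5] at h4
    omega
  · rw [Nat.mod_eq_of_lt (by omega)] at h4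
    omega

end KumExp

/-! ## cochains of the form `a ^ e` -/

section ExpCochain

variable {G : Type} [Group G] {Y : Type} [CommGroup Y] [MulDistribMulAction G Y]

/-- Two cochains `a ^ e`, `a ^ e'` (`a` invariant) whose exponents differ by the coboundary of
`g : G → ℤ` are cohomologous. -/
theorem lkt_coboundary_of_exp {a : Y} (ha : ∀ σ : G, σ • a = a) {c c' : G × G → Y}
    (e e' : G × G → ℤ) (g : G → ℤ) (hc : ∀ p, c p = a ^ e p) (hc' : ∀ p, c' p = a ^ e' p)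
    (h : ∀ σ τ : G, e (σ, τ) - e' (σ, τ) = g τ - g (σ * τ) + g σ) :
    IsMulCoboundary₂ (c / c') := by
  refine ⟨fun σ => a ^ g σ, fun σ τ => ?_⟩
  show σ • a ^ g τ / a ^ g (σ * τ) * a ^ g σ = c (σ, τ) / c' (σ, τ)
  rw [smul_zpow', ha σ, hc, hc', div_eq_mul_inv, div_eq_mul_inv, ← zpow_neg, ← zpow_neg,
    ← zpow_add, ← zpow_add, ← zpow_add]
  congr 1
  linarith [h σ τ]

/-- a cochain `a ^ e` (`a` invariant) with `e` an additive cocycle is a cocycle. -/
theorem lkt_isMulCocycle₂_of_exp {a : Y} (ha : ∀ σ : G, σ • a = a) {c : G × G → Y}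
    (e : G × G → ℤ) (hc : ∀ p, c p = a ^ e p)
    (h : ∀ σ τ ρ : G, e (σ * τ, ρ) + e (σ, τ) = e (τ, ρ) + e (σ, τ * ρ)) :
    IsMulCocycle₂ c := by
  intro σ τ ρ
  rw [hc, hc, hc, hc, smul_zpow', ha σ, ← zpow_add, ← zpow_add, h]

end ExpCochain

/-! ## the symbol cocycle as a power of `a` -/

section SymbolCocycle

variable {K : Type} [Field K] {M : Type} [Field M] [Algebra K M]
  {n : ℕ} [NeZero n] {ζ : K}

/-- the carry exponent of the symbol cocycle -/
noncomputable def lktCarry (n : ℕ) (ζ : K) (β : M) (p : (M ≃ₐ[K] M) × (M ≃ₐ[K] M)) : ℤ :=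
  if n ≤ lfKumExp ζ β p.1 + lfKumExp ζ β p.2 then 1 else 0

theorem lkt_symbolCocycle_eq (a : Kˣ) (β : M) (p : (M ≃ₐ[K] M) × (M ≃ₐ[K] M)) :
    lfSymbolCocycle n ζ a β p = Units.map (algebraMap K M : K →* M) a ^ lktCarry n ζ β p := by
  unfold lfSymbolCocycle lktCarry
  split_ifs <;> simp

theorem lkt_carry_mul (hζ : IsPrimitiveRoot ζ n) {β : M} (hβ0 : β ≠ 0)
    (hβ : ∃ b : K, β ^ n = algebraMap K M b) (σ τ : M ≃ₐ[K] M) :
    (n : ℤ) * lktCarry n ζ β (σ, τ) =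
      (lfKumExp ζ β σ : ℤ) + lfKumExp ζ β τ - lfKumExp ζ β (σ * τ) :=
  lkt_kumExp_carry hζ hβ0 hβ σ τ

theorem lkt_smul_map (a : Kˣ) (σ : M ≃ₐ[K] M) :
    σ • Units.map (algebraMap K M : K →* M) a = Units.map (algebraMap K M : K →* M) a := by
  apply Units.ext
  show σ (algebraMap K M (a : K)) = algebraMap K M (a : K)
  exact σ.commutes _

theorem lkt_symbolCocycle_isMulCocycle₂ (hζ : IsPrimitiveRoot ζ n) (a : Kˣ) {β : M}
    (hβ0 : β ≠ 0) (hβ : ∃ b : K, β ^ n = algebraMap K M b) :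
    IsMulCocycle₂ (lfSymbolCocycle n ζ a β) := by
  refine lkt_isMulCocycle₂_of_exp (lkt_smul_map a) (lktCarry n ζ β)
    (lkt_symbolCocycle_eq a β) (fun σ τ ρ => ?_)
  have hn : (n : ℤ) ≠ 0 := by exact_mod_cast (NeZero.ne n)
  apply mul_left_cancel₀ hn
  rw [mul_add, mul_add, lkt_carry_mul hζ hβ0 hβ, lkt_carry_mul hζ hβ0 hβ,
    lkt_carry_mul hζ hβ0 hβ, lkt_carry_mul hζ hβ0 hβ, mul_assoc]
  ring

end SymbolCocycle

/-! ## `ℚ/ℤ` arithmetic -/

section Circle

theorem lkt_addCircle_div_eq_iff (x y : ℤ) (n : ℕ) (hn : n ≠ 0) :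
    ((((x : ℚ) / (n : ℚ) : ℚ)) : AddCircle (1 : ℚ)) = (((y : ℚ) / (n : ℚ) : ℚ) : AddCircle (1 : ℚ))
      ↔ (n : ℤ) ∣ x - y := by
  rw [← sub_eq_zero, ← AddCircle.coe_sub, ← sub_div, ← Int.cast_sub,
    lfu_addCircle_div_eq_zero_iff _ n hn]

theorem lkt_zmod_eq_of_addCircle {n : ℕ} [NeZero n] {s : ZMod n} {y : ℤ}
    (h : (((((s.val : ℕ) : ℚ)) / (n : ℚ) : ℚ) : AddCircle (1 : ℚ)) =
      (((y : ℚ) / (n : ℚ) : ℚ) : AddCircle (1 : ℚ))) : s = (y : ZMod n) := by
  have h1 : ((((s.val : ℕ) : ℤ) : ℚ) / (n : ℚ) : ℚ) = (((s.val : ℕ) : ℚ) / (n : ℚ) : ℚ) := by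
    rw [Int.cast_natCast]
  rw [← h1, lkt_addCircle_div_eq_iff _ _ n (NeZero.ne n)] at h
  have h2 := (ZMod.intCast_eq_intCast_iff_dvd_sub y ((s.val : ℕ) : ℤ) n).2 h
  rw [h2]
  simp

end Circle

/-! ## `localInv` of cohomologous cocycles -/

section Inv

variable (q : ℕ) [Fact q.Prime]
  (K : Type) [Field K] [Algebra ℚ_[q] K] [FiniteDimensional ℚ_[q] K]
  (L : Type) [Field L] [Algebra ℚ_[q] L] [FiniteDimensional ℚ_[q] L]
  [Algebra K L] [IsScalarTower ℚ_[q] K L]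

theorem lkt_localInv_eq_of_div [IsGalois K L] {c c' : (L ≃ₐ[K] L) × (L ≃ₐ[K] L) → Lˣ}
    (hc' : IsMulCocycle₂ c') (h : IsMulCoboundary₂ (c / c')) :
    localInv q K L c = localInv q K L c' := by
  have h1 : c = c' * (c / c') := by rw [mul_div_cancel]
  have hcoc : IsMulCocycle₂ (c / c') := lfu_isMulCocycle₂_of_isMulCoboundary₂ h
  rw [h1, localInv_mul q K L hc' hcoc, (localInv_eq_zero_iff q K L hcoc).2 h, add_zero]

theorem lkt_localInv_one [IsGalois K L] :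
    localInv q K L (1 : (L ≃ₐ[K] L) × (L ≃ₐ[K] L) → Lˣ) = 0 := by
  have h1 : IsMulCoboundary₂ (1 : (L ≃ₐ[K] L) × (L ≃ₐ[K] L) → Lˣ) := lfu_isMulCoboundary₂_one
  exact (localInv_eq_zero_iff q K L (lfu_isMulCocycle₂_of_isMulCoboundary₂ h1)).2 h1

theorem lkt_isMulCocycle₂_pow {G : Type} [Group G] {Y : Type} [CommGroup Y]
    [MulDistribMulAction G Y] {c : G × G → Y} (hc : IsMulCocycle₂ c) (j : ℕ) :
    IsMulCocycle₂ (c ^ j) := by
  induction j with
  | zero =>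
    rw [pow_zero]
    exact lfu_isMulCocycle₂_of_isMulCoboundary₂ lfu_isMulCoboundary₂_one
  | succ j ih =>
    rw [pow_succ]
    exact lfu_isMulCocycle₂_mul ih hc

theorem lkt_localInv_pow [IsGalois K L] {c : (L ≃ₐ[K] L) × (L ≃ₐ[K] L) → Lˣ}
    (hc : IsMulCocycle₂ c) (j : ℕ) : localInv q K L (c ^ j) = j • localInv q K L c := by
  induction j with
  | zero => rw [pow_zero, zero_smul, lkt_localInv_one]
  | succ j ih =>
    rw [pow_succ, localInv_mul q K L (lkt_isMulCocycle₂_pow hc j) hc, ih, succ_nsmul]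

end Inv

/-! ## a Galois extension containing an `n`-th root -/

section Root

variable (q : ℕ) [Fact q.Prime]
  (K : Type) [Field K] [Algebra ℚ_[q] K] [FiniteDimensional ℚ_[q] K]
  (n : ℕ) [NeZero n]

theorem lkt_exists_galois_root (b : K) (hb : b ≠ 0) :
    ∃ (M : Type) (_ : Field M) (_ : Algebra ℚ_[q] M) (_ : FiniteDimensional ℚ_[q] M)
      (_ : Algebra K M) (_ : IsScalarTower ℚ_[q] K M) (_ : IsGalois K M),
      ∃ β : M, β ^ n = algebraMap K M b := by
  haveI : CharZero K := charZero_of_injective_algebraMap (algebraMap ℚ_[q] K).injective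
  set f : Polynomial K := Polynomial.X ^ n - Polynomial.C b with hf
  have hsep : f.Separable := by
    apply Polynomial.separable_X_pow_sub_C b _ hb
    exact_mod_cast NeZero.ne n
  have hdeg : f.degree ≠ 0 := by
    rw [hf, Polynomial.degree_X_pow_sub_C (NeZero.pos n)]
    exact_mod_cast NeZero.ne n
  haveI : FiniteDimensional ℚ_[q] f.SplittingField :=
    FiniteDimensional.trans ℚ_[q] K f.SplittingField
  haveI : IsGalois K f.SplittingField := IsGalois.of_separable_splitting_field (p := f) hsep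
  have hdeg' : (f.map (algebraMap K f.SplittingField)).degree ≠ 0 := by
    rw [Polynomial.degree_map]
    exact hdeg
  obtain ⟨β, hβ⟩ := (Polynomial.SplittingField.splits f).exists_eval_eq_zero hdeg'
  refine ⟨f.SplittingField, inferInstance, inferInstance, inferInstance, inferInstance,
    inferInstance, inferInstance, β, ?_⟩
  have hβ' : Polynomial.eval₂ (algebraMap K f.SplittingField) β
      (Polynomial.X ^ n - Polynomial.C b) = 0 := by
    rw [← Polynomial.eval_map]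
    exact hβ
  rw [Polynomial.eval₂_sub, Polynomial.eval₂_pow, Polynomial.eval₂_X,
    Polynomial.eval₂_C, sub_eq_zero] at hβ'
  exact hβ'

end Root

/-! ## change of the root of unity and of the level -/

section Change

variable (q : ℕ) [Fact q.Prime]
  (K : Type) [Field K] [Algebra ℚ_[q] K] [FiniteDimensional ℚ_[q] K]
  (n : ℕ) [NeZero n] (ζ : K)

/-- comparison of the symbol cocycles for `ζ` and `ζ ^ j` -/
theorem lkt_symbolCocycle_pow_root {M : Type} [Field M] [Algebra K M]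
    (hζ : IsPrimitiveRoot ζ n) (j : ℕ) (hj : j.Coprime n) (a : Kˣ) {β : M} (hβ0 : β ≠ 0)
    (hβ : ∃ b : K, β ^ n = algebraMap K M b) :
    IsMulCoboundary₂ (lfSymbolCocycle n ζ a β / lfSymbolCocycle n (ζ ^ j) a β ^ j) := by
  have hζj : IsPrimitiveRoot (ζ ^ j) n := hζ.pow_of_coprime j hj
  have hn : (n : ℤ) ≠ 0 := by exact_mod_cast (NeZero.ne n)
  have hdvd : ∀ σ : M ≃ₐ[K] M,
      (n : ℤ) ∣ (lfKumExp ζ β σ : ℤ) - j * lfKumExp (ζ ^ j) β σ := by
    intro σ
    have h1 : lfKumExp ζ β σ ≡ j * lfKumExp (ζ ^ j) β σ [MOD n] := by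
      apply lkt_kumExp_modEq hζ hβ0 hβ
      rw [(lkt_kumExp_spec hζj hβ0 hβ σ).1, map_pow, ← pow_mul]
    have h2 := (Nat.modEq_iff_dvd.1 h1.symm)
    push_cast at h2
    exact h2
  refine lkt_coboundary_of_exp (lkt_smul_map a) (lktCarry n ζ β)
    (fun p => (j : ℤ) * lktCarry n (ζ ^ j) β p)
    (fun σ => ((lfKumExp ζ β σ : ℤ) - j * lfKumExp (ζ ^ j) β σ) / n)
    (lkt_symbolCocycle_eq a β) (fun p => ?_) (fun σ τ => ?_)
  · rw [Pi.pow_apply, lkt_symbolCocycle_eq, ← zpow_natCast, ← zpow_mul, mul_comm]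
  · apply mul_left_cancel₀ hn
    have e1 := lkt_carry_mul hζ hβ0 hβ σ τ
    have e2 := lkt_carry_mul hζj hβ0 hβ σ τ
    have g1 := Int.mul_ediv_cancel' (hdvd σ)
    have g2 := Int.mul_ediv_cancel' (hdvd τ)
    have g3 := Int.mul_ediv_cancel' (hdvd (σ * τ))
    rw [mul_sub, mul_add, mul_sub, g1, g2, g3, e1, ← mul_assoc, mul_comm (n : ℤ) (j : ℤ),
      mul_assoc, e2]
    ring

/-- Change of the root of unity: `(a,b)_{ζ^j} = j⁻¹ (a,b)_ζ`, stated as `j (a,b)_{ζ^j} = (a,b)_ζ`. -/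
theorem lfSymbol_pow_root (hζ : IsPrimitiveRoot ζ n) (j : ℕ) (hj : j.Coprime n) (a b : Kˣ) :
    (j : ZMod n) * lfSymbol q K n (ζ ^ j) a b = lfSymbol q K n ζ a b := by
  have hζj : IsPrimitiveRoot (ζ ^ j) n := hζ.pow_of_coprime j hj
  obtain ⟨M, _, _, _, _, _, _, β, hβ⟩ := lkt_exists_galois_root q K n (b : K) b.ne_zero
  have hβ0 : β ≠ 0 := by
    intro h0
    rw [h0, zero_pow (NeZero.ne n)] at hβ
    exact b.ne_zero ((map_eq_zero _).1 hβ.symm)
  have hβ' : ∃ b : K, β ^ n = algebraMap K M b := ⟨_, hβ⟩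
  have h1 := localInv_lfSymbolCocycle q K n ζ hζ M a b β hβ
  have h2 := localInv_lfSymbolCocycle q K n (ζ ^ j) hζj M a b β hβ
  have hcoc : IsMulCocycle₂ (lfSymbolCocycle n (ζ ^ j) a β) :=
    lkt_symbolCocycle_isMulCocycle₂ hζj a hβ0 hβ'
  have h3 := lkt_localInv_eq_of_div q K M (lkt_isMulCocycle₂_pow hcoc j)
    (lkt_symbolCocycle_pow_root K n ζ hζ j hj a hβ0 hβ')
  rw [lkt_localInv_pow q K M hcoc, h1, h2, ← AddCircle.coe_nsmul, nsmul_eq_mul] at h3
  have h4 : ((j : ℚ) * ((((lfSymbol q K n (ζ ^ j) a b).val : ℕ) : ℚ) / (n : ℚ)) : ℚ) =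
      ((((j * (lfSymbol q K n (ζ ^ j) a b).val : ℕ) : ℤ) : ℚ) / (n : ℚ) : ℚ) := by
    push_cast
    ring
  rw [h4] at h3
  have h5 := lkt_zmod_eq_of_addCircle h3
  rw [h5]
  push_cast
  rw [ZMod.natCast_zmod_val]

/-- comparison of the symbol cocycles of level `n = d * d'` and of level `d` -/
theorem lkt_symbolCocycle_dvd {M : Type} [Field M] [Algebra K M]
    (hζ : IsPrimitiveRoot ζ n) (d d' : ℕ) [NeZero d] (hd : n = d * d') (a : Kˣ) {β : M}
    (hβ0 : β ≠ 0) (hβ : ∃ b : K, β ^ n = algebraMap K M b) :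
    IsMulCoboundary₂ (lfSymbolCocycle d (ζ ^ d') a (β ^ d') / lfSymbolCocycle n ζ a β ^ d') := by
  have hζd : IsPrimitiveRoot (ζ ^ d') d := hζ.pow (NeZero.pos n) (by rw [hd, mul_comm])
  have hdne : (d : ℤ) ≠ 0 := by exact_mod_cast (NeZero.ne d)
  have hβd0 : β ^ d' ≠ 0 := pow_ne_zero _ hβ0
  have hβd : ∃ b : K, (β ^ d') ^ d = algebraMap K M b := by
    obtain ⟨b, hb⟩ := hβ
    exact ⟨b, by rw [← pow_mul, mul_comm, ← hd, hb]⟩
  have hdvd : ∀ σ : M ≃ₐ[K] M,
      (d : ℤ) ∣ (lfKumExp (ζ ^ d') (β ^ d') σ : ℤ) - lfKumExp ζ β σ := by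
    intro σ
    have h1 : lfKumExp (ζ ^ d') (β ^ d') σ ≡ lfKumExp ζ β σ [MOD d] := by
      apply lkt_kumExp_modEq hζd hβd0 hβd
      rw [map_pow, (lkt_kumExp_spec hζ hβ0 hβ σ).1, mul_pow, map_pow, ← pow_mul, ← pow_mul,
        mul_comm d']
    have h2 := (Nat.modEq_iff_dvd.1 h1.symm)
    exact h2
  refine lkt_coboundary_of_exp (lkt_smul_map a) (lktCarry d (ζ ^ d') (β ^ d'))
    (fun p => (d' : ℤ) * lktCarry n ζ β p)
    (fun σ => ((lfKumExp (ζ ^ d') (β ^ d') σ : ℤ) - lfKumExp ζ β σ) / d)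
    (lkt_symbolCocycle_eq a _) (fun p => ?_) (fun σ τ => ?_)
  · rw [Pi.pow_apply, lkt_symbolCocycle_eq, ← zpow_natCast, ← zpow_mul, mul_comm]
  · apply mul_left_cancel₀ hdne
    have e1 := lkt_carry_mul hζd hβd0 hβd σ τ
    have e2 := lkt_carry_mul hζ hβ0 hβ σ τ
    have g1 := Int.mul_ediv_cancel' (hdvd σ)
    have g2 := Int.mul_ediv_cancel' (hdvd τ)
    have g3 := Int.mul_ediv_cancel' (hdvd (σ * τ))
    have hn' : (n : ℤ) = (d : ℤ) * (d' : ℤ) := by exact_mod_cast hd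
    rw [mul_sub, mul_add, mul_sub, g1, g2, g3, e1, ← mul_assoc, ← hn', e2]
    ring

/-- Change of level: for `n = d * d'` and `ζ` a primitive `n`-th root of unity,
`(a,b)_{d, ζ^{d'}} = (a,b)_{n,ζ} mod d`. -/
theorem lfSymbol_dvd (hζ : IsPrimitiveRoot ζ n) (d d' : ℕ) [NeZero d] (hd : n = d * d')
    (a b : Kˣ) :
    lfSymbol q K d (ζ ^ d') a b = ZMod.castHom (Dvd.intro d' hd.symm) (ZMod d) (lfSymbol q K n ζ a b) := by
  have hζd : IsPrimitiveRoot (ζ ^ d') d := hζ.pow (NeZero.pos n) (by rw [hd, mul_comm])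
  obtain ⟨M, _, _, _, _, _, _, β, hβ⟩ := lkt_exists_galois_root q K n (b : K) b.ne_zero
  have hβ0 : β ≠ 0 := by
    intro h0
    rw [h0, zero_pow (NeZero.ne n)] at hβ
    exact b.ne_zero ((map_eq_zero _).1 hβ.symm)
  have hβ' : ∃ b : K, β ^ n = algebraMap K M b := ⟨_, hβ⟩
  have hβd : (β ^ d') ^ d = algebraMap K M (b : K) := by rw [← pow_mul, mul_comm, ← hd, hβ]
  have h1 := localInv_lfSymbolCocycle q K n ζ hζ M a b β hβ
  have h2 := localInv_lfSymbolCocycle q K d (ζ ^ d') hζd M a b (β ^ d') hβd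
  have hcoc : IsMulCocycle₂ (lfSymbolCocycle n ζ a β) :=
    lkt_symbolCocycle_isMulCocycle₂ hζ a hβ0 hβ'
  have h3 := lkt_localInv_eq_of_div q K M (lkt_isMulCocycle₂_pow hcoc d')
    (lkt_symbolCocycle_dvd K n ζ hζ d d' hd a hβ0 hβ')
  rw [lkt_localInv_pow q K M hcoc, h1, h2, ← AddCircle.coe_nsmul, nsmul_eq_mul] at h3
  have hd'0 : (d' : ℚ) ≠ 0 := by
    have : d' ≠ 0 := by
      rintro rfl
      rw [mul_zero] at hd
      exact NeZero.ne n hd
    exact_mod_cast this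
  have hd0 : (d : ℚ) ≠ 0 := by exact_mod_cast (NeZero.ne d)
  have h4 : ((d' : ℚ) * ((((lfSymbol q K n ζ a b).val : ℕ) : ℚ) / (n : ℚ)) : ℚ) =
      (((((lfSymbol q K n ζ a b).val : ℕ) : ℤ) : ℚ) / (d : ℚ) : ℚ) := by
    have hnq : (n : ℚ) = (d : ℚ) * (d' : ℚ) := by exact_mod_cast hd
    rw [hnq]
    push_cast
    field_simp
  rw [h4] at h3
  have h5 := lkt_zmod_eq_of_addCircle h3
  rw [h5, ZMod.castHom_apply]
  push_cast
  rw [ZMod.natCast_val]

end Change

/-! ## units, Teichmüller representatives, Hensel -/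

section Units

variable (q : ℕ) [Fact q.Prime]
  (K : Type) [Field K] [Algebra ℚ_[q] K] [FiniteDimensional ℚ_[q] K]
  (n : ℕ) [NeZero n]

theorem lkt_mem_lfInt_of_mem_lfUnits {b : Kˣ} (hb : b ∈ lfUnits q K) :
    (b : K) ∈ lfInt q K ∧ ((b⁻¹ : Kˣ) : K) ∈ lfInt q K := by
  have h1 : (lfInt q K).valuation (b : K) = 1 :=
    (ValuationSubring.mem_unitGroup_iff (lfInt q K) b).1 hb
  constructor
  · rw [← ValuationSubring.valuation_le_one_iff, h1]
  · rw [← ValuationSubring.valuation_le_one_iff, Units.val_inv_eq_inv_val, map_inv₀, h1, inv_one]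

theorem lkt_spectralNorm_of_mem_lfUnits {b : Kˣ} (hb : b ∈ lfUnits q K) :
    spectralNorm ℚ_[q] K (b : K) = 1 := by
  obtain ⟨h1, h2⟩ := lkt_mem_lfInt_of_mem_lfUnits q K hb
  rw [mem_lfInt_iff] at h1 h2
  have h3 : spectralNorm ℚ_[q] K (b : K) * spectralNorm ℚ_[q] K ((b⁻¹ : Kˣ) : K) = 1 := by
    rw [← lu_spectralNorm_mul, ← Units.val_mul, mul_inv_cancel, Units.val_one, spectralNorm_one]
  have h4 : 0 ≤ spectralNorm ℚ_[q] K ((b⁻¹ : Kˣ) : K) := spectralNorm_nonneg _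
  have h5 : 0 ≤ spectralNorm ℚ_[q] K (b : K) := spectralNorm_nonneg _
  nlinarith

/-- `n ∣ |k| - 1` when `μ_n ⊆ K` and `q ∤ n` -/
theorem lkt_dvd_card_sub_one (hqn : ¬ q ∣ n) {ζ : K} (hζ : IsPrimitiveRoot ζ n) :
    n ∣ lfResCard q K - 1 := by
  have hn0 : n ≠ 0 := NeZero.ne n
  have hmem : ζ ∈ lfInt q K := lu_mem_lfInt_of_pow_eq_one q K hn0 hζ.pow_eq_one
  set z : lfInt q K := ⟨ζ, hmem⟩ with hz
  have hzn : z ^ n = 1 := Subtype.ext (by simpa using hζ.pow_eq_one)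
  have hord : orderOf (residue (lfInt q K) z) = n := by
    rw [orderOf_eq_iff (NeZero.pos n)]
    refine ⟨by rw [← map_pow, hzn, map_one], fun m hm hm0 hres => ?_⟩
    rw [← map_pow] at hres
    have hzm : (z ^ m) ^ n = 1 := by rw [← pow_mul, mul_comm, pow_mul, hzn, one_pow]
    have h1 := lu_eq_one_of_residue_eq_one q K hqn hzm hres
    have h2 : ζ ^ m = 1 := by
      have := congrArg (fun x : lfInt q K => (x : K)) h1
      simpa using this
    have h3 := hζ.dvd_of_pow_eq_one m h2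
    exact absurd (Nat.le_of_dvd hm0 h3) (by omega)
  haveI : Fintype (ResidueField (lfInt q K)) := Fintype.ofFinite _
  have hne : residue (lfInt q K) z ≠ 0 := by
    intro h0
    have := congrArg (fun x => x ^ n) h0
    simp only [← map_pow, hzn, map_one, zero_pow hn0] at this
    exact one_ne_zero this
  have h1 := FiniteField.pow_card_sub_one_eq_one (residue (lfInt q K) z) hne
  rw [← Nat.card_eq_fintype_card] at h1
  rw [← hord]
  exact orderOf_dvd_of_pow_eq_one h1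

/-- a unit is a root of unity of order `|k| - 1` times an `n`-th power (`q ∤ n`) -/
theorem lkt_unit_eq_root_mul_pow (hqn : ¬ q ∣ n) {b : Kˣ} (hb : b ∈ lfUnits q K) :
    ∃ z c : K, z ^ (lfResCard q K - 1) = 1 ∧ c ≠ 0 ∧ (b : K) = z * c ^ n := by
  obtain ⟨hb1, hb2⟩ := lkt_mem_lfInt_of_mem_lfUnits q K hb
  set B : lfInt q K := ⟨(b : K), hb1⟩ with hB
  set B' : lfInt q K := ⟨((b⁻¹ : Kˣ) : K), hb2⟩ with hB'
  have hBB' : B * B' = 1 := Subtype.ext (by simp [hB, hB'])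
  have hresB : residue (lfInt q K) B ≠ 0 := by
    intro h0
    have := congrArg (residue (lfInt q K)) hBB'
    rw [map_mul, h0, zero_mul, map_one] at this
    exact zero_ne_one this
  obtain ⟨z, hz1, hz2⟩ := lf_exists_root_of_unity_lift q K (Units.mk0 _ hresB)
  rw [Units.val_mk0] at hz2
  have hQ : 1 ≤ lfResCard q K - 1 := by have := lu_one_lt_lfResCard q K; omega
  -- `U = B / z`
  set U : lfInt q K := B * z ^ (lfResCard q K - 1 - 1) with hU
  have hUz : U * z = B := by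
    rw [hU, mul_assoc, ← pow_succ, Nat.sub_add_cancel hQ, hz1, mul_one]
  have hresU : residue (lfInt q K) U = 1 := by
    rw [hU, map_mul, map_pow, ← hz2, ← pow_succ', Nat.sub_add_cancel hQ, ← map_pow, hz1, map_one]
  -- Hensel
  have hmonic : (Polynomial.X ^ n - Polynomial.C U : Polynomial (lfInt q K)).Monic :=
    Polynomial.monic_X_pow_sub_C U (NeZero.ne n)
  have h1 : (Polynomial.X ^ n - Polynomial.C U : Polynomial (lfInt q K)).eval 1 ∈
      maximalIdeal (lfInt q K) := by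
    rw [← residue_eq_zero_iff]
    simp [hresU]
  have h2 : IsUnit ((Polynomial.X ^ n - Polynomial.C U : Polynomial (lfInt q K)).derivative.eval 1) := by
    have : (Polynomial.X ^ n - Polynomial.C U : Polynomial (lfInt q K)).derivative.eval 1 =
        ((n : ℕ) : lfInt q K) := by
      rw [Polynomial.derivative_sub, Polynomial.derivative_C, sub_zero,
        Polynomial.derivative_X_pow, Polynomial.eval_mul, Polynomial.eval_pow, Polynomial.eval_X,
        one_pow, mul_one, Polynomial.eval_C]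
    rw [this, ← residue_ne_zero_iff_isUnit, map_natCast]
    exact lu_natCast_residue_ne_zero q K hqn
  obtain ⟨c, hc, -⟩ := lf_hensel q K _ hmonic 1 h1 h2
  have hcn : c ^ n = U := by
    have : (Polynomial.X ^ n - Polynomial.C U : Polynomial (lfInt q K)).eval c = 0 := hc
    simpa [sub_eq_zero] using this
  refine ⟨(z : K), (c : K), ?_, ?_, ?_⟩
  · have := congrArg (fun x : lfInt q K => (x : K)) hz1
    simpa using this
  · intro hc0
    have hc0' : c = 0 := Subtype.ext hc0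
    rw [hc0', zero_pow (NeZero.ne n)] at hcn
    rw [← hcn, map_zero] at hresU
    exact zero_ne_one hresU
  · have := congrArg (fun x : lfInt q K => (x : K)) hUz
    rw [← hcn] at this
    simp only [MulMemClass.coe_mul, SubmonoidClass.coe_pow] at this
    rw [mul_comm]
    exact this.symm

end Units

/-! ## an unramified extension containing an `n`-th root of a unit -/

section UnramRoot

variable (q : ℕ) [Fact q.Prime]
  (K : Type) [Field K] [Algebra ℚ_[q] K] [FiniteDimensional ℚ_[q] K]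
  (n : ℕ) [NeZero n]

theorem lkt_exists_unram_root (hqn : ¬ q ∣ n) {b : Kˣ} (hb : b ∈ lfUnits q K) :
    ∃ (L : Type) (_ : Field L) (_ : Algebra ℚ_[q] L) (_ : FiniteDimensional ℚ_[q] L)
      (_ : Algebra K L) (_ : IsScalarTower ℚ_[q] K L),
      LfUnramified q K L ∧ ∃ β : L, β ^ n = algebraMap K L (b : K) := by
  obtain ⟨z, c, hz, hc0, hbzc⟩ := lkt_unit_eq_root_mul_pow q K n hqn hb
  have hq : q.Prime := Fact.out
  have hQ : 1 < lfResCard q K := lu_one_lt_lfResCard q K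
  set N : ℕ := n * (lfResCard q K - 1) with hN
  have hNpos : 0 < N := Nat.mul_pos (NeZero.pos n) (by omega)
  set f : ℕ := Nat.totient N with hf
  have hfpos : 0 < f := Nat.totient_pos.2 hNpos
  have hcop : Nat.Coprime (lfResCard q K) N := by
    rw [lfResCard_eq]
    apply Nat.Coprime.pow_left
    apply Nat.Coprime.mul_right
    · exact (Nat.Prime.coprime_iff_not_dvd hq).2 hqn
    · exact (Nat.Prime.coprime_iff_not_dvd hq).2 (lu_not_dvd_lfResCard_sub_one q K)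
  have hmod : lfResCard q K ^ f ≡ 1 [MOD N] := Nat.ModEq.pow_totient hcop
  have hone : 1 ≤ lfResCard q K ^ f := Nat.one_le_pow _ _ (by omega)
  have hdvd : N ∣ lfResCard q K ^ f - 1 := (Nat.modEq_iff_dvd' hone).1 hmod.symm
  obtain ⟨t, ht⟩ := hdvd
  -- the unramified extension
  haveI hfd := lfUnramExt_finiteDimensional' q K (AlgebraicClosure K) f hfpos
  have hunr := lfUnramExt_unramified q K (AlgebraicClosure K) f hfpos
  -- an `n`-th root of `z`
  obtain ⟨ξ, hξ⟩ := IsAlgClosed.exists_pow_nat_eq (algebraMap K (AlgebraicClosure K) z)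
    (NeZero.pos n)
  have hξmem : ξ ∈ lfUnramExt q K (AlgebraicClosure K) f := by
    apply IntermediateField.subset_adjoin
    show ξ ^ (lfResCard q K ^ f - 1) = 1
    rw [ht, hN, mul_assoc, pow_mul, hξ, pow_mul, ← map_pow, hz, map_one, one_pow]
  have hcmem : algebraMap K (AlgebraicClosure K) c ∈ lfUnramExt q K (AlgebraicClosure K) f :=
    (lfUnramExt q K (AlgebraicClosure K) f).algebraMap_mem c
  refine ⟨lfUnramExt q K (AlgebraicClosure K) f, inferInstance, inferInstance, hfd, inferInstance,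
    inferInstance, hunr, ⟨ξ * algebraMap K (AlgebraicClosure K) c, mul_mem hξmem hcmem⟩, ?_⟩
  apply Subtype.ext
  show (ξ * algebraMap K (AlgebraicClosure K) c) ^ n = algebraMap K (AlgebraicClosure K) (b : K)
  rw [mul_pow, hξ, hbzc, map_mul, map_pow]

end UnramRoot

/-! ## the symbol cocycle of an unramified extension -/

section UnramCocycle

variable (q : ℕ) [Fact q.Prime]
  (K : Type) [Field K] [Algebra ℚ_[q] K] [FiniteDimensional ℚ_[q] K]
  (L : Type) [Field L] [Algebra ℚ_[q] L] [FiniteDimensional ℚ_[q] L]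
  [Algebra K L] [IsScalarTower ℚ_[q] K L]
  (n : ℕ) [NeZero n] (ζ : K)

/-- `n ∣ [L:K] · k(Frob)` -/
theorem lkt_dvd_finrank_mul_kumExp (h : LfUnramified q K L) (hζ : IsPrimitiveRoot ζ n) {β : L}
    (hβ0 : β ≠ 0) (hβ : ∃ b : K, β ^ n = algebraMap K L b) :
    n ∣ Module.finrank K L * lfKumExp ζ β (lfFrob q K L) := by
  have h1 := lkt_kumExp_pow hζ hβ0 hβ (lfFrob q K L) (Module.finrank K L)
  rw [← orderOf_lfFrob q K L h, pow_orderOf_eq_one] at h1
  have h2 : lfKumExp ζ β (1 : L ≃ₐ[K] L) = 0 := by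
    apply lkt_kumExp_unique hζ hβ0 hβ 1 (NeZero.pos n)
    simp
  rw [h2] at h1
  rw [← orderOf_lfFrob q K L h]
  exact (Nat.modEq_zero_iff_dvd.1 h1.symm)

/-- On an unramified extension the symbol cocycle is cohomologous to the cyclic cocycle of
`a ^ ([L:K] k(Frob) / n)`. -/
theorem lkt_symbolCocycle_unram (h : LfUnramified q K L) (hζ : IsPrimitiveRoot ζ n) (a : Kˣ)
    {β : L} (hβ0 : β ≠ 0) (hβ : ∃ b : K, β ^ n = algebraMap K L b) :
    IsMulCoboundary₂ (lfSymbolCocycle n ζ a β /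
      cycCocycle (lfFrob q K L) (Units.map (algebraMap K L : K →* L)
        (a ^ (Module.finrank K L * lfKumExp ζ β (lfFrob q K L) / n)))) := by
  haveI := lu_finiteDimensional q K L
  haveI : Finite (L ≃ₐ[K] L) := inferInstance
  set φ := lfFrob q K L with hφ
  have hgen : ∀ τ : L ≃ₐ[K] L, τ ∈ Subgroup.zpowers φ := mem_zpowers_lfFrob q K L h
  have hord : orderOf φ = Module.finrank K L := orderOf_lfFrob q K L h
  obtain ⟨t, ht⟩ := lkt_dvd_finrank_mul_kumExp q K L n ζ h hζ hβ0 hβ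
  have hdiv : Module.finrank K L * lfKumExp ζ β φ / n = t := by
    rw [ht, Nat.mul_div_cancel_left _ (NeZero.pos n)]
  rw [hdiv]
  have hn : (n : ℤ) ≠ 0 := by exact_mod_cast (NeZero.ne n)
  set k₁ := lfKumExp ζ β φ with hk₁
  -- `k(σ) ≡ k₁ i(σ)`
  have hdvd : ∀ σ : L ≃ₐ[K] L, (n : ℤ) ∣ (lfKumExp ζ β σ : ℤ) - k₁ * cycExp φ σ := by
    intro σ
    have h1 := lkt_kumExp_pow hζ hβ0 hβ φ (cycExp φ σ)
    rw [cycExp_spec φ hgen σ] at h1
    have h2 := (Nat.modEq_iff_dvd.1 h1.symm)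
    push_cast at h2
    rw [mul_comm (cycExp φ σ : ℤ)] at h2
    exact h2
  refine lkt_coboundary_of_exp (lkt_smul_map a) (lktCarry n ζ β)
    (fun p => (t : ℤ) * (if orderOf φ ≤ cycExp φ p.1 + cycExp φ p.2 then 1 else 0 : ℤ))
    (fun σ => ((lfKumExp ζ β σ : ℤ) - k₁ * cycExp φ σ) / n)
    (lkt_symbolCocycle_eq a β) (fun p => ?_) (fun σ τ => ?_)
  · rw [cycCocycle, map_pow]
    split_ifs <;> simp
  · apply mul_left_cancel₀ hn
    have e1 := lkt_carry_mul hζ hβ0 hβ σ τ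
    have e2 := cycExp_add_ite φ hgen σ τ
    have e2' : ((cycExp φ σ : ℤ) + cycExp φ τ) = cycExp φ (σ * τ) + (orderOf φ : ℤ) *
        (if orderOf φ ≤ cycExp φ σ + cycExp φ τ then 1 else 0 : ℤ) := by
      have := congrArg (fun x : ℕ => (x : ℤ)) e2
      push_cast at this
      exact this
    have g1 := Int.mul_ediv_cancel' (hdvd σ)
    have g2 := Int.mul_ediv_cancel' (hdvd τ)
    have g3 := Int.mul_ediv_cancel' (hdvd (σ * τ))
    have ht' : (orderOf φ : ℤ) * (k₁ : ℤ) = (n : ℤ) * (t : ℤ) := by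
      rw [hord]
      exact_mod_cast ht
    rw [mul_sub, mul_add, mul_sub, g1, g2, g3, e1, ← mul_assoc, ← ht']
    simp only []
    linear_combination (k₁ : ℤ) * e2'

end UnramCocycle

/-! ## the tame formula -/

section Tame

variable (q : ℕ) [Fact q.Prime]
  (K : Type) [Field K] [Algebra ℚ_[q] K] [FiniteDimensional ℚ_[q] K]
  (n : ℕ) [NeZero n] (ζ : K) (hζ : IsPrimitiveRoot ζ n)

theorem lkt_pow_congr {x y : K} (hx : x ∈ lfInt q K) (hy : y ∈ lfInt q K)
    (h : spectralNorm ℚ_[q] K (x - y) < 1) (m : ℕ) :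
    spectralNorm ℚ_[q] K (x ^ m - y ^ m) < 1 := by
  rw [mem_lfInt_iff] at hx hy
  induction m with
  | zero => simp [spectralNorm_zero]
  | succ m ih =>
    have e : x ^ (m + 1) - y ^ (m + 1) = x ^ m * (x - y) + (x ^ m - y ^ m) * y := by ring
    rw [e]
    refine lt_of_le_of_lt (isNonarchimedean_spectralNorm (K := ℚ_[q]) (L := K) _ _) (max_lt ?_ ?_)
    · rw [lu_spectralNorm_mul, lu_spectralNorm_pow]
      have h1 : spectralNorm ℚ_[q] K x ^ m ≤ 1 := pow_le_one₀ (spectralNorm_nonneg _) hx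
      calc spectralNorm ℚ_[q] K x ^ m * spectralNorm ℚ_[q] K (x - y)
          ≤ 1 * spectralNorm ℚ_[q] K (x - y) :=
            mul_le_mul_of_nonneg_right h1 (spectralNorm_nonneg _)
        _ < 1 := by rw [one_mul]; exact h
    · rw [lu_spectralNorm_mul]
      calc spectralNorm ℚ_[q] K (x ^ m - y ^ m) * spectralNorm ℚ_[q] K y
          ≤ spectralNorm ℚ_[q] K (x ^ m - y ^ m) * 1 :=
            mul_le_mul_of_nonneg_left hy (spectralNorm_nonneg _)
        _ < 1 := by rw [mul_one]; exact ih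

include hζ in
/-- Frobenius congruence: `ζ ^ k(Frob) ≡ b ^ ((|k| - 1) / n)`. -/
theorem lkt_frob_congr (L : Type) [Field L] [Algebra ℚ_[q] L] [FiniteDimensional ℚ_[q] L]
    [Algebra K L] [IsScalarTower ℚ_[q] K L] (h : LfUnramified q K L) (hqn : ¬ q ∣ n) {b : Kˣ}
    (hb : b ∈ lfUnits q K) {β : L} (hβ : β ^ n = algebraMap K L (b : K)) :
    spectralNorm ℚ_[q] K (ζ ^ lfKumExp ζ β (lfFrob q K L) -
      (b : K) ^ ((lfResCard q K - 1) / n)) < 1 := by
  have hβ0 : β ≠ 0 := by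
    intro h0
    rw [h0, zero_pow (NeZero.ne n)] at hβ
    exact b.ne_zero ((map_eq_zero _).1 hβ.symm)
  have hβ' : ∃ b : K, β ^ n = algebraMap K L b := ⟨_, hβ⟩
  -- `|β| = 1`
  have hnorm : spectralNorm ℚ_[q] L β = 1 := by
    have h1 : spectralNorm ℚ_[q] L β ^ n = 1 := by
      rw [← lu_spectralNorm_pow, hβ, ← spectralNorm.eq_of_tower (K := ℚ_[q]) (E := K) (L := L),
        lkt_spectralNorm_of_mem_lfUnits q K hb]
    exact (pow_eq_one_iff_of_nonneg (spectralNorm_nonneg _) (NeZero.ne n)).1 h1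
  have hβint : β ∈ lfInt q L := by rw [mem_lfInt_iff, hnorm]
  have hfrob := isLfFrob_lfFrob q K L h β hβint
  obtain ⟨d, hd⟩ := lkt_dvd_card_sub_one q K n hqn hζ
  have hQ : 1 ≤ lfResCard q K := by have := lu_one_lt_lfResCard q K; omega
  have hdiv : (lfResCard q K - 1) / n = d := by rw [hd, Nat.mul_div_cancel_left _ (NeZero.pos n)]
  rw [hdiv]
  have e1 : lfFrob q K L β - β ^ lfResCard q K =
      β * algebraMap K L (ζ ^ lfKumExp ζ β (lfFrob q K L) - (b : K) ^ d) := by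
    rw [(lkt_kumExp_spec hζ hβ0 hβ' (lfFrob q K L)).1, map_sub, map_pow, map_pow, ← hβ, ← pow_mul,
      ← hd]
    have : β ^ lfResCard q K = β * β ^ (lfResCard q K - 1) := by
      rw [← pow_succ', Nat.sub_add_cancel hQ]
    rw [this]
    ring
  rw [e1, lu_spectralNorm_mul, hnorm, one_mul,
    ← spectralNorm.eq_of_tower (K := ℚ_[q]) (E := K) (L := L)] at hfrob
  exact hfrob

include hζ in
/-- the value of the symbol in terms of the Kummer exponent of the Frobenius -/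
theorem lkt_symbol_eq_unram (L : Type) [Field L] [Algebra ℚ_[q] L] [FiniteDimensional ℚ_[q] L]
    [Algebra K L] [IsScalarTower ℚ_[q] K L] (h : LfUnramified q K L) (a b : Kˣ) {β : L}
    (hβ : β ^ n = algebraMap K L (b : K)) :
    lfSymbol q K n ζ a b =
      (((lfKumExp ζ β (lfFrob q K L) : ℤ) * lfOrd q K (a : K) : ℤ) : ZMod n) := by
  haveI := lu_finiteDimensional q K L
  haveI := h.isGalois
  haveI : Finite (L ≃ₐ[K] L) := inferInstance
  have hβ0 : β ≠ 0 := by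
    intro h0
    rw [h0, zero_pow (NeZero.ne n)] at hβ
    exact b.ne_zero ((map_eq_zero _).1 hβ.symm)
  have hβ' : ∃ b : K, β ^ n = algebraMap K L b := ⟨_, hβ⟩
  have hgen : ∀ τ : L ≃ₐ[K] L, τ ∈ Subgroup.zpowers (lfFrob q K L) := mem_zpowers_lfFrob q K L h
  obtain ⟨t, ht⟩ := lkt_dvd_finrank_mul_kumExp q K L n ζ h hζ hβ0 hβ'
  have hdiv : Module.finrank K L * lfKumExp ζ β (lfFrob q K L) / n = t := by
    rw [ht, Nat.mul_div_cancel_left _ (NeZero.pos n)]
  have h1 := localInv_lfSymbolCocycle q K n ζ hζ L a b β hβ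
  have hcoc : IsMulCocycle₂ (cycCocycle (lfFrob q K L) (Units.map (algebraMap K L : K →* L)
      (a ^ (Module.finrank K L * lfKumExp ζ β (lfFrob q K L) / n)))) :=
    cycCocycle_isMulCocycle₂ _ hgen _ (lkt_smul_map _ _)
  have h2 := lkt_localInv_eq_of_div q K L hcoc (lkt_symbolCocycle_unram q K L n ζ h hζ a hβ0 hβ')
  rw [localInv_unramified q K L h, h1, hdiv, Units.val_pow_eq_pow_val, lfOrd_pow] at h2
  have hf0 : (Module.finrank K L : ℚ) ≠ 0 := by
    have : 0 < Module.finrank K L := Module.finrank_pos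
    exact_mod_cast this.ne'
  have hn0 : (n : ℚ) ≠ 0 := by exact_mod_cast (NeZero.ne n)
  have ht' : (Module.finrank K L : ℚ) * (lfKumExp ζ β (lfFrob q K L) : ℚ) = (n : ℚ) * (t : ℚ) := by
    exact_mod_cast ht
  have h3 : ((((t : ℤ) * lfOrd q K (a : K) : ℤ) : ℚ) / (Module.finrank K L : ℚ) : ℚ) =
      ((((lfKumExp ζ β (lfFrob q K L) : ℤ) * lfOrd q K (a : K) : ℤ) : ℚ) / (n : ℚ) : ℚ) := by
    push_cast
    rw [div_eq_div_iff hf0 hn0]
    linear_combination (-(lfOrd q K (a : K) : ℚ)) * ht'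
  rw [h3] at h2
  exact lkt_zmod_eq_of_addCircle h2

include hζ in
/-- Tame formula: `q ∤ n`, `b` a unit, `a` an integer of valuation `m`:
`ζ ^ (a,b) ≡ b ^ (m (|k| - 1)/n) mod 𝔪`. -/
theorem lfSymbol_tame (hqn : ¬ q ∣ n) (a b : Kˣ) (hb : b ∈ lfUnits q K)
    (ha : 0 ≤ lfOrd q K (a : K)) :
    spectralNorm ℚ_[q] K (ζ ^ (lfSymbol q K n ζ a b).val -
      (b : K) ^ ((lfOrd q K (a : K)).toNat * ((lfResCard q K - 1) / n))) < 1 := by
  obtain ⟨L, _, _, _, _, _, h, β, hβ⟩ := lkt_exists_unram_root q K n hqn hb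
  have h1 := lkt_symbol_eq_unram q K n ζ hζ L h a b hβ
  have h2 := lkt_frob_congr q K n ζ hζ L h hqn hb hβ
  set k₁ := lfKumExp ζ β (lfFrob q K L) with hk₁
  set m := (lfOrd q K (a : K)).toNat with hm
  have hm' : lfOrd q K (a : K) = (m : ℤ) := (Int.toNat_of_nonneg ha).symm
  rw [hm'] at h1
  have h3 : lfSymbol q K n ζ a b = ((k₁ * m : ℕ) : ZMod n) := by
    rw [h1]; push_cast; rfl
  have h4 : ζ ^ (lfSymbol q K n ζ a b).val = (ζ ^ k₁) ^ m := by
    rw [h3, ZMod.val_natCast, ← pow_mul]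
    exact (pow_eq_pow_mod _ hζ.pow_eq_one).symm
  rw [h4, mul_comm m, pow_mul]
  have hn0 : n ≠ 0 := NeZero.ne n
  refine lkt_pow_congr q K ?_ ?_ h2 m
  · exact lu_mem_lfInt_of_pow_eq_one q K hn0
      (by rw [← pow_mul, mul_comm, pow_mul, hζ.pow_eq_one, one_pow])
  · exact pow_mem (lkt_mem_lfInt_of_mem_lfUnits q K hb).1 _

end Tame

/-! ## units, the full tame formula -/

section TameFull

variable (q : ℕ) [Fact q.Prime]
  (K : Type) [Field K] [Algebra ℚ_[q] K] [FiniteDimensional ℚ_[q] K]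
  (n : ℕ) [NeZero n] (ζ : K) (hζ : IsPrimitiveRoot ζ n)

include hζ

/-- `q ∤ n`: the symbol of two units vanishes. -/
theorem lfSymbol_units (hqn : ¬ q ∣ n) (a b : Kˣ) (ha : a ∈ lfUnits q K) (hb : b ∈ lfUnits q K) :
    lfSymbol q K n ζ a b = 0 := by
  have ha0 : lfOrd q K (a : K) = 0 := (mem_lfUnits_iff q K a).1 ha
  have h1 := lfSymbol_tame q K n ζ hζ hqn a b hb (by rw [ha0])
  rw [ha0, Int.toNat_zero, zero_mul, pow_zero] at h1
  have h2 : ζ ^ (lfSymbol q K n ζ a b).val = 1 :=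
    lu_eq_of_spectralNorm_sub_lt q K hqn
      (by rw [← pow_mul, mul_comm, pow_mul, hζ.pow_eq_one, one_pow]) (one_pow n) h1
  have h3 := hζ.dvd_of_pow_eq_one _ h2
  have h4 : (lfSymbol q K n ζ a b).val < n := ZMod.val_lt _
  have h5 : (lfSymbol q K n ζ a b).val = 0 := Nat.eq_zero_of_dvd_of_lt h3 h4
  exact (ZMod.val_eq_zero _).1 h5

/-- Unramified `b`-direction, any `q`: if `K(b^{1/n})/K` is unramified (or trivial) then units are
norms: `(u, b) = 0` for units `u`. -/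
theorem lfSymbol_unit_of_unramified (L : Type) [Field L] [Algebra ℚ_[q] L]
    [FiniteDimensional ℚ_[q] L] [Algebra K L] [IsScalarTower ℚ_[q] K L] (b : Kˣ) (β : L)
    (hβ : β ^ n = algebraMap K L (b : K)) (htop : Algebra.adjoin K {β} = ⊤)
    (hunr : LfUnramified q K L) (u : Kˣ) (hu : u ∈ lfUnits q K) :
    lfSymbol q K n ζ u b = 0 := by
  rw [lfSymbol_eq_zero_iff q K n ζ hζ L u b β hβ htop]
  obtain ⟨w, -, hw⟩ := lfUnramified_norm_surjective_units q K L hunr hu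
  exact ⟨w, hw⟩

/-- the symbol as a homomorphism in the first variable -/
noncomputable def lktLeftHom (b : Kˣ) : Kˣ →* Multiplicative (ZMod n) where
  toFun a := Multiplicative.ofAdd (lfSymbol q K n ζ a b)
  map_one' := by
    have h := lfSymbol_mul_left q K n ζ hζ 1 1 b
    rw [mul_one] at h
    rw [left_eq_add.1 h]
    rfl
  map_mul' a a' := by
    rw [lfSymbol_mul_left q K n ζ hζ, ofAdd_add]

/-- the symbol as a homomorphism in the second variable -/
noncomputable def lktRightHom (a : Kˣ) : Kˣ →* Multiplicative (ZMod n) where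
  toFun b := Multiplicative.ofAdd (lfSymbol q K n ζ a b)
  map_one' := by
    have h := lfSymbol_mul_right q K n ζ hζ a 1 1
    rw [mul_one] at h
    rw [left_eq_add.1 h]
    rfl
  map_mul' b b' := by
    rw [lfSymbol_mul_right q K n ζ hζ, ofAdd_add]

theorem lkt_symbol_zpow_left (a b : Kˣ) (z : ℤ) :
    lfSymbol q K n ζ (a ^ z) b = (z : ZMod n) * lfSymbol q K n ζ a b := by
  have h := map_zpow (lktLeftHom q K n ζ hζ b) a z
  have h' := congrArg Multiplicative.toAdd h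
  simp only [lktLeftHom, MonoidHom.coe_mk, OneHom.coe_mk, toAdd_ofAdd, toAdd_zpow] at h'
  rw [h', zsmul_eq_mul]

theorem lkt_symbol_zpow_right (a b : Kˣ) (z : ℤ) :
    lfSymbol q K n ζ a (b ^ z) = (z : ZMod n) * lfSymbol q K n ζ a b := by
  have h := map_zpow (lktRightHom q K n ζ hζ a) b z
  have h' := congrArg Multiplicative.toAdd h
  simp only [lktRightHom, MonoidHom.coe_mk, OneHom.coe_mk, toAdd_ofAdd, toAdd_zpow] at h'
  rw [h', zsmul_eq_mul]

theorem lkt_symbol_one_right (a : Kˣ) : lfSymbol q K n ζ a 1 = 0 := by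
  have h := lfSymbol_mul_right q K n ζ hζ a 1 1
  rw [mul_one] at h
  exact left_eq_add.1 h

end TameFull

section TameFull2

variable (q : ℕ) [Fact q.Prime]
  (K : Type) [Field K] [Algebra ℚ_[q] K] [FiniteDimensional ℚ_[q] K]
  (n : ℕ) [NeZero n] (ζ : K) (hζ : IsPrimitiveRoot ζ n)

include hζ

/-- Full tame formula, `q ∤ n`, `a b` arbitrary with valuations `m, m'`:
`ζ ^ (a,b) ≡ ((-1)^(m m') b^m / a^m') ^ ((|k| - 1)/n) mod 𝔪`. -/
theorem lfSymbol_tame_full (hqn : ¬ q ∣ n) (a b : Kˣ) :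
    spectralNorm ℚ_[q] K (ζ ^ (lfSymbol q K n ζ a b).val -
      ((-1 : K) ^ (lfOrd q K (a : K) * lfOrd q K (b : K)) * (b : K) ^ lfOrd q K (a : K) /
        (a : K) ^ lfOrd q K (b : K)) ^ ((lfResCard q K - 1) / n)) < 1 := by
  obtain ⟨π, hπ⟩ := exists_isLfUniformizer q K
  have hπ0 : π ≠ 0 := hπ.ne_zero
  set P : Kˣ := Units.mk0 π hπ0 with hP
  set m := lfOrd q K (a : K) with hm
  set m' := lfOrd q K (b : K) with hm'
  obtain ⟨u, hu, hau⟩ := exists_unit_mul_zpow q K hπ a.ne_zero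
  obtain ⟨u', hu', hbu⟩ := exists_unit_mul_zpow q K hπ b.ne_zero
  have hau' : a = u * P ^ m := by
    apply Units.ext
    rw [hau, Units.val_mul, Units.val_zpow_eq_zpow_val]
    rfl
  have hbu' : b = u' * P ^ m' := by
    apply Units.ext
    rw [hbu, Units.val_mul, Units.val_zpow_eq_zpow_val]
    rfl
  -- the unit `W`
  set W : Kˣ := (-1) ^ (m * m') * b ^ m / a ^ m' with hW
  have hWval : (W : K) = (-1 : K) ^ (m * m') * (b : K) ^ m / (a : K) ^ m' := by
    rw [hW, Units.val_div_eq_div_val, Units.val_mul, Units.val_zpow_eq_zpow_val,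
      Units.val_zpow_eq_zpow_val, Units.val_zpow_eq_zpow_val, Units.val_neg, Units.val_one]
  have hWunit : W ∈ lfUnits q K := by
    rw [mem_lfUnits_iff, hWval, div_eq_mul_inv]
    have h1 : ((-1 : K) ^ (m * m')) ≠ 0 := zpow_ne_zero _ (by norm_num)
    have h2 : ((b : K) ^ m) ≠ 0 := zpow_ne_zero _ b.ne_zero
    have h3 : ((a : K) ^ m')⁻¹ ≠ 0 := inv_ne_zero (zpow_ne_zero _ a.ne_zero)
    rw [lfOrd_mul q K (mul_ne_zero h1 h2) h3, lfOrd_mul q K h1 h2, lfOrd_inv, lfOrd_zpow,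
      lfOrd_zpow, lfOrd_zpow, lfOrd_neg, lfOrd_one, ← hm, ← hm']
    ring
  -- the bilinear computation
  have hPP : lfSymbol q K n ζ P P + lfSymbol q K n ζ P (-1) = 0 := by
    have h1 := lfSymbol_self_neg q K n ζ hζ P
    have h2 : (-P : Kˣ) = P * (-1) := by rw [mul_neg, mul_one]
    rw [h2, lfSymbol_mul_right q K n ζ hζ] at h1
    exact h1
  have h2e : (2 : ZMod n) * lfSymbol q K n ζ P (-1) = 0 := by
    have h1 := lkt_symbol_zpow_right q K n ζ hζ P (-1) 2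
    have h2 : ((-1 : Kˣ)) ^ (2 : ℤ) = 1 := by norm_num
    rw [h2, lkt_symbol_one_right q K n ζ hζ] at h1
    rw [h1]
    push_cast
    ring
  have huu' : lfSymbol q K n ζ u u' = 0 := lfSymbol_units q K n ζ hζ hqn u u' hu hu'
  have hswap : lfSymbol q K n ζ u P = - lfSymbol q K n ζ P u := lfSymbol_swap q K n ζ hζ u P
  have key : lfSymbol q K n ζ a b = lfSymbol q K n ζ P W := by
    have s1 : lfSymbol q K n ζ (u * P ^ m) b =
        lfSymbol q K n ζ u b + (m : ZMod n) * lfSymbol q K n ζ P b := by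
      rw [lfSymbol_mul_left q K n ζ hζ, lkt_symbol_zpow_left q K n ζ hζ]
    rw [← hau'] at s1
    have s2 : lfSymbol q K n ζ u (u' * P ^ m') =
        lfSymbol q K n ζ u u' + (m' : ZMod n) * lfSymbol q K n ζ u P := by
      rw [lfSymbol_mul_right q K n ζ hζ, lkt_symbol_zpow_right q K n ζ hζ]
    rw [← hbu'] at s2
    have s3 : lfSymbol q K n ζ P (u' * P ^ m') =
        lfSymbol q K n ζ P u' + (m' : ZMod n) * lfSymbol q K n ζ P P := by
      rw [lfSymbol_mul_right q K n ζ hζ, lkt_symbol_zpow_right q K n ζ hζ]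
    rw [← hbu'] at s3
    have s4 : lfSymbol q K n ζ P (u * P ^ m) =
        lfSymbol q K n ζ P u + (m : ZMod n) * lfSymbol q K n ζ P P := by
      rw [lfSymbol_mul_right q K n ζ hζ, lkt_symbol_zpow_right q K n ζ hζ]
    rw [← hau'] at s4
    have s5 : lfSymbol q K n ζ P W =
        ((m * m' : ℤ) : ZMod n) * lfSymbol q K n ζ P (-1) +
          (m : ZMod n) * lfSymbol q K n ζ P b - (m' : ZMod n) * lfSymbol q K n ζ P a := by
      rw [hW, div_eq_mul_inv, ← zpow_neg, lfSymbol_mul_right q K n ζ hζ,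
        lfSymbol_mul_right q K n ζ hζ, lkt_symbol_zpow_right q K n ζ hζ,
        lkt_symbol_zpow_right q K n ζ hζ, lkt_symbol_zpow_right q K n ζ hζ]
      push_cast
      ring
    rw [s1, s2, s5, s3, s4, huu', hswap]
    push_cast
    linear_combination ((m : ZMod n) * (m' : ZMod n)) * hPP
      - ((m : ZMod n) * (m' : ZMod n)) * h2e
  -- tame formula for `(π, W)`
  have hord1 : lfOrd q K ((P : Kˣ) : K) = 1 := hπ
  have h1 := lfSymbol_tame q K n ζ hζ hqn P W hWunit (by rw [hord1]; norm_num)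
  rw [hord1, Int.toNat_one, one_mul, hWval] at h1
  rw [key]
  exact h1

end TameFull2

end Fermat.Agent.S55
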