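/-
S55 / LOCAL layer LE: the degree-`n` norm residue (Kummer) symbol of a local field containing `μ_n`.
PURE SHIM (no statements of its own, no sorry): every statement of the former spec is proved in the
imported leaves.
* LE1 `LocalKummerSymbol.lean` (+ `LocalKummerDefs`, `KummerCocycle`, `LocalKummerExp`; helper1):
  `exists_lfSymbol`, `lfSymbol`, `localInv_lfSymbolCocycle`, `lfSymbol_mul_left/right`,
  `lfSymbol_eq_zero_iff`
* LE2a `LocalKummerDual.lean` (helper19): `lfSymbol_pow_left/right`, `lfSymbol_self_neg`,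
  `lfSymbol_swap`, `lfSymbol_steinberg`, `localInv_lfCupCocycle`, `lfSymbol_nondegenerate_right/left`
* LE2b `LocalKummerIndex.lean` (+ `LocalKummerIndexCore`; helper16): `lf_index_pow_ne_zero`,
  `lf_index_pow_of_ne/_of_eq`, `lf_units_index_pow_of_ne/_of_eq`
* LE3 `LocalKummerTame.lean` (helper24): `lfSymbol_tame`, `lfSymbol_tame_full`, `lfSymbol_units`,
  `lfSymbol_unit_of_unramified`, `lfSymbol_pow_root`, `lfSymbol_dvd`;
  `LocalKummerBC.lean` (helper21): `lfSymbol_baseChange`
-/
import Fermat.Agent.S55.LocalKummerSymbol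
import Fermat.Agent.S55.LocalKummerDual
import Fermat.Agent.S55.LocalKummerIndex
import Fermat.Agent.S55.LocalKummerTame
import Fermat.Agent.S55.LocalKummerBC
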