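import Mathlib

/-!
# Dirichlet's `S`-unit theorem in counting form
-/

namespace Fermat.Agent.S55

open NumberField IsDedekindDomain

section Abstract

variable {A L : Type*} [CommGroup A] [CommGroup L]

/-- For a subgroup `R` of finite index in a group `L` on which `x ↦ x ^ n` is injective, the
`n`-th powers of `R` have the same index in `R` as the `n`-th powers of `L` in `L`. -/
theorem su_relIndex_pow_eq (n : ℕ) (hinj : Function.Injective (powMonoidHom n : L →* L))
    (R : Subgroup L) (hR : R.index ≠ 0) :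
    (R.map (powMonoidHom n)).relIndex R = (powMonoidHom n : L →* L).range.index := by
  have h1 : (R.map (powMonoidHom n)).relIndex R * R.index = (R.map (powMonoidHom n)).index :=
    Subgroup.relIndex_mul_index (by
      rintro _ ⟨x, hx, rfl⟩
      exact R.pow_mem hx n)
  have h2 : (R.map (powMonoidHom n)).relIndex (powMonoidHom n : L →* L).range *
      (powMonoidHom n : L →* L).range.index = (R.map (powMonoidHom n)).index :=
    Subgroup.relIndex_mul_index (Subgroup.map_le_range _ _)
  have h3 : (R.map (powMonoidHom n)).relIndex (powMonoidHom n : L →* L).range = R.index := by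
    rw [MonoidHom.range_eq_map, Subgroup.relIndex_map_map_of_injective _ _ hinj,
      Subgroup.relIndex_top_right]
  rw [h3] at h2
  exact Nat.eq_of_mul_eq_mul_right (Nat.pos_of_ne_zero hR) (by rw [h1, ← h2, mul_comm])

/-- Index of the `n`-th powers in an extension: `[A : Aⁿ] = [U : Uⁿ] [R : Rⁿ]` for `U = ker φ`,
`R = range φ`, when `x ↦ x ^ n` is injective on the target. -/
theorem su_index_pow_eq_mul (φ : A →* L) (n : ℕ)
    (hinj : Function.Injective (powMonoidHom n : L →* L)) :
    (powMonoidHom n : A →* A).range.index =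
      (φ.ker.map (powMonoidHom n)).relIndex φ.ker *
        (φ.range.map (powMonoidHom n)).relIndex φ.range := by
  set P : Subgroup A := (powMonoidHom n : A →* A).range with hP
  have hcomap : P ⊔ φ.ker = (φ.range.map (powMonoidHom n)).comap φ := by
    ext x
    rw [Subgroup.mem_sup, Subgroup.mem_comap, Subgroup.mem_map]
    constructor
    · rintro ⟨y, ⟨b, rfl⟩, z, hz, rfl⟩
      refine ⟨φ b, ⟨b, rfl⟩, ?_⟩
      rw [map_mul, MonoidHom.mem_ker.mp hz, mul_one]
      simp
    · rintro ⟨_, ⟨b, rfl⟩, hb⟩
      refine ⟨b ^ n, ⟨b, rfl⟩, (b ^ n)⁻¹ * x, ?_, by group⟩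
      rw [MonoidHom.mem_ker, map_mul, map_inv, map_pow, ← hb]
      simp
  have h1 : P.relIndex (P ⊔ φ.ker) * (P ⊔ φ.ker).index = P.index :=
    Subgroup.relIndex_mul_index le_sup_left
  rw [Subgroup.relIndex_sup_left, hcomap, Subgroup.index_comap] at h1
  have h2 : P ⊓ φ.ker = φ.ker.map (powMonoidHom n) := by
    ext x
    rw [Subgroup.mem_inf, Subgroup.mem_map]
    constructor
    · rintro ⟨⟨b, rfl⟩, hx⟩
      refine ⟨b, ?_, rfl⟩
      rw [MonoidHom.mem_ker] at hx ⊢
      apply hinj
      simpa using hx
    · rintro ⟨b, hb, rfl⟩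
      exact ⟨⟨b, rfl⟩, φ.ker.pow_mem hb n⟩
  rw [← h1, ← Subgroup.inf_relIndex_right, h2]

end Abstract

section Lattice

variable (ι : Type*) [Fintype ι]

omit [Fintype ι] in
theorem su_pow_injective_pi {n : ℕ} (hn : n ≠ 0) :
    Function.Injective (powMonoidHom n : Multiplicative (ι → ℤ) →* Multiplicative (ι → ℤ)) := by
  intro x y h
  have h' : n • Multiplicative.toAdd x = n • Multiplicative.toAdd y := congrArg Multiplicative.toAdd h
  have : Multiplicative.toAdd x = Multiplicative.toAdd y := by
    ext i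
    have hi := congrFun h' i
    simp only [Pi.smul_apply, nsmul_eq_mul] at hi
    exact mul_left_cancel₀ (by exact_mod_cast hn) hi
  exact Multiplicative.toAdd.injective this

theorem su_index_pow_pi (n : ℕ) [NeZero n] :
    (powMonoidHom n : Multiplicative (ι → ℤ) →* Multiplicative (ι → ℤ)).range.index =
      n ^ Fintype.card ι := by
  classical
  let f : (ι → ℤ) →+ (ι → ZMod n) :=
    { toFun := fun x i => (x i : ZMod n)
      map_zero' := by ext i; simp
      map_add' := fun x y => by ext i; simp }
  let F : Multiplicative (ι → ℤ) →* Multiplicative (ι → ZMod n) := AddMonoidHom.toMultiplicative f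
  have hsurj : Function.Surjective F := by
    intro y
    refine ⟨Multiplicative.ofAdd fun i => ((Multiplicative.toAdd y i).val : ℤ), ?_⟩
    apply Multiplicative.toAdd.injective
    ext i
    show (((Multiplicative.toAdd y i).val : ℤ) : ZMod n) = Multiplicative.toAdd y i
    simp
  have hker : F.ker = (powMonoidHom n : Multiplicative (ι → ℤ) →* Multiplicative (ι → ℤ)).range := by
    ext x
    rw [MonoidHom.mem_ker, MonoidHom.mem_range]
    constructor
    · intro hx
      have hx' : ∀ i, ((Multiplicative.toAdd x i : ℤ) : ZMod n) = 0 := fun i =>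
        congrFun (congrArg Multiplicative.toAdd hx) i
      have hdvd : ∀ i, (n : ℤ) ∣ Multiplicative.toAdd x i := fun i =>
        (ZMod.intCast_zmod_eq_zero_iff_dvd _ _).mp (hx' i)
      choose c hc using hdvd
      refine ⟨Multiplicative.ofAdd c, ?_⟩
      apply Multiplicative.toAdd.injective
      ext i
      show (n • c) i = Multiplicative.toAdd x i
      rw [hc i]
      simp
    · rintro ⟨y, rfl⟩
      apply Multiplicative.toAdd.injective
      ext i
      show (((n • Multiplicative.toAdd y) i : ℤ) : ZMod n) = 0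
      simp
  rw [← hker, Subgroup.index_ker, MonoidHom.range_eq_top.mpr hsurj]
  rw [Nat.card_congr (Subgroup.topEquiv (G := Multiplicative (ι → ZMod n))).toEquiv]
  rw [Nat.card_congr (Multiplicative.toAdd (α := ι → ZMod n)), Nat.card_eq_fintype_card,
    Fintype.card_fun, ZMod.card]

end Lattice

section Generators

variable (K : Type*) [Field K] [NumberField K]

/-- For every finite place `v` the ideal `v ^ h` (`h` the class number) is principal. -/
theorem su_exists_generator_pow (v : HeightOneSpectrum (𝓞 K)) :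
    ∃ a : 𝓞 K, a ≠ 0 ∧ Ideal.span {a} = v.asIdeal ^ Fintype.card (ClassGroup (𝓞 K)) := by
  classical
  have hv0 : v.asIdeal ∈ nonZeroDivisors (Ideal (𝓞 K)) :=
    mem_nonZeroDivisors_of_ne_zero v.ne_bot
  set h := Fintype.card (ClassGroup (𝓞 K)) with hh
  have h1 : ClassGroup.mk0 (⟨v.asIdeal, hv0⟩ : nonZeroDivisors (Ideal (𝓞 K))) ^ h = 1 :=
    pow_card_eq_one
  rw [← map_pow, ClassGroup.mk0_eq_one_iff] at h1
  obtain ⟨a, ha⟩ := h1.principal
  rw [SubmonoidClass.coe_pow] at ha
  have ha' : Ideal.span {a} = v.asIdeal ^ h := ha.symm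
  refine ⟨a, ?_, ha'⟩
  rintro rfl
  have h0 : v.asIdeal ^ h = ⊥ := by
    rw [← ha']
    simp
  have h0' : v.asIdeal ^ h = 0 := h0
  exact v.ne_bot (pow_eq_zero_iff Fintype.card_ne_zero |>.mp h0')

/-- The valuation at `v` of a generator of `v ^ h`. -/
theorem su_valuation_generator_pow_self {v : HeightOneSpectrum (𝓞 K)} {h : ℕ} {a : 𝓞 K}
    (ha0 : a ≠ 0) (ha : Ideal.span {a} = v.asIdeal ^ h) :
    WithZero.log (v.valuation K (algebraMap (𝓞 K) K a)) = -(h : ℤ) := by
  rw [HeightOneSpectrum.valuation_of_algebraMap]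
  have hne : v.intValuation a ≠ 0 := v.intValuation_ne_zero a ha0
  have h1 : v.intValuation a ≤ WithZero.exp (-(h : ℤ)) := by
    rw [v.intValuation_le_pow_iff_mem, ← ha]
    exact Ideal.mem_span_singleton_self a
  have h2 : ¬ v.intValuation a ≤ WithZero.exp (-((h + 1 : ℕ) : ℤ)) := by
    rw [v.intValuation_le_pow_iff_mem]
    intro hmem
    have hle : v.asIdeal ^ h ≤ v.asIdeal ^ (h + 1) := by
      rw [← ha, Ideal.span_singleton_le_iff_mem]
      exact hmem
    exact absurd hle (not_le_of_gt (Ideal.pow_succ_lt_pow v.ne_bot h))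
  rw [← WithZero.exp_log hne, WithZero.exp_le_exp] at h1 h2
  push_cast at h2
  omega

/-- The valuation at `w ≠ v` of a generator of `v ^ h`. -/
theorem su_valuation_generator_pow_of_ne {v : HeightOneSpectrum (𝓞 K)} {h : ℕ} {a : 𝓞 K}
    (ha : Ideal.span {a} = v.asIdeal ^ h) {w : HeightOneSpectrum (𝓞 K)} (hwv : w ≠ v) :
    w.valuation K (algebraMap (𝓞 K) K a) = 1 := by
  rw [HeightOneSpectrum.valuation_of_algebraMap]
  have h1 : a ∉ w.asIdeal := by
    intro hmem
    have hle : v.asIdeal ^ h ≤ w.asIdeal := by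
      rw [← ha, Ideal.span_singleton_le_iff_mem]
      exact hmem
    have hle' : v.asIdeal ≤ w.asIdeal := Ideal.IsPrime.le_of_pow_le hle
    have := v.isMaximal.eq_of_le w.isPrime.ne_top hle'
    exact hwv (HeightOneSpectrum.ext this.symm)
  exact HeightOneSpectrum.intValuation_eq_one_iff.mpr h1

end Generators

section SUnit

variable (K : Type*) [Field K] [NumberField K] (S : Finset (HeightOneSpectrum (𝓞 K)))

/-- The vector of (logarithmic) valuations at the places of `S` of an `S`-unit. -/
noncomputable def sunitOrd :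
    (S : Set (HeightOneSpectrum (𝓞 K))).unit K →* Multiplicative (S → ℤ) where
  toFun x := Multiplicative.ofAdd fun v : S =>
    WithZero.log ((v : HeightOneSpectrum (𝓞 K)).valuation K ((x : Kˣ) : K))
  map_one' := by
    apply Multiplicative.toAdd.injective
    ext v
    simp
  map_mul' x y := by
    apply Multiplicative.toAdd.injective
    ext v
    show WithZero.log ((v : HeightOneSpectrum (𝓞 K)).valuation K (((x * y : _) : Kˣ) : K)) =
      WithZero.log ((v : HeightOneSpectrum (𝓞 K)).valuation K ((x : Kˣ) : K)) +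
        WithZero.log ((v : HeightOneSpectrum (𝓞 K)).valuation K ((y : Kˣ) : K))
    rw [Subgroup.coe_mul, Units.val_mul, map_mul, WithZero.log_mul]
    · exact (Valuation.ne_zero_iff _).mpr (Units.ne_zero _)
    · exact (Valuation.ne_zero_iff _).mpr (Units.ne_zero _)

theorem sunitOrd_apply (x : (S : Set (HeightOneSpectrum (𝓞 K))).unit K) (v : S) :
    Multiplicative.toAdd (sunitOrd K S x) v =
      WithZero.log ((v : HeightOneSpectrum (𝓞 K)).valuation K ((x : Kˣ) : K)) := rfl

/-- The embedding of the units of `𝓞 K` into the `S`-units. -/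
noncomputable def sunitOfUnit : (𝓞 K)ˣ →* (S : Set (HeightOneSpectrum (𝓞 K))).unit K :=
  (Units.map (algebraMap (𝓞 K) K).toMonoidHom).codRestrict _ (by
    intro u v _
    show v.valuation K (algebraMap (𝓞 K) K (u : 𝓞 K)) = 1
    rw [HeightOneSpectrum.valuation_of_algebraMap, HeightOneSpectrum.intValuation_eq_one_iff]
    intro h
    exact v.isPrime.ne_top (Ideal.eq_top_of_isUnit_mem _ h u.isUnit))

theorem sunitOfUnit_coe (u : (𝓞 K)ˣ) :
    (((sunitOfUnit K S u : (S : Set (HeightOneSpectrum (𝓞 K))).unit K) : Kˣ) : K) =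
      algebraMap (𝓞 K) K (u : 𝓞 K) := rfl

theorem sunitOfUnit_injective : Function.Injective (sunitOfUnit K S) := by
  intro u u' h
  have h1 : algebraMap (𝓞 K) K (u : 𝓞 K) = algebraMap (𝓞 K) K (u' : 𝓞 K) := by
    rw [← sunitOfUnit_coe K S u, ← sunitOfUnit_coe K S u', h]
  exact Units.ext (RingOfIntegers.coe_injective h1)

theorem sunitOrd_ker : (sunitOrd K S).ker = (sunitOfUnit K S).range := by
  ext x
  rw [MonoidHom.mem_ker, MonoidHom.mem_range]
  constructor
  · intro hx
    have hval : ∀ v : HeightOneSpectrum (𝓞 K), v.valuation K ((x : Kˣ) : K) = 1 := by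
      intro v
      by_cases hv : v ∈ S
      · have h1 : WithZero.log (v.valuation K ((x : Kˣ) : K)) = 0 :=
          congrFun (congrArg Multiplicative.toAdd hx) ⟨v, hv⟩
        have h2 : v.valuation K ((x : Kˣ) : K) ≠ 0 :=
          (Valuation.ne_zero_iff _).mpr (Units.ne_zero _)
        rw [← WithZero.exp_log h2, h1, WithZero.exp_zero]
      · exact x.2 v hv
    have hval' : ∀ v : HeightOneSpectrum (𝓞 K), v.valuation K (((x : Kˣ)⁻¹ : Kˣ) : K) = 1 := by
      intro v
      rw [Units.val_inv_eq_inv_val, map_inv₀, hval v, inv_one]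
    obtain ⟨a, ha⟩ := HeightOneSpectrum.mem_integers_of_valuation_le_one K ((x : Kˣ) : K)
      fun v => (hval v).le
    obtain ⟨b, hb⟩ := HeightOneSpectrum.mem_integers_of_valuation_le_one K (((x : Kˣ)⁻¹ : Kˣ) : K)
      fun v => (hval' v).le
    have hab : a * b = 1 := by
      apply RingOfIntegers.coe_injective
      show algebraMap (𝓞 K) K (a * b) = algebraMap (𝓞 K) K 1
      rw [map_mul, ha, hb, map_one, Units.mul_inv]
    have hba : b * a = 1 := by rw [mul_comm, hab]
    refine ⟨⟨a, b, hab, hba⟩, ?_⟩
    apply Subtype.ext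
    apply Units.ext
    exact ha
  · rintro ⟨u, rfl⟩
    apply Multiplicative.toAdd.injective
    ext v
    show WithZero.log ((v : HeightOneSpectrum (𝓞 K)).valuation K
      (algebraMap (𝓞 K) K (u : 𝓞 K))) = 0
    have : (v : HeightOneSpectrum (𝓞 K)).valuation K (algebraMap (𝓞 K) K (u : 𝓞 K)) = 1 := by
      rw [HeightOneSpectrum.valuation_of_algebraMap, HeightOneSpectrum.intValuation_eq_one_iff]
      intro h
      exact (v : HeightOneSpectrum (𝓞 K)).isPrime.ne_top (Ideal.eq_top_of_isUnit_mem _ h u.isUnit)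
    rw [this, WithZero.log_one]


/-- The range of the valuation vector has finite index. -/
theorem sunitOrd_range_index_ne_zero : (sunitOrd K S).range.index ≠ 0 := by
  classical
  set h := Fintype.card (ClassGroup (𝓞 K)) with hh
  have hpos : 0 < h := Fintype.card_pos
  have : NeZero h := ⟨hpos.ne'⟩
  choose a ha0 ha using fun v : S => su_exists_generator_pow K (v : HeightOneSpectrum (𝓞 K))
  -- the `S`-units attached to the generators
  have hmem : ∀ v : S, Units.mk0 (algebraMap (𝓞 K) K (a v))
      (by simpa using ha0 v) ∈ (S : Set (HeightOneSpectrum (𝓞 K))).unit K := by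
    intro v w hw
    refine su_valuation_generator_pow_of_ne K (ha v) ?_
    rintro rfl
    exact hw v.2
  let u : S → (S : Set (HeightOneSpectrum (𝓞 K))).unit K := fun v => ⟨_, hmem v⟩
  have hu : ∀ v w : S, Multiplicative.toAdd (sunitOrd K S (u v)) w =
      if w = v then -(h : ℤ) else 0 := by
    intro v w
    rw [sunitOrd_apply]
    show WithZero.log ((w : HeightOneSpectrum (𝓞 K)).valuation K (algebraMap (𝓞 K) K (a v))) = _
    split_ifs with hwv
    · subst hwv
      exact su_valuation_generator_pow_self K (ha0 w) (ha w)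
    · rw [su_valuation_generator_pow_of_ne K (ha v) (fun h' => hwv (Subtype.ext h')),
        WithZero.log_one]
  have hle : (powMonoidHom h : Multiplicative (S → ℤ) →* Multiplicative (S → ℤ)).range ≤
      (sunitOrd K S).range := by
    rintro _ ⟨y, rfl⟩
    refine ⟨∏ v : S, u v ^ (-(Multiplicative.toAdd y v)), ?_⟩
    apply Multiplicative.toAdd.injective
    ext w
    rw [map_prod]
    simp only [map_zpow, powMonoidHom_apply, toAdd_pow, toAdd_prod, toAdd_zpow, Finset.sum_apply,
      Pi.smul_apply, hu, smul_eq_mul, nsmul_eq_mul]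
    rw [Finset.sum_eq_single w]
    · simp [mul_comm]
    · intro v _ hvw
      simp [Ne.symm hvw]
    · intro hw
      exact absurd (Finset.mem_univ w) hw
  have hidx : (powMonoidHom h : Multiplicative (S → ℤ) →* Multiplicative (S → ℤ)).range.index ≠ 0 := by
    rw [su_index_pow_pi]
    exact pow_ne_zero _ hpos.ne'
  exact fun h0 => hidx (Nat.eq_zero_of_zero_dvd (h0 ▸ Subgroup.index_dvd_of_le hle))

end SUnit

section Torsion

variable {E : Type*} [CommGroup E]

/-- For a finite subgroup `T` of a commutative group, the index of the `n`-th powers of `T` in `T`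
is the number of elements of `T` killed by `n`. -/
theorem su_relIndex_pow_finite (T : Subgroup E) [Finite T] (n : ℕ) :
    (T.map (powMonoidHom n)).relIndex T = Nat.card {x : E // x ∈ T ∧ x ^ n = 1} := by
  classical
  let f : T →* T := powMonoidHom n
  have h1 : (T.map (powMonoidHom n)).subgroupOf T = f.range := by
    ext x
    rw [Subgroup.mem_subgroupOf, Subgroup.mem_map, MonoidHom.mem_range]
    constructor
    · rintro ⟨y, hy, hxy⟩
      exact ⟨⟨y, hy⟩, Subtype.ext hxy⟩
    · rintro ⟨y, rfl⟩
      exact ⟨y, y.2, rfl⟩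
  have h2 : Nat.card f.ker * Nat.card f.range = Nat.card T := by
    rw [← Subgroup.index_ker, mul_comm]
    exact Subgroup.index_mul_card f.ker
  have h3 : f.range.index * Nat.card f.range = Nat.card T := Subgroup.index_mul_card f.range
  have h4 : Nat.card f.range ≠ 0 := Nat.card_pos.ne'
  have h5 : f.range.index = Nat.card f.ker :=
    Nat.eq_of_mul_eq_mul_right (Nat.pos_of_ne_zero h4) (h3.trans h2.symm)
  rw [Subgroup.relIndex, h1, h5]
  refine Nat.card_congr
    { toFun := fun x => ⟨x.1.1, x.1.2, by
        have := x.2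
        rw [MonoidHom.mem_ker] at this
        exact congrArg Subtype.val this⟩
      invFun := fun x => ⟨⟨x.1, x.2.1⟩, by
        rw [MonoidHom.mem_ker]
        exact Subtype.ext x.2.2⟩
      left_inv := fun x => rfl
      right_inv := fun x => rfl }

end Torsion

section Units

variable (K : Type*) [Field K] [NumberField K]

/-- The exponents of a unit on the fundamental system. -/
noncomputable def suUnitExp (x : (𝓞 K)ˣ) : Fin (Units.rank K) → ℤ :=
  (Units.exist_unique_eq_mul_prod K x).choose.2

theorem suUnitExp_spec (x : (𝓞 K)ˣ) :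
    ∃ ζ : Units.torsion K, x = ζ * ∏ i, (Units.fundSystem K i) ^ (suUnitExp K x i) :=
  ⟨(Units.exist_unique_eq_mul_prod K x).choose.1, (Units.exist_unique_eq_mul_prod K x).choose_spec.1⟩

theorem suUnitExp_eq {x : (𝓞 K)ˣ} {ζ : (𝓞 K)ˣ} (hζ : ζ ∈ Units.torsion K)
    {e : Fin (Units.rank K) → ℤ} (h : x = ζ * ∏ i, (Units.fundSystem K i) ^ (e i)) :
    suUnitExp K x = e := by
  have := (Units.exist_unique_eq_mul_prod K x).choose_spec.2 (⟨⟨ζ, hζ⟩, e⟩) h
  rw [suUnitExp, ← this]

/-- The coordinates of a unit modulo torsion on a fundamental system, as a homomorphism. -/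
noncomputable def suUnitCoord : (𝓞 K)ˣ →* Multiplicative (Fin (Units.rank K) → ℤ) where
  toFun x := Multiplicative.ofAdd (suUnitExp K x)
  map_one' := by
    apply Multiplicative.toAdd.injective
    show suUnitExp K 1 = 0
    refine suUnitExp_eq K (one_mem _) ?_
    simp
  map_mul' x y := by
    apply Multiplicative.toAdd.injective
    show suUnitExp K (x * y) = suUnitExp K x + suUnitExp K y
    obtain ⟨ζ, hζ⟩ := suUnitExp_spec K x
    obtain ⟨ξ, hξ⟩ := suUnitExp_spec K y
    refine suUnitExp_eq K (mul_mem ζ.2 ξ.2) ?_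
    conv_lhs => rw [hζ, hξ]
    simp only [Pi.add_apply, zpow_add, Finset.prod_mul_distrib]
    rw [mul_mul_mul_comm]

theorem suUnitCoord_ker : (suUnitCoord K).ker = Units.torsion K := by
  ext x
  rw [MonoidHom.mem_ker]
  constructor
  · intro h
    have h1 : suUnitExp K x = 0 := congrArg Multiplicative.toAdd h
    obtain ⟨ζ, hζ⟩ := suUnitExp_spec K x
    rw [h1] at hζ
    simp only [Pi.zero_apply, zpow_zero, Finset.prod_const_one, mul_one] at hζ
    rw [hζ]
    exact ζ.2
  · intro h
    apply Multiplicative.toAdd.injective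
    show suUnitExp K x = 0
    refine suUnitExp_eq K h ?_
    simp

theorem suUnitCoord_surjective : Function.Surjective (suUnitCoord K) := by
  intro y
  refine ⟨∏ i, (Units.fundSystem K i) ^ (Multiplicative.toAdd y i), ?_⟩
  apply Multiplicative.toAdd.injective
  show suUnitExp K _ = Multiplicative.toAdd y
  refine suUnitExp_eq K (one_mem _) ?_
  rw [one_mul]


/-- **Index of the `n`-th powers in the unit group.** -/
theorem units_index_pow (n : ℕ) [NeZero n] :
    (powMonoidHom n : (𝓞 K)ˣ →* (𝓞 K)ˣ).range.index =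
      n ^ Units.rank K * Nat.card (rootsOfUnity n (𝓞 K)) := by
  have hn : n ≠ 0 := NeZero.ne n
  rw [su_index_pow_eq_mul (suUnitCoord K) n (su_pow_injective_pi _ hn), suUnitCoord_ker,
    MonoidHom.range_eq_top.mpr (suUnitCoord_surjective K), ← MonoidHom.range_eq_map,
    Subgroup.relIndex_top_right, su_index_pow_pi, Fintype.card_fin, su_relIndex_pow_finite,
    mul_comm]
  congr 1
  refine Nat.card_congr
    { toFun := fun x => ⟨x.1, (mem_rootsOfUnity _ _).mpr x.2.2⟩
      invFun := fun x => ⟨x.1, ?_, (mem_rootsOfUnity _ _).mp x.2⟩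
      left_inv := fun x => rfl
      right_inv := fun x => rfl }
  rw [Units.torsion, CommGroup.mem_torsion]
  exact isOfFinOrder_iff_pow_eq_one.mpr ⟨n, Nat.pos_of_ne_zero hn, (mem_rootsOfUnity _ _).mp x.2⟩

end Units

section Main

variable (K : Type*) [Field K] [NumberField K] (S : Finset (HeightOneSpectrum (𝓞 K)))

/-- **Dirichlet's `S`-unit theorem, counting form**: the index of the `n`-th powers in the group
of `S`-units. -/
theorem sunit_index_pow (n : ℕ) [NeZero n] :
    (powMonoidHom n : (S : Set (HeightOneSpectrum (𝓞 K))).unit K →*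
        (S : Set (HeightOneSpectrum (𝓞 K))).unit K).range.index =
      n ^ (Units.rank K + S.card) * Nat.card (rootsOfUnity n (𝓞 K)) := by
  have hn : n ≠ 0 := NeZero.ne n
  have hinj := su_pow_injective_pi (S : Type _) hn
  rw [su_index_pow_eq_mul (sunitOrd K S) n hinj,
    su_relIndex_pow_eq n hinj _ (sunitOrd_range_index_ne_zero K S), su_index_pow_pi,
    Fintype.card_coe, sunitOrd_ker, MonoidHom.range_eq_map (sunitOfUnit K S), Subgroup.map_map]
  have hcomm : (powMonoidHom n : (S : Set (HeightOneSpectrum (𝓞 K))).unit K →* _).comp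
      (sunitOfUnit K S) = (sunitOfUnit K S).comp (powMonoidHom n) := by
    ext x
    simp
  rw [hcomm, ← Subgroup.map_map, Subgroup.relIndex_map_map_of_injective _ _
    (sunitOfUnit_injective K S), ← MonoidHom.range_eq_map, Subgroup.relIndex_top_right,
    units_index_pow, pow_add]
  ring

/-- The prime case with `μ_p ⊆ K`: `[O_S^× : (O_S^×)^p] = p ^ (r + |S| + 1)`. -/
theorem sunit_index_pow_prime {p : ℕ} [Fact p.Prime] {ζ : K} (hζ : IsPrimitiveRoot ζ p) :
    (powMonoidHom p : (S : Set (HeightOneSpectrum (𝓞 K))).unit K →*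
        (S : Set (HeightOneSpectrum (𝓞 K))).unit K).range.index =
      p ^ (Units.rank K + S.card + 1) := by
  have : NeZero p := ⟨(Fact.out : p.Prime).ne_zero⟩
  rw [sunit_index_pow, hζ.toInteger_isPrimitiveRoot.card_rootsOfUnity, pow_succ]

end Main

end Fermat.Agent.S55
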