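/-
S55 / LOCAL layer, leaf LA-a "LocalVal": the normalised valuation of a local field.
-/
import Fermat.Agent.S55.LocalDefs

set_option autoImplicit false
set_option linter.unusedSectionVars false

namespace Fermat.Agent.S55

open IsLocalRing

section One

variable (q : ℕ) [Fact q.Prime] (K : Type) [Field K] [Algebra ℚ_[q] K] [FiniteDimensional ℚ_[q] K]

/-- `|x|^n = |N_{K/ℚ_q} x|_q`, `n = [K:ℚ_q]`. -/
theorem spectralNorm_pow_finrank (x : K) :
    spectralNorm ℚ_[q] K x ^ Module.finrank ℚ_[q] K = ‖Algebra.norm ℚ_[q] x‖ := by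
  classical
  let E := AlgebraicClosure ℚ_[q]
  have h1 := Algebra.norm_eq_prod_embeddings ℚ_[q] E x
  have h2 : spectralNorm ℚ_[q] E (algebraMap ℚ_[q] E (Algebra.norm ℚ_[q] x))
      = ‖Algebra.norm ℚ_[q] x‖ := spectralNorm_extends _
  have h3 : ∀ σ : K →ₐ[ℚ_[q]] E, spectralMulAlgNorm ℚ_[q] E (σ x) = spectralNorm ℚ_[q] K x := by
    intro σ
    rw [spectralMulAlgNorm_def]
    unfold spectralNorm
    rw [minpoly.algHom_eq σ σ.injective]
  rw [← h2, h1, ← spectralMulAlgNorm_def (K := ℚ_[q]) (L := E), map_prod,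
    Finset.prod_congr rfl (fun σ _ => h3 σ), Finset.prod_const, Finset.card_univ,
    AlgHom.card]

/-! ### the unnormalised valuation `lfVq` -/

theorem lfv_finrank_pos : 0 < Module.finrank ℚ_[q] K := Module.finrank_pos

theorem lfv_norm_ne_zero {x : K} (hx : x ≠ 0) : Algebra.norm ℚ_[q] x ≠ 0 :=
  (Algebra.norm_ne_zero_iff).mpr hx

theorem lfv_lfVq_zero : lfVq q K 0 = 0 := by
  unfold lfVq
  rw [Algebra.norm_zero, Padic.valuation_zero]

theorem lfv_lfVq_one : lfVq q K 1 = 0 := by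
  unfold lfVq
  rw [map_one, Padic.valuation_one]

theorem lfv_lfVq_mul {x y : K} (hx : x ≠ 0) (hy : y ≠ 0) :
    lfVq q K (x * y) = lfVq q K x + lfVq q K y := by
  unfold lfVq
  rw [map_mul, Padic.valuation_mul (lfv_norm_ne_zero q K hx) (lfv_norm_ne_zero q K hy)]

theorem lfv_lfVq_inv (x : K) : lfVq q K x⁻¹ = - lfVq q K x := by
  by_cases hx : x = 0
  · rw [hx, inv_zero, lfv_lfVq_zero, neg_zero]
  · have h := lfv_lfVq_mul q K hx (inv_ne_zero hx)
    rw [mul_inv_cancel₀ hx, lfv_lfVq_one] at h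
    linarith

theorem lfv_lfVq_pow (x : K) (n : ℕ) : lfVq q K (x ^ n) = n * lfVq q K x := by
  unfold lfVq
  rw [map_pow, Padic.valuation_pow]

theorem lfv_lfVq_zpow (x : K) (n : ℤ) : lfVq q K (x ^ n) = n * lfVq q K x := by
  cases n with
  | ofNat m => rw [Int.ofNat_eq_natCast, zpow_natCast, lfv_lfVq_pow]
  | negSucc m =>
    rw [zpow_negSucc, lfv_lfVq_inv, lfv_lfVq_pow, Int.negSucc_eq]
    push_cast
    ring

theorem lfv_lfVq_neg (x : K) : lfVq q K (-x) = lfVq q K x := by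
  by_cases hx : x = 0
  · rw [hx, neg_zero]
  · have h1 : lfVq q K ((-x) * (-x)) = lfVq q K (x * x) := by rw [neg_mul_neg]
    rw [lfv_lfVq_mul q K (neg_ne_zero.mpr hx) (neg_ne_zero.mpr hx), lfv_lfVq_mul q K hx hx] at h1
    linarith

theorem lfv_lfVq_algebraMap (a : ℚ_[q]) :
    lfVq q K (algebraMap ℚ_[q] K a) = Module.finrank ℚ_[q] K * a.valuation := by
  unfold lfVq
  rw [Algebra.norm_algebraMap, Padic.valuation_pow]

theorem lfv_lfVq_prime : lfVq q K ((q : ℕ) : K) = Module.finrank ℚ_[q] K := by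
  have h : ((q : ℕ) : K) = algebraMap ℚ_[q] K (q : ℚ_[q]) := (map_natCast _ q).symm
  rw [h, lfv_lfVq_algebraMap, Padic.valuation_p, mul_one]

theorem lfv_prime_ne_zero : ((q : ℕ) : K) ≠ 0 := by
  have h : ((q : ℕ) : K) = algebraMap ℚ_[q] K (q : ℚ_[q]) := (map_natCast _ q).symm
  rw [h]
  have hq : (q : ℚ_[q]) ≠ 0 := by exact_mod_cast (Fact.out : q.Prime).ne_zero
  exact fun h0 => hq ((map_eq_zero _).mp h0)

/-- `|x|^n = q^(-lfVq x)`. -/
theorem lfv_spectralNorm_pow {x : K} (hx : x ≠ 0) :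
    spectralNorm ℚ_[q] K x ^ Module.finrank ℚ_[q] K = (q : ℝ) ^ (-(lfVq q K x)) := by
  rw [spectralNorm_pow_finrank, Padic.norm_eq_zpow_neg_valuation (lfv_norm_ne_zero q K hx)]
  rfl

theorem lfv_set_nonempty :
    {m : ℕ | 0 < m ∧ ∃ x : K, x ≠ 0 ∧ lfVq q K x = m}.Nonempty :=
  ⟨Module.finrank ℚ_[q] K, lfv_finrank_pos q K, (q : ℕ), lfv_prime_ne_zero q K,
    lfv_lfVq_prime q K⟩

theorem lfAbsInertiaDeg_pos : 0 < lfAbsInertiaDeg q K :=
  (Nat.sInf_mem (lfv_set_nonempty q K)).1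

theorem lfv_exists_gen : ∃ x : K, x ≠ 0 ∧ lfVq q K x = lfAbsInertiaDeg q K :=
  (Nat.sInf_mem (lfv_set_nonempty q K)).2

theorem lfAbsInertiaDeg_dvd_lfVq {x : K} (hx : x ≠ 0) :
    (lfAbsInertiaDeg q K : ℤ) ∣ lfVq q K x := by
  obtain ⟨x₀, hx₀, hv₀⟩ := lfv_exists_gen q K
  have hf := lfAbsInertiaDeg_pos q K
  set f := lfAbsInertiaDeg q K with hfdef
  have hfz : (0 : ℤ) < (f : ℤ) := by exact_mod_cast hf
  rw [Int.dvd_iff_emod_eq_zero]
  by_contra hne
  set r := lfVq q K x % (f : ℤ) with hr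
  have hr0 : 0 ≤ r := Int.emod_nonneg _ hfz.ne'
  have hrf : r < f := Int.emod_lt_of_pos _ hfz
  have hrpos : 0 < r := lt_of_le_of_ne hr0 (Ne.symm hne)
  set k := lfVq q K x / (f : ℤ) with hk
  have hy : x * x₀ ^ (-k) ≠ 0 := mul_ne_zero hx (zpow_ne_zero _ hx₀)
  have hvy : lfVq q K (x * x₀ ^ (-k)) = r := by
    rw [lfv_lfVq_mul q K hx (zpow_ne_zero _ hx₀), lfv_lfVq_zpow, hv₀, hr, hk]
    have := Int.emod_add_mul_ediv (lfVq q K x) (f : ℤ)
    linarith [Int.emod_def (lfVq q K x) (f : ℤ)]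
  have hmem : r.toNat ∈ {m : ℕ | 0 < m ∧ ∃ x : K, x ≠ 0 ∧ lfVq q K x = m} := by
    refine ⟨by omega, x * x₀ ^ (-k), hy, ?_⟩
    rw [hvy, Int.toNat_of_nonneg hr0]
  have hle : f ≤ r.toNat := Nat.sInf_le hmem
  omega

theorem lfv_lfVq_eq {x : K} (hx : x ≠ 0) :
    lfVq q K x = lfAbsInertiaDeg q K * lfOrd q K x := by
  unfold lfOrd
  rw [Int.mul_ediv_cancel' (lfAbsInertiaDeg_dvd_lfVq q K hx)]

theorem lfOrd_zero : lfOrd q K 0 = 0 := by
  unfold lfOrd
  rw [lfv_lfVq_zero, Int.zero_ediv]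

theorem lfOrd_one : lfOrd q K 1 = 0 := by
  unfold lfOrd
  rw [lfv_lfVq_one, Int.zero_ediv]

theorem lfv_cancel {a b : ℤ} (h : (lfAbsInertiaDeg q K : ℤ) * a = lfAbsInertiaDeg q K * b) :
    a = b := by
  have hf : ((lfAbsInertiaDeg q K : ℕ) : ℤ) ≠ 0 := by
    exact_mod_cast (lfAbsInertiaDeg_pos q K).ne'
  exact mul_left_cancel₀ hf h

theorem lfOrd_mul {x y : K} (hx : x ≠ 0) (hy : y ≠ 0) :
    lfOrd q K (x * y) = lfOrd q K x + lfOrd q K y := by
  apply lfv_cancel q K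
  rw [← lfv_lfVq_eq q K (mul_ne_zero hx hy), mul_add, ← lfv_lfVq_eq q K hx, ← lfv_lfVq_eq q K hy,
    lfv_lfVq_mul q K hx hy]

theorem lfOrd_inv (x : K) : lfOrd q K x⁻¹ = - lfOrd q K x := by
  by_cases hx : x = 0
  · rw [hx, inv_zero, lfOrd_zero, neg_zero]
  · apply lfv_cancel q K
    rw [← lfv_lfVq_eq q K (inv_ne_zero hx), mul_neg, ← lfv_lfVq_eq q K hx, lfv_lfVq_inv]

theorem lfOrd_pow (x : K) (n : ℕ) : lfOrd q K (x ^ n) = n * lfOrd q K x := by
  by_cases hx : x = 0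
  · rcases Nat.eq_zero_or_pos n with hn | hn
    · rw [hn, pow_zero, lfOrd_one]; simp
    · rw [hx, zero_pow hn.ne', lfOrd_zero, mul_zero]
  · apply lfv_cancel q K
    rw [← lfv_lfVq_eq q K (pow_ne_zero n hx), mul_left_comm, ← lfv_lfVq_eq q K hx, lfv_lfVq_pow]

theorem lfOrd_zpow (x : K) (n : ℤ) : lfOrd q K (x ^ n) = n * lfOrd q K x := by
  by_cases hx : x = 0
  · by_cases hn : n = 0
    · rw [hn, zpow_zero, lfOrd_one]; simp
    · rw [hx, zero_zpow n hn, lfOrd_zero, mul_zero]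
  · apply lfv_cancel q K
    rw [← lfv_lfVq_eq q K (zpow_ne_zero n hx), mul_left_comm, ← lfv_lfVq_eq q K hx, lfv_lfVq_zpow]

theorem lfOrd_neg (x : K) : lfOrd q K (-x) = lfOrd q K x := by
  unfold lfOrd
  rw [lfv_lfVq_neg]

/-- A uniformizer exists. -/
theorem exists_isLfUniformizer : ∃ π : K, IsLfUniformizer q K π := by
  obtain ⟨x₀, hx₀, hv₀⟩ := lfv_exists_gen q K
  refine ⟨x₀, ?_⟩
  unfold IsLfUniformizer lfOrd
  rw [hv₀]
  exact Int.ediv_self (by exact_mod_cast (lfAbsInertiaDeg_pos q K).ne')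

theorem IsLfUniformizer.ne_zero {π : K} (h : IsLfUniformizer q K π) : π ≠ 0 := by
  rintro rfl
  unfold IsLfUniformizer at h
  rw [lfOrd_zero] at h
  exact zero_ne_one h

/-! ### comparison of `lfOrd` with the absolute value -/

theorem lfv_spectralNorm_pos {x : K} (hx : x ≠ 0) : 0 < spectralNorm ℚ_[q] K x :=
  spectralNorm_zero_lt hx (Algebra.IsAlgebraic.isAlgebraic x)

theorem lfv_one_lt_q : (1 : ℝ) < (q : ℝ) := by
  exact_mod_cast (Fact.out : q.Prime).one_lt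

theorem lfOrd_le_iff_spectralNorm {x y : K} (hx : x ≠ 0) (hy : y ≠ 0) :
    lfOrd q K x ≤ lfOrd q K y ↔ spectralNorm ℚ_[q] K y ≤ spectralNorm ℚ_[q] K x := by
  have hn : Module.finrank ℚ_[q] K ≠ 0 := (lfv_finrank_pos q K).ne'
  have hf : (0 : ℤ) < (lfAbsInertiaDeg q K : ℤ) := by exact_mod_cast lfAbsInertiaDeg_pos q K
  rw [← pow_le_pow_iff_left₀ (spectralNorm_nonneg y) (spectralNorm_nonneg x) hn,
    lfv_spectralNorm_pow q K hx, lfv_spectralNorm_pow q K hy,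
    zpow_le_zpow_iff_right₀ (lfv_one_lt_q q), neg_le_neg_iff, lfv_lfVq_eq q K hx,
    lfv_lfVq_eq q K hy, mul_le_mul_iff_right₀ hf]

theorem mem_lfInt_iff_lfOrd {x : K} (hx : x ≠ 0) : x ∈ lfInt q K ↔ 0 ≤ lfOrd q K x := by
  rw [mem_lfInt_iff, ← lfOrd_one q K, lfOrd_le_iff_spectralNorm q K one_ne_zero hx,
    spectralNorm_one]

theorem spectralNorm_lt_one_iff_lfOrd {x : K} (hx : x ≠ 0) :
    spectralNorm ℚ_[q] K x < 1 ↔ 0 < lfOrd q K x := by
  rw [← not_le, ← not_le, ← lfOrd_one q K, lfOrd_le_iff_spectralNorm q K hx one_ne_zero,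
    spectralNorm_one]

/-- `|x| = |π|^{v(x)}`. -/
theorem spectralNorm_eq_zpow_lfOrd {π : K} (hπ : IsLfUniformizer q K π) {x : K} (hx : x ≠ 0) :
    spectralNorm ℚ_[q] K x = spectralNorm ℚ_[q] K π ^ lfOrd q K x := by
  have hn : Module.finrank ℚ_[q] K ≠ 0 := (lfv_finrank_pos q K).ne'
  have hπ0 : π ≠ 0 := IsLfUniformizer.ne_zero q K hπ
  have hpos : 0 < spectralNorm ℚ_[q] K π := lfv_spectralNorm_pos q K hπ0
  rw [← pow_left_inj₀ (spectralNorm_nonneg x) (zpow_nonneg hpos.le _) hn,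
    lfv_spectralNorm_pow q K hx, ← zpow_natCast (spectralNorm ℚ_[q] K π ^ lfOrd q K x),
    ← zpow_mul, mul_comm, zpow_mul, zpow_natCast, lfv_spectralNorm_pow q K hπ0, ← zpow_mul,
    lfv_lfVq_eq q K hπ0, lfv_lfVq_eq q K hx]
  unfold IsLfUniformizer at hπ
  rw [hπ, mul_one, neg_mul]

theorem lfOrd_add_ge {x y : K} (hx : x ≠ 0) (hy : y ≠ 0) (hxy : x + y ≠ 0) :
    min (lfOrd q K x) (lfOrd q K y) ≤ lfOrd q K (x + y) := by
  have h := isNonarchimedean_spectralNorm (K := ℚ_[q]) (L := K) x y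
  rcases le_max_iff.mp h with h1 | h1
  · exact (min_le_left _ _).trans ((lfOrd_le_iff_spectralNorm q K hx hxy).mpr h1)
  · exact (min_le_right _ _).trans ((lfOrd_le_iff_spectralNorm q K hy hxy).mpr h1)

theorem lfOrd_add_eq_of_lt {x y : K} (hx : x ≠ 0) (hy : y ≠ 0) (h : lfOrd q K x < lfOrd q K y) :
    lfOrd q K (x + y) = lfOrd q K x := by
  have hxy : x + y ≠ 0 := by
    intro h0
    have : y = -x := by linear_combination h0
    rw [this, lfOrd_neg] at h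
    exact lt_irrefl _ h
  apply le_antisymm
  · by_contra hlt
    rw [not_le] at hlt
    have h1 := lfOrd_add_ge q K hxy (neg_ne_zero.mpr hy) (by rw [add_neg_cancel_right]; exact hx)
    rw [add_neg_cancel_right, lfOrd_neg] at h1
    have := lt_min hlt h
    exact absurd h1 (not_le.mpr this)
  · have h1 := lfOrd_add_ge q K hx hy hxy
    rwa [min_eq_left h.le] at h1

theorem lfv_inv_mem_lfInt_iff {x : K} (hx : x ≠ 0) : x⁻¹ ∈ lfInt q K ↔ lfOrd q K x ≤ 0 := by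
  rw [mem_lfInt_iff_lfOrd q K (inv_ne_zero hx), lfOrd_inv, neg_nonneg]

theorem mem_lfUnits_iff (u : Kˣ) : u ∈ lfUnits q K ↔ lfOrd q K (u : K) = 0 := by
  have hu : (u : K) ≠ 0 := u.ne_zero
  unfold lfUnits
  rw [ValuationSubring.mem_unitGroup_iff]
  constructor
  · intro h
    have h1 : (u : K) ∈ lfInt q K := (ValuationSubring.valuation_le_one_iff _ _).mp h.le
    have h2 : (u : K)⁻¹ ∈ lfInt q K := by
      apply (ValuationSubring.valuation_le_one_iff _ _).mp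
      rw [map_inv₀, h, inv_one]
    have h3 := (mem_lfInt_iff_lfOrd q K hu).mp h1
    have h4 := (lfv_inv_mem_lfInt_iff q K hu).mp h2
    omega
  · intro h
    have h1 : (u : K) ∈ lfInt q K := (mem_lfInt_iff_lfOrd q K hu).mpr h.ge
    have h2 : (u : K)⁻¹ ∈ lfInt q K := (lfv_inv_mem_lfInt_iff q K hu).mpr h.le
    apply le_antisymm ((ValuationSubring.valuation_le_one_iff _ _).mpr h1)
    have h3 := (ValuationSubring.valuation_le_one_iff _ _).mpr h2
    rw [map_inv₀] at h3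
    have hv0 : (lfInt q K).valuation (u : K) ≠ 0 := (Valuation.ne_zero_iff _).mpr hu
    exact (inv_le_one₀ (zero_lt_iff.mpr hv0)).mp h3

/-- Every nonzero element is `π ^ v(x)` times a unit. -/
theorem exists_unit_mul_zpow {π : K} (hπ : IsLfUniformizer q K π) {x : K} (hx : x ≠ 0) :
    ∃ u : Kˣ, u ∈ lfUnits q K ∧ x = (u : K) * π ^ lfOrd q K x := by
  have hπ0 : π ≠ 0 := IsLfUniformizer.ne_zero q K hπ
  have hz : π ^ lfOrd q K x ≠ 0 := zpow_ne_zero _ hπ0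
  refine ⟨Units.mk0 (x / π ^ lfOrd q K x) (div_ne_zero hx hz), ?_, ?_⟩
  · rw [mem_lfUnits_iff, Units.val_mk0, div_eq_mul_inv, lfOrd_mul q K hx (inv_ne_zero hz),
      lfOrd_inv, lfOrd_zpow]
    unfold IsLfUniformizer at hπ
    rw [hπ, mul_one, add_neg_cancel]
  · rw [Units.val_mk0, div_mul_cancel₀ _ hz]

theorem lfv_isUnit_iff (x : lfInt q K) :
    IsUnit x ↔ (x : K) ≠ 0 ∧ (x : K)⁻¹ ∈ lfInt q K := by
  constructor
  · rintro ⟨u, rfl⟩
    have h1 : ((u : lfInt q K) : K) * ((u⁻¹ : (lfInt q K)ˣ) : lfInt q K) = 1 :=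
      congrArg (fun z : lfInt q K => (z : K)) u.mul_inv
    have h0 : ((u : lfInt q K) : K) ≠ 0 := left_ne_zero_of_mul_eq_one h1
    refine ⟨h0, ?_⟩
    rw [← eq_inv_of_mul_eq_one_right h1]
    exact Subtype.mem _
  · rintro ⟨h0, h1⟩
    exact ⟨⟨x, ⟨(x : K)⁻¹, h1⟩, Subtype.ext (mul_inv_cancel₀ h0), Subtype.ext (inv_mul_cancel₀ h0)⟩,
      rfl⟩

theorem mem_maximalIdeal_lfInt_iff (x : lfInt q K) :
    x ∈ maximalIdeal (lfInt q K) ↔ spectralNorm ℚ_[q] K (x : K) < 1 := by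
  rw [mem_maximalIdeal, mem_nonunits_iff, lfv_isUnit_iff]
  by_cases hx : (x : K) = 0
  · rw [hx, spectralNorm_zero]
    simp
  · rw [spectralNorm_lt_one_iff_lfOrd q K hx, lfv_inv_mem_lfInt_iff q K hx]
    constructor
    · intro h
      by_contra h'
      exact h ⟨hx, not_lt.mp h'⟩
    · rintro h ⟨-, h'⟩
      omega

/-- The maximal ideal is generated by any uniformizer. -/
theorem maximalIdeal_lfInt_eq_span {π : K} (hπ : IsLfUniformizer q K π)
    (hπ' : π ∈ lfInt q K) :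
    maximalIdeal (lfInt q K) = Ideal.span {(⟨π, hπ'⟩ : lfInt q K)} := by
  have hπ0 : π ≠ 0 := IsLfUniformizer.ne_zero q K hπ
  have hπ1 : lfOrd q K π = 1 := hπ
  apply le_antisymm
  · intro x hx
    rw [Ideal.mem_span_singleton']
    by_cases hx0 : (x : K) = 0
    · exact ⟨0, by rw [zero_mul]; exact Subtype.ext hx0.symm⟩
    · have h1 := (spectralNorm_lt_one_iff_lfOrd q K hx0).mp
        ((mem_maximalIdeal_lfInt_iff q K x).mp hx)
      have hy0 : (x : K) / π ≠ 0 := div_ne_zero hx0 hπ0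
      have hy : (x : K) / π ∈ lfInt q K := by
        rw [mem_lfInt_iff_lfOrd q K hy0, div_eq_mul_inv, lfOrd_mul q K hx0 (inv_ne_zero hπ0),
          lfOrd_inv, hπ1]
        omega
      exact ⟨⟨(x : K) / π, hy⟩, Subtype.ext (div_mul_cancel₀ _ hπ0)⟩
  · rw [Ideal.span_singleton_le_iff_mem, mem_maximalIdeal_lfInt_iff,
      spectralNorm_lt_one_iff_lfOrd q K hπ0, hπ1]
    exact one_pos

theorem mem_maximalIdeal_pow_lfInt_iff (x : lfInt q K) (hx : x ≠ 0) (n : ℕ) :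
    x ∈ maximalIdeal (lfInt q K) ^ n ↔ (n : ℤ) ≤ lfOrd q K (x : K) := by
  obtain ⟨π, hπ⟩ := exists_isLfUniformizer q K
  have hπ0 : π ≠ 0 := IsLfUniformizer.ne_zero q K hπ
  have hπ1 : lfOrd q K π = 1 := hπ
  have hπ' : π ∈ lfInt q K := by
    rw [mem_lfInt_iff_lfOrd q K hπ0, hπ1]; exact zero_le_one
  have hx0 : (x : K) ≠ 0 := fun h => hx (Subtype.ext h)
  rw [maximalIdeal_lfInt_eq_span q K hπ hπ', Ideal.span_singleton_pow, Ideal.mem_span_singleton']
  constructor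
  · rintro ⟨a, ha⟩
    have ha' : (a : K) * π ^ n = (x : K) := by
      have := congrArg (fun z : lfInt q K => (z : K)) ha
      simpa using this
    have ha0 : (a : K) ≠ 0 := by
      intro h0
      rw [h0, zero_mul] at ha'
      exact hx0 ha'.symm
    have h1 := (mem_lfInt_iff_lfOrd q K ha0).mp a.2
    rw [← ha', lfOrd_mul q K ha0 (pow_ne_zero n hπ0), lfOrd_pow, hπ1, mul_one]
    omega
  · intro h
    have hz : π ^ n ≠ 0 := pow_ne_zero n hπ0
    have hy0 : (x : K) / π ^ n ≠ 0 := div_ne_zero hx0 hz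
    have hy : (x : K) / π ^ n ∈ lfInt q K := by
      rw [mem_lfInt_iff_lfOrd q K hy0, div_eq_mul_inv, lfOrd_mul q K hx0 (inv_ne_zero hz),
        lfOrd_inv, lfOrd_pow, hπ1, mul_one]
      omega
    refine ⟨⟨(x : K) / π ^ n, hy⟩, Subtype.ext ?_⟩
    show (x : K) / π ^ n * π ^ n = x
    exact div_mul_cancel₀ _ hz

/-- `v_K(q) · f(K/ℚ_q) = [K:ℚ_q]`. -/
theorem lfOrd_prime_mul_lfAbsInertiaDeg :
    lfOrd q K ((q : ℕ) : K) * lfAbsInertiaDeg q K = Module.finrank ℚ_[q] K := by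
  rw [mul_comm, ← lfv_lfVq_eq q K (lfv_prime_ne_zero q K), lfv_lfVq_prime]

end One

section Two

variable (q : ℕ) [Fact q.Prime]
  (K : Type) [Field K] [Algebra ℚ_[q] K] [FiniteDimensional ℚ_[q] K]
  (L : Type) [Field L] [Algebra ℚ_[q] L] [FiniteDimensional ℚ_[q] L]
  [Algebra K L] [IsScalarTower ℚ_[q] K L]

theorem lfv_lfVq_algEquiv (σ : L ≃ₐ[K] L) (x : L) : lfVq q L (σ x) = lfVq q L x := by
  unfold lfVq
  have h : σ x = (σ.restrictScalars ℚ_[q]) x := rfl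
  rw [h, Algebra.norm_eq_of_algEquiv]

theorem lfOrd_algEquiv (σ : L ≃ₐ[K] L) (x : L) : lfOrd q L (σ x) = lfOrd q L x := by
  unfold lfOrd
  rw [lfv_lfVq_algEquiv]

theorem lfv_lfVq_norm (y : L) : lfVq q K (Algebra.norm K y) = lfVq q L y := by
  have : FiniteDimensional K L := FiniteDimensional.right ℚ_[q] K L
  unfold lfVq
  rw [Algebra.norm_norm]

theorem lfv_lfVq_tower (x : K) :
    lfVq q L (algebraMap K L x) = Module.finrank K L * lfVq q K x := by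
  have : FiniteDimensional K L := FiniteDimensional.right ℚ_[q] K L
  rw [← lfv_lfVq_norm q K L, Algebra.norm_algebraMap, lfv_lfVq_pow]

theorem lfv_spectralNorm_tower (x : K) :
    spectralNorm ℚ_[q] L (algebraMap K L x) = spectralNorm ℚ_[q] K x :=
  (spectralNorm.eq_of_tower (K := ℚ_[q]) (E := K) (L := L) x).symm

theorem lfv_algebraMap_ne_zero {x : K} (hx : x ≠ 0) : algebraMap K L x ≠ 0 :=
  fun h => hx ((map_eq_zero _).mp h)

theorem lfv_lfOrd_le_tower {x y : K} (hx : x ≠ 0) (hy : y ≠ 0) :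
    lfOrd q L (algebraMap K L x) ≤ lfOrd q L (algebraMap K L y) ↔ lfOrd q K x ≤ lfOrd q K y := by
  rw [lfOrd_le_iff_spectralNorm q L (lfv_algebraMap_ne_zero K L hx) (lfv_algebraMap_ne_zero K L hy),
    lfOrd_le_iff_spectralNorm q K hx hy, lfv_spectralNorm_tower, lfv_spectralNorm_tower]

theorem lfv_lfOrd_tower_of_eq_zero {u : K} (hu : u ≠ 0) (h : lfOrd q K u = 0) :
    lfOrd q L (algebraMap K L u) = 0 := by
  have h1 := (lfv_lfOrd_le_tower q K L hu one_ne_zero).mpr (by rw [h, lfOrd_one])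
  have h2 := (lfv_lfOrd_le_tower q K L one_ne_zero hu).mpr (by rw [h, lfOrd_one])
  rw [map_one, lfOrd_one] at h1 h2
  omega

theorem lfv_lfOrd_tower_pos {π : K} (hπ : IsLfUniformizer q K π) :
    0 < lfOrd q L (algebraMap K L π) := by
  have hπ0 : π ≠ 0 := IsLfUniformizer.ne_zero q K hπ
  have hπ1 : lfOrd q K π = 1 := hπ
  have h1 := (lfv_lfOrd_le_tower q K L hπ0 one_ne_zero).not.mpr (by rw [hπ1, lfOrd_one]; omega)
  rw [map_one, lfOrd_one] at h1
  omega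

/-- all uniformizers of `K` have the same valuation in `L`. -/
theorem lfv_lfOrd_tower_unif {π π' : K} (hπ : IsLfUniformizer q K π)
    (hπ' : IsLfUniformizer q K π') :
    lfOrd q L (algebraMap K L π') = lfOrd q L (algebraMap K L π) := by
  have hπ0 : π ≠ 0 := IsLfUniformizer.ne_zero q K hπ
  have hπ0' : π' ≠ 0 := IsLfUniformizer.ne_zero q K hπ'
  have hπ1 : lfOrd q K π = 1 := hπ
  have hπ1' : lfOrd q K π' = 1 := hπ'
  have hu0 : π' / π ≠ 0 := div_ne_zero hπ0' hπ0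
  have hu : lfOrd q K (π' / π) = 0 := by
    rw [div_eq_mul_inv, lfOrd_mul q K hπ0' (inv_ne_zero hπ0), lfOrd_inv, hπ1, hπ1']
    omega
  have h1 := lfv_lfOrd_tower_of_eq_zero q K L hu0 hu
  have h2 : algebraMap K L π' = algebraMap K L (π' / π) * algebraMap K L π := by
    rw [← map_mul, div_mul_cancel₀ _ hπ0]
  rw [h2, lfOrd_mul q L (lfv_algebraMap_ne_zero K L hu0) (lfv_algebraMap_ne_zero K L hπ0), h1,
    zero_add]

theorem lfv_ramIdx_eq {π : K} (hπ : IsLfUniformizer q K π) :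
    (lfRamIdx q K L : ℤ) = lfOrd q L (algebraMap K L π) ∧ 0 < lfRamIdx q K L := by
  have hpos := lfv_lfOrd_tower_pos q K L hπ
  set S : Set ℕ := {m : ℕ | 0 < m ∧ ∃ x : K, lfOrd q K x = 1 ∧
    lfOrd q L (algebraMap K L x) = m} with hS
  have hmem : (lfOrd q L (algebraMap K L π)).toNat ∈ S := by
    refine ⟨by omega, π, hπ, ?_⟩
    rw [Int.toNat_of_nonneg hpos.le]
  have hinf : sInf S ∈ S := Nat.sInf_mem ⟨_, hmem⟩
  obtain ⟨h0, x, hx1, hx2⟩ := hinf
  have h3 := lfv_lfOrd_tower_unif q K L hπ (show IsLfUniformizer q K x from hx1)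
  have hdef : lfRamIdx q K L = sInf S := rfl
  rw [hdef]
  exact ⟨by rw [← hx2, h3], h0⟩

theorem lfRamIdx_pos : 0 < lfRamIdx q K L := by
  obtain ⟨π, hπ⟩ := exists_isLfUniformizer q K
  exact (lfv_ramIdx_eq q K L hπ).2

/-- `v_L(x) = e(L/K) · v_K(x)` for `x ∈ K`. -/
theorem lfOrd_algebraMap (x : K) :
    lfOrd q L (algebraMap K L x) = lfRamIdx q K L * lfOrd q K x := by
  by_cases hx : x = 0
  · rw [hx, map_zero, lfOrd_zero, lfOrd_zero, mul_zero]
  · obtain ⟨π, hπ⟩ := exists_isLfUniformizer q K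
    have hπ0 : π ≠ 0 := IsLfUniformizer.ne_zero q K hπ
    obtain ⟨u, hu, hxu⟩ := exists_unit_mul_zpow q K hπ hx
    rw [mem_lfUnits_iff] at hu
    have hu0 : (u : K) ≠ 0 := u.ne_zero
    have h1 := lfv_lfOrd_tower_of_eq_zero q K L hu0 hu
    have hz : (algebraMap K L π) ^ lfOrd q K x ≠ 0 :=
      zpow_ne_zero _ (lfv_algebraMap_ne_zero K L hπ0)
    conv_lhs => rw [hxu]
    rw [map_mul, map_zpow₀, lfOrd_mul q L (lfv_algebraMap_ne_zero K L hu0) hz, h1, zero_add,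
      lfOrd_zpow, (lfv_ramIdx_eq q K L hπ).1, mul_comm]

/-- `f_L * e = [L:K] * f_K`. -/
theorem lfv_absInertiaDeg_mul_ramIdx :
    lfAbsInertiaDeg q L * lfRamIdx q K L = Module.finrank K L * lfAbsInertiaDeg q K := by
  obtain ⟨π, hπ⟩ := exists_isLfUniformizer q K
  have hπ0 : π ≠ 0 := IsLfUniformizer.ne_zero q K hπ
  have hπ1 : lfOrd q K π = 1 := hπ
  have h1 := lfv_lfVq_tower q K L π
  rw [lfv_lfVq_eq q L (lfv_algebraMap_ne_zero K L hπ0), lfv_lfVq_eq q K hπ0, hπ1, mul_one,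
    ← (lfv_ramIdx_eq q K L hπ).1] at h1
  exact_mod_cast h1

theorem lfv_absInertiaDeg_dvd : lfAbsInertiaDeg q K ∣ lfAbsInertiaDeg q L := by
  obtain ⟨π, hπ⟩ := exists_isLfUniformizer q L
  have hπ0 : π ≠ 0 := IsLfUniformizer.ne_zero q L hπ
  have hπ1 : lfOrd q L π = 1 := hπ
  have : FiniteDimensional K L := FiniteDimensional.right ℚ_[q] K L
  have hN0 : Algebra.norm K π ≠ 0 := (Algebra.norm_ne_zero_iff).mpr hπ0
  have h1 := lfv_lfVq_norm q K L π
  rw [lfv_lfVq_eq q L hπ0, lfv_lfVq_eq q K hN0, hπ1, mul_one] at h1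
  have h2 : (lfAbsInertiaDeg q K : ℤ) ∣ (lfAbsInertiaDeg q L : ℤ) := ⟨_, h1.symm⟩
  exact_mod_cast h2

theorem lfv_inertiaDeg_spec :
    lfAbsInertiaDeg q L = lfAbsInertiaDeg q K * lfInertiaDeg q K L ∧
      lfRamIdx q K L * lfInertiaDeg q K L = Module.finrank K L := by
  obtain ⟨g, hg⟩ := lfv_absInertiaDeg_dvd q K L
  have h1 := lfv_absInertiaDeg_mul_ramIdx q K L
  have hfK := lfAbsInertiaDeg_pos q K
  rw [hg, mul_assoc, mul_comm (Module.finrank K L)] at h1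
  have h2 : g * lfRamIdx q K L = Module.finrank K L := Nat.eq_of_mul_eq_mul_left hfK h1
  have he := lfRamIdx_pos q K L
  have h3 : lfInertiaDeg q K L = g := by
    unfold lfInertiaDeg
    rw [← h2, Nat.mul_div_cancel _ he]
  rw [h3]
  exact ⟨hg, by rw [mul_comm]; exact h2⟩

theorem lfRamIdx_mul_lfInertiaDeg :
    lfRamIdx q K L * lfInertiaDeg q K L = Module.finrank K L :=
  (lfv_inertiaDeg_spec q K L).2

theorem lfAbsInertiaDeg_eq_mul :
    lfAbsInertiaDeg q L = lfAbsInertiaDeg q K * lfInertiaDeg q K L :=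
  (lfv_inertiaDeg_spec q K L).1

/-- `v_K(N_{L/K} y) = f(L/K) · v_L(y)`. -/
theorem lfOrd_norm (y : L) :
    lfOrd q K (Algebra.norm K y) = lfInertiaDeg q K L * lfOrd q L y := by
  have : FiniteDimensional K L := FiniteDimensional.right ℚ_[q] K L
  by_cases hy : y = 0
  · rw [hy, Algebra.norm_zero, lfOrd_zero, lfOrd_zero, mul_zero]
  · have hN0 : Algebra.norm K y ≠ 0 := (Algebra.norm_ne_zero_iff).mpr hy
    have h1 := lfv_lfVq_norm q K L y
    rw [lfv_lfVq_eq q L hy, lfv_lfVq_eq q K hN0, lfAbsInertiaDeg_eq_mul q K L] at h1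
    apply lfv_cancel q K
    rw [h1]
    push_cast
    ring

/-- The norm maps units to units. -/
theorem lfNormHom_mem_lfUnits {w : Lˣ} (hw : w ∈ lfUnits q L) :
    lfNormHom K L w ∈ lfUnits q K := by
  rw [mem_lfUnits_iff] at hw ⊢
  have h : ((lfNormHom K L w : Kˣ) : K) = Algebra.norm K (w : L) := rfl
  rw [h, lfOrd_norm, hw, mul_zero]

end Two

section Three

variable (q : ℕ) [Fact q.Prime]
  (K : Type) [Field K] [Algebra ℚ_[q] K] [FiniteDimensional ℚ_[q] K]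
  (L : Type) [Field L] [Algebra ℚ_[q] L] [FiniteDimensional ℚ_[q] L]
  (M : Type) [Field M] [Algebra ℚ_[q] M] [FiniteDimensional ℚ_[q] M]
  [Algebra K L] [IsScalarTower ℚ_[q] K L] [Algebra L M] [IsScalarTower ℚ_[q] L M]
  [Algebra K M] [IsScalarTower ℚ_[q] K M] [IsScalarTower K L M]

theorem lfRamIdx_tower : lfRamIdx q K M = lfRamIdx q K L * lfRamIdx q L M := by
  obtain ⟨π, hπ⟩ := exists_isLfUniformizer q K
  have hπ1 : lfOrd q K π = 1 := hπ
  have h1 := lfOrd_algebraMap q K M π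
  rw [IsScalarTower.algebraMap_apply K L M, lfOrd_algebraMap q L M, lfOrd_algebraMap q K L,
    hπ1, mul_one, mul_one] at h1
  have h2 : ((lfRamIdx q K M : ℕ) : ℤ) = ((lfRamIdx q K L * lfRamIdx q L M : ℕ) : ℤ) := by
    push_cast
    rw [← h1, mul_comm]
  exact_mod_cast h2

theorem lfInertiaDeg_tower : lfInertiaDeg q K M = lfInertiaDeg q K L * lfInertiaDeg q L M := by
  have h1 := lfAbsInertiaDeg_eq_mul q K M
  have h2 := lfAbsInertiaDeg_eq_mul q L M
  have h3 := lfAbsInertiaDeg_eq_mul q K L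
  rw [h2, h3, mul_assoc] at h1
  exact (Nat.eq_of_mul_eq_mul_left (lfAbsInertiaDeg_pos q K) h1).symm

end Three

end Fermat.Agent.S55
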