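/-
S55 / LOCAL layer, leaf LA-b "LocalRing", SECTION ONE: the ring of integers of a local field
is a complete DVR with finite residue field.
-/
import Fermat.Agent.S55.LocalVal

set_option autoImplicit false
set_option linter.unusedSectionVars false
set_option linter.style.haveILetI false

namespace Fermat.Agent.S55

open IsLocalRing

section One

variable (q : ℕ) [Fact q.Prime] (K : Type) [Field K] [Algebra ℚ_[q] K] [FiniteDimensional ℚ_[q] K]

/-- `x` is an integer of `K` iff its minimal polynomial over `ℚ_q` has `q`-adically integral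
coefficients. -/
theorem mem_lfInt_iff_minpoly (x : K) :
    x ∈ lfInt q K ↔ ∀ i : ℕ, ‖(minpoly ℚ_[q] x).coeff i‖ ≤ 1 := by
  rw [mem_lfInt_iff]
  unfold spectralNorm
  exact spectralValue_le_one_iff (minpoly.monic (Algebra.IsIntegral.isIntegral x))

/-! ### units and the valuation -/

theorem lro_isUnit_iff (x : lfInt q K) (hx : (x : K) ≠ 0) :
    IsUnit x ↔ lfOrd q K (x : K) = 0 := by
  rw [ValuationSubring.valuation_eq_one_iff]
  exact mem_lfUnits_iff q K (Units.mk0 (x : K) hx)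

theorem lro_coe_ne_zero {x : lfInt q K} (hx : x ≠ 0) : (x : K) ≠ 0 :=
  fun h => hx (Subtype.ext h)

theorem lro_lfOrd_nonneg (x : lfInt q K) (hx : x ≠ 0) : 0 ≤ lfOrd q K (x : K) :=
  (mem_lfInt_iff_lfOrd q K (lro_coe_ne_zero q K hx)).mp x.2

theorem lro_uniformizer_mem {π : K} (hπ : IsLfUniformizer q K π) : π ∈ lfInt q K := by
  rw [mem_lfInt_iff_lfOrd q K (hπ.ne_zero q K)]
  have : lfOrd q K π = 1 := hπ
  omega

theorem lro_irreducible {π : K} (hπ : IsLfUniformizer q K π) :
    Irreducible (⟨π, lro_uniformizer_mem q K hπ⟩ : lfInt q K) := by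
  have hπ0 : π ≠ 0 := hπ.ne_zero q K
  have hπ1 : lfOrd q K π = 1 := hπ
  refine ⟨?_, ?_⟩
  · rw [lro_isUnit_iff q K _ hπ0]
    show lfOrd q K π ≠ 0
    omega
  · intro a b hab
    have hab' : π = (a : K) * (b : K) := congrArg (fun z : lfInt q K => (z : K)) hab
    have ha0 : (a : K) ≠ 0 := fun h => hπ0 (by rw [hab', h, zero_mul])
    have hb0 : (b : K) ≠ 0 := fun h => hπ0 (by rw [hab', h, mul_zero])
    have ha : 0 ≤ lfOrd q K (a : K) := (mem_lfInt_iff_lfOrd q K ha0).mp a.2
    have hb : 0 ≤ lfOrd q K (b : K) := (mem_lfInt_iff_lfOrd q K hb0).mp b.2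
    have hsum : lfOrd q K (a : K) + lfOrd q K (b : K) = 1 := by
      rw [← lfOrd_mul q K ha0 hb0, ← hab', hπ1]
    rcases (show lfOrd q K (a : K) = 0 ∨ lfOrd q K (b : K) = 0 by omega) with h | h
    · exact Or.inl ((lro_isUnit_iff q K a ha0).mpr h)
    · exact Or.inr ((lro_isUnit_iff q K b hb0).mpr h)

theorem lro_associated_pow {π : K} (hπ : IsLfUniformizer q K π) (x : lfInt q K) (hx : x ≠ 0) :
    Associated ((⟨π, lro_uniformizer_mem q K hπ⟩ : lfInt q K) ^ (lfOrd q K (x : K)).toNat) x := by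
  have hx0 : (x : K) ≠ 0 := lro_coe_ne_zero q K hx
  have hn : 0 ≤ lfOrd q K (x : K) := lro_lfOrd_nonneg q K x hx
  obtain ⟨u, hu, hxu⟩ := exists_unit_mul_zpow q K hπ hx0
  refine ⟨(lfInt q K).unitGroupMulEquiv ⟨u, hu⟩, ?_⟩
  apply Subtype.ext
  have h1 : (((lfInt q K).unitGroupMulEquiv ⟨u, hu⟩ : (lfInt q K)ˣ) : lfInt q K) = ⟨(u : K), by
      have := ((lfInt q K).unitGroupMulEquiv ⟨u, hu⟩ : (lfInt q K)ˣ).val.2
      exact this⟩ := rfl
  rw [MulMemClass.coe_mul, h1, SubmonoidClass.coe_pow]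
  show π ^ (lfOrd q K (x : K)).toNat * (u : K) = (x : K)
  conv_rhs => rw [hxu]
  rw [mul_comm, ← zpow_natCast, Int.toNat_of_nonneg hn]

instance lfInt_isDiscreteValuationRing : IsDiscreteValuationRing (lfInt q K) := by
  obtain ⟨π, hπ⟩ := exists_isLfUniformizer q K
  exact IsDiscreteValuationRing.ofHasUnitMulPowIrreducibleFactorization
    ⟨⟨π, lro_uniformizer_mem q K hπ⟩, lro_irreducible q K hπ,
      fun {x} hx => ⟨_, lro_associated_pow q K hπ x hx⟩⟩

/-! ### residue characteristic -/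

theorem lro_spectralNorm_natCast_prime :
    spectralNorm ℚ_[q] K ((q : ℕ) : K) = ((q : ℕ) : ℝ)⁻¹ := by
  have h1 : ((q : ℕ) : K) = algebraMap ℚ_[q] K ((q : ℕ) : ℚ_[q]) := (map_natCast _ _).symm
  rw [h1, spectralNorm_extends, Padic.norm_p]

theorem lro_natCast_prime_mem : ((q : ℕ) : K) ∈ lfInt q K := by
  rw [mem_lfInt_iff, lro_spectralNorm_natCast_prime]
  have hq : (1 : ℝ) ≤ (q : ℕ) := by exact_mod_cast (Fact.out : q.Prime).one_le
  exact inv_le_one_of_one_le₀ hq

theorem lro_natCast_prime_mem_maximalIdeal :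
    ((q : ℕ) : lfInt q K) ∈ maximalIdeal (lfInt q K) := by
  rw [mem_maximalIdeal_lfInt_iff]
  have h1 : (((q : ℕ) : lfInt q K) : K) = ((q : ℕ) : K) := by push_cast; rfl
  rw [h1, lro_spectralNorm_natCast_prime]
  have hq : (1 : ℝ) < (q : ℕ) := by exact_mod_cast (Fact.out : q.Prime).one_lt
  exact inv_lt_one_of_one_lt₀ hq

instance lfInt_charP_residueField : CharP (ResidueField (lfInt q K)) q := by
  rw [CharP.charP_iff_prime_eq_zero (Fact.out : q.Prime)]
  have h1 : ((q : ℕ) : ResidueField (lfInt q K)) = residue (lfInt q K) ((q : ℕ) : lfInt q K) :=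
    (map_natCast _ _).symm
  rw [h1, residue_eq_zero_iff]
  exact lro_natCast_prime_mem_maximalIdeal q K

/-! ### completeness -/

theorem lro_spectralNorm_pow (x : K) (n : ℕ) :
    spectralNorm ℚ_[q] K (x ^ n) = spectralNorm ℚ_[q] K x ^ n := by
  rw [← spectralMulAlgNorm_def, map_pow, spectralMulAlgNorm_def]

theorem lro_le_lfOrd_iff {π : K} (hπ : IsLfUniformizer q K π) (y : K) (hy : y ≠ 0) (n : ℕ) :
    (n : ℤ) ≤ lfOrd q K y ↔ spectralNorm ℚ_[q] K y ≤ spectralNorm ℚ_[q] K π ^ n := by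
  have hπ0 : π ≠ 0 := hπ.ne_zero q K
  have hπ1 : lfOrd q K π = 1 := hπ
  have h1 := lfOrd_le_iff_spectralNorm q K (pow_ne_zero n hπ0) hy
  rw [lfOrd_pow, hπ1, mul_one, lro_spectralNorm_pow] at h1
  exact h1

/-- Completeness, elementary form: a sequence with `v(a_{n+1} - a_n) ≥ n` has a limit. -/
theorem lf_exists_limit (a : ℕ → K)
    (h : ∀ n : ℕ, a (n + 1) = a n ∨ (n : ℤ) ≤ lfOrd q K (a (n + 1) - a n)) :
    ∃ x : K, ∀ n : ℕ, x = a n ∨ (n : ℤ) ≤ lfOrd q K (x - a n) := by
  obtain ⟨π, hπ⟩ := exists_isLfUniformizer q K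
  have hπ0 : π ≠ 0 := hπ.ne_zero q K
  have hπ1 : lfOrd q K π = 1 := hπ
  set r : ℝ := spectralNorm ℚ_[q] K π with hr
  have hr1 : r < 1 := (spectralNorm_lt_one_iff_lfOrd q K hπ0).mpr (by rw [hπ1]; exact one_pos)
  have hr0 : 0 ≤ r := spectralNorm_nonneg π
  have hstep : ∀ n, spectralNorm ℚ_[q] K (a (n + 1) - a n) ≤ r ^ n := by
    intro n
    rcases h n with h0 | h0
    · rw [h0, sub_self, spectralNorm_zero]
      exact pow_nonneg hr0 n
    · by_cases hne : a (n + 1) - a n = 0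
      · rw [hne, spectralNorm_zero]
        exact pow_nonneg hr0 n
      · exact (lro_le_lfOrd_iff q K hπ _ hne n).mp h0
  have hult : ∀ n k, spectralNorm ℚ_[q] K (a (n + k) - a n) ≤ r ^ n := by
    intro n k
    induction k with
    | zero =>
      rw [add_zero, sub_self, spectralNorm_zero]
      exact pow_nonneg hr0 n
    | succ k ih =>
      have h1 : a (n + (k + 1)) - a n = (a (n + k + 1) - a (n + k)) + (a (n + k) - a n) := by
        rw [← add_assoc]; ring
      rw [h1]
      refine (isNonarchimedean_spectralNorm (K := ℚ_[q]) (L := K) _ _).trans (max_le ?_ ih)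
      refine (hstep (n + k)).trans ?_
      exact pow_le_pow_of_le_one hr0 hr1.le (Nat.le_add_right n k)
  let _ : NormedField K := spectralNorm.normedField ℚ_[q] K
  have : CompleteSpace K := spectralNorm.completeSpace ℚ_[q] K
  have hnorm : ∀ y : K, ‖y‖ = spectralNorm ℚ_[q] K y := fun _ => rfl
  have hcau : CauchySeq a := by
    refine cauchySeq_of_le_geometric r 1 hr1 (fun n => ?_)
    rw [dist_comm, dist_eq_norm, hnorm, one_mul]
    exact hstep n
  obtain ⟨x, hx⟩ := cauchySeq_tendsto_of_complete hcau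
  refine ⟨x, fun n => ?_⟩
  by_cases hxn : x = a n
  · exact Or.inl hxn
  · right
    rw [lro_le_lfOrd_iff q K hπ _ (sub_ne_zero.mpr hxn) n]
    have htend : Filter.Tendsto (fun m => ‖a m - a n‖) Filter.atTop (nhds ‖x - a n‖) :=
      (hx.sub_const _).norm
    refine le_of_tendsto htend (Filter.eventually_atTop.mpr ⟨n, fun m hm => ?_⟩)
    obtain ⟨k, rfl⟩ := Nat.exists_eq_add_of_le hm
    exact hult n k

instance lfInt_isAdicComplete : IsAdicComplete (maximalIdeal (lfInt q K)) (lfInt q K) := by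
  have : IsHausdorff (maximalIdeal (lfInt q K)) (lfInt q K) := inferInstance
  refine { toIsHausdorff := this, toIsPrecomplete := ⟨fun f hf => ?_⟩ }
  have hmem : ∀ (n : ℕ) (x y : lfInt q K),
      x ≡ y [SMOD (maximalIdeal (lfInt q K) ^ n • ⊤ : Submodule (lfInt q K) (lfInt q K))] ↔
        x - y ∈ maximalIdeal (lfInt q K) ^ n := by
    intro n x y
    rw [SModEq.sub_mem, smul_eq_mul, Ideal.mul_top]
  have h1 : ∀ n : ℕ, ((f (n + 1) : lfInt q K) : K) = (f n : K) ∨
      (n : ℤ) ≤ lfOrd q K (((f (n + 1) : lfInt q K) : K) - (f n : K)) := by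
    intro n
    by_cases hne : f (n + 1) = f n
    · exact Or.inl (by rw [hne])
    · right
      have h2 : f (n + 1) - f n ∈ maximalIdeal (lfInt q K) ^ n := by
        rw [← hmem]
        exact (hf (Nat.le_succ n)).symm
      exact (mem_maximalIdeal_pow_lfInt_iff q K _ (sub_ne_zero.mpr hne) n).mp h2
  obtain ⟨x, hx⟩ := lf_exists_limit q K (fun n => (f n : K)) h1
  have hxmem : x ∈ lfInt q K := by
    rcases hx 0 with h0 | h0
    · rw [h0]; exact (f 0).2
    · by_cases hne : x - (f 0 : K) = 0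
      · rw [sub_eq_zero.mp hne]; exact (f 0).2
      · have h3 : x - (f 0 : K) ∈ lfInt q K := (mem_lfInt_iff_lfOrd q K hne).mpr (by simpa using h0)
        have h4 := (lfInt q K).add_mem _ _ h3 (f 0).2
        simpa using h4
  refine ⟨⟨x, hxmem⟩, fun n => ?_⟩
  rw [hmem]
  by_cases hne : f n = ⟨x, hxmem⟩
  · rw [hne, sub_self]; exact zero_mem _
  · rw [mem_maximalIdeal_pow_lfInt_iff q K _ (sub_ne_zero.mpr hne) n]
    have hne' : x ≠ (f n : K) := fun h => hne (Subtype.ext h.symm)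
    rcases hx n with h0 | h0
    · exact absurd h0 hne'
    · have h5 : ((f n - ⟨x, hxmem⟩ : lfInt q K) : K) = -(x - (f n : K)) := by
        push_cast; ring
      rw [h5, lfOrd_neg]
      exact h0

/-- Hensel's lemma in the simple-root form, for monic polynomials over the integers. -/
theorem lf_hensel (f : Polynomial (lfInt q K)) (hf : f.Monic) (a₀ : lfInt q K)
    (h₁ : f.eval a₀ ∈ maximalIdeal (lfInt q K))
    (h₂ : IsUnit (f.derivative.eval a₀)) :
    ∃ a : lfInt q K, f.IsRoot a ∧ a - a₀ ∈ maximalIdeal (lfInt q K) :=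
  HenselianRing.is_henselian f hf a₀ h₁ (h₂.map (Ideal.Quotient.mk _))

/-! ### `𝒪_K` as the integral closure of `ℤ_q`; counting -/

/-- `ℤ_q → 𝒪_K`. -/
noncomputable def lroZqMap : ℤ_[q] →+* lfInt q K :=
  ((algebraMap ℚ_[q] K).comp (algebraMap ℤ_[q] ℚ_[q])).codRestrict (lfInt q K).toSubring
    (fun x => by
      show spectralNorm ℚ_[q] K (algebraMap ℚ_[q] K (x : ℚ_[q])) ≤ 1
      rw [spectralNorm_extends]
      exact PadicInt.norm_le_one x)

/-- `K` as a `ℤ_q`-algebra (not an instance). -/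
@[instance_reducible]
noncomputable def lroAlgZqK : Algebra ℤ_[q] K :=
  ((algebraMap ℚ_[q] K).comp (algebraMap ℤ_[q] ℚ_[q])).toAlgebra

/-- `𝒪_K` as a `ℤ_q`-algebra (not an instance). -/
@[instance_reducible]
noncomputable def lroAlgZqInt : Algebra ℤ_[q] (lfInt q K) := (lroZqMap q K).toAlgebra

section ZqAlgebra

attribute [local instance] lroAlgZqK lroAlgZqInt

theorem lro_isScalarTower_ZqQqK : IsScalarTower ℤ_[q] ℚ_[q] K :=
  IsScalarTower.of_algebraMap_eq (fun _ => rfl)

theorem lro_isScalarTower_ZqIntK : IsScalarTower ℤ_[q] (lfInt q K) K :=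
  IsScalarTower.of_algebraMap_eq (fun _ => rfl)

attribute [local instance] lro_isScalarTower_ZqQqK lro_isScalarTower_ZqIntK

theorem lro_isIntegral_coe (y : lfInt q K) : IsIntegral ℤ_[q] (y : K) := by
  have h := (mem_lfInt_iff_minpoly q K (y : K)).mp y.2
  have hmonic : (minpoly ℚ_[q] (y : K)).Monic :=
    minpoly.monic (Algebra.IsIntegral.isIntegral (y : K))
  have hlifts : minpoly ℚ_[q] (y : K) ∈ Polynomial.lifts (algebraMap ℤ_[q] ℚ_[q]) := by
    rw [Polynomial.lifts_iff_coeff_lifts]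
    intro i
    exact ⟨⟨(minpoly ℚ_[q] (y : K)).coeff i, h i⟩, rfl⟩
  obtain ⟨P, hP, -, hPmonic⟩ := Polynomial.lifts_and_natDegree_eq_and_monic hlifts hmonic
  refine ⟨P, hPmonic, ?_⟩
  have h1 : Polynomial.eval₂ (algebraMap ℤ_[q] K) (y : K) P =
      Polynomial.eval₂ (algebraMap ℚ_[q] K) (y : K) (P.map (algebraMap ℤ_[q] ℚ_[q])) := by
    rw [Polynomial.eval₂_map]
    rfl
  rw [h1, hP]
  exact minpoly.aeval ℚ_[q] (y : K)

theorem lro_isIntegralClosure : IsIntegralClosure (lfInt q K) ℤ_[q] K where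
  algebraMap_injective := Subtype.val_injective
  isIntegral_iff := by
    intro x
    constructor
    · intro hx
      have h1 : IsIntegral (lfInt q K) x := hx.tower_top
      obtain ⟨y, hy⟩ := (IsIntegrallyClosed.isIntegral_iff (R := lfInt q K) (K := K)).mp h1
      exact ⟨y, hy⟩
    · rintro ⟨y, rfl⟩
      exact lro_isIntegral_coe q K y

attribute [local instance] lro_isIntegralClosure

theorem lro_module_finite : Module.Finite ℤ_[q] (lfInt q K) :=
  IsIntegralClosure.finite ℤ_[q] ℚ_[q] K (lfInt q K)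

theorem lro_isTorsionFree_K : Module.IsTorsionFree ℤ_[q] K := by
  rw [Module.isTorsionFree_iff_algebraMap_injective]
  exact (algebraMap ℚ_[q] K).injective.comp (IsFractionRing.injective ℤ_[q] ℚ_[q])

attribute [local instance] lro_module_finite lro_isTorsionFree_K

theorem lro_module_free : Module.Free ℤ_[q] (lfInt q K) :=
  IsIntegralClosure.module_free ℤ_[q] ℚ_[q] K (lfInt q K)

theorem lro_finrank : Module.finrank ℤ_[q] (lfInt q K) = Module.finrank ℚ_[q] K :=
  IsIntegralClosure.rank ℤ_[q] ℚ_[q] K (lfInt q K)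

theorem lro_card_residueField_Zq : Nat.card (ℤ_[q] ⧸ maximalIdeal ℤ_[q]) = q := by
  have h := Nat.card_congr (PadicInt.residueField (p := q)).toEquiv
  rw [Nat.card_zmod] at h
  exact h

theorem lro_map_maximalIdeal :
    (maximalIdeal ℤ_[q]).map (algebraMap ℤ_[q] (lfInt q K)) =
      Ideal.span {((q : ℕ) : lfInt q K)} := by
  rw [PadicInt.maximalIdeal_eq_span_p, Ideal.map_span, Set.image_singleton, map_natCast]

attribute [local instance] Ideal.Quotient.field in
theorem lro_card_quot_map :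
    Nat.card (lfInt q K ⧸ (maximalIdeal ℤ_[q]).map (algebraMap ℤ_[q] (lfInt q K))) =
      q ^ Module.finrank ℚ_[q] K := by
  have := lro_module_free q K
  have h1 := IsLocalRing.finrank_quotient_map (R := ℤ_[q]) (S := lfInt q K)
  have : Module.Finite (ℤ_[q] ⧸ maximalIdeal ℤ_[q])
      (lfInt q K ⧸ (maximalIdeal ℤ_[q]).map (algebraMap ℤ_[q] (lfInt q K))) :=
    Module.Finite.of_restrictScalars_finite ℤ_[q] _ _
  rw [Module.natCard_eq_pow_finrank (K := ℤ_[q] ⧸ maximalIdeal ℤ_[q]), h1, lro_finrank,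
    lro_card_residueField_Zq]

end ZqAlgebra

/-! ### the ideal `(q)` of `𝒪_K` -/

theorem lro_natCast_prime_ne_zero : ((q : ℕ) : K) ≠ 0 := by
  have h1 : ((q : ℕ) : K) = algebraMap ℚ_[q] K ((q : ℕ) : ℚ_[q]) := (map_natCast _ _).symm
  rw [h1]
  intro h
  have h2 := (algebraMap ℚ_[q] K).injective (h.trans (map_zero _).symm)
  have h3 : ((q : ℕ) : ℚ_[q]) ≠ 0 := by exact_mod_cast (Fact.out : q.Prime).ne_zero
  exact h3 h2

theorem lro_lfOrd_prime_pos : 0 < lfOrd q K ((q : ℕ) : K) := by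
  rw [← spectralNorm_lt_one_iff_lfOrd q K (lro_natCast_prime_ne_zero q K),
    lro_spectralNorm_natCast_prime]
  have hq : (1 : ℝ) < (q : ℕ) := by exact_mod_cast (Fact.out : q.Prime).one_lt
  exact inv_lt_one_of_one_lt₀ hq

theorem lro_span_prime_eq_pow :
    Ideal.span {((q : ℕ) : lfInt q K)} =
      maximalIdeal (lfInt q K) ^ (lfOrd q K ((q : ℕ) : K)).toNat := by
  have hq0 : ((q : ℕ) : K) ≠ 0 := lro_natCast_prime_ne_zero q K
  have he : 0 < lfOrd q K ((q : ℕ) : K) := lro_lfOrd_prime_pos q K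
  have hcoe : (((q : ℕ) : lfInt q K) : K) = ((q : ℕ) : K) := by push_cast; rfl
  ext x
  by_cases hx : x = 0
  · rw [hx]; simp
  have hx0 : (x : K) ≠ 0 := lro_coe_ne_zero q K hx
  rw [mem_maximalIdeal_pow_lfInt_iff q K x hx, Ideal.mem_span_singleton, Int.toNat_of_nonneg he.le]
  constructor
  · rintro ⟨y, rfl⟩
    have hy : y ≠ 0 := fun h => hx (by rw [h, mul_zero])
    have hy0 : (y : K) ≠ 0 := lro_coe_ne_zero q K hy
    have h1 : ((((q : ℕ) : lfInt q K) * y : lfInt q K) : K) = ((q : ℕ) : K) * (y : K) := by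
      rw [MulMemClass.coe_mul, hcoe]
    rw [h1, lfOrd_mul q K hq0 hy0]
    have := lro_lfOrd_nonneg q K y hy
    omega
  · intro h
    have hy0 : (x : K) / ((q : ℕ) : K) ≠ 0 := div_ne_zero hx0 hq0
    have hord : lfOrd q K ((x : K) / ((q : ℕ) : K)) = lfOrd q K (x : K) - lfOrd q K ((q : ℕ) : K) := by
      rw [div_eq_mul_inv, lfOrd_mul q K hx0 (inv_ne_zero hq0), lfOrd_inv]; ring
    have hmem : (x : K) / ((q : ℕ) : K) ∈ lfInt q K := by
      rw [mem_lfInt_iff_lfOrd q K hy0, hord]; omega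
    refine ⟨⟨_, hmem⟩, Subtype.ext ?_⟩
    rw [MulMemClass.coe_mul, hcoe]
    field_simp

theorem lro_card_pow :
    Nat.card (ResidueField (lfInt q K)) ^ (lfOrd q K ((q : ℕ) : K)).toNat =
      q ^ Module.finrank ℚ_[q] K := by
  let _ := lroAlgZqK q K
  let _ := lroAlgZqInt q K
  have h1 := lro_card_quot_map q K
  rw [lro_map_maximalIdeal, lro_span_prime_eq_pow] at h1
  have hbot : maximalIdeal (lfInt q K) ≠ ⊥ := IsDiscreteValuationRing.not_a_field _
  have h2 := cardQuot_pow_of_prime (P := maximalIdeal (lfInt q K)) hbot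
    (i := (lfOrd q K ((q : ℕ) : K)).toNat)
  rw [Submodule.cardQuot_apply, Submodule.cardQuot_apply, h1] at h2
  exact h2.symm

instance lfInt_finite_residueField : Finite (ResidueField (lfInt q K)) := by
  apply Nat.finite_of_card_ne_zero
  intro h
  have h1 := lro_card_pow q K
  have he : (lfOrd q K ((q : ℕ) : K)).toNat ≠ 0 := by
    have := lro_lfOrd_prime_pos q K
    omega
  rw [h, zero_pow he] at h1
  exact (pow_ne_zero _ (Fact.out : q.Prime).ne_zero) h1.symm

theorem lfResCard_eq : lfResCard q K = q ^ lfAbsInertiaDeg q K := by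
  have h1 := lro_card_pow q K
  have hpos := lro_lfOrd_prime_pos q K
  have he : (lfOrd q K ((q : ℕ) : K)).toNat ≠ 0 := by omega
  have h2 := lfOrd_prime_mul_lfAbsInertiaDeg q K
  have h3 : (lfOrd q K ((q : ℕ) : K)).toNat * lfAbsInertiaDeg q K = Module.finrank ℚ_[q] K := by
    have h4 : (((lfOrd q K ((q : ℕ) : K)).toNat : ℤ)) = lfOrd q K ((q : ℕ) : K) :=
      Int.toNat_of_nonneg hpos.le
    have h5 : (((lfOrd q K ((q : ℕ) : K)).toNat * lfAbsInertiaDeg q K : ℕ) : ℤ) =
        (Module.finrank ℚ_[q] K : ℤ) := by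
      push_cast
      rw [h4, h2]
    exact_mod_cast h5
  rw [← h3, mul_comm, pow_mul] at h1
  exact Nat.pow_left_injective he h1

/-- Teichmüller-type statement: the `(|k|-1)`-th roots of unity of `K` map bijectively onto `kˣ`. -/
theorem lf_exists_root_of_unity_lift (u : (ResidueField (lfInt q K))ˣ) :
    ∃ z : lfInt q K, z ^ (lfResCard q K - 1) = 1 ∧
      residue (lfInt q K) z = (u : ResidueField (lfInt q K)) := by
  classical
  letI : Fintype (ResidueField (lfInt q K)) := Fintype.ofFinite _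
  have hcard : lfResCard q K = Fintype.card (ResidueField (lfInt q K)) := Nat.card_eq_fintype_card
  have hcard2 : 1 < Fintype.card (ResidueField (lfInt q K)) := Fintype.one_lt_card
  set N : ℕ := lfResCard q K - 1 with hN
  have hN1 : N + 1 = Fintype.card (ResidueField (lfInt q K)) := by omega
  have hN0 : N ≠ 0 := by omega
  have hu : (u : ResidueField (lfInt q K)) ^ N = 1 := by
    rw [hN, hcard]
    exact FiniteField.pow_card_sub_one_eq_one _ (Units.ne_zero u)
  obtain ⟨a₀, ha₀⟩ := residue_surjective (R := lfInt q K) (u : ResidueField (lfInt q K))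
  have hNk : ((N : ℕ) : ResidueField (lfInt q K)) = -1 := by
    have h1 : ((N + 1 : ℕ) : ResidueField (lfInt q K)) = 0 := by
      rw [hN1]; exact Nat.cast_card_eq_zero _
    push_cast at h1
    exact eq_neg_of_add_eq_zero_left h1
  let f : Polynomial (lfInt q K) := Polynomial.X ^ N - Polynomial.C 1
  have hf : f.Monic := Polynomial.monic_X_pow_sub_C 1 hN0
  have hfe : ∀ a : lfInt q K, f.eval a = a ^ N - 1 := fun a => by simp [f]
  have hfd : f.derivative.eval a₀ = (N : lfInt q K) * a₀ ^ (N - 1) := by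
    simp [f, Polynomial.derivative_X_pow]
  have h₁ : f.eval a₀ ∈ maximalIdeal (lfInt q K) := by
    rw [← residue_eq_zero_iff, hfe, map_sub, map_pow, map_one, ha₀, hu, sub_self]
  have h₂ : IsUnit (f.derivative.eval a₀) := by
    rw [← residue_ne_zero_iff_isUnit, hfd, map_mul, map_pow, map_natCast, ha₀, hNk]
    exact mul_ne_zero (neg_ne_zero.mpr one_ne_zero) (pow_ne_zero _ (Units.ne_zero u))
  obtain ⟨a, ha, haa⟩ := lf_hensel q K f hf a₀ h₁ h₂
  refine ⟨a, ?_, ?_⟩
  · have h3 : f.eval a = 0 := ha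
    rw [hfe] at h3
    exact sub_eq_zero.mp h3
  · rw [← ha₀]
    rw [← residue_eq_zero_iff, map_sub, sub_eq_zero] at haa
    exact haa

end One

end Fermat.Agent.S55
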