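/-
S55 / LOCAL layer, leaf LA-b "LocalRing", SECTION TWO (helper19): integral closure, finiteness,
freeness, Galois invariants, `𝔪_K 𝒪_L = 𝔪_L ^ e`, comparison of `lfRamIdx`/`lfInertiaDeg` with
Mathlib's `Ideal.ramificationIdx`/`Ideal.inertiaDeg`, trace and norm of integers.
EXACT statements of section Two of `LocalRingSpec.lean` (origin/helper22 5c50b5a).
Section One is used as a black box through `LocalRingOneSpec` (= section One of the spec verbatim);
for integration change the import to the real section One file.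
Helper lemmas are prefixed `lrt_`.
-/
import Fermat.Agent.S55.LocalRingOne
set_option autoImplicit false
namespace Fermat.Agent.S55
open IsLocalRing
section Two
variable (q : ℕ) [Fact q.Prime]
  (K : Type) [Field K] [Algebra ℚ_[q] K] [FiniteDimensional ℚ_[q] K]
  (L : Type) [Field L] [Algebra ℚ_[q] L] [FiniteDimensional ℚ_[q] L]
  [Algebra K L] [IsScalarTower ℚ_[q] K L]

theorem lrt_charZero (q : ℕ) [Fact q.Prime] (K : Type) [Field K] [Algebra ℚ_[q] K] : CharZero K :=
  charZero_of_injective_algebraMap (algebraMap ℚ_[q] K).injective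

theorem lrt_finiteDimensional (q : ℕ) [Fact q.Prime] (K : Type) [Field K] [Algebra ℚ_[q] K]
    (L : Type) [Field L] [Algebra ℚ_[q] L] [FiniteDimensional ℚ_[q] L]
    [Algebra K L] [IsScalarTower ℚ_[q] K L] : FiniteDimensional K L :=
  FiniteDimensional.right ℚ_[q] K L

theorem lrt_isSeparable (q : ℕ) [Fact q.Prime] (K : Type) [Field K] [Algebra ℚ_[q] K]
    (L : Type) [Field L] [Algebra ℚ_[q] L] [FiniteDimensional ℚ_[q] L]
    [Algebra K L] [IsScalarTower ℚ_[q] K L] : Algebra.IsSeparable K L := by
  have := lrt_charZero q K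
  have := lrt_finiteDimensional q K L
  exact Algebra.IsAlgebraic.isSeparable_of_perfectField

/-- coefficients of norm `≤ 1` land in the integers. -/
theorem lrt_algebraMap_mem_lfInt {c : ℚ_[q]} (hc : ‖c‖ ≤ 1) : algebraMap ℚ_[q] K c ∈ lfInt q K := by
  rw [mem_lfInt_iff, spectralNorm_extends]
  exact hc

theorem mem_lfInt_iff_isIntegral (x : L) : x ∈ lfInt q L ↔ IsIntegral (lfInt q K) x := by
  constructor
  · intro hx
    have h := (mem_lfInt_iff_minpoly q L x).1 hx
    have hxint : IsIntegral ℚ_[q] x := Algebra.IsIntegral.isIntegral x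
    set p : Polynomial K := (minpoly ℚ_[q] x).map (algebraMap ℚ_[q] K) with hp
    have hlift : p ∈ Polynomial.lifts (algebraMap (lfInt q K) K) := by
      rw [Polynomial.lifts_iff_coeff_lifts]
      intro n
      rw [hp, Polynomial.coeff_map]
      exact ⟨⟨_, lrt_algebraMap_mem_lfInt q K (h n)⟩, rfl⟩
    have hmonic : p.Monic := (minpoly.monic hxint).map _
    obtain ⟨P, hP, -, hPm⟩ := Polynomial.lifts_and_degree_eq_and_monic hlift hmonic
    refine ⟨P, hPm, ?_⟩
    have h1 : Polynomial.eval₂ (algebraMap (lfInt q K) L) x P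
        = Polynomial.eval₂ (algebraMap K L) x (P.map (algebraMap (lfInt q K) K)) := by
      rw [Polynomial.eval₂_map]
      rfl
    rw [h1, hP, hp, Polynomial.eval₂_map, ← IsScalarTower.algebraMap_eq]
    exact minpoly.aeval ℚ_[q] x
  · intro hx
    have h1 : IsIntegral (lfInt q L) x := hx.tower_top
    obtain ⟨y, hy⟩ := IsIntegrallyClosed.isIntegral_iff.1 h1
    rw [← hy]
    exact y.2

instance lfInt_isIntegralClosure : IsIntegralClosure (lfInt q L) (lfInt q K) L where
  algebraMap_injective := Subtype.val_injective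
  isIntegral_iff := by
    intro x
    rw [← mem_lfInt_iff_isIntegral q K L x]
    constructor
    · intro hx
      exact ⟨⟨x, hx⟩, rfl⟩
    · rintro ⟨y, rfl⟩
      exact y.2

instance lfInt_module_finite : Module.Finite (lfInt q K) (lfInt q L) := by
  have := lrt_finiteDimensional q K L
  have := lrt_isSeparable q K L
  exact IsIntegralClosure.finite (lfInt q K) K L (lfInt q L)

instance lfInt_module_free : Module.Free (lfInt q K) (lfInt q L) := by
  have := lrt_finiteDimensional q K L
  have := lrt_isSeparable q K L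
  exact IsIntegralClosure.module_free (lfInt q K) K L (lfInt q L)

theorem lfInt_finrank : Module.finrank (lfInt q K) (lfInt q L) = Module.finrank K L := by
  have := lrt_finiteDimensional q K L
  have := lrt_isSeparable q K L
  exact IsIntegralClosure.rank (lfInt q K) K L (lfInt q L)


/-- `Gal(L/K)`-invariants of `𝒪_L` are `𝒪_K`. -/
instance lfInt_isInvariant [IsGalois K L] :
    Algebra.IsInvariant (lfInt q K) (lfInt q L) (L ≃ₐ[K] L) where
  isInvariant := by
    intro b hb
    have := lrt_finiteDimensional q K L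
    have h1 : (b : L) ∈ Set.range (algebraMap K L) := by
      rw [IsGalois.mem_range_algebraMap_iff_fixed]
      intro σ
      have := congrArg (fun z : lfInt q L => (z : L)) (hb σ)
      simpa [lfInt_smul_coe] using this
    obtain ⟨a, ha⟩ := h1
    have ha' : a ∈ lfInt q K := by
      rw [← algebraMap_mem_lfInt_iff q K L, ha]
      exact b.2
    exact ⟨⟨a, ha'⟩, Subtype.ext ha⟩

theorem lrt_dvd_iff (a x : lfInt q L) (ha : a ≠ 0) :
    a ∣ x ↔ (x : L) * (a : L)⁻¹ ∈ lfInt q L := by
  have ha' : (a : L) ≠ 0 := fun h => ha (Subtype.ext h)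
  constructor
  · rintro ⟨c, rfl⟩
    have : ((a * c : lfInt q L) : L) * (a : L)⁻¹ = (c : L) := by
      push_cast
      field_simp
    rw [this]
    exact c.2
  · intro h
    refine ⟨⟨_, h⟩, Subtype.ext ?_⟩
    push_cast
    field_simp

/-- `𝔪_K 𝒪_L = 𝔪_L ^ e`. -/
theorem map_maximalIdeal_lfInt :
    (maximalIdeal (lfInt q K)).map (algebraMap (lfInt q K) (lfInt q L)) =
      maximalIdeal (lfInt q L) ^ lfRamIdx q K L := by
  obtain ⟨π, hπ⟩ := exists_isLfUniformizer q K
  have hπ0 : π ≠ 0 := IsLfUniformizer.ne_zero q K hπ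
  have hπmem : π ∈ lfInt q K := by
    rw [mem_lfInt_iff_lfOrd q K hπ0, hπ]
    exact zero_le_one
  rw [maximalIdeal_lfInt_eq_span q K hπ hπmem, Ideal.map_span, Set.image_singleton]
  set a : lfInt q L := algebraMap (lfInt q K) (lfInt q L) ⟨π, hπmem⟩ with ha
  have hacoe : (a : L) = algebraMap K L π := rfl
  have ha0' : (a : L) ≠ 0 := by
    rw [hacoe]
    exact (map_ne_zero _).2 hπ0
  have ha0 : a ≠ 0 := fun h => ha0' (by rw [h]; rfl)
  have hord : lfOrd q L (a : L) = lfRamIdx q K L := by
    rw [hacoe, lfOrd_algebraMap, hπ, mul_one]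
  ext x
  rw [Ideal.mem_span_singleton]
  by_cases hx : x = 0
  · subst hx
    simp
  have hx' : (x : L) ≠ 0 := fun h => hx (Subtype.ext h)
  rw [mem_maximalIdeal_pow_lfInt_iff q L x hx, lrt_dvd_iff q L a x ha0,
    mem_lfInt_iff_lfOrd q L (mul_ne_zero hx' (inv_ne_zero ha0')),
    lfOrd_mul q L hx' (inv_ne_zero ha0'), lfOrd_inv, hord]
  constructor <;> intro h <;> linarith

theorem lrt_maximalIdeal_ne_bot : maximalIdeal (lfInt q K) ≠ ⊥ :=
  IsDiscreteValuationRing.not_a_field _

theorem lfRamIdx_eq_ramificationIdx :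
    lfRamIdx q K L = (maximalIdeal (lfInt q L)).ramificationIdx (lfInt q K) := by
  rw [← Ideal.ramificationIdx'_eq_ramificationIdx (maximalIdeal (lfInt q K))
    (maximalIdeal (lfInt q L)) (lrt_maximalIdeal_ne_bot q K)]
  symm
  apply Ideal.ramificationIdx'_spec
  · rw [map_maximalIdeal_lfInt]
  · rw [map_maximalIdeal_lfInt]
    exact not_le_of_gt (Ideal.pow_succ_lt_pow (lrt_maximalIdeal_ne_bot q L) _)

theorem maximalIdeal_lfInt_under :
    (maximalIdeal (lfInt q L)).under (lfInt q K) = maximalIdeal (lfInt q K) :=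
  (Ideal.over_def (maximalIdeal (lfInt q L)) (maximalIdeal (lfInt q K))).symm


/-- The only prime of `𝒪_L` over `𝔪_K` is `𝔪_L`. -/
theorem lrt_primesOver_eq (P : Ideal (lfInt q L)) [hP : P.IsPrime]
    [hPo : P.LiesOver (maximalIdeal (lfInt q K))] : P = maximalIdeal (lfInt q L) := by
  have hne : P ≠ ⊥ := by
    intro h
    have h1 := hPo.over
    rw [h, Ideal.under_bot] at h1
    exact lrt_maximalIdeal_ne_bot q K h1
  have : P.IsMaximal := hP.isMaximal hne
  exact IsLocalRing.eq_maximalIdeal this

theorem lrt_ramificationIdx_mul_inertiaDeg :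
    (maximalIdeal (lfInt q L)).ramificationIdx (lfInt q K) *
      (maximalIdeal (lfInt q L)).inertiaDeg (lfInt q K) = Module.finrank K L := by
  let u : Unique ((maximalIdeal (lfInt q K)).primesOver (lfInt q L)) :=
    { default := ⟨maximalIdeal (lfInt q L), inferInstance, inferInstance⟩
      uniq := by
        rintro ⟨P, hP, hPo⟩
        exact Subtype.ext (lrt_primesOver_eq q K L P) }
  let _ : Fintype ((maximalIdeal (lfInt q K)).primesOver (lfInt q L)) := Unique.fintype
  have h := Ideal.sum_ramification_inertia_eq_finrank (maximalIdeal (lfInt q K)) (lfInt q L)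
  rw [Fintype.sum_unique, lfInt_finrank] at h
  exact h

theorem lfInertiaDeg_eq_inertiaDeg :
    lfInertiaDeg q K L = (maximalIdeal (lfInt q L)).inertiaDeg (lfInt q K) := by
  have h := lrt_ramificationIdx_mul_inertiaDeg q K L
  rw [← lfRamIdx_eq_ramificationIdx] at h
  unfold lfInertiaDeg
  rw [← h]
  exact Nat.mul_div_cancel_left _ (lfRamIdx_pos q K L)

/-- `f(L/K)` is the degree of the residue field extension. -/
theorem lfInertiaDeg_eq_finrank :
    lfInertiaDeg q K L =
      Module.finrank (ResidueField (lfInt q K)) (ResidueField (lfInt q L)) := by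
  rw [lfInertiaDeg_eq_inertiaDeg]
  exact Ideal.inertiaDeg_eq_of_isMaximal (maximalIdeal (lfInt q K)) (maximalIdeal (lfInt q L))

theorem lfResCard_eq_pow : lfResCard q L = lfResCard q K ^ lfInertiaDeg q K L := by
  rw [lfInertiaDeg_eq_finrank]
  unfold lfResCard
  exact Module.natCard_eq_pow_finrank

/-- The trace of an integer is an integer. -/
theorem trace_mem_lfInt {y : L} (hy : y ∈ lfInt q L) : Algebra.trace K L y ∈ lfInt q K := by
  have := lrt_finiteDimensional q K L
  have h1 : IsIntegral (lfInt q K) y := (mem_lfInt_iff_isIntegral q K L y).1 hy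
  have h2 : IsIntegral (lfInt q K) (Algebra.trace K L y) := Algebra.isIntegral_trace h1
  obtain ⟨z, hz⟩ := IsIntegrallyClosed.isIntegral_iff.1 h2
  rw [← hz]
  exact z.2

theorem norm_mem_lfInt {y : L} (hy : y ∈ lfInt q L) : Algebra.norm K y ∈ lfInt q K := by
  have := lrt_finiteDimensional q K L
  have h1 : IsIntegral (lfInt q K) y := (mem_lfInt_iff_isIntegral q K L y).1 hy
  have h2 : IsIntegral (lfInt q K) (Algebra.norm K y) := Algebra.isIntegral_norm K h1
  obtain ⟨z, hz⟩ := IsIntegrallyClosed.isIntegral_iff.1 h2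
  rw [← hz]
  exact z.2

end Two
end Fermat.Agent.S55
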