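/-
S55 / LOCAL layer, leaf LA-b "LocalRing": ring-theoretic structure of the integers of a local
field.  Section One = `LocalRingOne.lean` (helper26), section Two = `LocalRingTwo.lean` (helper19).
-/
import Fermat.Agent.S55.LocalRingOne
import Fermat.Agent.S55.LocalRingTwo
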