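import Mathlib

/-!
# S55 (global layer): the Kummer ramification criterion

`K ⊆ L` number fields, `v` a finite prime of `K`, `b ∈ Kˣ`, `β ∈ L` with `βⁿ = b`.

* `kumram_dvd_of_isUnramifiedAt` : if some prime `P ∣ v` of `L` is unramified, then `n ∣ ord_v(b)`;
* `kumram_isUnramifiedAt_of_dvd` : if `v ∤ n`, `n ∣ ord_v(b)` and `L = K(β)`, then every prime
  `P ∣ v` of `L` is unramified over `K`;
* `kumram_iff` : the equivalence, for `L = K(β)` and `v ∤ n`.

`ord_v(b)` is `WithZero.log (v.valuation K b)` (up to sign; only divisibility matters).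
No roots of unity are needed.  Helper lemmas are prefixed `kumram_`.
-/

set_option autoImplicit false

noncomputable section

namespace Fermat.Agent.S55

open NumberField IsDedekindDomain Polynomial

variable {K L : Type*} [Field K] [NumberField K] [Field L] [NumberField L] [Algebra K L]

/-- If `x : 𝓞 L` generates `L` over `K` and is a root of `g ∈ (𝓞 K)[X]`, then `g'(x)` lies in the
different ideal. -/
theorem kumram_aeval_derivative_mem_differentIdeal
    (x : 𝓞 L) (hx : Algebra.adjoin K {(x : L)} = ⊤) (g : (𝓞 K)[X]) (hg : aeval x g = 0) :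
    aeval x (derivative g) ∈ differentIdeal (𝓞 K) (𝓞 L) := by
  have hint : IsIntegral (𝓞 K) x := Algebra.IsIntegral.isIntegral x
  obtain ⟨h, rfl⟩ := minpoly.isIntegrallyClosed_dvd hint hg
  rw [derivative_mul, map_add, map_mul, map_mul, minpoly.aeval, zero_mul, add_zero]
  exact Ideal.mul_mem_right _ _ (aeval_derivative_mem_differentIdeal (𝓞 K) K L x hx)

attribute [local instance] FractionRing.liftAlgebra FractionRing.isScalarTower_liftAlgebra in
/-- A prime not containing the different ideal is unramified. -/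
theorem kumram_isUnramifiedAt_of_not_le (P : Ideal (𝓞 L)) [P.IsPrime]
    (h : ¬ differentIdeal (𝓞 K) (𝓞 L) ≤ P) : Algebra.IsUnramifiedAt (𝓞 K) P := by
  rw [← not_dvd_differentIdeal_iff, Ideal.dvd_iff_le]
  exact h

/-- Modulo `n`-th powers, an element whose `v`-adic valuation is divisible by `n` is represented by
an integer which is a `v`-unit. -/
theorem kumram_exists_unit_rep (v : HeightOneSpectrum (𝓞 K)) {n : ℕ} (hn0 : n ≠ 0) {b : K}
    (hb : b ≠ 0) (hdvd : (n : ℤ) ∣ WithZero.log (v.valuation K b)) :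
    ∃ c : K, c ≠ 0 ∧ ∃ b' : 𝓞 K, b' ∉ v.asIdeal ∧ algebraMap (𝓞 K) K b' = b * c ^ n := by
  obtain ⟨k, hk⟩ := hdvd
  obtain ⟨π, hπ⟩ := v.valuation_exists_uniformizer K
  have hπ0 : π ≠ 0 := by
    intro h0
    rw [h0, map_zero] at hπ
    exact WithZero.exp_ne_zero hπ.symm
  have hvb : v.valuation K b ≠ 0 := (Valuation.ne_zero_iff _).mpr hb
  -- `b₂ = b * (π ^ k) ^ n` is a `v`-unit
  have hb2 : v.valuation K (b * (π ^ k) ^ n) = 1 := by
    rw [map_mul, map_pow, map_zpow₀, hπ, ← WithZero.exp_zsmul, ← WithZero.exp_nsmul,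
      ← WithZero.exp_log hvb, ← WithZero.exp_add, hk, WithZero.exp_eq_one]
    simp only [smul_eq_mul, nsmul_eq_mul]
    ring
  obtain ⟨x₂, y₂, hxy⟩ := v.exists_primeCompl_mul_eq_of_integer (b * (π ^ k) ^ n) hb2.le
  have hy₂ : (y₂ : 𝓞 K) ∉ v.asIdeal := y₂.2
  have hx₂ : x₂ ∉ v.asIdeal := by
    rw [← v.valuation_eq_one_iff_notMem (K := K), ← hxy, map_mul, hb2, one_mul,
      v.valuation_eq_one_iff_notMem]
    exact hy₂
  have hy₂0 : algebraMap (𝓞 K) K (y₂ : 𝓞 K) ≠ 0 := by
    intro h0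
    apply hy₂
    have : (y₂ : 𝓞 K) = 0 := (FaithfulSMul.algebraMap_injective (𝓞 K) K) (by rw [h0, map_zero])
    rw [this]
    exact v.asIdeal.zero_mem
  refine ⟨π ^ k * algebraMap (𝓞 K) K (y₂ : 𝓞 K), mul_ne_zero (zpow_ne_zero k hπ0) hy₂0, ?_⟩
  have hn : 0 < n := Nat.pos_of_ne_zero hn0
  refine ⟨x₂ * (y₂ : 𝓞 K) ^ (n - 1), ?_, ?_⟩
  · intro hmem
    rcases (v.isPrime.mem_or_mem hmem) with h | h
    · exact hx₂ h
    · exact hy₂ (v.isPrime.mem_of_pow_mem _ h)
  · rw [map_mul, map_pow, ← hxy, mul_pow]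
    have : algebraMap (𝓞 K) K (y₂ : 𝓞 K) ^ n =
        algebraMap (𝓞 K) K (y₂ : 𝓞 K) * algebraMap (𝓞 K) K (y₂ : 𝓞 K) ^ (n - 1) := by
      rw [← pow_succ', Nat.sub_add_cancel hn]
    rw [this]
    ring

/-- **Kummer ramification criterion, unramified direction.**  If `v ∤ n`, `n ∣ ord_v(b)` and
`L = K(β)` with `βⁿ = b`, then every prime of `L` above `v` is unramified over `K`. -/
theorem kumram_isUnramifiedAt_of_dvd (v : HeightOneSpectrum (𝓞 K)) {n : ℕ}
    (hn : (n : 𝓞 K) ∉ v.asIdeal) {b : K} (hb : b ≠ 0)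
    (hdvd : (n : ℤ) ∣ WithZero.log (v.valuation K b)) {β : L} (hβ : β ^ n = algebraMap K L b)
    (htop : IntermediateField.adjoin K {β} = ⊤) (P : Ideal (𝓞 L)) [P.IsPrime]
    [P.LiesOver v.asIdeal] : Algebra.IsUnramifiedAt (𝓞 K) P := by
  have hn0 : n ≠ 0 := by
    rintro rfl
    exact hn (by simp)
  obtain ⟨c, hc, b', hb', hbc⟩ := kumram_exists_unit_rep v hn0 hb hdvd
  have hcL : algebraMap K L c ≠ 0 := by
    rw [Ne, map_eq_zero]
    exact hc
  -- the integral generator `β' = β * c`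
  have hβ' : (β * algebraMap K L c) ^ n = algebraMap (𝓞 K) L b' := by
    rw [mul_pow, hβ, ← map_pow, ← map_mul, ← hbc, ← IsScalarTower.algebraMap_apply]
  have hint : IsIntegral (𝓞 K) (β * algebraMap K L c) := by
    refine ⟨X ^ n - C b', monic_X_pow_sub_C b' hn0, ?_⟩
    rw [eval₂_sub, eval₂_pow, eval₂_X, eval₂_C, hβ', sub_self]
  set x : 𝓞 L := IsIntegralClosure.mk' (𝓞 L) (β * algebraMap K L c) hint with hxdef
  have hx : algebraMap (𝓞 L) L x = β * algebraMap K L c := IsIntegralClosure.algebraMap_mk' _ _ _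
  have hxn : x ^ n = algebraMap (𝓞 K) (𝓞 L) b' := by
    apply FaithfulSMul.algebraMap_injective (𝓞 L) L
    rw [map_pow, hx, hβ', ← IsScalarTower.algebraMap_apply]
  -- `x` generates `L`
  have hgen : Algebra.adjoin K {((x : 𝓞 L) : L)} = ⊤ := by
    have halg : IsAlgebraic K ((x : 𝓞 L) : L) := Algebra.IsAlgebraic.isAlgebraic _
    rw [← IntermediateField.adjoin_simple_toSubalgebra_of_isAlgebraic halg,
      ← IntermediateField.top_toSubalgebra]
    congr 1
    rw [eq_top_iff, ← htop, IntermediateField.adjoin_simple_le_iff]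
    have hβx : β = ((x : 𝓞 L) : L) * algebraMap K L c⁻¹ := by
      show β = algebraMap (𝓞 L) L x * algebraMap K L c⁻¹
      rw [hx, map_inv₀, mul_assoc, mul_inv_cancel₀ hcL, mul_one]
    rw [hβx]
    exact mul_mem (IntermediateField.mem_adjoin_simple_self K _)
      (IntermediateField.algebraMap_mem _ _)
  -- the derivative of `Xⁿ - b'` at `x`
  have hg : aeval x (X ^ n - C b' : (𝓞 K)[X]) = 0 := by
    rw [map_sub, map_pow, aeval_X, aeval_C, hxn, sub_self]
  have hmem := kumram_aeval_derivative_mem_differentIdeal x hgen _ hg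
  rw [derivative_sub, derivative_C, sub_zero, derivative_X_pow, map_mul, map_pow, aeval_X,
    aeval_C] at hmem
  -- it is not in `P`
  have hnP : algebraMap (𝓞 K) (𝓞 L) (n : 𝓞 K) ∉ P := by
    intro h
    apply hn
    rw [Ideal.LiesOver.over (p := v.asIdeal) (P := P), Ideal.mem_comap]
    exact h
  have hxP : x ∉ P := by
    intro h
    apply hb'
    rw [Ideal.LiesOver.over (p := v.asIdeal) (P := P), Ideal.mem_comap, ← hxn]
    exact Ideal.pow_mem_of_mem P h n (Nat.pos_of_ne_zero hn0)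
  apply kumram_isUnramifiedAt_of_not_le
  intro hle
  rcases Ideal.IsPrime.mem_or_mem inferInstance (hle hmem) with h | h
  · exact hnP h
  · exact hxP (Ideal.IsPrime.mem_of_pow_mem inferInstance _ h)

/-- **Kummer ramification criterion, ramified direction.**  If a prime `P ∣ v` of `L` is unramified
over `K` and `b = βⁿ` with `β ∈ L`, then `n ∣ ord_v(b)`. -/
theorem kumram_dvd_of_isUnramifiedAt (v : HeightOneSpectrum (𝓞 K)) (P : Ideal (𝓞 L)) [P.IsPrime]
    [P.LiesOver v.asIdeal] (hP : Algebra.IsUnramifiedAt (𝓞 K) P) {n : ℕ} {b : K}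
    {β : L} (hβ : β ^ n = algebraMap K L b) :
    (n : ℤ) ∣ WithZero.log (v.valuation K b) := by
  rcases Nat.eq_zero_or_pos n with rfl | hnpos
  · rw [pow_zero] at hβ
    have hb1 : b = 1 := (algebraMap K L).injective (by rw [← hβ, map_one])
    rw [hb1, map_one, WithZero.log_one]
    exact dvd_zero _
  have hPbot : P ≠ ⊥ := Ideal.ne_bot_of_liesOver_of_ne_bot v.ne_bot P
  let w : HeightOneSpectrum (𝓞 L) := ⟨P, inferInstance, hPbot⟩
  have : w.asIdeal.LiesOver v.asIdeal := ‹P.LiesOver v.asIdeal›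
  have he : v.asIdeal.ramificationIdx' w.asIdeal = 1 := by
    rw [Ideal.ramificationIdx'_eq_ramificationIdx v.asIdeal w.asIdeal v.ne_bot]
    exact Ideal.ramificationIdx_eq_one_of_isUnramifiedAt
  have h1 := HeightOneSpectrum.valuation_liesOver L v w b
  rw [he, pow_one, ← hβ, map_pow] at h1
  refine ⟨WithZero.log (w.valuation L β), ?_⟩
  rw [h1, WithZero.log_pow, nsmul_eq_mul]

/-- **Kummer ramification criterion.**  For `L = K(β)`, `βⁿ = b`, and a prime `v ∤ n` of `K`:
`v` is unramified in `L` iff `n ∣ ord_v(b)`. -/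
theorem kumram_iff (v : HeightOneSpectrum (𝓞 K)) {n : ℕ} (hn : (n : 𝓞 K) ∉ v.asIdeal) {b : K}
    (hb : b ≠ 0) {β : L} (hβ : β ^ n = algebraMap K L b)
    (htop : IntermediateField.adjoin K {β} = ⊤) :
    (∀ (P : Ideal (𝓞 L)) [P.IsPrime], P.LiesOver v.asIdeal → Algebra.IsUnramifiedAt (𝓞 K) P) ↔
      (n : ℤ) ∣ WithZero.log (v.valuation K b) := by
  constructor
  · intro h
    obtain ⟨P, hPmax, hPover⟩ := Ideal.exists_maximal_ideal_liesOver_of_isIntegral
      (S := 𝓞 L) v.asIdeal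
    have := hPmax.isPrime
    exact kumram_dvd_of_isUnramifiedAt v P (h P hPover) hβ
  · intro h P _ hP
    exact kumram_isUnramifiedAt_of_dvd v hn hb h hβ htop P

end Fermat.Agent.S55
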