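/-
S55 / LOCAL BRIDGE: definitions (sorry-free).  Smooth cohomology (helper29's `Top/Levels`,
`Top/Cochains`) of open subgroups of the absolute Galois group `Gal(ℚ̄_q/ℚ_q)` versus the
finite-level local class field theory of `LocalInv` / `LocalKummerSpec`.

* `lbGal q`              : `PadicAlgCl q ≃ₐ[ℚ_[q]] PadicAlgCl q` (defeq to the Prelude's
                           `primeLocalGaloisGroup`)
* `lbLevels q`           : the level structure "fixing subgroups of finite subextensions"
* `lbAlgebra h`          : `Algebra ↥E ↥M` for `E ≤ M` (reducible def, same shape as helper2's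
                           `lgFieldAlgebra`: inclusion)
* `lbRes h`              : restriction `↥E.fixingSubgroup →* Gal(M/E)`
* `IsMuRep ζ V ρ`        : `ρ` is the action of `V` on `μ_p = ⟨ζ⟩` written additively on `ZMod p`
* `lbMulCochain ζM c`    : the multiplicative cochain `ζ^c`
* `lbKumFun ζ E a`       : the Kummer cocycle `σ ↦ j`, `σ α = ζ^j α`, `α^p = a`
-/
import Fermat.Agent.S55.Top.Cochains
import Fermat.Agent.S55.LocalDefs

set_option autoImplicit false
set_option linter.style.haveILetI false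

namespace Fermat.Agent.S55

/-- The absolute Galois group of `ℚ_q`. -/
abbrev lbGal (q : ℕ) [Fact q.Prime] : Type := PadicAlgCl q ≃ₐ[ℚ_[q]] PadicAlgCl q

section Lev

variable (q : ℕ) [Fact q.Prime]

/-- The open subgroups of `Gal(ℚ̄_q/ℚ_q)`: fixing subgroups of finite subextensions. -/
def lbLevels : Levels (lbGal q) where
  IsLevel U := ∃ E : IntermediateField ℚ_[q] (PadicAlgCl q),
    FiniteDimensional ℚ_[q] E ∧ U = E.fixingSubgroup
  exists_level := ⟨_, ⊥, inferInstance, rfl⟩
  exists_le_inf := by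
    rintro _ _ ⟨E, hE, rfl⟩ ⟨E', hE', rfl⟩
    refine ⟨_, ⟨E ⊔ E', inferInstance, rfl⟩, ?_⟩
    rw [IntermediateField.fixingSubgroup_sup]
  exists_normal_le := by
    rintro _ ⟨E, hE, rfl⟩
    have hN : Normal ℚ_[q] (IntermediateField.normalClosure ℚ_[q] E (PadicAlgCl q)) :=
      inferInstance
    have hG : IsGalois ℚ_[q] (IntermediateField.normalClosure ℚ_[q] E (PadicAlgCl q)) :=
      { to_normal := hN }
    refine ⟨_, ⟨IntermediateField.normalClosure ℚ_[q] E (PadicAlgCl q), inferInstance, rfl⟩,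
      inferInstance, ?_⟩
    exact IntermediateField.fixingSubgroup_antitone (IntermediateField.le_normalClosure E)
  finiteIndex := by
    rintro _ ⟨E, hE, rfl⟩
    refine ⟨?_⟩
    rw [← IntermediateField.finrank_eq_fixingSubgroup_index]
    exact Module.finrank_pos.ne'

theorem lbLevels_isLevel_iff (U : Subgroup (lbGal q)) :
    (lbLevels q).IsLevel U ↔ ∃ E : IntermediateField ℚ_[q] (PadicAlgCl q),
      FiniteDimensional ℚ_[q] E ∧ U = E.fixingSubgroup := Iff.rfl

end Lev

section Fields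

variable {q : ℕ} [Fact q.Prime] {E M : IntermediateField ℚ_[q] (PadicAlgCl q)}

/-- `M` as an algebra over `E ≤ M` (inclusion).  NOT an instance: `letI := lbAlgebra h`. -/
@[reducible] noncomputable def lbAlgebra (h : E ≤ M) : Algebra ↥E ↥M :=
  (IntermediateField.inclusion h).toRingHom.toAlgebra

theorem lb_isScalarTower_bot (h : E ≤ M) :
    letI := lbAlgebra h
    IsScalarTower ℚ_[q] ↥E ↥M :=
  letI := lbAlgebra h
  IsScalarTower.of_algebraMap_eq (fun _ => rfl)

theorem lb_isScalarTower_top (h : E ≤ M) :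
    letI := lbAlgebra h
    IsScalarTower ↥E ↥M (PadicAlgCl q) :=
  letI := lbAlgebra h
  IsScalarTower.of_algebraMap_eq (fun _ => rfl)

/-- Restriction `Gal(ℚ̄_q/E) → Gal(M/E)` for `M/E` normal, on the subgroup `E.fixingSubgroup`. -/
noncomputable def lbRes (h : E ≤ M)
    (hn : letI := lbAlgebra h; Normal ↥E ↥M) :
    letI := lbAlgebra h
    ↥E.fixingSubgroup →* (↥M ≃ₐ[↥E] ↥M) :=
  letI := lbAlgebra h
  haveI := lb_isScalarTower_top h
  haveI := hn
  (AlgEquiv.restrictNormalHom (F := ↥E) (K₁ := PadicAlgCl q) ↥M).comp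
    (IntermediateField.fixingSubgroupEquiv E).toMonoidHom

theorem lbRes_apply (h : E ≤ M) (hn : letI := lbAlgebra h; Normal ↥E ↥M)
    (σ : ↥E.fixingSubgroup) (x : ↥M) :
    letI := lbAlgebra h
    ((lbRes h hn σ x : ↥M) : PadicAlgCl q) = (σ : lbGal q) (x : PadicAlgCl q) := by
  letI := lbAlgebra h
  haveI := lb_isScalarTower_top h
  haveI := hn
  exact AlgEquiv.restrictNormal_commutes (IntermediateField.fixingSubgroupEquiv E σ) ↥M x

end Fields

section Mu

variable {q : ℕ} [Fact q.Prime] {p : ℕ} [NeZero p]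

/-- `ρ` is the action of `V` on `μ_p = ⟨ζ⟩`, written additively: `σ (ζ^x) = ζ^(ρ σ x)`. -/
def IsMuRep (ζ : PadicAlgCl q) (V : Subgroup (lbGal q))
    (ρ : Representation (ZMod p) ↥V (ZMod p)) : Prop :=
  ∀ (σ : ↥V) (x : ZMod p), (σ : lbGal q) (ζ ^ x.val) = ζ ^ (ρ σ x).val

/-- The multiplicative `2`-cochain `ζ^c` attached to a `ZMod p`-valued cochain `c`. -/
noncomputable def lbMulCochain {G M : Type} [Field M] (ζ : Mˣ) (c : G × G → ZMod p) : G × G → Mˣ :=
  fun s => ζ ^ (c s).val

/-- The multiplicative `1`-cochain `ζ^x`. -/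
noncomputable def lbMulCochain₁ {G M : Type} [Field M] (ζ : Mˣ) (x : G → ZMod p) : G → Mˣ :=
  fun s => ζ ^ (x s).val

/-- A chosen `p`-th root of `a` in `ℚ̄_q`. -/
noncomputable def lbRoot (p : ℕ) [NeZero p] (a : PadicAlgCl q) : PadicAlgCl q :=
  Classical.choose (IsAlgClosed.exists_pow_nat_eq a (Nat.pos_of_ne_zero (NeZero.ne p)))

theorem lbRoot_pow (a : PadicAlgCl q) : lbRoot p a ^ p = a :=
  Classical.choose_spec (IsAlgClosed.exists_pow_nat_eq a (Nat.pos_of_ne_zero (NeZero.ne p)))

/-- The Kummer cocycle of `a`: `σ ↦ j` with `σ α = ζ^j α`, `α = lbRoot p a` (junk `0` if there is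
no such `j`; for `ζ` a primitive `p`-th root of unity and `a ≠ 0` there is a unique `j < p`). -/
noncomputable def lbKumFun (ζ : PadicAlgCl q) (V : Subgroup (lbGal q)) (a : PadicAlgCl q) :
    ↥V → ZMod p :=
  fun σ => ((sInf {j : ℕ | (σ : lbGal q) (lbRoot p a) = ζ ^ j * lbRoot p a} : ℕ) : ZMod p)

end Mu

end Fermat.Agent.S55
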