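/-
S55 / LOCAL BRIDGE, leaf LB0: infinite Galois theory of `Ω/ℚ_q` (`Ω = PadicAlgCl q`) in the
language of levels: open subgroups = fixing subgroups of finite subextensions, `[V : V'] = [E' : E]`,
`lbRes` surjective with kernel, finite Galois layers, factorisation of smooth 1- and 2-cochains
through finite Galois layers, compatibility `lfGalRes ∘ lbRes`.
-/
import Fermat.Agent.S55.LocalBridgeDefs
import Fermat.Agent.S55.LocalBrauerDefs

set_option autoImplicit false
set_option linter.style.haveILetI false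

namespace Fermat.Agent.S55

open groupCohomology

theorem lb_finiteDimensional_of_le {k K : Type*} [Field k] [Field K] [Algebra k K]
    {E E' : IntermediateField k K} (h : E ≤ E') [FiniteDimensional k E'] :
    FiniteDimensional k E :=
  FiniteDimensional.of_injective (IntermediateField.inclusion h).toLinearMap
    (IntermediateField.inclusion_injective h)

section Galois

variable (q : ℕ) [Fact q.Prime]

/-- Open subgroups are exactly the fixing subgroups of finite subextensions. -/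
theorem lb_isOpen_iff (V : Subgroup (lbGal q)) :
    (lbLevels q).IsOpen V ↔ ∃ E : IntermediateField ℚ_[q] (PadicAlgCl q),
      FiniteDimensional ℚ_[q] E ∧ V = E.fixingSubgroup := by
  constructor
  · rintro ⟨U, ⟨E₀, hE₀, rfl⟩, hle⟩
    have hopen : IsOpen (V : Set (lbGal q)) :=
      Subgroup.isOpen_mono hle (IntermediateField.fixingSubgroup_isOpen E₀)
    have hclosed : IsClosed (V : Set (lbGal q)) := Subgroup.isClosed_of_isOpen V hopen
    have hfix : (IntermediateField.fixedField V).fixingSubgroup = V :=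
      InfiniteGalois.fixingSubgroup_fixedField ⟨V, hclosed⟩
    have hle' : IntermediateField.fixedField V ≤ E₀ := by
      rw [← InfiniteGalois.fixedField_fixingSubgroup E₀]
      exact IntermediateField.fixedField_antitone hle
    exact ⟨IntermediateField.fixedField V,
      lb_finiteDimensional_of_le hle', hfix.symm⟩
  · rintro ⟨E, hE, rfl⟩
    exact ⟨E.fixingSubgroup, ⟨E, hE, rfl⟩, le_rfl⟩

theorem lb_fixingSubgroup_le_iff (E E' : IntermediateField ℚ_[q] (PadicAlgCl q)) :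
    E'.fixingSubgroup ≤ E.fixingSubgroup ↔ E ≤ E' := by
  rw [← IntermediateField.le_iff_le, InfiniteGalois.fixedField_fixingSubgroup]

/-- `[V : V'] = [E' : E]`. -/
theorem lb_relIndex_fixingSubgroup {E E' : IntermediateField ℚ_[q] (PadicAlgCl q)}
    [FiniteDimensional ℚ_[q] E'] (h : E ≤ E') :
    letI := lbAlgebra h
    E'.fixingSubgroup.relIndex E.fixingSubgroup = Module.finrank ↥E ↥E' := by
  letI := lbAlgebra h
  haveI := lb_isScalarTower_bot h
  haveI : FiniteDimensional ℚ_[q] E := lb_finiteDimensional_of_le h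
  have h1 := Subgroup.relIndex_mul_index ((lb_fixingSubgroup_le_iff q E E').2 h)
  rw [← IntermediateField.finrank_eq_fixingSubgroup_index,
    ← IntermediateField.finrank_eq_fixingSubgroup_index,
    ← Module.finrank_mul_finrank ℚ_[q] ↥E ↥E', mul_comm] at h1
  exact Nat.eq_of_mul_eq_mul_left Module.finrank_pos h1

variable {q}
variable {E M : IntermediateField ℚ_[q] (PadicAlgCl q)}

theorem lbRes_surjective (h : E ≤ M) (hn : letI := lbAlgebra h; Normal ↥E ↥M) :
    Function.Surjective (lbRes h hn) := by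
  letI := lbAlgebra h
  haveI := lb_isScalarTower_top h
  haveI := hn
  haveI : Normal ↥E (PadicAlgCl q) := Normal.tower_top_of_normal ℚ_[q] ↥E (PadicAlgCl q)
  intro τ
  obtain ⟨σ, hσ⟩ := AlgEquiv.restrictNormalHom_surjective (F := ↥E) (PadicAlgCl q) τ
  exact ⟨(IntermediateField.fixingSubgroupEquiv E).symm σ, by
    show AlgEquiv.restrictNormalHom (F := ↥E) (K₁ := PadicAlgCl q) ↥M
      ((IntermediateField.fixingSubgroupEquiv E) ((IntermediateField.fixingSubgroupEquiv E).symm σ))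
        = τ
    rw [MulEquiv.apply_symm_apply, hσ]⟩

theorem lbRes_eq_one_iff (h : E ≤ M) (hn : letI := lbAlgebra h; Normal ↥E ↥M)
    (σ : ↥E.fixingSubgroup) : lbRes h hn σ = 1 ↔ (σ : lbGal q) ∈ M.fixingSubgroup := by
  letI := lbAlgebra h
  constructor
  · intro h1
    rw [IntermediateField.mem_fixingSubgroup_iff]
    intro x hx
    have h2 := lbRes_apply h hn σ ⟨x, hx⟩
    rw [h1] at h2
    exact h2.symm
  · intro h1
    rw [IntermediateField.mem_fixingSubgroup_iff] at h1
    ext x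
    rw [lbRes_apply h hn σ x, AlgEquiv.one_apply]
    exact h1 x x.2

theorem lbRes_ker (h : E ≤ M) (hn : letI := lbAlgebra h; Normal ↥E ↥M) :
    (lbRes h hn).ker = M.fixingSubgroup.subgroupOf E.fixingSubgroup := by
  ext σ
  rw [MonoidHom.mem_ker, lbRes_eq_one_iff, Subgroup.mem_subgroupOf]

/-- Every level of `V = E.fixingSubgroup` contains the kernel of `lbRes` for a finite Galois layer
`M/E`, which can be taken to contain a given finite `M₀`. -/
theorem lb_exists_layer (E : IntermediateField ℚ_[q] (PadicAlgCl q)) [FiniteDimensional ℚ_[q] E]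
    (U : Subgroup ↥E.fixingSubgroup) (hU : ((lbLevels q).sub E.fixingSubgroup).IsLevel U)
    (M₀ : IntermediateField ℚ_[q] (PadicAlgCl q)) [FiniteDimensional ℚ_[q] M₀] :
    ∃ (M : IntermediateField ℚ_[q] (PadicAlgCl q)) (h : E ≤ M),
      M₀ ≤ M ∧ FiniteDimensional ℚ_[q] M ∧ (letI := lbAlgebra h; IsGalois ↥E ↥M) ∧
      M.fixingSubgroup.subgroupOf E.fixingSubgroup ≤ U := by
  obtain ⟨U', ⟨E₁, hE₁, rfl⟩, rfl⟩ := hU
  have hle : E ⊔ E₁ ⊔ M₀ ≤ IntermediateField.normalClosure ℚ_[q] ↥(E ⊔ E₁ ⊔ M₀) (PadicAlgCl q) :=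
    IntermediateField.le_normalClosure _
  have hE : E ≤ IntermediateField.normalClosure ℚ_[q] ↥(E ⊔ E₁ ⊔ M₀) (PadicAlgCl q) :=
    (le_sup_left.trans le_sup_left).trans hle
  have hE₁' : E₁ ≤ IntermediateField.normalClosure ℚ_[q] ↥(E ⊔ E₁ ⊔ M₀) (PadicAlgCl q) :=
    (le_sup_right.trans le_sup_left).trans hle
  refine ⟨IntermediateField.normalClosure ℚ_[q] ↥(E ⊔ E₁ ⊔ M₀) (PadicAlgCl q), hE,
    le_sup_right.trans hle, inferInstance, ?_, ?_⟩
  · letI := lbAlgebra hE
    haveI := lb_isScalarTower_bot hE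
    haveI : IsGalois ℚ_[q]
        ↥(IntermediateField.normalClosure ℚ_[q] ↥(E ⊔ E₁ ⊔ M₀) (PadicAlgCl q)) :=
      { to_normal := inferInstance }
    exact IsGalois.tower_top_of_isGalois ℚ_[q] ↥E _
  · exact Subgroup.comap_mono (IntermediateField.fixingSubgroup_antitone hE₁')

set_option linter.unusedVariables false in
/-- Conversely the kernel of `lbRes` is a level (for `M` finite). -/
theorem lb_isLevel_ker [FiniteDimensional ℚ_[q] M] (h : E ≤ M) :
    ((lbLevels q).sub E.fixingSubgroup).IsLevel (M.fixingSubgroup.subgroupOf E.fixingSubgroup) :=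
  ⟨M.fixingSubgroup, ⟨M, inferInstance, rfl⟩, rfl⟩

/-- two elements with the same image under `lbRes` differ by an element of the kernel -/
theorem lbRes_inv_mul_mem (h : E ≤ M) (hn : letI := lbAlgebra h; Normal ↥E ↥M)
    (σ σ' : ↥E.fixingSubgroup) (hσ : lbRes h hn σ' = lbRes h hn σ) :
    σ⁻¹ * σ' ∈ M.fixingSubgroup.subgroupOf E.fixingSubgroup := by
  rw [← lbRes_ker h hn, MonoidHom.mem_ker, map_mul, map_inv, hσ, inv_mul_cancel]

/-- Factorisation of smooth `1`-cochains through a finite Galois layer. -/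
theorem lb_exists_factor₁ {X : Type*} (E : IntermediateField ℚ_[q] (PadicAlgCl q))
    [FiniteDimensional ℚ_[q] E] (f : ↥E.fixingSubgroup → X)
    (hf : IsLC₁ ((lbLevels q).sub E.fixingSubgroup) f)
    (M₀ : IntermediateField ℚ_[q] (PadicAlgCl q)) [FiniteDimensional ℚ_[q] M₀] :
    ∃ (M : IntermediateField ℚ_[q] (PadicAlgCl q)) (h : E ≤ M) (_ : M₀ ≤ M)
      (_ : FiniteDimensional ℚ_[q] M) (hg : letI := lbAlgebra h; IsGalois ↥E ↥M),
      letI := lbAlgebra h
      ∃ f' : (↥M ≃ₐ[↥E] ↥M) → X, ∀ σ, f σ = f' (lbRes h hg.to_normal σ) := by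
  obtain ⟨U, hU, hfU⟩ := hf
  obtain ⟨M, h, hM₀, hfin, hg, hle⟩ := lb_exists_layer E U hU M₀
  refine ⟨M, h, hM₀, hfin, hg, ?_⟩
  letI := lbAlgebra h
  have hsurj := lbRes_surjective h hg.to_normal
  refine ⟨fun τ => f (Function.surjInv hsurj τ), fun σ => ?_⟩
  have h1 : lbRes h hg.to_normal (Function.surjInv hsurj (lbRes h hg.to_normal σ))
      = lbRes h hg.to_normal σ := Function.surjInv_eq hsurj _
  have h2 := hfU σ _ (hle (lbRes_inv_mul_mem h hg.to_normal σ _ h1))
  rw [mul_inv_cancel_left] at h2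
  exact h2.symm

/-- Factorisation of smooth `2`-cochains through a finite Galois layer. -/
theorem lb_exists_factor₂ {X : Type*} (E : IntermediateField ℚ_[q] (PadicAlgCl q))
    [FiniteDimensional ℚ_[q] E] (f : ↥E.fixingSubgroup × ↥E.fixingSubgroup → X)
    (hf : IsLC₂ ((lbLevels q).sub E.fixingSubgroup) f)
    (M₀ : IntermediateField ℚ_[q] (PadicAlgCl q)) [FiniteDimensional ℚ_[q] M₀] :
    ∃ (M : IntermediateField ℚ_[q] (PadicAlgCl q)) (h : E ≤ M) (_ : M₀ ≤ M)
      (_ : FiniteDimensional ℚ_[q] M) (hg : letI := lbAlgebra h; IsGalois ↥E ↥M),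
      letI := lbAlgebra h
      ∃ f' : (↥M ≃ₐ[↥E] ↥M) × (↥M ≃ₐ[↥E] ↥M) → X,
        ∀ s, f s = f' (lbRes h hg.to_normal s.1, lbRes h hg.to_normal s.2) := by
  obtain ⟨U, hU, hfU⟩ := hf
  obtain ⟨M, h, hM₀, hfin, hg, hle⟩ := lb_exists_layer E U hU M₀
  refine ⟨M, h, hM₀, hfin, hg, ?_⟩
  letI := lbAlgebra h
  have hsurj := lbRes_surjective h hg.to_normal
  refine ⟨fun τ => f (Function.surjInv hsurj τ.1, Function.surjInv hsurj τ.2), ?_⟩
  rintro ⟨σ, σ'⟩
  have h1 : lbRes h hg.to_normal (Function.surjInv hsurj (lbRes h hg.to_normal σ))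
      = lbRes h hg.to_normal σ := Function.surjInv_eq hsurj _
  have h1' : lbRes h hg.to_normal (Function.surjInv hsurj (lbRes h hg.to_normal σ'))
      = lbRes h hg.to_normal σ' := Function.surjInv_eq hsurj _
  have h2 := hfU σ σ' _ _ (hle (lbRes_inv_mul_mem h hg.to_normal σ _ h1))
    (hle (lbRes_inv_mul_mem h hg.to_normal σ' _ h1'))
  rw [mul_inv_cancel_left, mul_inv_cancel_left] at h2
  exact h2.symm

/-- Cochains pulled back from a finite layer are smooth. -/
theorem lb_isLC₁_lbRes {X : Type*} [FiniteDimensional ℚ_[q] M] (h : E ≤ M)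
    (hn : letI := lbAlgebra h; Normal ↥E ↥M)
    (f' : (letI := lbAlgebra h; ↥M ≃ₐ[↥E] ↥M) → X) :
    IsLC₁ ((lbLevels q).sub E.fixingSubgroup) (fun σ => f' (lbRes h hn σ)) := by
  refine ⟨_, lb_isLevel_ker h, fun g s hs => ?_⟩
  have hs1 : lbRes h hn s = 1 := by
    rw [← MonoidHom.mem_ker, lbRes_ker]
    exact hs
  show f' (lbRes h hn (g * s)) = f' (lbRes h hn g)
  rw [map_mul, hs1, mul_one]

theorem lb_isLC₂_lbRes {X : Type*} [FiniteDimensional ℚ_[q] M] (h : E ≤ M)
    (hn : letI := lbAlgebra h; Normal ↥E ↥M)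
    (f' : (letI := lbAlgebra h; (↥M ≃ₐ[↥E] ↥M) × (↥M ≃ₐ[↥E] ↥M)) → X) :
    IsLC₂ ((lbLevels q).sub E.fixingSubgroup)
      (fun s => f' (lbRes h hn s.1, lbRes h hn s.2)) := by
  refine ⟨_, lb_isLevel_ker h, fun g g' s s' hs hs' => ?_⟩
  have hs1 : lbRes h hn s = 1 := by
    rw [← MonoidHom.mem_ker, lbRes_ker]
    exact hs
  have hs1' : lbRes h hn s' = 1 := by
    rw [← MonoidHom.mem_ker, lbRes_ker]
    exact hs'
  show f' (lbRes h hn (g * s), lbRes h hn (g' * s')) = f' (lbRes h hn g, lbRes h hn g')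
  rw [map_mul, map_mul, hs1, hs1', mul_one, mul_one]

/-- Compatibility of `lbRes` with a commutative square `E ≤ M`, `E' ≤ M'`, `E ≤ E'`, `M ≤ M'`
(inflation: `E' = E`; restriction: `M' = M`): `lfGalRes` of `LocalBrauerDefs` on the finite layers
corresponds to the inclusion `E'.fixingSubgroup ≤ E.fixingSubgroup`. -/
theorem lfGalRes_lbRes {E M E' M' : IntermediateField ℚ_[q] (PadicAlgCl q)}
    (h : E ≤ M) (h' : E' ≤ M') (hE : E ≤ E') (hM : M ≤ M')
    (hn : letI := lbAlgebra h; Normal ↥E ↥M) (hn' : letI := lbAlgebra h'; Normal ↥E' ↥M')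
    (σ : ↥E'.fixingSubgroup) :
    letI := lbAlgebra h
    letI := lbAlgebra h'
    letI := lbAlgebra hE
    letI := lbAlgebra hM
    letI := lbAlgebra (hE.trans h')
    haveI : IsScalarTower ↥E ↥M ↥M' := IsScalarTower.of_algebraMap_eq (fun _ => rfl)
    haveI : IsScalarTower ↥E ↥E' ↥M' := IsScalarTower.of_algebraMap_eq (fun _ => rfl)
    haveI := hn
    lfGalRes ↥E ↥M ↥E' ↥M' (lbRes h' hn' σ) =
      lbRes h hn (Subgroup.inclusion ((lb_fixingSubgroup_le_iff q E E').2 hE) σ) := by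
  letI := lbAlgebra h
  letI := lbAlgebra h'
  letI := lbAlgebra hE
  letI := lbAlgebra hM
  letI := lbAlgebra (hE.trans h')
  haveI : IsScalarTower ↥E ↥M ↥M' := IsScalarTower.of_algebraMap_eq (fun _ => rfl)
  haveI : IsScalarTower ↥E ↥E' ↥M' := IsScalarTower.of_algebraMap_eq (fun _ => rfl)
  haveI := hn
  ext x
  have h1 := lfGalRes_commutes ↥E ↥M ↥E' ↥M' (lbRes h' hn' σ) x
  have h2 := lbRes_apply h' hn' σ (algebraMap ↥M ↥M' x)
  have h3 := lbRes_apply h hn (Subgroup.inclusion ((lb_fixingSubgroup_le_iff q E E').2 hE) σ) x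
  rw [h3]
  have h4 : ((lfGalRes ↥E ↥M ↥E' ↥M' (lbRes h' hn' σ) x : ↥M) : PadicAlgCl q)
      = ((algebraMap ↥M ↥M' (lfGalRes ↥E ↥M ↥E' ↥M' (lbRes h' hn' σ) x) : ↥M') : PadicAlgCl q) :=
    rfl
  rw [h4, h1, h2]
  rfl

end Galois

end Fermat.Agent.S55
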