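/-
S55 / LOCAL BRIDGE, leaf LB1, abstract part (no fields): an invariant defined on finite layers by
a compatible family `Inv i` descends to smooth `H²`.  Helper names are prefixed `lbinv`.
-/
import Fermat.Agent.S55.Top.Cochains

set_option autoImplicit false

namespace Fermat.Agent.S55

/-! ### `(1/p)ℤ/ℤ ≅ ZMod p` -/

section Phi

variable (p : ℕ) [Fact p.Prime]

/-- `ZMod p → ℚ/ℤ`, `x ↦ x / p`. -/
noncomputable def lbinvPhi : ZMod p →+ AddCircle (1 : ℚ) :=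
  ZMod.lift p ⟨
    { toFun := fun n => (((n : ℚ) / (p : ℚ) : ℚ) : AddCircle (1 : ℚ))
      map_zero' := by simp
      map_add' := fun a b => by
        rw [← AddCircle.coe_add]
        congr 1
        push_cast
        ring }, by
    have hp : (p : ℚ) ≠ 0 := Nat.cast_ne_zero.mpr (Fact.out : p.Prime).ne_zero
    show (((((p : ℕ) : ℤ) : ℚ) / (p : ℚ) : ℚ) : AddCircle (1 : ℚ)) = 0
    rw [Int.cast_natCast, div_self hp]
    exact AddCircle.coe_period 1⟩

theorem lbinvPhi_apply (x : ZMod p) :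
    lbinvPhi p x = ((((x.val : ℕ) : ℚ) / (p : ℚ) : ℚ) : AddCircle (1 : ℚ)) := by
  have h1 : x = (((x.val : ℕ) : ℤ) : ZMod p) := by
    rw [Int.cast_natCast, ZMod.natCast_zmod_val]
  conv_lhs => rw [h1]
  rw [lbinvPhi, ZMod.lift_coe]
  show ((((((x.val : ℕ) : ℤ) : ℚ)) / (p : ℚ) : ℚ) : AddCircle (1 : ℚ)) = _
  rw [Int.cast_natCast]

theorem lbinvPhi_injective : Function.Injective (lbinvPhi p) := by
  rw [injective_iff_map_eq_zero]
  intro x hx
  have hp : (0 : ℚ) < (p : ℚ) := Nat.cast_pos.mpr (Fact.out : p.Prime).pos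
  rw [lbinvPhi_apply, AddCircle.coe_eq_zero_iff] at hx
  obtain ⟨n, hn⟩ := hx
  rw [zsmul_eq_mul, mul_one] at hn
  have h1 : ((x.val : ℕ) : ℚ) / (p : ℚ) < 1 := by
    rw [div_lt_one hp]
    exact_mod_cast ZMod.val_lt x
  have h0 : (0 : ℚ) ≤ ((x.val : ℕ) : ℚ) / (p : ℚ) := by positivity
  have hn0 : n = 0 := by
    have h2 : (n : ℚ) < 1 := hn ▸ h1
    have h3 : (0 : ℚ) ≤ (n : ℚ) := hn ▸ h0
    have h2' : n < 1 := by exact_mod_cast h2
    have h3' : 0 ≤ n := by exact_mod_cast h3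
    omega
  rw [hn0, Int.cast_zero] at hn
  have h4 : ((x.val : ℕ) : ℚ) = 0 := by
    rcases div_eq_zero_iff.mp hn.symm with h | h
    · exact h
    · exact absurd h hp.ne'
  have h5 : x.val = 0 := by exact_mod_cast h4
  exact (ZMod.val_eq_zero x).mp h5

theorem lbinvPhi_surjOn (r : AddCircle (1 : ℚ)) (hr : p • r = 0) : ∃ x, lbinvPhi p x = r := by
  have hp : (p : ℚ) ≠ 0 := Nat.cast_ne_zero.mpr (Fact.out : p.Prime).ne_zero
  obtain ⟨y, rfl⟩ := QuotientAddGroup.mk_surjective r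
  have h1 : ((p • y : ℚ) : AddCircle (1 : ℚ)) = 0 := by
    rw [AddCircle.coe_nsmul]
    exact hr
  rw [AddCircle.coe_eq_zero_iff] at h1
  obtain ⟨n, hn⟩ := h1
  rw [zsmul_eq_mul, mul_one, nsmul_eq_mul] at hn
  refine ⟨(n : ZMod p), ?_⟩
  rw [lbinvPhi, ZMod.lift_coe]
  show ((((n : ℚ)) / (p : ℚ) : ℚ) : AddCircle (1 : ℚ)) = _
  rw [hn, mul_div_cancel_left₀ _ hp]

end Phi

/-! ### the abstract descent -/

section Abstract

variable {G : Type*} [Group G] (𝓛 : Levels G) {p : ℕ} [Fact p.Prime]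
  (ρ : Representation (ZMod p) G (ZMod p))
  {I : Type*} (Γ : I → Type*) (π : ∀ i, G → Γ i)
  (Inv : ∀ i, (Γ i × Γ i → ZMod p) → AddCircle (1 : ℚ))

/-- An invariant given on the finite layers `Γ i` (via a compatible family `Inv i`, additive on
cocycles and vanishing on coboundaries) descends to a `ZMod p`-linear map on smooth `H²`. -/
theorem lbinv_exists_of_layers
    (h_factor : ∀ {X : Type} (f : G × G → X), IsLC₂ 𝓛 f →
      ∃ (i : I) (f' : Γ i × Γ i → X), ∀ s, f s = f' (π i s.1, π i s.2))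
    (h_add : ∀ (i : I) (c' c'' : Γ i × Γ i → ZMod p),
      dd2 ρ (fun s => c' (π i s.1, π i s.2)) = 0 → dd2 ρ (fun s => c'' (π i s.1, π i s.2)) = 0 →
      Inv i (c' + c'') = Inv i c' + Inv i c'')
    (h_cob : ∀ (i : I) (c' : Γ i × Γ i → ZMod p) (x' : Γ i → ZMod p),
      (fun s : G × G => c' (π i s.1, π i s.2)) = dd1 ρ (fun s => x' (π i s)) → Inv i c' = 0)
    (h_compat : ∀ (i j : I) (c' : Γ i × Γ i → ZMod p) (c'' : Γ j × Γ j → ZMod p),
      dd2 ρ (fun s => c' (π i s.1, π i s.2)) = 0 →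
      (∀ s : G × G, c' (π i s.1, π i s.2) = c'' (π j s.1, π j s.2)) → Inv i c' = Inv j c'') :
    ∃ inv : smH2 𝓛 ρ →ₗ[ZMod p] ZMod p,
      ∀ (i : I) (c' : Γ i × Γ i → ZMod p)
        (hc : (fun s : G × G => c' (π i s.1, π i s.2)) ∈ smZ2 𝓛 ρ),
        Inv i c' = (((((inv (smH2π 𝓛 ρ ⟨_, hc⟩)).val : ℕ) : ℚ) / (p : ℚ) : ℚ) :
          AddCircle (1 : ℚ)) := by
  classical
  -- `Inv i 0 = 0`
  have h_zero : ∀ i, Inv i 0 = 0 := fun i => h_cob i 0 0 (by
    have h1 : (fun _ : G => (0 : ZMod p)) = 0 := rfl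
    have h2 : (fun _ : G × G => (0 : ZMod p)) = 0 := rfl
    show (fun _ : G × G => (0 : ZMod p)) = dd1 ρ (fun _ => (0 : ZMod p))
    rw [h1, h2, map_zero])
  -- `n • Inv i c' = Inv i (n • c')` for cocycles
  have h_nsmul : ∀ (i : I) (c' : Γ i × Γ i → ZMod p),
      dd2 ρ (fun s => c' (π i s.1, π i s.2)) = 0 → ∀ n : ℕ, Inv i (n • c') = n • Inv i c' := by
    intro i c' hc' n
    induction n with
    | zero => rw [zero_smul, zero_smul, h_zero]
    | succ n ih =>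
      rw [succ_nsmul, succ_nsmul, h_add i (n • c') c' ?_ hc', ih]
      have h1 : (fun s : G × G => (n • c') (π i s.1, π i s.2))
          = n • (fun s : G × G => c' (π i s.1, π i s.2)) := rfl
      rw [h1, map_nsmul, hc', smul_zero]
  -- torsion
  have h_tors : ∀ (i : I) (c' : Γ i × Γ i → ZMod p),
      dd2 ρ (fun s => c' (π i s.1, π i s.2)) = 0 → p • Inv i c' = 0 := by
    intro i c' hc'
    rw [← h_nsmul i c' hc' p]
    have h1 : p • c' = 0 := by
      ext s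
      rw [Pi.smul_apply, Pi.zero_apply, nsmul_eq_mul, CharP.cast_eq_zero, zero_mul]
    rw [h1, h_zero]
  -- the value on a smooth cocycle
  have h_val : ∀ c : ↥(smZ2 𝓛 ρ), ∃ r : ZMod p, ∀ (i : I) (c' : Γ i × Γ i → ZMod p),
      (∀ s : G × G, (c : G × G → ZMod p) s = c' (π i s.1, π i s.2)) → Inv i c' = lbinvPhi p r := by
    rintro ⟨c, hc⟩
    obtain ⟨hc2, hcLC⟩ := (mem_smZ2 𝓛 ρ c).mp hc
    obtain ⟨i₀, c'₀, h₀⟩ := h_factor c hcLC
    have hcoc₀ : dd2 ρ (fun s => c'₀ (π i₀ s.1, π i₀ s.2)) = 0 := by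
      have h1 : (fun s : G × G => c'₀ (π i₀ s.1, π i₀ s.2)) = c := funext fun s => (h₀ s).symm
      rw [h1, hc2]
    obtain ⟨r, hr⟩ := lbinvPhi_surjOn p (Inv i₀ c'₀) (h_tors i₀ c'₀ hcoc₀)
    refine ⟨r, fun i c' h => ?_⟩
    rw [hr]
    exact (h_compat i₀ i c'₀ c' hcoc₀ fun s => (h₀ s).symm.trans (h s)).symm
  choose val hval using h_val
  -- additivity
  have hval_add : ∀ c₁ c₂ : ↥(smZ2 𝓛 ρ), val (c₁ + c₂) = val c₁ + val c₂ := by
    intro c₁ c₂
    apply lbinvPhi_injective p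
    rw [map_add]
    obtain ⟨hc₁2, hc₁LC⟩ := (mem_smZ2 𝓛 ρ _).mp c₁.2
    obtain ⟨hc₂2, hc₂LC⟩ := (mem_smZ2 𝓛 ρ _).mp c₂.2
    obtain ⟨i, f', hf'⟩ := h_factor (fun s => ((c₁ : G × G → ZMod p) s, (c₂ : G × G → ZMod p) s))
      (hc₁LC.map₂ hc₂LC Prod.mk)
    have h1 : ∀ s : G × G, (c₁ : G × G → ZMod p) s = (fun t => (f' t).1) (π i s.1, π i s.2) :=
      fun s => congrArg Prod.fst (hf' s)
    have h2 : ∀ s : G × G, (c₂ : G × G → ZMod p) s = (fun t => (f' t).2) (π i s.1, π i s.2) :=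
      fun s => congrArg Prod.snd (hf' s)
    have hcoc1 : dd2 ρ (fun s => (fun t => (f' t).1) (π i s.1, π i s.2)) = 0 := by
      have : (fun s : G × G => (fun t => (f' t).1) (π i s.1, π i s.2)) = (c₁ : G × G → ZMod p) :=
        funext fun s => (h1 s).symm
      rw [this, hc₁2]
    have hcoc2 : dd2 ρ (fun s => (fun t => (f' t).2) (π i s.1, π i s.2)) = 0 := by
      have : (fun s : G × G => (fun t => (f' t).2) (π i s.1, π i s.2)) = (c₂ : G × G → ZMod p) :=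
        funext fun s => (h2 s).symm
      rw [this, hc₂2]
    rw [← hval c₁ i (fun t => (f' t).1) h1, ← hval c₂ i (fun t => (f' t).2) h2,
      ← h_add i _ _ hcoc1 hcoc2]
    refine (hval (c₁ + c₂) i ((fun t => (f' t).1) + fun t => (f' t).2) fun s => ?_).symm
    show (c₁ : G × G → ZMod p) s + (c₂ : G × G → ZMod p) s = _
    rw [h1 s, h2 s]
    rfl
  -- vanishing on smooth coboundaries
  have hval_cob : ∀ c : ↥(smZ2 𝓛 ρ), (c : G × G → ZMod p) ∈ smB2 𝓛 ρ → val c = 0 := by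
    intro c hc
    obtain ⟨x, hxLC, hxc⟩ := (mem_smB2 𝓛 ρ _).mp hc
    obtain ⟨hc2, hcLC⟩ := (mem_smZ2 𝓛 ρ _).mp c.2
    have hxLC2 : IsLC₂ 𝓛 (fun s : G × G => x s.1) := by
      obtain ⟨U, hU, hx⟩ := hxLC
      exact ⟨U, hU, fun g g' s s' hs _ => hx g s hs⟩
    obtain ⟨i, f', hf'⟩ := h_factor (fun s => ((c : G × G → ZMod p) s, x s.1))
      (hcLC.map₂ hxLC2 Prod.mk)
    have h1 : ∀ s : G × G, (c : G × G → ZMod p) s = (fun t => (f' t).1) (π i s.1, π i s.2) :=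
      fun s => congrArg Prod.fst (hf' s)
    have h2 : ∀ g : G, x g = (fun γ => (f' (γ, π i 1)).2) (π i g) :=
      fun g => congrArg Prod.snd (hf' (g, 1))
    apply lbinvPhi_injective p
    rw [map_zero, ← hval c i (fun t => (f' t).1) h1]
    refine h_cob i _ (fun γ => (f' (γ, π i 1)).2) ?_
    have h3 : (fun s : G => (fun γ => (f' (γ, π i 1)).2) (π i s)) = x := funext fun g => (h2 g).symm
    rw [h3, hxc]
    exact funext fun s => (h1 s).symm
  -- assemble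
  let valHom : ↥(smZ2 𝓛 ρ) →+ ZMod p :=
    { toFun := val
      map_zero' := by
        have := hval_add 0 0
        rw [add_zero] at this
        exact left_eq_add.mp this
      map_add' := hval_add }
  let valLin : ↥(smZ2 𝓛 ρ) →ₗ[ZMod p] ZMod p := valHom.toZModLinearMap p
  have hker : (smB2 𝓛 ρ).comap (smZ2 𝓛 ρ).subtype ≤ LinearMap.ker valLin := by
    intro c hc
    rw [LinearMap.mem_ker]
    exact hval_cob c hc
  refine ⟨Submodule.liftQ _ valLin hker, fun i c' hc => ?_⟩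
  have h1 : Submodule.liftQ _ valLin hker (smH2π 𝓛 ρ ⟨_, hc⟩) = val ⟨_, hc⟩ := rfl
  rw [h1, ← lbinvPhi_apply]
  exact hval ⟨_, hc⟩ i c' fun s => rfl

end Abstract

end Fermat.Agent.S55
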