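/-
S55 / LOCAL BRIDGE, leaf LB1: the invariant `lbInv` on smooth `H²(V, μ_p)` of open subgroups
`V ≤ Gal(ℚ̄_q/ℚ_q)`, characterised by `localInv` at the finite Galois layers.
Helper names are prefixed `lbinv` / `LbLayer`.
-/
import Fermat.Agent.S55.LocalBridgeGalois
import Fermat.Agent.S55.LocalInv
import Fermat.Agent.S55.LocalBridgeInvCore

set_option autoImplicit false
set_option linter.style.haveILetI false

namespace Fermat.Agent.S55

open groupCohomology

/-! ### powers of a `p`-th root of unity indexed by `ZMod p` -/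

section Pow

variable {p : ℕ} [NeZero p] {X : Type*} [CommGroup X]

theorem lbinv_pow_val_add {u : X} (hu : u ^ p = 1) (x y : ZMod p) :
    u ^ (x + y).val = u ^ x.val * u ^ y.val := by
  rw [ZMod.val_add, ← pow_add]
  exact (pow_eq_pow_mod (x.val + y.val) hu).symm

theorem lbinv_pow_val_sub {u : X} (hu : u ^ p = 1) (x y : ZMod p) :
    u ^ (x - y).val = u ^ x.val / u ^ y.val := by
  rw [eq_div_iff_mul_eq', ← lbinv_pow_val_add hu, sub_add_cancel]

theorem lbinv_pow_val_eq_of_add_eq {u : X} (hu : u ^ p = 1) {a b c d : ZMod p}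
    (h : a + b = c + d) : u ^ a.val * u ^ b.val = u ^ c.val * u ^ d.val := by
  rw [← lbinv_pow_val_add hu, ← lbinv_pow_val_add hu, h]

end Pow

/-! ### `μ_p`-valued cochains of a finite Galois extension (generic fields) -/

section Generic

variable {p : ℕ} [Fact p.Prime] {K L : Type} [Field K] [Field L] [Algebra K L]
  {G : Type*} [Group G] (π : G →* (L ≃ₐ[K] L)) (ζL : Lˣ)
  (ρ : Representation (ZMod p) G (ZMod p))

/-- the action on `μ_p ⊆ Lˣ` in terms of units -/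
theorem lbinv_smul_pow (hρ : ∀ (σ : G) (x : ZMod p), π σ ((ζL : L) ^ x.val) = (ζL : L) ^ (ρ σ x).val)
    (σ : G) (x : ZMod p) : π σ • (ζL ^ x.val) = ζL ^ (ρ σ x).val := by
  apply Units.ext
  show π σ ((ζL ^ x.val : Lˣ) : L) = _
  rw [Units.val_pow_eq_pow_val, Units.val_pow_eq_pow_val]
  exact hρ σ x

variable (hπ : Function.Surjective π) (hζL : ζL ^ p = 1)
  (hρ : ∀ (σ : G) (x : ZMod p), π σ ((ζL : L) ^ x.val) = (ζL : L) ^ (ρ σ x).val)

include hπ hζL hρ in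
theorem lbinv_isMulCocycle₂ (c' : (L ≃ₐ[K] L) × (L ≃ₐ[K] L) → ZMod p)
    (hc : dd2 ρ (fun s : G × G => c' (π s.1, π s.2)) = 0) :
    IsMulCocycle₂ (lbMulCochain ζL c') := by
  intro g h j
  obtain ⟨s, rfl⟩ := hπ g
  obtain ⟨t, rfl⟩ := hπ h
  obtain ⟨r, rfl⟩ := hπ j
  have h1 := congrFun hc (s, t, r)
  rw [dd2_apply, Pi.zero_apply] at h1
  simp only [map_mul] at h1
  show ζL ^ (c' (π s * π t, π r)).val * ζL ^ (c' (π s, π t)).val
    = π s • (ζL ^ (c' (π t, π r)).val) * ζL ^ (c' (π s, π t * π r)).val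
  rw [lbinv_smul_pow π ζL ρ hρ]
  apply lbinv_pow_val_eq_of_add_eq hζL
  linear_combination -h1

include hζL in
theorem lbinv_mulCochain_add {Γ : Type} (c' c'' : Γ × Γ → ZMod p) :
    lbMulCochain ζL (c' + c'') = lbMulCochain ζL c' * lbMulCochain ζL c'' := by
  ext1 s
  show ζL ^ (c' s + c'' s).val = ζL ^ (c' s).val * ζL ^ (c'' s).val
  exact lbinv_pow_val_add hζL _ _

include hπ hζL hρ in
theorem lbinv_isMulCoboundary₂ (c' : (L ≃ₐ[K] L) × (L ≃ₐ[K] L) → ZMod p)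
    (x' : (L ≃ₐ[K] L) → ZMod p)
    (hc : (fun s : G × G => c' (π s.1, π s.2)) = dd1 ρ (fun s => x' (π s))) :
    IsMulCoboundary₂ (lbMulCochain ζL c') := by
  refine ⟨lbMulCochain₁ ζL x', fun g h => ?_⟩
  obtain ⟨s, rfl⟩ := hπ g
  obtain ⟨t, rfl⟩ := hπ h
  have h1 := congrFun hc (s, t)
  rw [dd1_apply] at h1
  simp only [map_mul] at h1
  show π s • (ζL ^ (x' (π t)).val) / ζL ^ (x' (π s * π t)).val * ζL ^ (x' (π s)).val
    = ζL ^ (c' (π s, π t)).val
  rw [lbinv_smul_pow π ζL ρ hρ, h1, lbinv_pow_val_add hζL, lbinv_pow_val_sub hζL]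

end Generic

/-! ### the invariant of `μ_p`-valued cochains (generic fields) -/

section GenericInv

variable (q : ℕ) [Fact q.Prime] {p : ℕ} [Fact p.Prime]
  (K : Type) [Field K] [Algebra ℚ_[q] K] [FiniteDimensional ℚ_[q] K]
  (L : Type) [Field L] [Algebra ℚ_[q] L] [FiniteDimensional ℚ_[q] L]
  [Algebra K L] [IsScalarTower ℚ_[q] K L] [IsGalois K L]
  {G : Type*} [Group G] (π : G →* (L ≃ₐ[K] L)) (ζL : Lˣ)
  (ρ : Representation (ZMod p) G (ZMod p))
  (hπ : Function.Surjective π) (hζL : ζL ^ p = 1)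
  (hρ : ∀ (σ : G) (x : ZMod p), π σ ((ζL : L) ^ x.val) = (ζL : L) ^ (ρ σ x).val)

include hπ hζL hρ in
theorem lbinv_localInv_add (c' c'' : (L ≃ₐ[K] L) × (L ≃ₐ[K] L) → ZMod p)
    (hc' : dd2 ρ (fun s : G × G => c' (π s.1, π s.2)) = 0)
    (hc'' : dd2 ρ (fun s : G × G => c'' (π s.1, π s.2)) = 0) :
    localInv q K L (lbMulCochain ζL (c' + c''))
      = localInv q K L (lbMulCochain ζL c') + localInv q K L (lbMulCochain ζL c'') := by
  rw [lbinv_mulCochain_add ζL hζL,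
    localInv_mul q K L (lbinv_isMulCocycle₂ π ζL ρ hπ hζL hρ c' hc')
      (lbinv_isMulCocycle₂ π ζL ρ hπ hζL hρ c'' hc'')]

include hπ hζL hρ in
theorem lbinv_localInv_cob (c' : (L ≃ₐ[K] L) × (L ≃ₐ[K] L) → ZMod p)
    (x' : (L ≃ₐ[K] L) → ZMod p)
    (hc : (fun s : G × G => c' (π s.1, π s.2)) = dd1 ρ (fun s => x' (π s))) :
    localInv q K L (lbMulCochain ζL c') = 0 := by
  have hcob := lbinv_isMulCoboundary₂ π ζL ρ hπ hζL hρ c' x' hc
  exact (localInv_eq_zero_iff q K L (lfu_isMulCocycle₂_of_isMulCoboundary₂ hcob)).mpr hcob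

set_option linter.unusedSectionVars false in
/-- inflation invariance -/
theorem lbinv_localInv_infl
    (L₃ : Type) [Field L₃] [Algebra ℚ_[q] L₃] [FiniteDimensional ℚ_[q] L₃]
    [Algebra K L₃] [IsScalarTower ℚ_[q] K L₃] [IsGalois K L₃]
    [Algebra L L₃] [IsScalarTower ℚ_[q] L L₃] [IsScalarTower K L L₃]
    (ζ₃ : L₃ˣ) (hζ : Units.map (algebraMap L L₃ : L →* L₃) ζL = ζ₃)
    (c' : (L ≃ₐ[K] L) × (L ≃ₐ[K] L) → ZMod p) (hc : IsMulCocycle₂ (lbMulCochain ζL c')) :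
    localInv q K L₃ (lbMulCochain ζ₃
        (fun s => c' (lfGalRes K L K L₃ s.1, lfGalRes K L K L₃ s.2)))
      = localInv q K L (lbMulCochain ζL c') := by
  have h1 := localInv_baseChange q K L K L₃ hc
  rw [Module.finrank_self, one_smul] at h1
  rw [← h1]
  congr 1
  ext1 s
  show ζ₃ ^ (c' (_, _)).val = Units.map (algebraMap L L₃ : L →* L₃) (ζL ^ (c' (_, _)).val)
  rw [map_pow, hζ]

end GenericInv

/-! ### finite Galois layers -/

section Layer

variable {q : ℕ} [Fact q.Prime] {p : ℕ} [Fact p.Prime]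

/-- a finite Galois layer `M/E` containing `ζ` -/
structure LbLayer (E : IntermediateField ℚ_[q] (PadicAlgCl q)) (ζ : PadicAlgCl q) where
  /-- the top field -/
  M : IntermediateField ℚ_[q] (PadicAlgCl q)
  le : E ≤ M
  fin : FiniteDimensional ℚ_[q] M
  gal : letI := lbAlgebra le; IsGalois ↥E ↥M
  /-- `ζ` as a unit of `M` -/
  ζM : (↥M)ˣ
  hζM : ((ζM : ↥M) : PadicAlgCl q) = ζ

variable {E : IntermediateField ℚ_[q] (PadicAlgCl q)} {ζ : PadicAlgCl q}

/-- the Galois group of a layer -/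
abbrev LbLayer.Gal (i : LbLayer E ζ) : Type :=
  letI := lbAlgebra i.le
  (↥i.M ≃ₐ[↥E] ↥i.M)

/-- the restriction map to the Galois group of a layer -/
noncomputable abbrev LbLayer.res (i : LbLayer E ζ) : ↥E.fixingSubgroup →* i.Gal :=
  lbRes i.le i.gal.to_normal

theorem LbLayer.res_surjective (i : LbLayer E ζ) : Function.Surjective i.res :=
  lbRes_surjective i.le i.gal.to_normal

omit [Fact p.Prime] in
theorem LbLayer.ζM_pow (i : LbLayer E ζ) (hζ : ζ ^ p = 1) : i.ζM ^ p = 1 := by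
  apply Units.ext
  apply Subtype.ext
  rw [Units.val_pow_eq_pow_val, Units.val_one]
  show (((i.ζM : ↥i.M) ^ p : ↥i.M) : PadicAlgCl q) = ((1 : ↥i.M) : PadicAlgCl q)
  rw [SubmonoidClass.coe_pow, i.hζM, hζ]
  rfl

theorem LbLayer.mem (i : LbLayer E ζ) : ζ ∈ i.M := by
  obtain ⟨M, le, fin, gal, ζM, hζM⟩ := i
  show ζ ∈ M
  rw [← hζM]
  exact (ζM : ↥M).2

/-- the action of `Gal(M/E)` on `μ_p ⊆ M` is given by `ρ` -/
theorem LbLayer.res_apply_pow (i : LbLayer E ζ)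
    (ρ : Representation (ZMod p) ↥E.fixingSubgroup (ZMod p))
    (hρ : IsMuRep ζ E.fixingSubgroup ρ) (σ : ↥E.fixingSubgroup) (x : ZMod p) :
    i.res σ ((i.ζM : ↥i.M) ^ x.val) = (i.ζM : ↥i.M) ^ (ρ σ x).val := by
  apply Subtype.ext
  rw [lbRes_apply i.le i.gal.to_normal σ, SubmonoidClass.coe_pow, SubmonoidClass.coe_pow, i.hζM]
  exact hρ σ x

/-- a layer from a field containing `ζ` -/
noncomputable def LbLayer.ofMem (M : IntermediateField ℚ_[q] (PadicAlgCl q)) (le : E ≤ M)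
    (fin : FiniteDimensional ℚ_[q] M) (gal : letI := lbAlgebra le; IsGalois ↥E ↥M)
    (hmem : ζ ∈ M) (h0 : ζ ≠ 0) : LbLayer E ζ where
  M := M
  le := le
  fin := fin
  gal := gal
  ζM := Units.mk0 ⟨ζ, hmem⟩ (fun h => h0 (congrArg Subtype.val h))
  hζM := rfl

variable [FiniteDimensional ℚ_[q] E]

/-- the invariant of the `μ_p`-valued cochain `ζ^c'` of a layer -/
noncomputable def LbLayer.inv (i : LbLayer E ζ) (c' : i.Gal × i.Gal → ZMod p) :
    AddCircle (1 : ℚ) :=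
  letI := lbAlgebra i.le
  haveI := lb_isScalarTower_bot i.le
  haveI := i.fin
  localInv q ↥E ↥i.M (lbMulCochain i.ζM c')

theorem LbLayer.inv_add (i : LbLayer E ζ) (hζ : ζ ^ p = 1)
    (ρ : Representation (ZMod p) ↥E.fixingSubgroup (ZMod p))
    (hρ : IsMuRep ζ E.fixingSubgroup ρ) (c' c'' : i.Gal × i.Gal → ZMod p)
    (hc' : dd2 ρ (fun s : ↥E.fixingSubgroup × ↥E.fixingSubgroup => c' (i.res s.1, i.res s.2)) = 0)
    (hc'' : dd2 ρ
      (fun s : ↥E.fixingSubgroup × ↥E.fixingSubgroup => c'' (i.res s.1, i.res s.2)) = 0) :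
    i.inv (c' + c'') = i.inv c' + i.inv c'' := by
  letI := lbAlgebra i.le
  haveI := lb_isScalarTower_bot i.le
  haveI := i.fin
  haveI := i.gal
  exact lbinv_localInv_add q ↥E ↥i.M i.res i.ζM ρ i.res_surjective (i.ζM_pow hζ)
    (i.res_apply_pow ρ hρ) c' c'' hc' hc''

theorem LbLayer.inv_cob (i : LbLayer E ζ) (hζ : ζ ^ p = 1)
    (ρ : Representation (ZMod p) ↥E.fixingSubgroup (ZMod p))
    (hρ : IsMuRep ζ E.fixingSubgroup ρ) (c' : i.Gal × i.Gal → ZMod p) (x' : i.Gal → ZMod p)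
    (hc : (fun s : ↥E.fixingSubgroup × ↥E.fixingSubgroup => c' (i.res s.1, i.res s.2))
      = dd1 ρ (fun s => x' (i.res s))) :
    i.inv c' = 0 := by
  letI := lbAlgebra i.le
  haveI := lb_isScalarTower_bot i.le
  haveI := i.fin
  haveI := i.gal
  exact lbinv_localInv_cob q ↥E ↥i.M i.res i.ζM ρ i.res_surjective (i.ζM_pow hζ)
    (i.res_apply_pow ρ hρ) c' x' hc

/-- inflation to a bigger layer -/
theorem LbLayer.inv_eq_of_le (i k : LbLayer E ζ) (hik : i.M ≤ k.M) (hζ : ζ ^ p = 1)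
    (ρ : Representation (ZMod p) ↥E.fixingSubgroup (ZMod p))
    (hρ : IsMuRep ζ E.fixingSubgroup ρ) (c' : i.Gal × i.Gal → ZMod p)
    (hc' : dd2 ρ (fun s : ↥E.fixingSubgroup × ↥E.fixingSubgroup => c' (i.res s.1, i.res s.2)) = 0) :
    ∃ r : k.Gal → i.Gal, (∀ σ, r (k.res σ) = i.res σ) ∧
      i.inv c' = k.inv (fun s => c' (r s.1, r s.2)) := by
  letI := lbAlgebra i.le
  letI := lbAlgebra k.le
  letI := lbAlgebra hik
  haveI := lb_isScalarTower_bot i.le
  haveI := lb_isScalarTower_bot k.le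
  haveI := lb_isScalarTower_bot hik
  haveI : IsScalarTower ↥E ↥i.M ↥k.M := IsScalarTower.of_algebraMap_eq (fun _ => rfl)
  haveI := i.fin
  haveI := k.fin
  haveI := i.gal
  haveI := k.gal
  refine ⟨lfGalRes ↥E ↥i.M ↥E ↥k.M, fun σ => ?_, ?_⟩
  · ext x
    have h1 := lfGalRes_commutes ↥E ↥i.M ↥E ↥k.M (k.res σ) x
    have h2 := lbRes_apply k.le k.gal.to_normal σ (algebraMap ↥i.M ↥k.M x)
    have h3 := lbRes_apply i.le i.gal.to_normal σ x
    rw [h3]
    have h4 : ((lfGalRes ↥E ↥i.M ↥E ↥k.M (k.res σ) x : ↥i.M) : PadicAlgCl q)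
        = ((algebraMap ↥i.M ↥k.M (lfGalRes ↥E ↥i.M ↥E ↥k.M (k.res σ) x) : ↥k.M) : PadicAlgCl q) :=
      rfl
    rw [h4, h1, h2]
    rfl
  · have hζ' : Units.map (algebraMap ↥i.M ↥k.M : ↥i.M →* ↥k.M) i.ζM = k.ζM := by
      apply Units.ext
      apply Subtype.ext
      show ((i.ζM : ↥i.M) : PadicAlgCl q) = ((k.ζM : ↥k.M) : PadicAlgCl q)
      rw [i.hζM, k.hζM]
    exact (lbinv_localInv_infl q ↥E ↥i.M i.ζM ↥k.M k.ζM hζ' c'
      (lbinv_isMulCocycle₂ i.res i.ζM ρ i.res_surjective (i.ζM_pow hζ) (i.res_apply_pow ρ hρ)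
        c' hc')).symm

/-- the invariant on smooth `H²(E.fixingSubgroup, μ_p)`, characterised on all layers -/
theorem lbinv_exists_core (hζ : IsPrimitiveRoot ζ p)
    (ρ : Representation (ZMod p) ↥E.fixingSubgroup (ZMod p))
    (hρ : IsMuRep ζ E.fixingSubgroup ρ) :
    ∃ inv : smH2 ((lbLevels q).sub E.fixingSubgroup) ρ →ₗ[ZMod p] ZMod p,
      ∀ (i : LbLayer E ζ) (c' : i.Gal × i.Gal → ZMod p)
        (hc : (fun s : ↥E.fixingSubgroup × ↥E.fixingSubgroup => c' (i.res s.1, i.res s.2)) ∈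
          smZ2 ((lbLevels q).sub E.fixingSubgroup) ρ),
        i.inv c' = (((((inv (smH2π ((lbLevels q).sub E.fixingSubgroup) ρ ⟨_, hc⟩)).val : ℕ) : ℚ)
          / (p : ℚ) : ℚ) : AddCircle (1 : ℚ)) := by
  have hζp : ζ ^ p = 1 := hζ.pow_eq_one
  have hζ0 : ζ ≠ 0 := hζ.ne_zero (Fact.out : p.Prime).ne_zero
  refine lbinv_exists_of_layers ((lbLevels q).sub E.fixingSubgroup) ρ
    (fun i : LbLayer E ζ => i.Gal) (fun i => ⇑i.res) (fun i => i.inv) ?_ ?_ ?_ ?_
  · intro X f hf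
    haveI : FiniteDimensional ℚ_[q] ↥(IntermediateField.adjoin ℚ_[q] {ζ}) :=
      IntermediateField.adjoin.finiteDimensional (Algebra.IsIntegral.isIntegral ζ)
    obtain ⟨M, h, hM₀, hfin, hg, f', hf'⟩ :=
      lb_exists_factor₂ E f hf (IntermediateField.adjoin ℚ_[q] {ζ})
    exact ⟨LbLayer.ofMem M h hfin hg (hM₀ (IntermediateField.mem_adjoin_simple_self _ ζ)) hζ0,
      f', hf'⟩
  · exact fun i c' c'' hc' hc'' => i.inv_add hζp ρ hρ c' c'' hc' hc''
  · exact fun i c' x' hc => i.inv_cob hζp ρ hρ c' x' hc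
  · intro i j c' c'' hc' hcompat
    have hc'' : dd2 ρ (fun s : ↥E.fixingSubgroup × ↥E.fixingSubgroup =>
        c'' (j.res s.1, j.res s.2)) = 0 := by
      have h1 : (fun s : ↥E.fixingSubgroup × ↥E.fixingSubgroup => c'' (j.res s.1, j.res s.2))
          = fun s => c' (i.res s.1, i.res s.2) := funext fun s => (hcompat s).symm
      rw [h1]
      exact hc'
    -- a common bigger layer
    haveI := i.fin
    haveI := j.fin
    obtain ⟨U, hU⟩ := ((lbLevels q).sub E.fixingSubgroup).exists_level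
    obtain ⟨M, h, hM₀, hfin, hg, -⟩ := lb_exists_layer E U hU (i.M ⊔ j.M)
    let k : LbLayer E ζ := LbLayer.ofMem M h hfin hg (hM₀ (le_sup_left (a := i.M) i.mem)) hζ0
    obtain ⟨ri, hri, ei⟩ := i.inv_eq_of_le k (le_sup_left.trans hM₀) hζp ρ hρ c' hc'
    obtain ⟨rj, hrj, ej⟩ := j.inv_eq_of_le k (le_sup_right.trans hM₀) hζp ρ hρ c'' hc''
    show i.inv c' = j.inv c''
    rw [ei, ej]
    congr 1
    funext s
    obtain ⟨σ, hσ⟩ := k.res_surjective s.1
    obtain ⟨τ, hτ⟩ := k.res_surjective s.2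
    rw [← hσ, ← hτ, hri, hri, hrj, hrj]
    exact hcompat (σ, τ)

end Layer

/-! ### the invariant for all `(V, ρ)` -/

section Inv

variable (q : ℕ) [Fact q.Prime] (p : ℕ) [Fact p.Prime] (ζ : PadicAlgCl q)

/-- transport along `V = E₀.fixingSubgroup` -/
noncomputable def lbinvCast (E₀ : IntermediateField ℚ_[q] (PadicAlgCl q))
    (V : Subgroup (lbGal q)) (hV : V = E₀.fixingSubgroup)
    (f : ∀ ρ' : Representation (ZMod p) ↥E₀.fixingSubgroup (ZMod p),
      smH2 ((lbLevels q).sub E₀.fixingSubgroup) ρ' →ₗ[ZMod p] ZMod p)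
    (ρ : Representation (ZMod p) ↥V (ZMod p)) :
    smH2 ((lbLevels q).sub V) ρ →ₗ[ZMod p] ZMod p := by
  subst hV
  exact f ρ

open Classical in
/-- the invariant for `V = E.fixingSubgroup`, junk `0` if `ρ` is not the `μ_p`-action -/
noncomputable def lbinvCore (hζ : IsPrimitiveRoot ζ p)
    (E : IntermediateField ℚ_[q] (PadicAlgCl q)) (hfin : FiniteDimensional ℚ_[q] E)
    (ρ : Representation (ZMod p) ↥E.fixingSubgroup (ZMod p)) :
    smH2 ((lbLevels q).sub E.fixingSubgroup) ρ →ₗ[ZMod p] ZMod p :=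
  haveI := hfin
  if hρ : IsMuRep ζ E.fixingSubgroup ρ then Classical.choose (lbinv_exists_core hζ ρ hρ) else 0

/-- THE LOCAL INVARIANT ON SMOOTH COHOMOLOGY.  A family of linear maps
`inv V ρ : smH2 (levels of V) ρ → ZMod p` such that for every finite Galois layer `M/E` containing
`ζ` and every `ZMod p`-valued cochain `c'` on `Gal(M/E)` whose pull-back to `V = E.fixingSubgroup`
is a (smooth) cocycle for the `μ_p`-action `ρ`: `inv [c' ∘ res] / p = localInv (ζ^c')`. -/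
theorem exists_lbInv (hζ : IsPrimitiveRoot ζ p) :
    ∃ inv : ∀ (V : Subgroup (lbGal q)) (ρ : Representation (ZMod p) ↥V (ZMod p)),
        smH2 ((lbLevels q).sub V) ρ →ₗ[ZMod p] ZMod p,
      ∀ (E M : IntermediateField ℚ_[q] (PadicAlgCl q)) (h : E ≤ M)
        [FiniteDimensional ℚ_[q] E] [FiniteDimensional ℚ_[q] M]
        (hg : letI := lbAlgebra h; IsGalois ↥E ↥M)
        (ζM : (↥M)ˣ) (_ : ((ζM : ↥M) : PadicAlgCl q) = ζ)
        (ρ : Representation (ZMod p) ↥E.fixingSubgroup (ZMod p))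
        (_ : IsMuRep ζ E.fixingSubgroup ρ)
        (c' : (letI := lbAlgebra h; (↥M ≃ₐ[↥E] ↥M) × (↥M ≃ₐ[↥E] ↥M)) → ZMod p)
        (hc : (fun s : ↥E.fixingSubgroup × ↥E.fixingSubgroup =>
            c' (lbRes h hg.to_normal s.1, lbRes h hg.to_normal s.2)) ∈
          smZ2 ((lbLevels q).sub E.fixingSubgroup) ρ),
        letI := lbAlgebra h
        haveI := lb_isScalarTower_bot h
        localInv q ↥E ↥M (lbMulCochain ζM c') =
          (((((inv E.fixingSubgroup ρ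
            (smH2π ((lbLevels q).sub E.fixingSubgroup) ρ ⟨_, hc⟩)).val : ℕ) : ℚ) / (p : ℚ) : ℚ)) := by
  classical
  refine ⟨fun V ρ =>
    if h : ∃ E₀ : IntermediateField ℚ_[q] (PadicAlgCl q),
        FiniteDimensional ℚ_[q] E₀ ∧ V = E₀.fixingSubgroup then
      lbinvCast q p (Classical.choose h) V (Classical.choose_spec h).2
        (lbinvCore q p ζ hζ (Classical.choose h) (Classical.choose_spec h).1) ρ
    else 0, ?_⟩
  intro E M h hfinE hfinM hg ζM hζM ρ hρ c' hc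
  have hex : ∃ E₀ : IntermediateField ℚ_[q] (PadicAlgCl q),
      FiniteDimensional ℚ_[q] E₀ ∧ E.fixingSubgroup = E₀.fixingSubgroup := ⟨E, hfinE, rfl⟩
  have key : ∀ (E₀ : IntermediateField ℚ_[q] (PadicAlgCl q)) (hfin₀ : FiniteDimensional ℚ_[q] E₀)
      (hV₀ : E.fixingSubgroup = E₀.fixingSubgroup),
      lbinvCast q p E₀ E.fixingSubgroup hV₀ (lbinvCore q p ζ hζ E₀ hfin₀) ρ
        = lbinvCore q p ζ hζ E hfinE ρ := by
    intro E₀ hfin₀ hV₀
    have hE : E₀ = E :=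
      le_antisymm ((lb_fixingSubgroup_le_iff q E₀ E).mp hV₀.le)
        ((lb_fixingSubgroup_le_iff q E E₀).mp hV₀.ge)
    subst hE
    rfl
  have h1 : (if h : ∃ E₀ : IntermediateField ℚ_[q] (PadicAlgCl q),
        FiniteDimensional ℚ_[q] E₀ ∧ E.fixingSubgroup = E₀.fixingSubgroup then
      lbinvCast q p (Classical.choose h) E.fixingSubgroup (Classical.choose_spec h).2
        (lbinvCore q p ζ hζ (Classical.choose h) (Classical.choose_spec h).1) ρ
    else 0) = lbinvCore q p ζ hζ E hfinE ρ := by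
    rw [dif_pos hex]
    exact key _ _ _
  have h2 : lbinvCore q p ζ hζ E hfinE ρ = Classical.choose (lbinv_exists_core hζ ρ hρ) := by
    unfold lbinvCore
    rw [dif_pos hρ]
  beta_reduce
  rw [h1, h2]
  exact Classical.choose_spec (lbinv_exists_core hζ ρ hρ) ⟨M, h, hfinM, hg, ζM, hζM⟩ c' hc

open Classical in
/-- The invariant `H²(V, μ_p) → ZMod p` on smooth cohomology (junk `0` if `ζ` is not a primitive
`p`-th root of unity). -/
noncomputable def lbInv (V : Subgroup (lbGal q)) (ρ : Representation (ZMod p) ↥V (ZMod p)) :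
    smH2 ((lbLevels q).sub V) ρ →ₗ[ZMod p] ZMod p :=
  if hζ : IsPrimitiveRoot ζ p then Classical.choose (exists_lbInv q p ζ hζ) V ρ else 0

variable {q p ζ}

/-- The defining property of `lbInv`. -/
theorem lbInv_mk (hζ : IsPrimitiveRoot ζ p)
    {E M : IntermediateField ℚ_[q] (PadicAlgCl q)} (h : E ≤ M)
    [FiniteDimensional ℚ_[q] E] [FiniteDimensional ℚ_[q] M]
    (hg : letI := lbAlgebra h; IsGalois ↥E ↥M)
    (ζM : (↥M)ˣ) (hζM : ((ζM : ↥M) : PadicAlgCl q) = ζ)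
    (ρ : Representation (ZMod p) ↥E.fixingSubgroup (ZMod p))
    (hρ : IsMuRep ζ E.fixingSubgroup ρ)
    (c' : (letI := lbAlgebra h; (↥M ≃ₐ[↥E] ↥M) × (↥M ≃ₐ[↥E] ↥M)) → ZMod p)
    (hc : (fun s : ↥E.fixingSubgroup × ↥E.fixingSubgroup =>
        c' (lbRes h hg.to_normal s.1, lbRes h hg.to_normal s.2)) ∈
      smZ2 ((lbLevels q).sub E.fixingSubgroup) ρ) :
    letI := lbAlgebra h
    haveI := lb_isScalarTower_bot h
    localInv q ↥E ↥M (lbMulCochain ζM c') =
      (((((lbInv q p ζ E.fixingSubgroup ρ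
        (smH2π ((lbLevels q).sub E.fixingSubgroup) ρ ⟨_, hc⟩)).val : ℕ) : ℚ) / (p : ℚ) : ℚ)) := by
  have h1 : lbInv q p ζ E.fixingSubgroup ρ
      = Classical.choose (exists_lbInv q p ζ hζ) E.fixingSubgroup ρ := by
    unfold lbInv
    rw [dif_pos hζ]
  rw [h1]
  exact Classical.choose_spec (exists_lbInv q p ζ hζ) E M h hg ζM hζM ρ hρ c' hc

end Inv

end Fermat.Agent.S55
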