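/-
S55 / LOCAL BRIDGE: small toolkit shared by the LB leaves (prefix `lbt`), sorry-free.
* `lbtPhi p : ZMod p → ℚ/ℤ`, `x ↦ x.val / p`: additive, injective, `n • lbtPhi x = lbtPhi (n * x)`;
* `lbtPow ζ : ZMod p → Mˣ`, `x ↦ ζ ^ x.val`: turns `+` into `*`, injective / onto `μ_p` for a
  primitive `ζ`; `lbMulCochain ζ c s = lbtPow ζ (c s)`;
* `lbt_smul_pow`: the action of `lbRes σ` on `ζM ^ x` is `ζM ^ (ρ σ x)` for `IsMuRep ζ V ρ`;
* `lbt_dict_coc`, `lbt_dict_cob`: abstract dictionary between additive `ZMod p`-cochains with a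
  `μ_p`-type action (pulled back along a surjection `res`) and multiplicative cochains.
-/
import Fermat.Agent.S55.LocalBridgeDefs

set_option autoImplicit false
set_option linter.unusedSectionVars false
set_option linter.style.haveILetI false

namespace Fermat.Agent.S55

open groupCohomology

section Phi
variable (p : ℕ) [NeZero p]

/-- `ZMod p → ℚ/ℤ`, `x ↦ x.val / p`. -/
noncomputable def lbtPhi (x : ZMod p) : AddCircle (1 : ℚ) :=
  ((((x.val : ℕ) : ℚ) / (p : ℚ) : ℚ) : AddCircle (1 : ℚ))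

theorem lbtPhi_natCast (n : ℕ) :
    lbtPhi p (n : ZMod p) = ((((n : ℕ) : ℚ) / (p : ℚ) : ℚ) : AddCircle (1 : ℚ)) := by
  have hp : (p : ℚ) ≠ 0 := Nat.cast_ne_zero.2 (NeZero.ne p)
  unfold lbtPhi
  rw [ZMod.val_natCast, ← sub_eq_zero, ← AddCircle.coe_sub, AddCircle.coe_eq_zero_iff]
  refine ⟨-((n / p : ℕ) : ℤ), ?_⟩
  have h := Nat.div_add_mod n p
  have h' : (n : ℚ) = (p : ℚ) * ((n / p : ℕ) : ℚ) + ((n % p : ℕ) : ℚ) := by exact_mod_cast h.symm
  have h'' : ((n % p : ℕ) : ℚ) = (n : ℚ) - (p : ℚ) * ((n / p : ℕ) : ℚ) := by linarith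
  rw [h'']
  simp only [zsmul_eq_mul, mul_one, Int.cast_neg, Int.cast_natCast]
  field_simp
  ring

theorem lbtPhi_add (x y : ZMod p) : lbtPhi p (x + y) = lbtPhi p x + lbtPhi p y := by
  conv_lhs => rw [← ZMod.natCast_zmod_val x, ← ZMod.natCast_zmod_val y, ← Nat.cast_add]
  rw [lbtPhi_natCast]
  unfold lbtPhi
  rw [← AddCircle.coe_add]
  congr 1
  push_cast
  ring

theorem lbtPhi_zero : lbtPhi p 0 = 0 := by
  unfold lbtPhi
  simp

theorem lbtPhi_eq_zero_iff (x : ZMod p) : lbtPhi p x = 0 ↔ x = 0 := by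
  constructor
  · intro h
    unfold lbtPhi at h
    rw [AddCircle.coe_eq_zero_iff] at h
    obtain ⟨k, hk⟩ := h
    have hp : (p : ℚ) ≠ 0 := Nat.cast_ne_zero.2 (NeZero.ne p)
    have hk' : ((k * p : ℤ) : ℚ) = ((x.val : ℤ) : ℚ) := by
      rw [eq_div_iff hp] at hk
      push_cast
      simpa using hk
    have hk'' : k * p = x.val := by exact_mod_cast hk'
    have hlt : x.val < p := ZMod.val_lt x
    have hk0 : k = 0 := by
      by_contra hne
      have hpos : 0 < k := by
        rcases lt_trichotomy k 0 with h1 | h1 | h1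
        · have : k * p < 0 := mul_neg_of_neg_of_pos h1 (by exact_mod_cast Nat.pos_of_ne_zero (NeZero.ne p))
          omega
        · exact absurd h1 hne
        · exact h1
      have : (p : ℤ) ≤ k * p := by nlinarith
      omega
    rw [hk0, zero_mul] at hk''
    have : x.val = 0 := by exact_mod_cast hk''.symm
    exact (ZMod.val_eq_zero x).1 this
  · rintro rfl
    exact lbtPhi_zero p

/-- `lbtPhi` as an additive hom. -/
noncomputable def lbtPhiHom : ZMod p →+ AddCircle (1 : ℚ) where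
  toFun := lbtPhi p
  map_zero' := lbtPhi_zero p
  map_add' := lbtPhi_add p

theorem lbtPhi_injective : Function.Injective (lbtPhi p) := by
  have := (injective_iff_map_eq_zero (lbtPhiHom p)).2 (fun x hx => (lbtPhi_eq_zero_iff p x).1 hx)
  exact this

theorem lbtPhi_nsmul (n : ℕ) (x : ZMod p) : n • lbtPhi p x = lbtPhi p ((n : ZMod p) * x) := by
  have := map_nsmul (lbtPhiHom p) n x
  rw [nsmul_eq_mul] at this
  exact this.symm

end Phi

section Pow

variable {M : Type} [Field M] {p : ℕ} [NeZero p] (ζ : Mˣ)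

/-- `ζ^x` for `x : ZMod p`. -/
noncomputable def lbtPow (x : ZMod p) : Mˣ := ζ ^ x.val

theorem lbtPow_zero : lbtPow ζ (0 : ZMod p) = 1 := by
  unfold lbtPow
  rw [ZMod.val_zero, pow_zero]

variable {ζ}

theorem lbtPow_add (hζ : ζ ^ p = 1) (x y : ZMod p) :
    lbtPow ζ (x + y) = lbtPow ζ x * lbtPow ζ y := by
  unfold lbtPow
  rw [← pow_add, ZMod.val_add, ← pow_eq_pow_mod _ hζ]

theorem lbtPow_neg (hζ : ζ ^ p = 1) (x : ZMod p) : lbtPow ζ (-x) = (lbtPow ζ x)⁻¹ := by
  apply eq_inv_of_mul_eq_one_left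
  rw [← lbtPow_add hζ, neg_add_cancel, lbtPow_zero]

theorem lbtPow_sub (hζ : ζ ^ p = 1) (x y : ZMod p) :
    lbtPow ζ (x - y) = lbtPow ζ x / lbtPow ζ y := by
  rw [sub_eq_add_neg, lbtPow_add hζ, lbtPow_neg hζ, div_eq_mul_inv]

theorem lbtPow_injective (hζ : IsPrimitiveRoot ζ p) : Function.Injective (lbtPow (p := p) ζ) := by
  intro x y hxy
  unfold lbtPow at hxy
  exact ZMod.val_injective p (hζ.pow_inj (ZMod.val_lt x) (ZMod.val_lt y) hxy)

theorem lbtPow_surj (hζ : IsPrimitiveRoot ζ p) (y : Mˣ) (hy : y ^ p = 1) :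
    ∃ x : ZMod p, lbtPow ζ x = y := by
  have hζ' : IsPrimitiveRoot (ζ : M) p := IsPrimitiveRoot.coe_units_iff.2 hζ
  have hy' : (y : M) ^ p = 1 := by rw [← Units.val_pow_eq_pow_val, hy, Units.val_one]
  obtain ⟨i, hi, hiy⟩ := hζ'.eq_pow_of_pow_eq_one hy'
  refine ⟨(i : ZMod p), ?_⟩
  unfold lbtPow
  rw [ZMod.val_natCast_of_lt hi]
  apply Units.ext
  rw [Units.val_pow_eq_pow_val, hiy]

theorem lbMulCochain_apply {G : Type} (c : G × G → ZMod p) (s : G × G) :
    lbMulCochain ζ c s = lbtPow ζ (c s) := rfl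

theorem lbMulCochain₁_apply {G : Type} (x : G → ZMod p) (s : G) :
    lbMulCochain₁ ζ x s = lbtPow ζ (x s) := rfl

end Pow

section Layer

variable {q : ℕ} [Fact q.Prime] {p : ℕ} [NeZero p] {ζ : PadicAlgCl q}
  {E M : IntermediateField ℚ_[q] (PadicAlgCl q)}

/-- a unit of `M` lying over a primitive root is a primitive root -/
theorem lbt_isPrimitiveRoot (hζ : IsPrimitiveRoot ζ p) (ζM : (↥M)ˣ)
    (hζM : ((ζM : ↥M) : PadicAlgCl q) = ζ) : IsPrimitiveRoot ζM p := by
  rw [← IsPrimitiveRoot.coe_units_iff]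
  have : IsPrimitiveRoot (algebraMap ↥M (PadicAlgCl q) (ζM : ↥M)) p := by
    change IsPrimitiveRoot ((ζM : ↥M) : PadicAlgCl q) p
    rw [hζM]; exact hζ
  exact (IsPrimitiveRoot.map_iff_of_injective (algebraMap ↥M (PadicAlgCl q)).injective).1 this

variable (h : E ≤ M) (hn : letI := lbAlgebra h; Normal ↥E ↥M) (ζM : (↥M)ˣ)
  (hζM : ((ζM : ↥M) : PadicAlgCl q) = ζ)
  (ρ : Representation (ZMod p) ↥E.fixingSubgroup (ZMod p)) (hρ : IsMuRep ζ E.fixingSubgroup ρ)

set_option synthInstance.maxHeartbeats 400000 in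
include hζM hρ in
theorem lbt_smul_pow (σ : ↥E.fixingSubgroup) (x : ZMod p) :
    letI := lbAlgebra h
    (lbRes h hn σ) • lbtPow ζM x = lbtPow ζM (ρ σ x) := by
  letI := lbAlgebra h
  apply Units.ext
  apply Subtype.ext
  have h1 := lbRes_apply h hn σ ((lbtPow ζM x : (↥M)ˣ) : ↥M)
  have h2 : (((lbtPow ζM x : (↥M)ˣ) : ↥M) : PadicAlgCl q) = ζ ^ x.val := by
    unfold lbtPow
    rw [Units.val_pow_eq_pow_val, SubmonoidClass.coe_pow, hζM]
  have h3 : (((lbtPow ζM (ρ σ x) : (↥M)ˣ) : ↥M) : PadicAlgCl q) = ζ ^ (ρ σ x).val := by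
    unfold lbtPow
    rw [Units.val_pow_eq_pow_val, SubmonoidClass.coe_pow, hζM]
  rw [h3, ← hρ σ x, ← h2]
  exact h1

end Layer

section Dict

variable {V G : Type} [Group V] [Group G] {X : Type} [CommGroup X] [MulDistribMulAction G X]
  {p : ℕ} [NeZero p] (res : V →* G) (hres : Function.Surjective res)
  (ρ : Representation (ZMod p) V (ZMod p)) (e : ZMod p → X)
  (he_add : ∀ x y, e (x + y) = e x * e y) (he_inj : Function.Injective e)
  (hact : ∀ σ x, res σ • e x = e (ρ σ x))

include he_add in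
theorem lbt_e_zero : e 0 = 1 := by
  have := he_add 0 0
  rw [add_zero] at this
  exact (mul_eq_left.1 this.symm)

include he_add in
theorem lbt_e_neg (x : ZMod p) : e (-x) = (e x)⁻¹ := by
  apply eq_inv_of_mul_eq_one_left
  rw [← he_add, neg_add_cancel, lbt_e_zero e he_add]

include he_add in
theorem lbt_e_sub (x y : ZMod p) : e (x - y) = e x / e y := by
  rw [sub_eq_add_neg, he_add, lbt_e_neg e he_add, div_eq_mul_inv]

include hres he_add he_inj hact in
/-- additive cocycle for `ρ` (pulled back along `res`) ↔ multiplicative cocycle `e ∘ c'` -/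
theorem lbt_dict_coc (c' : G × G → ZMod p) :
    dd2 ρ (fun s : V × V => c' (res s.1, res s.2)) = 0 ↔ IsMulCocycle₂ (fun s => e (c' s)) := by
  constructor
  · intro hd g h j
    obtain ⟨s, rfl⟩ := hres g
    obtain ⟨t, rfl⟩ := hres h
    obtain ⟨r, rfl⟩ := hres j
    have h0 := congrFun hd (s, t, r)
    simp only [dd2_apply, map_mul, Pi.zero_apply] at h0
    have hA : ρ s (c' (res t, res r)) + c' (res s, res t * res r) =
        c' (res s * res t, res r) + c' (res s, res t) := by linear_combination h0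
    have := congrArg e hA
    rw [he_add, he_add, ← hact] at this
    exact this.symm
  · intro hc
    funext ⟨s, t, r⟩
    have h0 := hc (res s) (res t) (res r)
    simp only at h0
    rw [hact, ← he_add, ← he_add] at h0
    have hA := he_inj h0
    simp only [dd2_apply, map_mul, Pi.zero_apply]
    linear_combination -hA

include hres he_add he_inj hact in
/-- additive coboundary ↔ multiplicative coboundary -/
theorem lbt_dict_cob (c' : G × G → ZMod p) (x' : G → ZMod p) :
    (fun s : V × V => c' (res s.1, res s.2)) = dd1 ρ (fun σ => x' (res σ)) ↔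
      ∀ g h : G, g • e (x' h) / e (x' (g * h)) * e (x' g) = e (c' (g, h)) := by
  constructor
  · intro hd g h
    obtain ⟨s, rfl⟩ := hres g
    obtain ⟨t, rfl⟩ := hres h
    have h0 := congrFun hd (s, t)
    simp only [dd1_apply, map_mul] at h0
    rw [h0, he_add, lbt_e_sub e he_add, hact]
  · intro hc
    funext ⟨s, t⟩
    have h0 := hc (res s) (res t)
    rw [hact, ← lbt_e_sub e he_add, ← he_add] at h0
    have hA := he_inj h0
    simp only [dd1_apply, map_mul]
    exact hA.symm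

end Dict

end Fermat.Agent.S55
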