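/-
S55 / LOCAL BRIDGE, leaf LB2 half A `LocalBridgeInvProps.lean`: `lbInv_res` (restriction to an open
subgroup multiplies the invariant by the index) and `lbInv_conj` (conjugation invariance), EXACT
statements of `LocalBridgeSpec.lean` (origin/helper22 10b7a9a).  Helper names prefixed `lbp`.
Route: open `V = E.fixingSubgroup`; a smooth cocycle factors through a finite Galois layer `M/E ∋ ζ`
(`lb_exists_factor₂`); on layers the statements are `localInv_baseChange` for the squares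
`(E, M, E', M)` resp. `(E, M, gE, gM)` (the latter with the algebra structures twisted by `g`),
transported by `lbInv_mk` and the injectivity of `lbtPhi`.
Black boxes: LB0 (`LocalBridgeGalois`, real), LB1 (`LocalBridgeInv`: `lbInv`, `lbInv_mk`), `LocalInv` API.
(The other half of LB2, `lbInv_injective` / `lbInv_surjective`, is `LocalBridgeInvBij.lean`, helper28.)
-/
import Fermat.Agent.S55.LocalBridgeTools
import Fermat.Agent.S55.LocalBridgeInv

set_option autoImplicit false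
set_option linter.unusedSectionVars false
set_option linter.style.haveILetI false

namespace Fermat.Agent.S55

open groupCohomology

section Res

variable {q : ℕ} [Fact q.Prime] {p : ℕ} [Fact p.Prime] {ζ : PadicAlgCl q}

/-- `ℚ_q(ζ)` is finite over `ℚ_q`. -/
theorem lbp_finiteDimensional_adjoin (x : PadicAlgCl q) :
    FiniteDimensional ℚ_[q] (IntermediateField.adjoin ℚ_[q] {x}) :=
  IntermediateField.adjoin.finiteDimensional (Algebra.IsIntegral.isIntegral x)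

set_option synthInstance.maxHeartbeats 400000 in
/-- The layer form of the restriction formula. -/
theorem lbp_res_layer (hζ : IsPrimitiveRoot ζ p)
    {E E' M : IntermediateField ℚ_[q] (PadicAlgCl q)}
    [FiniteDimensional ℚ_[q] E] [FiniteDimensional ℚ_[q] E'] [FiniteDimensional ℚ_[q] M]
    (h : E ≤ M) (h' : E' ≤ M) (hE : E ≤ E')
    (hg : letI := lbAlgebra h; IsGalois ↥E ↥M) (hg' : letI := lbAlgebra h'; IsGalois ↥E' ↥M)
    (ζM : (↥M)ˣ) (hζM : ((ζM : ↥M) : PadicAlgCl q) = ζ)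
    (ρ : Representation (ZMod p) ↥E.fixingSubgroup (ZMod p)) (hρ : IsMuRep ζ E.fixingSubgroup ρ)
    (ρ' : Representation (ZMod p) ↥E'.fixingSubgroup (ZMod p))
    (hρ' : IsMuRep ζ E'.fixingSubgroup ρ')
    (c' : (letI := lbAlgebra h; (↥M ≃ₐ[↥E] ↥M) × (↥M ≃ₐ[↥E] ↥M)) → ZMod p)
    (hc : (fun s : ↥E.fixingSubgroup × ↥E.fixingSubgroup =>
        c' (lbRes h hg.to_normal s.1, lbRes h hg.to_normal s.2)) ∈
      smZ2 ((lbLevels q).sub E.fixingSubgroup) ρ)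
    (hc' : (fun s : ↥E'.fixingSubgroup × ↥E'.fixingSubgroup =>
        c' (lbRes h hg.to_normal (Subgroup.inclusion ((lb_fixingSubgroup_le_iff q E E').2 hE) s.1),
          lbRes h hg.to_normal (Subgroup.inclusion ((lb_fixingSubgroup_le_iff q E E').2 hE) s.2))) ∈
      smZ2 ((lbLevels q).sub E'.fixingSubgroup) ρ') :
    lbInv q p ζ E'.fixingSubgroup ρ' (smH2π ((lbLevels q).sub E'.fixingSubgroup) ρ' ⟨_, hc'⟩) =
      ((letI := lbAlgebra hE; Module.finrank ↥E ↥E' : ℕ) : ZMod p) *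
        lbInv q p ζ E.fixingSubgroup ρ (smH2π ((lbLevels q).sub E.fixingSubgroup) ρ ⟨_, hc⟩) := by
  letI aEM := lbAlgebra h
  letI aE'M := lbAlgebra h'
  letI aEE' := lbAlgebra hE
  letI aMM := lbAlgebra (le_refl M)
  haveI tEMM := @IsScalarTower.of_algebraMap_eq ↥E ↥M ↥M _ _ _ aEM aMM aEM (fun _ => rfl)
  haveI tEE'M : IsScalarTower ↥E ↥E' ↥M := IsScalarTower.of_algebraMap_eq (fun _ => rfl)
  haveI := lb_isScalarTower_bot h
  haveI := lb_isScalarTower_bot h'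
  haveI := lb_isScalarTower_bot hE
  haveI := lb_isScalarTower_bot (le_refl M)
  haveI := hg
  haveI := hg'
  have hζp := lbt_isPrimitiveRoot hζ ζM hζM
  have hζ1 : ζM ^ p = 1 := hζp.pow_eq_one
  set c'' : (↥M ≃ₐ[↥E'] ↥M) × (↥M ≃ₐ[↥E'] ↥M) → ZMod p :=
    fun s => c' (lfGalRes ↥E ↥M ↥E' ↥M s.1, lfGalRes ↥E ↥M ↥E' ↥M s.2) with hc''def
  have hfun : (fun s : ↥E'.fixingSubgroup × ↥E'.fixingSubgroup =>
        c' (lbRes h hg.to_normal (Subgroup.inclusion ((lb_fixingSubgroup_le_iff q E E').2 hE) s.1),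
          lbRes h hg.to_normal (Subgroup.inclusion ((lb_fixingSubgroup_le_iff q E E').2 hE) s.2))) =
      fun s => c'' (lbRes h' hg'.to_normal s.1, lbRes h' hg'.to_normal s.2) := by
    funext s
    have e1 := lfGalRes_lbRes h h' hE (le_refl M) hg.to_normal hg'.to_normal s.1
    have e2 := lfGalRes_lbRes h h' hE (le_refl M) hg.to_normal hg'.to_normal s.2
    simp only [hc''def]
    rw [e1, e2]
  have hc'' : (fun s : ↥E'.fixingSubgroup × ↥E'.fixingSubgroup =>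
      c'' (lbRes h' hg'.to_normal s.1, lbRes h' hg'.to_normal s.2)) ∈
      smZ2 ((lbLevels q).sub E'.fixingSubgroup) ρ' := hfun ▸ hc'
  have hmk' := lbInv_mk hζ h' hg' ζM hζM ρ' hρ' c'' hc''
  have hmk := lbInv_mk hζ h hg ζM hζM ρ hρ c' hc
  have hcls : smH2π ((lbLevels q).sub E'.fixingSubgroup) ρ' ⟨_, hc'⟩ =
      smH2π ((lbLevels q).sub E'.fixingSubgroup) ρ' ⟨_, hc''⟩ := by
    congr 1
    exact Subtype.ext hfun
  have hcoc : IsMulCocycle₂ (lbMulCochain ζM c') :=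
    (lbt_dict_coc (lbRes h hg.to_normal) (lbRes_surjective h hg.to_normal) ρ (lbtPow ζM)
      (lbtPow_add hζ1) (lbtPow_injective hζp) (lbt_smul_pow h hg.to_normal ζM hζM ρ hρ) c').1
      ((mem_smZ2 _ _ _).1 hc).1
  have hbc := localInv_baseChange q ↥E ↥M ↥E' ↥M hcoc
  have hBC : lfBC ↥E ↥M ↥E' ↥M (lbMulCochain ζM c') = lbMulCochain ζM c'' := by
    funext s
    rw [lfBC_apply]
    apply Units.ext
    rfl
  rw [hBC, hmk', hmk] at hbc
  rw [hcls]
  apply lbtPhi_injective p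
  rw [← lbtPhi_nsmul]
  exact hbc

/-- Restriction to an open subgroup multiplies the invariant by the index. -/
theorem lbInv_res (hζ : IsPrimitiveRoot ζ p) (V V' : Subgroup (lbGal q))
    (hV' : (lbLevels q).IsOpen V') (hle : V' ≤ V)
    (ρ : Representation (ZMod p) ↥V (ZMod p)) (hρ : IsMuRep ζ V ρ)
    (ρ' : Representation (ZMod p) ↥V' (ZMod p)) (hρ' : IsMuRep ζ V' ρ')
    (c : ↥V × ↥V → ZMod p) (hc : c ∈ smZ2 ((lbLevels q).sub V) ρ)
    (hc' : (fun s : ↥V' × ↥V' => c (Subgroup.inclusion hle s.1, Subgroup.inclusion hle s.2)) ∈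
      smZ2 ((lbLevels q).sub V') ρ') :
    lbInv q p ζ V' ρ' (smH2π ((lbLevels q).sub V') ρ' ⟨_, hc'⟩) =
      (V'.relIndex V : ZMod p) * lbInv q p ζ V ρ (smH2π ((lbLevels q).sub V) ρ ⟨c, hc⟩) := by
  have hV : (lbLevels q).IsOpen V := by
    obtain ⟨U, hU, hUV'⟩ := hV'
    exact ⟨U, hU, hUV'.trans hle⟩
  obtain ⟨E, hEfin, rfl⟩ := (lb_isOpen_iff q V).1 hV
  obtain ⟨E', hE'fin, rfl⟩ := (lb_isOpen_iff q V').1 hV'
  have hE : E ≤ E' := (lb_fixingSubgroup_le_iff q E E').1 hle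
  haveI := lbp_finiteDimensional_adjoin ζ
  obtain ⟨M, h, hM₀, hMfin, hg, c', hcc'⟩ := lb_exists_factor₂ E c ((mem_smZ2 _ _ _).1 hc).2
    (E' ⊔ IntermediateField.adjoin ℚ_[q] {ζ})
  have h' : E' ≤ M := le_sup_left.trans hM₀
  have hζmem : ζ ∈ M :=
    hM₀ ((le_sup_right : _ ≤ E' ⊔ IntermediateField.adjoin ℚ_[q] {ζ})
      (IntermediateField.mem_adjoin_simple_self ℚ_[q] ζ))
  have hζ0 : ζ ≠ 0 := hζ.ne_zero (Fact.out : p.Prime).ne_zero
  have hg' : letI := lbAlgebra h'; IsGalois ↥E' ↥M := by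
    letI := lbAlgebra h
    letI := lbAlgebra h'
    letI := lbAlgebra hE
    haveI : IsScalarTower ↥E ↥E' ↥M := IsScalarTower.of_algebraMap_eq (fun _ => rfl)
    haveI := hg
    exact IsGalois.tower_top_of_isGalois ↥E ↥E' ↥M
  have hcfun : c = fun s => c' (lbRes h hg.to_normal s.1, lbRes h hg.to_normal s.2) :=
    funext hcc'
  subst hcfun
  rw [lb_relIndex_fixingSubgroup q hE]
  exact lbp_res_layer hζ h h' hE hg hg'
    (Units.mk0 ⟨ζ, hζmem⟩ (fun h0 => hζ0 (congrArg Subtype.val h0))) rfl ρ hρ ρ' hρ' c' hc hc'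

end Res

section Conj

variable {q : ℕ} [Fact q.Prime] {p : ℕ} [Fact p.Prime] {ζ : PadicAlgCl q}

/-- The conjugate field `g E`. -/
noncomputable abbrev lbpMap (g : lbGal q) (E : IntermediateField ℚ_[q] (PadicAlgCl q)) :
    IntermediateField ℚ_[q] (PadicAlgCl q) :=
  E.map (g : PadicAlgCl q →ₐ[ℚ_[q]] PadicAlgCl q)

/-- The isomorphism `E ≃ g E`. -/
noncomputable abbrev lbpEquiv (g : lbGal q) (E : IntermediateField ℚ_[q] (PadicAlgCl q)) :
    ↥E ≃ₐ[ℚ_[q]] ↥(lbpMap g E) :=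
  E.equivMap (g : PadicAlgCl q →ₐ[ℚ_[q]] PadicAlgCl q)

theorem lbp_conj_mem (E : IntermediateField ℚ_[q] (PadicAlgCl q)) (g s : lbGal q) :
    s ∈ (lbpMap g E).fixingSubgroup ↔
      g⁻¹ * s * g ∈ E.fixingSubgroup := by
  rw [IntermediateField.mem_fixingSubgroup_iff, IntermediateField.mem_fixingSubgroup_iff]
  constructor
  · intro hs x hx
    have h1 : s (g x) = g x := hs (g x) ⟨x, hx, rfl⟩
    change g⁻¹ (s (g x)) = x
    rw [h1]
    exact g.symm_apply_apply x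
  · rintro hs y ⟨x, hx, rfl⟩
    have h1 : g⁻¹ (s (g x)) = x := hs x hx
    have h2 := congrArg g h1
    rwa [show g (g⁻¹ (s (g x))) = s (g x) from g.apply_symm_apply _] at h2

/-- `ζ` lies in `g M` when it lies in `M` (`g ζ` is a primitive root too). -/
theorem lbp_zeta_mem_map (hζ : IsPrimitiveRoot ζ p) (M : IntermediateField ℚ_[q] (PadicAlgCl q))
    (hζM : ζ ∈ M) (g : lbGal q) (u : ZMod p) (hu : g ζ = ζ ^ u.val) :
    ζ ∈ lbpMap g M := by
  have hp : p.Prime := Fact.out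
  haveI : Fact (1 < p) := ⟨hp.one_lt⟩
  have hu0 : u ≠ 0 := by
    rintro rfl
    rw [ZMod.val_zero, pow_zero] at hu
    have : ζ = 1 := g.injective (by rw [hu, map_one])
    exact hζ.ne_one hp.one_lt this
  have h1 : g ζ ∈ lbpMap g M := ⟨ζ, hζM, rfl⟩
  have h2 : ζ = (g ζ) ^ (u⁻¹).val := by
    rw [hu, ← pow_mul, pow_eq_pow_mod _ hζ.pow_eq_one, ← ZMod.val_mul, mul_inv_cancel₀ hu0,
      ZMod.val_one, pow_one]
  rw [h2]
  exact pow_mem h1 _

set_option synthInstance.maxHeartbeats 400000 in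
set_option maxHeartbeats 1600000 in
/-- The layer form of conjugation invariance. -/
theorem lbp_conj_layer (hζ : IsPrimitiveRoot ζ p)
    {E M : IntermediateField ℚ_[q] (PadicAlgCl q)}
    [FiniteDimensional ℚ_[q] E] [FiniteDimensional ℚ_[q] M]
    (h : E ≤ M) (hg : letI := lbAlgebra h; IsGalois ↥E ↥M)
    (g : lbGal q) (u : ZMod p) (hu : g ζ = ζ ^ u.val)
    (ζM : (↥M)ˣ) (hζM : ((ζM : ↥M) : PadicAlgCl q) = ζ)
    (ρ : Representation (ZMod p) ↥E.fixingSubgroup (ZMod p)) (hρ : IsMuRep ζ E.fixingSubgroup ρ)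
    (ρ' : Representation (ZMod p)
      ↥(lbpMap g E).fixingSubgroup (ZMod p))
    (hρ' : IsMuRep ζ (lbpMap g E).fixingSubgroup ρ')
    (c' : (letI := lbAlgebra h; (↥M ≃ₐ[↥E] ↥M) × (↥M ≃ₐ[↥E] ↥M)) → ZMod p)
    (hc : (fun s : ↥E.fixingSubgroup × ↥E.fixingSubgroup =>
        c' (lbRes h hg.to_normal s.1, lbRes h hg.to_normal s.2)) ∈
      smZ2 ((lbLevels q).sub E.fixingSubgroup) ρ)
    (hc' : (fun s : ↥(lbpMap g E).fixingSubgroup ×
          ↥(lbpMap g E).fixingSubgroup =>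
        u * c' (lbRes h hg.to_normal ⟨g⁻¹ * s.1 * g, (lbp_conj_mem E g _).1 s.1.2⟩,
          lbRes h hg.to_normal ⟨g⁻¹ * s.2 * g, (lbp_conj_mem E g _).1 s.2.2⟩)) ∈
      smZ2 ((lbLevels q).sub (lbpMap g E).fixingSubgroup) ρ') :
    lbInv q p ζ (lbpMap g E).fixingSubgroup ρ'
        (smH2π ((lbLevels q).sub
          (lbpMap g E).fixingSubgroup) ρ' ⟨_, hc'⟩) =
      lbInv q p ζ E.fixingSubgroup ρ (smH2π ((lbLevels q).sub E.fixingSubgroup) ρ ⟨_, hc⟩) := by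
  have hp : p.Prime := Fact.out
  have h' : lbpMap g E ≤ lbpMap g M := IntermediateField.map_mono _ h
  letI aEM := lbAlgebra h
  letI aE'M' := lbAlgebra h'
  letI aEE' : Algebra ↥E ↥(lbpMap g E) := (lbpEquiv g E).toRingEquiv.toRingHom.toAlgebra
  letI aMM' : Algebra ↥M ↥(lbpMap g M) := (lbpEquiv g M).toRingEquiv.toRingHom.toAlgebra
  letI aEM' : Algebra ↥E ↥(lbpMap g M) :=
    ((algebraMap ↥M ↥(lbpMap g M)).comp (algebraMap ↥E ↥M)).toAlgebra
  haveI t1 : IsScalarTower ↥E ↥M ↥(lbpMap g M) := IsScalarTower.of_algebraMap_eq (fun _ => rfl)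
  haveI t2 : IsScalarTower ↥E ↥(lbpMap g E) ↥(lbpMap g M) :=
    IsScalarTower.of_algebraMap_eq (fun _ => Subtype.ext rfl)
  haveI t3 : IsScalarTower ℚ_[q] ↥E ↥(lbpMap g E) :=
    IsScalarTower.of_algebraMap_eq (fun r => Subtype.ext (g.commutes r).symm)
  haveI t4 : IsScalarTower ℚ_[q] ↥M ↥(lbpMap g M) :=
    IsScalarTower.of_algebraMap_eq (fun r => Subtype.ext (g.commutes r).symm)
  haveI t5 : IsScalarTower ℚ_[q] ↥E ↥(lbpMap g M) :=
    IsScalarTower.of_algebraMap_eq (fun r => Subtype.ext (g.commutes r).symm)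
  haveI := lb_isScalarTower_bot h
  haveI := lb_isScalarTower_bot h'
  haveI := hg
  haveI hgEM' : IsGalois ↥E ↥(lbpMap g M) :=
    IsGalois.of_algEquiv (AlgEquiv.ofRingEquiv (f := (lbpEquiv g M).toRingEquiv) (fun _ => rfl))
  haveI hg' : IsGalois ↥(lbpMap g E) ↥(lbpMap g M) :=
    IsGalois.tower_top_of_isGalois ↥E ↥(lbpMap g E) ↥(lbpMap g M)
  have hζp := lbt_isPrimitiveRoot hζ ζM hζM
  have hζ1 : ζM ^ p = 1 := hζp.pow_eq_one
  have hζmem : ζ ∈ M := hζM ▸ (ζM : ↥M).2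
  have hζmem' : ζ ∈ lbpMap g M := lbp_zeta_mem_map hζ M hζmem g u hu
  have hζ0 : ζ ≠ 0 := hζ.ne_zero hp.ne_zero
  set ζM' : (↥(lbpMap g M))ˣ :=
    Units.mk0 ⟨ζ, hζmem'⟩ (fun h0 => hζ0 (congrArg Subtype.val h0)) with hζM'def
  have hζM' : ((ζM' : ↥(lbpMap g M)) : PadicAlgCl q) = ζ := rfl
  -- the cochain on the conjugate layer
  set c'' : (↥(lbpMap g M) ≃ₐ[↥(lbpMap g E)] ↥(lbpMap g M)) ×
      (↥(lbpMap g M) ≃ₐ[↥(lbpMap g E)] ↥(lbpMap g M)) → ZMod p :=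
    fun s => u * c' (lfGalRes ↥E ↥M ↥(lbpMap g E) ↥(lbpMap g M) s.1,
      lfGalRes ↥E ↥M ↥(lbpMap g E) ↥(lbpMap g M) s.2) with hc''def
  have hkey : ∀ s : ↥(lbpMap g E).fixingSubgroup,
      lfGalRes ↥E ↥M ↥(lbpMap g E) ↥(lbpMap g M) (lbRes h' hg'.to_normal s) =
        lbRes h hg.to_normal ⟨g⁻¹ * (s : lbGal q) * g, (lbp_conj_mem E g _).1 s.2⟩ := by
    intro s
    apply AlgEquiv.ext
    intro x
    apply (algebraMap ↥M ↥(lbpMap g M)).injective
    rw [lfGalRes_commutes]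
    apply Subtype.ext
    have e1 := lbRes_apply h' hg'.to_normal s (algebraMap ↥M ↥(lbpMap g M) x)
    have e2 := lbRes_apply h hg.to_normal
      ⟨g⁻¹ * (s : lbGal q) * g, (lbp_conj_mem E g _).1 s.2⟩ x
    change ((lbRes h' hg'.to_normal s (algebraMap ↥M ↥(lbpMap g M) x) : ↥(lbpMap g M)) :
        PadicAlgCl q) =
      g ((lbRes h hg.to_normal ⟨g⁻¹ * (s : lbGal q) * g, (lbp_conj_mem E g _).1 s.2⟩ x : ↥M) :
        PadicAlgCl q)
    rw [e1, e2]
    change (s : lbGal q) (g (x : PadicAlgCl q)) = g (g⁻¹ ((s : lbGal q) (g (x : PadicAlgCl q))))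
    exact (g.apply_symm_apply _).symm
  have hfun : (fun s : ↥(lbpMap g E).fixingSubgroup × ↥(lbpMap g E).fixingSubgroup =>
        u * c' (lbRes h hg.to_normal ⟨g⁻¹ * s.1 * g, (lbp_conj_mem E g _).1 s.1.2⟩,
          lbRes h hg.to_normal ⟨g⁻¹ * s.2 * g, (lbp_conj_mem E g _).1 s.2.2⟩)) =
      fun s => c'' (lbRes h' hg'.to_normal s.1, lbRes h' hg'.to_normal s.2) := by
    funext s
    simp only [hc''def]
    rw [hkey s.1, hkey s.2]
  have hc'' : (fun s : ↥(lbpMap g E).fixingSubgroup × ↥(lbpMap g E).fixingSubgroup =>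
      c'' (lbRes h' hg'.to_normal s.1, lbRes h' hg'.to_normal s.2)) ∈
      smZ2 ((lbLevels q).sub (lbpMap g E).fixingSubgroup) ρ' := hfun ▸ hc'
  have hmk' := lbInv_mk hζ h' hg' ζM' hζM' ρ' hρ' c'' hc''
  have hmk := lbInv_mk hζ h hg ζM hζM ρ hρ c' hc
  have hcls : smH2π ((lbLevels q).sub (lbpMap g E).fixingSubgroup) ρ' ⟨_, hc'⟩ =
      smH2π ((lbLevels q).sub (lbpMap g E).fixingSubgroup) ρ' ⟨_, hc''⟩ := by
    congr 1
    exact Subtype.ext hfun
  have hcoc : IsMulCocycle₂ (lbMulCochain ζM c') :=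
    (lbt_dict_coc (lbRes h hg.to_normal) (lbRes_surjective h hg.to_normal) ρ (lbtPow ζM)
      (lbtPow_add hζ1) (lbtPow_injective hζp) (lbt_smul_pow h hg.to_normal ζM hζM ρ hρ) c').1
      ((mem_smZ2 _ _ _).1 hc).1
  have hbc := localInv_baseChange q ↥E ↥M ↥(lbpMap g E) ↥(lbpMap g M) hcoc
  have hBC : lfBC ↥E ↥M ↥(lbpMap g E) ↥(lbpMap g M) (lbMulCochain ζM c') = lbMulCochain ζM' c'' := by
    funext s
    rw [lfBC_apply]
    apply Units.ext
    apply Subtype.ext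
    change g (((lbtPow ζM (c' _) : (↥M)ˣ) : ↥M) : PadicAlgCl q) =
      (((lbtPow ζM' (c'' s) : (↥(lbpMap g M))ˣ) : ↥(lbpMap g M)) : PadicAlgCl q)
    unfold lbtPow
    rw [Units.val_pow_eq_pow_val, SubmonoidClass.coe_pow, Units.val_pow_eq_pow_val,
      SubmonoidClass.coe_pow, hζM, hζM', map_pow, hu, ← pow_mul]
    simp only [hc''def]
    rw [ZMod.val_mul, ← pow_eq_pow_mod _ hζ.pow_eq_one]
  have hrank : Module.finrank ↥E ↥(lbpMap g E) = 1 := by
    have e : ↥E ≃ₗ[↥E] ↥(lbpMap g E) :=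
      (AlgEquiv.ofRingEquiv (f := (lbpEquiv g E).toRingEquiv) (fun _ => rfl) :
        ↥E ≃ₐ[↥E] ↥(lbpMap g E)).toLinearEquiv
    rw [← e.finrank_eq, Module.finrank_self]
  rw [hBC, hmk', hmk, hrank, one_smul] at hbc
  rw [hcls]
  exact lbtPhi_injective p hbc

/-- Conjugation invariance. -/
theorem lbInv_conj (hζ : IsPrimitiveRoot ζ p) (V V' : Subgroup (lbGal q))
    (hV : (lbLevels q).IsOpen V) (g : lbGal q) (u : ZMod p) (hu : g ζ = ζ ^ u.val)
    (hVV' : ∀ s : lbGal q, s ∈ V' ↔ g⁻¹ * s * g ∈ V)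
    (ρ : Representation (ZMod p) ↥V (ZMod p)) (hρ : IsMuRep ζ V ρ)
    (ρ' : Representation (ZMod p) ↥V' (ZMod p)) (hρ' : IsMuRep ζ V' ρ')
    (c : ↥V × ↥V → ZMod p) (hc : c ∈ smZ2 ((lbLevels q).sub V) ρ)
    (hc' : (fun s : ↥V' × ↥V' =>
        u * c (⟨g⁻¹ * s.1 * g, (hVV' _).1 s.1.2⟩, ⟨g⁻¹ * s.2 * g, (hVV' _).1 s.2.2⟩)) ∈
      smZ2 ((lbLevels q).sub V') ρ') :
    lbInv q p ζ V' ρ' (smH2π ((lbLevels q).sub V') ρ' ⟨_, hc'⟩) =
      lbInv q p ζ V ρ (smH2π ((lbLevels q).sub V) ρ ⟨c, hc⟩) := by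
  obtain ⟨E, hEfin, rfl⟩ := (lb_isOpen_iff q V).1 hV
  have hV'eq : V' = (lbpMap g E).fixingSubgroup := by
    ext s
    rw [hVV', lbp_conj_mem]
  subst hV'eq
  haveI := lbp_finiteDimensional_adjoin ζ
  obtain ⟨M, h, hM₀, hMfin, hg, c', hcc'⟩ := lb_exists_factor₂ E c ((mem_smZ2 _ _ _).1 hc).2
    (IntermediateField.adjoin ℚ_[q] {ζ})
  have hζmem : ζ ∈ M := hM₀ (IntermediateField.mem_adjoin_simple_self ℚ_[q] ζ)
  have hζ0 : ζ ≠ 0 := hζ.ne_zero (Fact.out : p.Prime).ne_zero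
  have hcfun : c = fun s => c' (lbRes h hg.to_normal s.1, lbRes h hg.to_normal s.2) :=
    funext hcc'
  subst hcfun
  exact lbp_conj_layer hζ h hg g u hu
    (Units.mk0 ⟨ζ, hζmem⟩ (fun h0 => hζ0 (congrArg Subtype.val h0))) rfl ρ hρ ρ' hρ' c' hc hc'

end Conj

end Fermat.Agent.S55
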