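import Mathlib

/-!
# S55 (global layer): Kummer theory of exponent `n` in character form

Setting: `Ω/K` a field extension, all `n`-th roots of unity of `Ω` lie in `K` (`KumRootsIn K Ω n`).

* `kumChar hz β hβ : Gal(Ω/K) →* rootsOfUnity n Ω`, `σ ↦ σ β / β`, for `β : Ωˣ` with `βⁿ ∈ K`;
* `kumChar_mul`, `kumChar_pow`, `kumChar_eq_of_pow_eq` (dependence on `βⁿ` only);
* `kumChar_eq_one_iff` : trivial iff `β ∈ K` (`Ω/K` Galois, possibly infinite);
  `kumChar_eq_one_iff_exists_pow` : iff `b = βⁿ` is an `n`-th power in `K`;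
* `kumChar_ker` : the kernel is the fixing subgroup of `K(β)`;
* `exists_kumChar_eq` : every character `χ : Gal(Ω/K) →* rootsOfUnity n Ω` which is trivial on the
  fixing subgroup of a finite subextension is a Kummer character (Hilbert 90).

Helper lemmas are prefixed `kum_`.
-/

set_option autoImplicit false

noncomputable section

namespace Fermat.Agent.S55

open IntermediateField

variable {K Ω : Type*} [Field K] [Field Ω] [Algebra K Ω] {n : ℕ}

/-- all `n`-th roots of unity of `Ω` lie in `K` -/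
def KumRootsIn (K Ω : Type*) [Field K] [Field Ω] [Algebra K Ω] (n : ℕ) : Prop :=
  ∀ z : Ω, z ^ n = 1 → z ∈ Set.range (algebraMap K Ω)

theorem KumRootsIn.of_isPrimitiveRoot [NeZero n] {ζ : K} (hζ : IsPrimitiveRoot ζ n) :
    KumRootsIn K Ω n := by
  intro z hz
  obtain ⟨i, _, hi⟩ :=
    (hζ.map_of_injective (algebraMap K Ω).injective).eq_pow_of_pow_eq_one hz
  exact ⟨ζ ^ i, by rw [map_pow, hi]⟩

theorem kum_map_eq_of_mem_range (σ : Ω ≃ₐ[K] Ω) {x : Ω} (hx : x ∈ Set.range (algebraMap K Ω)) :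
    σ x = x := by
  obtain ⟨b, rfl⟩ := hx
  exact σ.commutes b

theorem kum_div_pow_eq_one (σ : Ω ≃ₐ[K] Ω) (β : Ωˣ)
    (hβ : (β : Ω) ^ n ∈ Set.range (algebraMap K Ω)) : (σ (β : Ω) / β) ^ n = 1 := by
  rw [div_pow, ← map_pow, kum_map_eq_of_mem_range σ hβ, div_self (pow_ne_zero n β.ne_zero)]

/-- The Kummer character `σ ↦ σ β / β` attached to `β` with `βⁿ ∈ K`. -/
def kumChar (hz : KumRootsIn K Ω n) (β : Ωˣ) (hβ : (β : Ω) ^ n ∈ Set.range (algebraMap K Ω)) :
    (Ω ≃ₐ[K] Ω) →* rootsOfUnity n Ω where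
  toFun σ := ⟨Units.map (σ : Ω →* Ω) β / β, by
    rw [mem_rootsOfUnity]
    ext
    simpa using kum_div_pow_eq_one σ β hβ⟩
  map_one' := by
    ext
    simp
  map_mul' σ τ := by
    ext
    have h1 : (τ (β : Ω) / β) ∈ Set.range (algebraMap K Ω) := hz _ (kum_div_pow_eq_one τ β hβ)
    have h2 : σ (τ (β : Ω) / β) = τ (β : Ω) / β := kum_map_eq_of_mem_range σ h1
    have h3 : σ (τ (β : Ω)) = τ (β : Ω) / β * σ (β : Ω) := by
      rw [map_div₀] at h2
      have hne : σ (β : Ω) ≠ 0 := by simp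
      field_simp at h2 ⊢
      linear_combination h2
    simp only [Subgroup.coe_mul, Units.val_mul, Units.val_div_eq_div_val, Units.coe_map,
      MonoidHom.coe_coe, AlgEquiv.mul_apply]
    rw [h3]
    field_simp

variable (hz : KumRootsIn K Ω n)

theorem kumChar_apply (β : Ωˣ) (hβ : (β : Ω) ^ n ∈ Set.range (algebraMap K Ω)) (σ : Ω ≃ₐ[K] Ω) :
    (((kumChar hz β hβ σ : rootsOfUnity n Ω) : Ωˣ) : Ω) = σ (β : Ω) / β := by
  simp [kumChar]

theorem kumChar_spec (β : Ωˣ) (hβ : (β : Ω) ^ n ∈ Set.range (algebraMap K Ω)) (σ : Ω ≃ₐ[K] Ω) :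
    σ (β : Ω) = (((kumChar hz β hβ σ : rootsOfUnity n Ω) : Ωˣ) : Ω) * β := by
  rw [kumChar_apply, div_mul_cancel₀ _ β.ne_zero]

theorem kumChar_apply_eq_one_iff (β : Ωˣ) (hβ : (β : Ω) ^ n ∈ Set.range (algebraMap K Ω))
    (σ : Ω ≃ₐ[K] Ω) : kumChar hz β hβ σ = 1 ↔ σ (β : Ω) = β := by
  rw [Subtype.ext_iff, Units.ext_iff, kumChar_apply, Subgroup.coe_one, Units.val_one,
    div_eq_one_iff_eq β.ne_zero]

theorem kum_mul_pow_mem (β γ : Ωˣ) (hβ : (β : Ω) ^ n ∈ Set.range (algebraMap K Ω))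
    (hγ : (γ : Ω) ^ n ∈ Set.range (algebraMap K Ω)) :
    ((β * γ : Ωˣ) : Ω) ^ n ∈ Set.range (algebraMap K Ω) := by
  obtain ⟨b, hb⟩ := hβ
  obtain ⟨c, hc⟩ := hγ
  exact ⟨b * c, by rw [map_mul, hb, hc, Units.val_mul, mul_pow]⟩

theorem kum_inv_pow_mem (β : Ωˣ) (hβ : (β : Ω) ^ n ∈ Set.range (algebraMap K Ω)) :
    ((β⁻¹ : Ωˣ) : Ω) ^ n ∈ Set.range (algebraMap K Ω) := by
  obtain ⟨b, hb⟩ := hβ
  exact ⟨b⁻¹, by rw [map_inv₀, hb, Units.val_inv_eq_inv_val, inv_pow]⟩

theorem kum_pow_pow_mem (β : Ωˣ) (hβ : (β : Ω) ^ n ∈ Set.range (algebraMap K Ω)) (k : ℕ) :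
    ((β ^ k : Ωˣ) : Ω) ^ n ∈ Set.range (algebraMap K Ω) := by
  obtain ⟨b, hb⟩ := hβ
  exact ⟨b ^ k, by rw [map_pow, hb, Units.val_pow_eq_pow_val, ← pow_mul, ← pow_mul, mul_comm]⟩

theorem kumChar_mul (β γ : Ωˣ) (hβ : (β : Ω) ^ n ∈ Set.range (algebraMap K Ω))
    (hγ : (γ : Ω) ^ n ∈ Set.range (algebraMap K Ω)) :
    kumChar hz (β * γ) (kum_mul_pow_mem β γ hβ hγ) = kumChar hz β hβ * kumChar hz γ hγ := by
  ext σ
  rw [MonoidHom.mul_apply, Subgroup.coe_mul, Units.val_mul, kumChar_apply, kumChar_apply,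
    kumChar_apply, Units.val_mul, map_mul]
  field_simp

theorem kumChar_inv (β : Ωˣ) (hβ : (β : Ω) ^ n ∈ Set.range (algebraMap K Ω)) :
    kumChar hz β⁻¹ (kum_inv_pow_mem β hβ) = (kumChar hz β hβ)⁻¹ := by
  ext σ
  rw [MonoidHom.inv_apply, Subgroup.coe_inv, Units.val_inv_eq_inv_val, kumChar_apply,
    kumChar_apply, Units.val_inv_eq_inv_val, map_inv₀]
  field_simp

theorem kumChar_pow (β : Ωˣ) (hβ : (β : Ω) ^ n ∈ Set.range (algebraMap K Ω)) (k : ℕ) :
    kumChar hz (β ^ k) (kum_pow_pow_mem β hβ k) = (kumChar hz β hβ) ^ k := by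
  ext σ
  rw [MonoidHom.pow_apply, Subgroup.coe_pow, Units.val_pow_eq_pow_val, kumChar_apply,
    kumChar_apply, Units.val_pow_eq_pow_val, map_pow, div_pow]

/-- elements of `K` give the trivial character -/
theorem kumChar_of_mem_range (β : Ωˣ) (hβ : (β : Ω) ^ n ∈ Set.range (algebraMap K Ω))
    (h : (β : Ω) ∈ Set.range (algebraMap K Ω)) : kumChar hz β hβ = 1 := by
  ext σ
  rw [MonoidHom.one_apply, Subgroup.coe_one, Units.val_one, kumChar_apply,
    kum_map_eq_of_mem_range σ h, div_self β.ne_zero]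

/-- the character depends on `βⁿ` only -/
theorem kumChar_eq_of_pow_eq (β γ : Ωˣ) (hβ : (β : Ω) ^ n ∈ Set.range (algebraMap K Ω))
    (hγ : (γ : Ω) ^ n ∈ Set.range (algebraMap K Ω)) (h : (β : Ω) ^ n = (γ : Ω) ^ n) :
    kumChar hz β hβ = kumChar hz γ hγ := by
  have h1 : ((β : Ω) / γ) ^ n = 1 := by
    rw [div_pow, h, div_self (pow_ne_zero n γ.ne_zero)]
  have h2 := hz _ h1
  ext σ
  rw [kumChar_apply, kumChar_apply]
  have h3 := kum_map_eq_of_mem_range σ h2
  rw [map_div₀] at h3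
  have hne : σ (γ : Ω) ≠ 0 := by simp
  have := β.ne_zero
  have := γ.ne_zero
  field_simp at h3 ⊢
  linear_combination h3

/-- **Kummer theory, injectivity**: the character of `β` is trivial iff `β ∈ K`. -/
theorem kumChar_eq_one_iff [IsGalois K Ω] (β : Ωˣ)
    (hβ : (β : Ω) ^ n ∈ Set.range (algebraMap K Ω)) :
    kumChar hz β hβ = 1 ↔ (β : Ω) ∈ Set.range (algebraMap K Ω) := by
  refine ⟨fun h => ?_, kumChar_of_mem_range hz β hβ⟩
  rw [InfiniteGalois.mem_range_algebraMap_iff_fixed]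
  intro σ
  rw [← kumChar_apply_eq_one_iff hz β hβ σ, h, MonoidHom.one_apply]

/-- **Kummer theory, injectivity**, in terms of `b = βⁿ`. -/
theorem kumChar_eq_one_iff_exists_pow [IsGalois K Ω] (β : Ωˣ) (b : K)
    (hb : algebraMap K Ω b = (β : Ω) ^ n) (hn : n ≠ 0) :
    kumChar hz β ⟨b, hb⟩ = 1 ↔ ∃ c : K, c ^ n = b := by
  rw [kumChar_eq_one_iff]
  constructor
  · rintro ⟨c, hc⟩
    refine ⟨c, (algebraMap K Ω).injective ?_⟩
    rw [map_pow, hc, hb]
  · rintro ⟨c, rfl⟩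
    have hc0 : algebraMap K Ω c ≠ 0 := by
      intro h0
      rw [map_pow, h0, zero_pow hn] at hb
      exact pow_ne_zero n β.ne_zero hb.symm
    have h1 : ((β : Ω) / algebraMap K Ω c) ^ n = 1 := by
      rw [div_pow, ← hb, map_pow, div_self (pow_ne_zero n hc0)]
    obtain ⟨u, hu⟩ := hz _ h1
    refine ⟨u * c, ?_⟩
    rw [map_mul, hu, div_mul_cancel₀ _ hc0]

theorem kumChar_eq_iff [IsGalois K Ω] (β γ : Ωˣ) (hβ : (β : Ω) ^ n ∈ Set.range (algebraMap K Ω))
    (hγ : (γ : Ω) ^ n ∈ Set.range (algebraMap K Ω)) :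
    kumChar hz β hβ = kumChar hz γ hγ ↔ (β : Ω) / γ ∈ Set.range (algebraMap K Ω) := by
  have h1 : kumChar hz β hβ = kumChar hz γ hγ ↔
      kumChar hz (β * γ⁻¹) (kum_mul_pow_mem β γ⁻¹ hβ (kum_inv_pow_mem γ hγ)) = 1 := by
    rw [kumChar_mul hz β γ⁻¹ hβ (kum_inv_pow_mem γ hγ), kumChar_inv hz γ hγ, mul_inv_eq_one]
  rw [h1, kumChar_eq_one_iff, Units.val_mul, Units.val_inv_eq_inv_val, div_eq_mul_inv]

/-- the kernel of a Kummer character is the fixing subgroup of `K(β)` -/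
theorem kumChar_ker (β : Ωˣ) (hβ : (β : Ω) ^ n ∈ Set.range (algebraMap K Ω)) :
    (kumChar hz β hβ).ker = (K⟮(β : Ω)⟯).fixingSubgroup := by
  ext σ
  rw [MonoidHom.mem_ker, kumChar_apply_eq_one_iff, IntermediateField.mem_fixingSubgroup_iff]
  constructor
  · intro h x hx
    have hle : K⟮(β : Ω)⟯ ≤ IntermediateField.fixedField (Subgroup.zpowers σ) := by
      rw [IntermediateField.adjoin_simple_le_iff, IntermediateField.mem_fixedField_iff]
      intro τ hτ
      obtain ⟨k, rfl⟩ := Subgroup.mem_zpowers_iff.mp hτ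
      have hfix : ∀ m : ℕ, (σ ^ m) (β : Ω) = β := by
        intro m
        induction m with
        | zero => simp
        | succ m ih => rw [pow_succ, AlgEquiv.mul_apply, h, ih]
      rcases Int.eq_nat_or_neg k with ⟨m, rfl | rfl⟩
      · rw [zpow_natCast]
        exact hfix m
      · rw [zpow_neg, zpow_natCast, AlgEquiv.aut_inv, AlgEquiv.symm_apply_eq]
        exact (hfix m).symm
    have := (IntermediateField.mem_fixedField_iff _ x).mp (hle hx) σ (Subgroup.mem_zpowers σ)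
    exact this
  · intro h
    exact h _ (IntermediateField.mem_adjoin_simple_self K _)

/-! ### Surjectivity: Hilbert 90 -/

include hz in
/-- Hilbert 90 for a character which factors through a finite Galois subextension `E`:
there is `β ∈ Eˣ` with `σ β = χ σ * β` for all `σ`. -/
theorem kum_exists_eigen_of_isGalois [IsGalois K Ω] (χ : (Ω ≃ₐ[K] Ω) →* rootsOfUnity n Ω)
    (E : IntermediateField K Ω) [FiniteDimensional K E] [IsGalois K E]
    (hE : E.fixingSubgroup ≤ χ.ker) :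
    ∃ β : Ωˣ, (β : Ω) ∈ E ∧ ∀ σ : Ω ≃ₐ[K] Ω, σ (β : Ω) = (((χ σ : rootsOfUnity n Ω) : Ωˣ) : Ω) * β := by
  classical
  -- the character on the finite quotient
  have hsurj : Function.Surjective (AlgEquiv.restrictNormalHom (F := K) (K₁ := Ω) E) :=
    AlgEquiv.restrictNormalHom_surjective Ω
  have hker : (AlgEquiv.restrictNormalHom (F := K) (K₁ := Ω) E).ker ≤ χ.ker := by
    rw [IntermediateField.restrictNormalHom_ker]
    exact hE
  set χbar : (E ≃ₐ[K] E) →* rootsOfUnity n Ω :=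
    (AlgEquiv.restrictNormalHom (F := K) (K₁ := Ω) E).liftOfSurjective hsurj ⟨χ, hker⟩ with hχbar
  have hχbar_apply : ∀ σ : Ω ≃ₐ[K] Ω, χbar (AlgEquiv.restrictNormalHom E σ) = χ σ := by
    intro σ
    exact MonoidHom.liftOfRightInverse_comp_apply _ _ _ ⟨χ, hker⟩ σ
  -- values lie in `K`
  have hval : ∀ τ : E ≃ₐ[K] E,
      (((χbar τ : rootsOfUnity n Ω) : Ωˣ) : Ω) ∈ Set.range (algebraMap K Ω) := by
    intro τ
    refine hz _ ?_
    have := (mem_rootsOfUnity n _).mp (χbar τ).2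
    rw [← Units.val_pow_eq_pow_val, this, Units.val_one]
  have hvalE : ∀ τ : E ≃ₐ[K] E, (((χbar τ : rootsOfUnity n Ω) : Ωˣ) : Ω) ∈ E := by
    intro τ
    obtain ⟨c, hc⟩ := hval τ
    rw [← hc]
    exact E.algebraMap_mem c
  -- the cocycle
  set f : (E ≃ₐ[K] E) → (↥E)ˣ := fun τ =>
    Units.mk0 ⟨(((χbar τ : rootsOfUnity n Ω) : Ωˣ) : Ω), hvalE τ⟩ (by
      intro h0
      have := congrArg Subtype.val h0
      exact Units.ne_zero _ this) with hf
  have hfval : ∀ τ, (((f τ : (↥E)ˣ) : ↥E) : Ω) = (((χbar τ : rootsOfUnity n Ω) : Ωˣ) : Ω) :=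
    fun τ => rfl
  have hcoc : groupCohomology.IsMulCocycle₁ f := by
    intro g h
    apply Units.ext
    apply Subtype.ext
    rw [Units.val_mul, MulMemClass.coe_mul, hfval, hfval, map_mul, Subgroup.coe_mul,
      Units.val_mul, AlgEquiv.smul_units_def, Units.coe_map, MonoidHom.coe_coe]
    obtain ⟨c, hc⟩ := hval h
    have h1 : ((f h : (↥E)ˣ) : ↥E) = algebraMap K E c := by
      apply Subtype.ext
      rw [hfval, ← hc]
      rfl
    rw [h1, g.commutes, ← h1, hfval, mul_comm]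
  obtain ⟨β', hβ'⟩ := groupCohomology.isMulCoboundary₁_of_isMulCocycle₁_of_aut_to_units f hcoc
  refine ⟨Units.map (algebraMap E Ω : ↥E →* Ω) β', ?_, fun σ => ?_⟩
  · rw [Units.coe_map]
    exact (β' : ↥E).2
  · have h1 := hβ' (AlgEquiv.restrictNormalHom E σ)
    rw [div_eq_iff_eq_mul] at h1
    have h2 := congrArg (fun u : (↥E)ˣ => (((u : ↥E)) : Ω)) h1
    simp only [AlgEquiv.smul_units_def, Units.coe_map, MonoidHom.coe_coe, Units.val_mul,
      MulMemClass.coe_mul] at h2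
    rw [hfval, hχbar_apply] at h2
    rw [Units.coe_map, MonoidHom.coe_coe, IntermediateField.algebraMap_apply, ← h2]
    exact (AlgEquiv.restrictNormal_commutes σ E (β' : ↥E)).symm

include hz in
/-- Hilbert 90 for a character which is trivial on the fixing subgroup of a finite subextension. -/
theorem kum_exists_eigen [IsGalois K Ω] (χ : (Ω ≃ₐ[K] Ω) →* rootsOfUnity n Ω)
    (E : IntermediateField K Ω) [FiniteDimensional K E] (hE : E.fixingSubgroup ≤ χ.ker) :
    ∃ β : Ωˣ, ∀ σ : Ω ≃ₐ[K] Ω, σ (β : Ω) = (((χ σ : rootsOfUnity n Ω) : Ωˣ) : Ω) * β := by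
  have hle : E ≤ IntermediateField.normalClosure K E Ω := IntermediateField.le_normalClosure E
  have : IsGalois K (IntermediateField.normalClosure K E Ω) :=
    { to_isSeparable := Algebra.isSeparable_tower_bot_of_isSeparable K _ Ω
      to_normal := inferInstance }
  obtain ⟨β, -, hβ⟩ := kum_exists_eigen_of_isGalois hz χ (IntermediateField.normalClosure K E Ω)
    ((IntermediateField.fixingSubgroup_le hle).trans hE)
  exact ⟨β, hβ⟩

/-- **Kummer theory, surjectivity**: every character of `Gal(Ω/K)` with values in the `n`-th roots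
of unity which is trivial on the fixing subgroup of a finite subextension is a Kummer character. -/
theorem exists_kumChar_eq [IsGalois K Ω] (χ : (Ω ≃ₐ[K] Ω) →* rootsOfUnity n Ω)
    (E : IntermediateField K Ω) [FiniteDimensional K E] (hE : E.fixingSubgroup ≤ χ.ker) :
    ∃ (β : Ωˣ) (hβ : (β : Ω) ^ n ∈ Set.range (algebraMap K Ω)), χ = kumChar hz β hβ := by
  obtain ⟨β, hβ⟩ := kum_exists_eigen hz χ E hE
  have hpow : (β : Ω) ^ n ∈ Set.range (algebraMap K Ω) := by
    rw [InfiniteGalois.mem_range_algebraMap_iff_fixed]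
    intro σ
    rw [map_pow, hβ σ, mul_pow, ← Units.val_pow_eq_pow_val, (mem_rootsOfUnity n _).mp (χ σ).2,
      Units.val_one, one_mul]
  refine ⟨β, hpow, ?_⟩
  ext σ
  rw [kumChar_apply, hβ σ, mul_div_assoc, div_self β.ne_zero, mul_one]

/-- the same with `β` in a prescribed finite Galois subextension through which `χ` factors -/
theorem exists_kumChar_eq_of_isGalois [IsGalois K Ω] (χ : (Ω ≃ₐ[K] Ω) →* rootsOfUnity n Ω)
    (E : IntermediateField K Ω) [FiniteDimensional K E] [IsGalois K E]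
    (hE : E.fixingSubgroup ≤ χ.ker) :
    ∃ (β : Ωˣ) (hβ : (β : Ω) ^ n ∈ Set.range (algebraMap K Ω)),
      (β : Ω) ∈ E ∧ χ = kumChar hz β hβ := by
  obtain ⟨β, hmem, hβ⟩ := kum_exists_eigen_of_isGalois hz χ E hE
  have hpow : (β : Ω) ^ n ∈ Set.range (algebraMap K Ω) := by
    rw [InfiniteGalois.mem_range_algebraMap_iff_fixed]
    intro σ
    rw [map_pow, hβ σ, mul_pow, ← Units.val_pow_eq_pow_val, (mem_rootsOfUnity n _).mp (χ σ).2,
      Units.val_one, one_mul]
  refine ⟨β, hpow, hmem, ?_⟩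
  ext σ
  rw [kumChar_apply, hβ σ, mul_div_assoc, div_self β.ne_zero, mul_one]

end Fermat.Agent.S55
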