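/-
S55 / LOCAL BRIDGE, leaf LB3 : Kummer theory of smooth `H¹` of `V = Gal(ℚ̄_q/E)` (`ζ_p ∈ E`) and the
local pairing (exact statements of section Kummer of `LocalBridgeSpec.lean`).
Black boxes: LB0 (`LocalBridgeGalois`), LB1 (`lbInv_mk`, `LocalBridgeInv`), `LocalKummerSpec`
(`localInv_lfCupCocycle`, `lfSymbol_nondegenerate_left/right`, `lf_index_pow_ne_zero`),
helper15's `Kummer.lean` (`exists_kumChar_eq`).  Helper lemmas are prefixed `lbk_`.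
-/
import Fermat.Agent.S55.LocalBridgeInv
import Fermat.Agent.S55.LocalKummerSpec
import Fermat.Agent.S55.Kummer

set_option autoImplicit false
set_option linter.style.haveILetI false
set_option linter.unusedSectionVars false
set_option linter.unusedVariables false

namespace Fermat.Agent.S55

open groupCohomology

/-! ### Auxiliary lemmas -/

section Aux

variable {q : ℕ} [Fact q.Prime] {p : ℕ} [Fact p.Prime] {ζ : PadicAlgCl q}

theorem lbk_pow_val_add (hζ : IsPrimitiveRoot ζ p) (x y : ZMod p) :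
    ζ ^ (x + y).val = ζ ^ x.val * ζ ^ y.val := by
  rw [ZMod.val_add, ← pow_eq_pow_mod _ hζ.pow_eq_one, pow_add]

theorem lbk_pow_val_mul (hζ : IsPrimitiveRoot ζ p) (x y : ZMod p) :
    ζ ^ (x * y).val = (ζ ^ x.val) ^ y.val := by
  rw [ZMod.val_mul, ← pow_eq_pow_mod _ hζ.pow_eq_one, pow_mul]

theorem lbk_pow_val_natCast (hζ : IsPrimitiveRoot ζ p) (n : ℕ) :
    ζ ^ ((n : ZMod p)).val = ζ ^ n := by
  rw [ZMod.val_natCast, ← pow_eq_pow_mod _ hζ.pow_eq_one]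

theorem lbk_pow_val_inj (hζ : IsPrimitiveRoot ζ p) {x y : ZMod p}
    (h : ζ ^ x.val = ζ ^ y.val) : x = y :=
  ZMod.val_injective p (hζ.pow_inj (ZMod.val_lt x) (ZMod.val_lt y) h)

theorem lbk_pow_val_mul_inj (hζ : IsPrimitiveRoot ζ p) {α : PadicAlgCl q} (hα : α ≠ 0)
    {x y : ZMod p} (h : ζ ^ x.val * α = ζ ^ y.val * α) : x = y :=
  lbk_pow_val_inj hζ (mul_right_cancel₀ hα h)

variable (E : IntermediateField ℚ_[q] (PadicAlgCl q))

theorem lbk_fix_of_mem {x : PadicAlgCl q} (hx : x ∈ E) (σ : ↥E.fixingSubgroup) :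
    (σ : lbGal q) x = x :=
  (IntermediateField.mem_fixingSubgroup_iff E (σ : lbGal q)).mp σ.2 x hx

theorem lbk_units_ne_zero (a : (↥E)ˣ) : (((a : (↥E)ˣ) : ↥E) : PadicAlgCl q) ≠ 0 := by
  intro h
  apply a.ne_zero
  exact Subtype.ext h

theorem lbk_root_ne_zero (a : (↥E)ˣ) {α : PadicAlgCl q}
    (hα : α ^ p = (((a : (↥E)ˣ) : ↥E) : PadicAlgCl q)) : α ≠ 0 := by
  rintro rfl
  rw [zero_pow (Fact.out : p.Prime).ne_zero] at hα
  exact lbk_units_ne_zero E a hα.symm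

/-- Existence of the Kummer exponent. -/
theorem lbk_exists_exp (hζ : IsPrimitiveRoot ζ p) (hζE : ζ ∈ E) (a : (↥E)ˣ) {α : PadicAlgCl q}
    (hα : α ^ p = (((a : (↥E)ˣ) : ↥E) : PadicAlgCl q)) (σ : ↥E.fixingSubgroup) :
    ∃ j < p, (σ : lbGal q) α = ζ ^ j * α := by
  have hα0 := lbk_root_ne_zero E a hα
  have h1 : ((σ : lbGal q) α / α) ^ p = 1 := by
    rw [div_pow, ← map_pow, hα, lbk_fix_of_mem E (a : ↥E).2 σ, div_self (lbk_units_ne_zero E a)]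
  obtain ⟨j, hj, hj'⟩ := hζ.eq_pow_of_pow_eq_one h1
  exact ⟨j, hj, by rw [hj', div_mul_cancel₀ _ hα0]⟩

/-- The defining property of `lbKumFun` for the chosen root. -/
theorem lbk_spec_root (hζ : IsPrimitiveRoot ζ p) (hζE : ζ ∈ E) (a : (↥E)ˣ)
    (σ : ↥E.fixingSubgroup) :
    (σ : lbGal q) (lbRoot p ((((a : (↥E)ˣ) : ↥E) : PadicAlgCl q))) =
      ζ ^ (lbKumFun (p := p) ζ E.fixingSubgroup (((a : (↥E)ˣ) : ↥E) : PadicAlgCl q) σ).val *
        lbRoot p ((((a : (↥E)ˣ) : ↥E) : PadicAlgCl q)) := by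
  obtain ⟨j, hj, hj'⟩ := lbk_exists_exp E hζ hζE a (lbRoot_pow (p := p) _) σ
  have hmem : j ∈ {j : ℕ | (σ : lbGal q) (lbRoot p ((((a : (↥E)ˣ) : ↥E) : PadicAlgCl q))) =
      ζ ^ j * lbRoot p ((((a : (↥E)ˣ) : ↥E) : PadicAlgCl q))} := hj'
  have hinf := Nat.sInf_mem ⟨j, hmem⟩
  have hle : sInf {j : ℕ | (σ : lbGal q) (lbRoot p ((((a : (↥E)ˣ) : ↥E) : PadicAlgCl q))) =
      ζ ^ j * lbRoot p ((((a : (↥E)ˣ) : ↥E) : PadicAlgCl q))} ≤ j := Nat.sInf_le hmem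
  unfold lbKumFun
  rw [ZMod.val_natCast_of_lt (lt_of_le_of_lt hle hj)]
  exact hinf

/-- Finite-level Kummer exponent: defining property. -/
theorem lbk_lfKumExp_spec {K M : Type} [Field K] [Field M] [Algebra K M] {n : ℕ} [NeZero n]
    {ζ : K} (hζ : IsPrimitiveRoot ζ n) (b : K) (hb : b ≠ 0) (β : M)
    (hβ : β ^ n = algebraMap K M b) (σ : M ≃ₐ[K] M) :
    σ β = algebraMap K M ζ ^ lfKumExp ζ β σ * β ∧ lfKumExp ζ β σ < n := by
  have hβ0 : β ≠ 0 := by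
    rintro rfl
    rw [zero_pow (NeZero.ne n)] at hβ
    exact hb ((map_eq_zero (algebraMap K M)).mp hβ.symm)
  have h1 : (σ β / β) ^ n = 1 := by
    rw [div_pow, ← map_pow, hβ, σ.commutes, div_self]
    rwa [Ne, map_eq_zero]
  have hζM : IsPrimitiveRoot (algebraMap K M ζ) n :=
    hζ.map_of_injective (algebraMap K M).injective
  obtain ⟨i, hi, hi'⟩ := hζM.eq_pow_of_pow_eq_one h1
  have hmem : i ∈ {k : ℕ | σ β = algebraMap K M ζ ^ k * β} := by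
    show σ β = algebraMap K M ζ ^ i * β
    rw [hi', div_mul_cancel₀ _ hβ0]
  exact ⟨Nat.sInf_mem ⟨i, hmem⟩, lt_of_le_of_lt (Nat.sInf_le hmem) hi⟩

/-- `x ↦ x.val / p` is injective `ZMod p → ℚ/ℤ`. -/
theorem lbk_addCircle_inj {p : ℕ} [Fact p.Prime] (x y : ZMod p)
    (h : (((((x.val : ℕ) : ℚ) / (p : ℚ) : ℚ)) : AddCircle (1 : ℚ)) =
      (((((y.val : ℕ) : ℚ) / (p : ℚ) : ℚ)) : AddCircle (1 : ℚ))) : x = y := by
  have hp : (0 : ℚ) < (p : ℚ) := by exact_mod_cast (Fact.out : p.Prime).pos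
  have hmem : ∀ z : ZMod p, (((z.val : ℕ) : ℚ) / (p : ℚ)) ∈ Set.Ico (0 : ℚ) (0 + 1) := by
    intro z
    constructor
    · positivity
    · rw [zero_add, div_lt_one hp]
      exact_mod_cast ZMod.val_lt z
  have h1 := (AddCircle.coe_eq_coe_iff_of_mem_Ico (hp := ⟨zero_lt_one⟩) (hmem x) (hmem y)).mp h
  have h2 : ((x.val : ℕ) : ℚ) = ((y.val : ℕ) : ℚ) := by
    field_simp at h1
    exact h1
  exact ZMod.val_injective p (by exact_mod_cast h2)


end Aux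

/-! ### The statements of section Kummer -/

section Kummer

variable {q : ℕ} [Fact q.Prime] {p : ℕ} [Fact p.Prime] {ζ : PadicAlgCl q}
  (hζ : IsPrimitiveRoot ζ p) (E : IntermediateField ℚ_[q] (PadicAlgCl q))
  [FiniteDimensional ℚ_[q] E] (hζE : ζ ∈ E)
  (ρ : Representation (ZMod p) ↥E.fixingSubgroup (ZMod p)) (hρ : IsMuRep ζ E.fixingSubgroup ρ)

include hζ hζE hρ

/-- For `ζ ∈ E` a `μ_p`-representation of `V = E.fixingSubgroup` is trivial. -/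
theorem IsMuRep.eq_one : ρ = 1 := by
  ext σ
  have h := hρ σ 1
  rw [map_pow, lbk_fix_of_mem E hζE σ] at h
  have := lbk_pow_val_inj hζ h
  rw [← this]
  rfl

omit hρ in
/-- Its defining property (for ANY `p`-th root `α` of `a`). -/
theorem lbKumFun_spec (a : (↥E)ˣ) (α : PadicAlgCl q)
    (hα : α ^ p = (((a : (↥E)ˣ) : ↥E) : PadicAlgCl q)) (σ : ↥E.fixingSubgroup) :
    (σ : lbGal q) α =
      ζ ^ (lbKumFun (p := p) ζ E.fixingSubgroup (((a : (↥E)ˣ) : ↥E) : PadicAlgCl q) σ).val * α := by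
  set α₀ := lbRoot p ((((a : (↥E)ˣ) : ↥E) : PadicAlgCl q)) with hα₀
  have hα₀p : α₀ ^ p = (((a : (↥E)ˣ) : ↥E) : PadicAlgCl q) := lbRoot_pow (p := p) _
  have hα₀0 := lbk_root_ne_zero E a hα₀p
  have h1 : (α / α₀) ^ p = 1 := by
    rw [div_pow, hα, hα₀p, div_self (lbk_units_ne_zero E a)]
  obtain ⟨i, -, hi⟩ := hζ.eq_pow_of_pow_eq_one h1
  have hαeq : α = ζ ^ i * α₀ := by rw [hi, div_mul_cancel₀ _ hα₀0]
  have hspec := lbk_spec_root E hζ hζE a σ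
  rw [← hα₀] at hspec
  rw [hαeq, map_mul, map_pow, lbk_fix_of_mem E hζE σ, hspec]
  ring

omit hρ in
/-- `lbKumFun a σ` is the unique `x` with `σ α = ζ^x α`. -/
theorem lbk_kumFun_eq_iff (a : (↥E)ˣ) (α : PadicAlgCl q)
    (hα : α ^ p = (((a : (↥E)ˣ) : ↥E) : PadicAlgCl q)) (σ : ↥E.fixingSubgroup) (x : ZMod p) :
    lbKumFun (p := p) ζ E.fixingSubgroup (((a : (↥E)ˣ) : ↥E) : PadicAlgCl q) σ = x ↔
      (σ : lbGal q) α = ζ ^ x.val * α := by
  have hspec := lbKumFun_spec hζ E hζE a α hα σ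
  constructor
  · rintro rfl
    exact hspec
  · intro h
    rw [hspec] at h
    exact lbk_pow_val_mul_inj hζ (lbk_root_ne_zero E a hα) h

omit hρ in
/-- `lbKumFun a` is a homomorphism. -/
theorem lbk_kumFun_mul_apply (a : (↥E)ˣ) (σ τ : ↥E.fixingSubgroup) :
    lbKumFun (p := p) ζ E.fixingSubgroup (((a : (↥E)ˣ) : ↥E) : PadicAlgCl q) (σ * τ) =
      lbKumFun ζ E.fixingSubgroup (((a : (↥E)ˣ) : ↥E) : PadicAlgCl q) σ +
        lbKumFun ζ E.fixingSubgroup (((a : (↥E)ˣ) : ↥E) : PadicAlgCl q) τ := by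
  set α₀ := lbRoot p ((((a : (↥E)ˣ) : ↥E) : PadicAlgCl q)) with hα₀
  have hα₀p : α₀ ^ p = (((a : (↥E)ˣ) : ↥E) : PadicAlgCl q) := lbRoot_pow (p := p) _
  rw [lbk_kumFun_eq_iff hζ E hζE a α₀ hα₀p]
  have h1 : ((σ * τ : ↥E.fixingSubgroup) : lbGal q) α₀ = (σ : lbGal q) ((τ : lbGal q) α₀) := rfl
  rw [h1, lbKumFun_spec hζ E hζE a α₀ hα₀p τ, map_mul, map_pow, lbk_fix_of_mem E hζE σ,
    lbKumFun_spec hζ E hζE a α₀ hα₀p σ, lbk_pow_val_add hζ]
  ring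

/-- The Kummer function of `a ∈ Eˣ` is a smooth `1`-cocycle (= a smooth homomorphism `V → ZMod p`). -/
theorem lbKumFun_mem_smZ1 (a : (↥E)ˣ) :
    lbKumFun ζ E.fixingSubgroup (((a : (↥E)ˣ) : ↥E) : PadicAlgCl q) ∈
      smZ1 ((lbLevels q).sub E.fixingSubgroup) ρ := by
  have hρ1 := IsMuRep.eq_one hζ E hζE ρ hρ
  rw [mem_smZ1]
  constructor
  · ext ⟨σ, τ⟩
    rw [dd1_apply, hρ1, lbk_kumFun_mul_apply hζ E hζE a σ τ]
    simp
  · set α₀ := lbRoot p ((((a : (↥E)ˣ) : ↥E) : PadicAlgCl q)) with hα₀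
    have hα₀p : α₀ ^ p = (((a : (↥E)ˣ) : ↥E) : PadicAlgCl q) := lbRoot_pow (p := p) _
    have hfd : FiniteDimensional ℚ_[q] (IntermediateField.adjoin ℚ_[q] {α₀}) :=
      IntermediateField.adjoin.finiteDimensional (Algebra.IsIntegral.isIntegral α₀)
    refine ⟨(IntermediateField.adjoin ℚ_[q] {α₀}).fixingSubgroup.comap E.fixingSubgroup.subtype,
      ⟨_, ⟨_, hfd, rfl⟩, rfl⟩, ?_⟩
    intro g s hs
    rw [lbk_kumFun_eq_iff hζ E hζE a α₀ hα₀p]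
    have hs' : (s : lbGal q) α₀ = α₀ := by
      have h2 : (s : lbGal q) ∈ (IntermediateField.adjoin ℚ_[q] {α₀}).fixingSubgroup := hs
      rw [IntermediateField.mem_fixingSubgroup_iff] at h2
      exact h2 α₀ (IntermediateField.mem_adjoin_simple_self ℚ_[q] α₀)
    have h1 : ((g * s : ↥E.fixingSubgroup) : lbGal q) α₀ = (g : lbGal q) ((s : lbGal q) α₀) := rfl
    rw [h1, hs']
    exact lbKumFun_spec hζ E hζE a α₀ hα₀p g

omit hρ in
theorem lbKumFun_mul (a b : (↥E)ˣ) :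
    lbKumFun (p := p) ζ E.fixingSubgroup ((((a * b : (↥E)ˣ) : (↥E)ˣ) : ↥E) : PadicAlgCl q) =
      lbKumFun ζ E.fixingSubgroup (((a : (↥E)ˣ) : ↥E) : PadicAlgCl q) +
        lbKumFun ζ E.fixingSubgroup (((b : (↥E)ˣ) : ↥E) : PadicAlgCl q) := by
  funext σ
  set α₀ := lbRoot p ((((a : (↥E)ˣ) : ↥E) : PadicAlgCl q)) with hα₀
  have hα₀p : α₀ ^ p = (((a : (↥E)ˣ) : ↥E) : PadicAlgCl q) := lbRoot_pow (p := p) _
  set β₀ := lbRoot p ((((b : (↥E)ˣ) : ↥E) : PadicAlgCl q)) with hβ₀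
  have hβ₀p : β₀ ^ p = (((b : (↥E)ˣ) : ↥E) : PadicAlgCl q) := lbRoot_pow (p := p) _
  have hab : (α₀ * β₀) ^ p = ((((a * b : (↥E)ˣ) : (↥E)ˣ) : ↥E) : PadicAlgCl q) := by
    rw [mul_pow, hα₀p, hβ₀p]
    rfl
  rw [lbk_kumFun_eq_iff hζ E hζE (a * b) (α₀ * β₀) hab, Pi.add_apply, map_mul,
    lbKumFun_spec hζ E hζE a α₀ hα₀p σ, lbKumFun_spec hζ E hζE b β₀ hβ₀p σ, lbk_pow_val_add hζ]
  ring

omit hρ in
theorem lbKumFun_eq_zero_iff (a : (↥E)ˣ) :
    lbKumFun (p := p) ζ E.fixingSubgroup (((a : (↥E)ˣ) : ↥E) : PadicAlgCl q) = 0 ↔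
      ∃ c : (↥E)ˣ, c ^ p = a := by
  constructor
  · intro h
    set α₀ := lbRoot p ((((a : (↥E)ˣ) : ↥E) : PadicAlgCl q)) with hα₀
    have hα₀p : α₀ ^ p = (((a : (↥E)ˣ) : ↥E) : PadicAlgCl q) := lbRoot_pow (p := p) _
    have hα₀0 := lbk_root_ne_zero E a hα₀p
    -- `α₀` is fixed by `V`, hence lies in `E`
    have hfix : α₀ ∈ IntermediateField.fixedField E.fixingSubgroup := by
      rw [IntermediateField.mem_fixedField_iff]
      intro σ hσ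
      have h1 := lbKumFun_spec hζ E hζE a α₀ hα₀p ⟨σ, hσ⟩
      rw [h] at h1
      simpa using h1
    rw [InfiniteGalois.fixedField_fixingSubgroup] at hfix
    refine ⟨Units.mk0 ⟨α₀, hfix⟩ ?_, ?_⟩
    · intro h0
      exact hα₀0 (congrArg Subtype.val h0)
    · apply Units.ext
      apply Subtype.ext
      rw [Units.val_pow_eq_pow_val, Units.val_mk0]
      exact hα₀p
  · rintro ⟨c, rfl⟩
    funext σ
    have hc : (((c : (↥E)ˣ) : ↥E) : PadicAlgCl q) ^ p =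
        ((((c ^ p : (↥E)ˣ) : (↥E)ˣ) : ↥E) : PadicAlgCl q) := by
      rw [Units.val_pow_eq_pow_val]
      rfl
    rw [lbk_kumFun_eq_iff hζ E hζE (c ^ p) _ hc, Pi.zero_apply, ZMod.val_zero, pow_zero, one_mul]
    exact lbk_fix_of_mem E (c : ↥E).2 σ


/-- Smooth `1`-cocycles for the (trivial) `μ_p`-action are homomorphisms. -/
theorem lbk_smZ1_mul_apply (f : ↥E.fixingSubgroup → ZMod p)
    (hf : f ∈ smZ1 ((lbLevels q).sub E.fixingSubgroup) ρ) (σ τ : ↥E.fixingSubgroup) :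
    f (σ * τ) = f σ + f τ := by
  have hρ1 := IsMuRep.eq_one hζ E hζE ρ hρ
  have h1 := congrFun ((mem_smZ1 _ ρ f).mp hf).1 (σ, τ)
  rw [dd1_apply, hρ1] at h1
  have h2 : f τ - f (σ * τ) + f σ = 0 := by simpa using h1
  linear_combination -h2

theorem lbk_smZ1_one (f : ↥E.fixingSubgroup → ZMod p)
    (hf : f ∈ smZ1 ((lbLevels q).sub E.fixingSubgroup) ρ) : f 1 = 0 := by
  have h := lbk_smZ1_mul_apply hζ E hζE ρ hρ f hf 1 1
  rw [mul_one] at h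
  linear_combination -h

/-- The cup product of two smooth `1`-cocycles (values multiplied in `ZMod p`) is a smooth
`2`-cocycle. -/
theorem lb_cup_mem_smZ2 (f g : ↥E.fixingSubgroup → ZMod p)
    (hf : f ∈ smZ1 ((lbLevels q).sub E.fixingSubgroup) ρ)
    (hg : g ∈ smZ1 ((lbLevels q).sub E.fixingSubgroup) ρ) :
    (fun s : ↥E.fixingSubgroup × ↥E.fixingSubgroup => f s.1 * g s.2) ∈
      smZ2 ((lbLevels q).sub E.fixingSubgroup) ρ := by
  have hρ1 := IsMuRep.eq_one hζ E hζE ρ hρ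
  rw [mem_smZ2]
  constructor
  · ext ⟨σ, τ, υ⟩
    rw [dd2_apply, hρ1]
    simp only [Pi.zero_apply]
    rw [lbk_smZ1_mul_apply hζ E hζE ρ hρ f hf σ τ, lbk_smZ1_mul_apply hζ E hζE ρ hρ g hg τ υ]
    simp
    ring
  · obtain ⟨U, hU, hUf⟩ := ((mem_smZ1 _ ρ f).mp hf).2
    obtain ⟨U', hU', hUg⟩ := ((mem_smZ1 _ ρ g).mp hg).2
    obtain ⟨W, hW, hle⟩ := ((lbLevels q).sub E.fixingSubgroup).exists_le_inf U U' hU hU'
    refine ⟨W, hW, fun σ τ s s' hs hs' => ?_⟩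
    show f (σ * s) * g (τ * s') = f σ * g τ
    rw [hUf σ s (hle hs).1, hUg τ s' (hle hs').2]


/-- Kummer surjectivity: every smooth homomorphism `V → ZMod p` is a Kummer function. -/
theorem lbKumFun_surjective (f : ↥E.fixingSubgroup → ZMod p)
    (hf : f ∈ smZ1 ((lbLevels q).sub E.fixingSubgroup) ρ) :
    ∃ a : (↥E)ˣ, f = lbKumFun ζ E.fixingSubgroup (((a : (↥E)ˣ) : ↥E) : PadicAlgCl q) := by
  classical
  have hp0 : p ≠ 0 := (Fact.out : p.Prime).ne_zero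
  have hζ0 : ζ ≠ 0 := hζ.ne_zero hp0
  set ζu : (PadicAlgCl q)ˣ := Units.mk0 ζ hζ0 with hζu
  have hζup : ζu ^ p = 1 := by
    apply Units.ext
    rw [Units.val_pow_eq_pow_val, Units.val_mk0, hζ.pow_eq_one, Units.val_one]
  set e := IntermediateField.fixingSubgroupEquiv E with he
  have hmul := lbk_smZ1_mul_apply hζ E hζE ρ hρ f hf
  have hone := lbk_smZ1_one hζ E hζE ρ hρ f hf
  -- the character
  let χ : (PadicAlgCl q ≃ₐ[↥E] PadicAlgCl q) →* rootsOfUnity p (PadicAlgCl q) :=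
    { toFun := fun σ' => ⟨ζu ^ (f (e.symm σ')).val, by
        rw [mem_rootsOfUnity, ← pow_mul, mul_comm, pow_mul, hζup, one_pow]⟩
      map_one' := by
        apply Subtype.ext
        simp only [map_one, hone, ZMod.val_zero, pow_zero]
        rfl
      map_mul' := by
        intro σ' τ'
        apply Subtype.ext
        apply Units.ext
        simp only [map_mul, hmul, Subgroup.coe_mul, Units.val_mul, Units.val_pow_eq_pow_val, hζu,
          Units.val_mk0]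
        exact lbk_pow_val_add hζ _ _ }
  have hχ_apply : ∀ σ : ↥E.fixingSubgroup,
      (((χ (e σ) : rootsOfUnity p (PadicAlgCl q)) : (PadicAlgCl q)ˣ) : PadicAlgCl q) =
        ζ ^ (f σ).val := by
    intro σ
    show ((ζu ^ (f (e.symm (e σ))).val : (PadicAlgCl q)ˣ) : PadicAlgCl q) = _
    rw [MulEquiv.symm_apply_apply, Units.val_pow_eq_pow_val, hζu, Units.val_mk0]
  -- roots of unity lie in `E`
  have hζE' : IsPrimitiveRoot (⟨ζ, hζE⟩ : ↥E) p :=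
    (IsPrimitiveRoot.coe_submonoidClass_iff (N := E) (ζ := (⟨ζ, hζE⟩ : ↥E))).mp hζ
  have hz : KumRootsIn ↥E (PadicAlgCl q) p := KumRootsIn.of_isPrimitiveRoot hζE'
  -- `χ` is trivial on the fixing subgroup of a finite subextension
  obtain ⟨U, ⟨U', ⟨E', hE'fd, rfl⟩, rfl⟩, hUf⟩ := ((mem_smZ1 _ ρ f).mp hf).2
  have hfdF : FiniteDimensional ℚ_[q] ↥(E ⊔ E') := inferInstance
  set E'' : IntermediateField ↥E (PadicAlgCl q) :=
    IntermediateField.extendScalars (le_sup_left : E ≤ E ⊔ E') with hE''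
  have hfd1 : FiniteDimensional ℚ_[q] ↥E'' := hfdF
  have hfd2 : FiniteDimensional ↥E ↥E'' := FiniteDimensional.right ℚ_[q] ↥E ↥E''
  have hker : E''.fixingSubgroup ≤ χ.ker := by
    intro σ' hσ'
    rw [IntermediateField.mem_fixingSubgroup_iff] at hσ'
    rw [MonoidHom.mem_ker]
    have hs : e.symm σ' ∈ (E'.fixingSubgroup).comap E.fixingSubgroup.subtype := by
      rw [Subgroup.mem_comap, IntermediateField.mem_fixingSubgroup_iff]
      intro x hx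
      exact hσ' x ((le_sup_right : E' ≤ E ⊔ E') hx)
    have h0 : f (e.symm σ') = 0 := by
      have := hUf 1 (e.symm σ') hs
      rw [one_mul] at this
      rw [this, hone]
    apply Subtype.ext
    show ζu ^ (f (e.symm σ')).val = 1
    rw [h0, ZMod.val_zero, pow_zero]
  obtain ⟨β, hβ, hχ⟩ := exists_kumChar_eq hz χ E'' hker
  obtain ⟨b, hb⟩ := hβ
  have hb0 : b ≠ 0 := by
    rintro rfl
    rw [map_zero] at hb
    exact pow_ne_zero p β.ne_zero hb.symm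
  refine ⟨Units.mk0 b hb0, ?_⟩
  funext σ
  symm
  have hβp : (β : PadicAlgCl q) ^ p =
      ((((Units.mk0 b hb0 : (↥E)ˣ) : (↥E)ˣ) : ↥E) : PadicAlgCl q) := by
    rw [Units.val_mk0, ← hb]
    rfl
  rw [lbk_kumFun_eq_iff hζ E hζE (Units.mk0 b hb0) (β : PadicAlgCl q) hβp]
  have h1 := kumChar_spec hz β ⟨b, hb⟩ (e σ)
  rw [← hχ, hχ_apply] at h1
  exact h1


/-- CUP PRODUCT = KUMMER SYMBOL: `inv (χ_b ∪ κ_a) = (a, b)`. -/
theorem lbInv_cup_lbKumFun (a b : (↥E)ˣ)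
    (hc : (fun s : ↥E.fixingSubgroup × ↥E.fixingSubgroup =>
        lbKumFun (p := p) ζ E.fixingSubgroup (((b : (↥E)ˣ) : ↥E) : PadicAlgCl q) s.1 *
          lbKumFun ζ E.fixingSubgroup (((a : (↥E)ˣ) : ↥E) : PadicAlgCl q) s.2) ∈
      smZ2 ((lbLevels q).sub E.fixingSubgroup) ρ) :
    lbInv q p ζ E.fixingSubgroup ρ (smH2π ((lbLevels q).sub E.fixingSubgroup) ρ ⟨_, hc⟩) =
      lfSymbol q ↥E p (⟨ζ, hζE⟩ : ↥E) a b := by
  classical
  have hp0 : p ≠ 0 := (Fact.out : p.Prime).ne_zero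
  set α₀ := lbRoot p ((((a : (↥E)ˣ) : ↥E) : PadicAlgCl q)) with hα₀
  have hα₀p : α₀ ^ p = (((a : (↥E)ˣ) : ↥E) : PadicAlgCl q) := lbRoot_pow (p := p) _
  set β₀ := lbRoot p ((((b : (↥E)ˣ) : ↥E) : PadicAlgCl q)) with hβ₀
  have hβ₀p : β₀ ^ p = (((b : (↥E)ˣ) : ↥E) : PadicAlgCl q) := lbRoot_pow (p := p) _
  have hα₀0 := lbk_root_ne_zero E a hα₀p
  have hβ₀0 := lbk_root_ne_zero E b hβ₀p
  -- a finite Galois layer containing the two roots
  have hfd0 : FiniteDimensional ℚ_[q] (IntermediateField.adjoin ℚ_[q] ({α₀, β₀} : Set (PadicAlgCl q))) :=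
    IntermediateField.finiteDimensional_adjoin (fun x _ => Algebra.IsIntegral.isIntegral x)
  obtain ⟨U, hU⟩ := ((lbLevels q).sub E.fixingSubgroup).exists_level
  obtain ⟨M, h, hM₀, hfdM, hg, -⟩ := lb_exists_layer E U hU
    (IntermediateField.adjoin ℚ_[q] ({α₀, β₀} : Set (PadicAlgCl q)))
  letI := lbAlgebra h
  haveI := lb_isScalarTower_bot h
  haveI := hfdM
  haveI := hg
  have hαM : α₀ ∈ M := hM₀ (IntermediateField.subset_adjoin _ _ (by simp))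
  have hβM : β₀ ∈ M := hM₀ (IntermediateField.subset_adjoin _ _ (by simp))
  have hζ0 : ζ ≠ 0 := hζ.ne_zero hp0
  set ζE : ↥E := ⟨ζ, hζE⟩ with hζE_def
  have hζE' : IsPrimitiveRoot ζE p :=
    (IsPrimitiveRoot.coe_submonoidClass_iff (N := E) (ζ := ζE)).mp hζ
  set αM : (↥M)ˣ := Units.mk0 ⟨α₀, hαM⟩ (fun h0 => hα₀0 (congrArg Subtype.val h0)) with hαM_def
  set βM : (↥M)ˣ := Units.mk0 ⟨β₀, hβM⟩ (fun h0 => hβ₀0 (congrArg Subtype.val h0)) with hβM_def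
  set ζM : (↥M)ˣ := Units.mk0 ⟨ζ, h hζE⟩ (fun h0 => hζ0 (congrArg Subtype.val h0)) with hζM_def
  have hαMp : ((αM : (↥M)ˣ) : ↥M) ^ p = algebraMap ↥E ↥M ((a : (↥E)ˣ) : ↥E) := by
    apply Subtype.ext
    exact hα₀p
  have hβMp : ((βM : (↥M)ˣ) : ↥M) ^ p = algebraMap ↥E ↥M ((b : (↥E)ˣ) : ↥E) := by
    apply Subtype.ext
    exact hβ₀p
  have hζMalg : algebraMap ↥E ↥M ζE = ((ζM : (↥M)ˣ) : ↥M) := rfl
  -- the finite-level cochain
  set c' : (↥M ≃ₐ[↥E] ↥M) × (↥M ≃ₐ[↥E] ↥M) → ZMod p := fun s =>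
    ((lfKumExp ζE ((βM : (↥M)ˣ) : ↥M) s.1 : ℕ) : ZMod p) *
      ((lfKumExp ζE ((αM : (↥M)ˣ) : ↥M) s.2 : ℕ) : ZMod p) with hc'_def
  -- comparison of the Kummer exponents
  have hcmp : ∀ (x : (↥E)ˣ) (ξ : PadicAlgCl q) (hξ : ξ ^ p = (((x : (↥E)ˣ) : ↥E) : PadicAlgCl q))
      (hξM : ξ ∈ M) (σ : ↥E.fixingSubgroup),
      ((lfKumExp ζE (⟨ξ, hξM⟩ : ↥M) (lbRes h hg.to_normal σ) : ℕ) : ZMod p) =
        lbKumFun (p := p) ζ E.fixingSubgroup (((x : (↥E)ˣ) : ↥E) : PadicAlgCl q) σ := by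
    intro x ξ hξ hξM σ
    symm
    rw [lbk_kumFun_eq_iff hζ E hζE x ξ hξ, lbk_pow_val_natCast hζ]
    have hξp : (⟨ξ, hξM⟩ : ↥M) ^ p = algebraMap ↥E ↥M ((x : (↥E)ˣ) : ↥E) := by
      apply Subtype.ext
      exact hξ
    have h1 := (lbk_lfKumExp_spec hζE' ((x : (↥E)ˣ) : ↥E) x.ne_zero (⟨ξ, hξM⟩ : ↥M) hξp
      (lbRes h hg.to_normal σ)).1
    have h2 := congrArg (fun z : ↥M => (z : PadicAlgCl q)) h1
    rw [lbRes_apply] at h2
    exact h2
  have hfun : (fun s : ↥E.fixingSubgroup × ↥E.fixingSubgroup =>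
      c' (lbRes h hg.to_normal s.1, lbRes h hg.to_normal s.2)) =
      (fun s : ↥E.fixingSubgroup × ↥E.fixingSubgroup =>
        lbKumFun (p := p) ζ E.fixingSubgroup (((b : (↥E)ˣ) : ↥E) : PadicAlgCl q) s.1 *
          lbKumFun ζ E.fixingSubgroup (((a : (↥E)ˣ) : ↥E) : PadicAlgCl q) s.2) := by
    funext s
    show ((lfKumExp ζE ((βM : (↥M)ˣ) : ↥M) (lbRes h hg.to_normal s.1) : ℕ) : ZMod p) *
      ((lfKumExp ζE ((αM : (↥M)ˣ) : ↥M) (lbRes h hg.to_normal s.2) : ℕ) : ZMod p) = _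
    rw [← hcmp b β₀ hβ₀p hβM s.1, ← hcmp a α₀ hα₀p hαM s.2]
    rfl
  have hc'' : (fun s : ↥E.fixingSubgroup × ↥E.fixingSubgroup =>
      c' (lbRes h hg.to_normal s.1, lbRes h hg.to_normal s.2)) ∈
      smZ2 ((lbLevels q).sub E.fixingSubgroup) ρ := by
    rw [hfun]; exact hc
  have hmk := lbInv_mk hζ h hg ζM rfl ρ hρ c' hc''
  have hcls : (⟨_, hc''⟩ : ↥(smZ2 ((lbLevels q).sub E.fixingSubgroup) ρ)) = ⟨_, hc⟩ :=
    Subtype.ext hfun
  rw [hcls] at hmk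
  -- the cup cocycle
  obtain ⟨-, hcup⟩ := localInv_lfCupCocycle q ↥E p ζE hζE' ↥M a b αM βM hαMp hβMp
  have hcoch : lbMulCochain ζM c' = lfCupCocycle ζE αM βM := by
    funext s
    have hspec := (lbk_lfKumExp_spec hζE' ((a : (↥E)ˣ) : ↥E) a.ne_zero ((αM : (↥M)ˣ) : ↥M) hαMp
      s.2).1
    have h1 : Units.map (s.2 : ↥M →* ↥M) αM / αM = ζM ^ lfKumExp ζE ((αM : (↥M)ˣ) : ↥M) s.2 := by
      rw [div_eq_iff_eq_mul]
      apply Units.ext
      rw [Units.coe_map, Units.val_mul, Units.val_pow_eq_pow_val, ← hζMalg]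
      exact hspec
    have hζMp : ζM ^ p = 1 := by
      apply Units.ext
      apply Subtype.ext
      rw [Units.val_pow_eq_pow_val, Units.val_one]
      exact hζ.pow_eq_one
    show ζM ^ (c' s).val = (Units.map (s.2 : ↥M →* ↥M) αM / αM) ^ lfKumExp ζE ((βM : (↥M)ˣ) : ↥M) s.1
    rw [h1, ← pow_mul, hc'_def]
    simp only
    rw [← Nat.cast_mul, ZMod.val_natCast, ← pow_eq_pow_mod _ hζMp, mul_comm]
  rw [hcoch, hcup] at hmk
  exact (lbk_addCircle_inj _ _ hmk).symm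


/-- Non-degeneracy of the local pairing `H¹(V, ZMod p) × H¹(V, μ_p) → ZMod p` on the left ... -/
theorem lbInv_cup_nondegenerate_left (f : ↥E.fixingSubgroup → ZMod p)
    (hf : f ∈ smZ1 ((lbLevels q).sub E.fixingSubgroup) ρ)
    (h0 : ∀ (g : ↥E.fixingSubgroup → ZMod p)
      (hg : g ∈ smZ1 ((lbLevels q).sub E.fixingSubgroup) ρ),
      lbInv q p ζ E.fixingSubgroup ρ (smH2π ((lbLevels q).sub E.fixingSubgroup) ρ
        ⟨_, lb_cup_mem_smZ2 hζ E hζE ρ hρ f g hf hg⟩) = 0) : f = 0 := by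
  obtain ⟨b, rfl⟩ := lbKumFun_surjective hζ E hζE ρ hρ f hf
  have hζE' : IsPrimitiveRoot (⟨ζ, hζE⟩ : ↥E) p :=
    (IsPrimitiveRoot.coe_submonoidClass_iff (N := E) (ζ := (⟨ζ, hζE⟩ : ↥E))).mp hζ
  rw [lbKumFun_eq_zero_iff hζ E hζE]
  apply lfSymbol_nondegenerate_right q ↥E p (⟨ζ, hζE⟩ : ↥E) hζE' b
  intro a
  have h1 := h0 _ (lbKumFun_mem_smZ1 hζ E hζE ρ hρ a)
  rw [lbInv_cup_lbKumFun hζ E hζE ρ hρ a b] at h1
  exact h1

/-- ... and on the right. -/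
theorem lbInv_cup_nondegenerate_right (g : ↥E.fixingSubgroup → ZMod p)
    (hg : g ∈ smZ1 ((lbLevels q).sub E.fixingSubgroup) ρ)
    (h0 : ∀ (f : ↥E.fixingSubgroup → ZMod p)
      (hf : f ∈ smZ1 ((lbLevels q).sub E.fixingSubgroup) ρ),
      lbInv q p ζ E.fixingSubgroup ρ (smH2π ((lbLevels q).sub E.fixingSubgroup) ρ
        ⟨_, lb_cup_mem_smZ2 hζ E hζE ρ hρ f g hf hg⟩) = 0) : g = 0 := by
  obtain ⟨a, rfl⟩ := lbKumFun_surjective hζ E hζE ρ hρ g hg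
  have hζE' : IsPrimitiveRoot (⟨ζ, hζE⟩ : ↥E) p :=
    (IsPrimitiveRoot.coe_submonoidClass_iff (N := E) (ζ := (⟨ζ, hζE⟩ : ↥E))).mp hζ
  rw [lbKumFun_eq_zero_iff hζ E hζE]
  apply lfSymbol_nondegenerate_left q ↥E p (⟨ζ, hζE⟩ : ↥E) hζE' a
  intro b
  have h1 := h0 _ (lbKumFun_mem_smZ1 hζ E hζE ρ hρ b)
  rw [lbInv_cup_lbKumFun hζ E hζE ρ hρ a b] at h1
  exact h1

/-- The Kummer map `Eˣ → Z¹(V, ZMod p)` as a group homomorphism. -/
noncomputable def lbkKumHom :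
    (↥E)ˣ →* Multiplicative ↥(smZ1 ((lbLevels q).sub E.fixingSubgroup) ρ) where
  toFun a := Multiplicative.ofAdd
    ⟨lbKumFun ζ E.fixingSubgroup (((a : (↥E)ˣ) : ↥E) : PadicAlgCl q),
      lbKumFun_mem_smZ1 hζ E hζE ρ hρ a⟩
  map_one' := by
    rw [← ofAdd_zero]
    congr 1
    apply Subtype.ext
    exact (lbKumFun_eq_zero_iff hζ E hζE 1).mpr ⟨1, one_pow p⟩
  map_mul' a b := by
    rw [← ofAdd_add]
    congr 1
    apply Subtype.ext
    exact lbKumFun_mul hζ E hζE a b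

theorem lbkKumHom_surjective : Function.Surjective (lbkKumHom hζ E hζE ρ hρ) := by
  intro f
  obtain ⟨a, ha⟩ := lbKumFun_surjective hζ E hζE ρ hρ (Multiplicative.toAdd f).1
    (Multiplicative.toAdd f).2
  refine ⟨a, ?_⟩
  apply Multiplicative.toAdd.injective
  apply Subtype.ext
  exact ha.symm

theorem lbkKumHom_ker :
    (lbkKumHom hζ E hζE ρ hρ).ker = (powMonoidHom p : (↥E)ˣ →* (↥E)ˣ).range := by
  ext a
  rw [MonoidHom.mem_ker, MonoidHom.mem_range]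
  have h1 : lbkKumHom hζ E hζE ρ hρ a = 1 ↔
      lbKumFun (p := p) ζ E.fixingSubgroup (((a : (↥E)ˣ) : ↥E) : PadicAlgCl q) = 0 := by
    constructor
    · intro h
      have := congrArg (fun z => (Multiplicative.toAdd z).1) h
      exact this
    · intro h
      apply Multiplicative.toAdd.injective
      apply Subtype.ext
      exact h
  rw [h1, lbKumFun_eq_zero_iff hζ E hζE]
  rfl

theorem lb_smZ1_card :
    Nat.card ↥(smZ1 ((lbLevels q).sub E.fixingSubgroup) ρ) =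
      (powMonoidHom p : (↥E)ˣ →* (↥E)ˣ).range.index := by
  rw [← lbkKumHom_ker hζ E hζE ρ hρ, Subgroup.index,
    Nat.card_congr (QuotientGroup.quotientKerEquivOfSurjective _
      (lbkKumHom_surjective hζ E hζE ρ hρ)).toEquiv]
  rfl

/-- Finiteness of the local `H¹` (`≅ Eˣ/Eˣᵖ`), with its dimension. -/
theorem lb_smZ1_finite : Module.Finite (ZMod p) ↥(smZ1 ((lbLevels q).sub E.fixingSubgroup) ρ) := by
  have hcard := lb_smZ1_card hζ E hζE ρ hρ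
  have hne := lf_index_pow_ne_zero q ↥E p (Fact.out : p.Prime).ne_zero
  have : Finite ↥(smZ1 ((lbLevels q).sub E.fixingSubgroup) ρ) := by
    apply Nat.finite_of_card_ne_zero
    rw [hcard]
    exact hne
  exact Module.Finite.of_finite


end Kummer

end Fermat.Agent.S55
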