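/-
S55 / LOCAL BRIDGE (LB): smooth cohomology of open subgroups of `Gal(ℚ̄_q/ℚ_q)` (helper29's
`smZ1/smZ2/smH2` with the levels `lbLevels q`) versus finite-level local class field theory
(`localInv`, `lfSymbol`).  PURE SHIM (no statements of its own, no sorry): every statement of the
former spec is proved in the imported leaves; definitions in `LocalBridgeDefs.lean`.
* LB0 `LocalBridgeGalois.lean` (helper26): infinite Galois theory: open subgroups, layers,
  factorisation of smooth cochains (`lb_isOpen_iff`, `lb_exists_layer`, `lb_exists_factor₁/₂`, ...)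
* LB1 `LocalBridgeInv.lean` + `LocalBridgeInvCore.lean` (helper5): `exists_lbInv`, `lbInv`, `lbInv_mk`
  (the invariant on smooth `H²(V, μ_p)`, characterised at finite level)
* LB2 `LocalBridgeInvProps.lean` + `LocalBridgeTools.lean` (helper27): `lbInv_res`, `lbInv_conj`;
  `LocalBridgeInvBij.lean` (helper28): `lbInv_injective`, `lbInv_surjective`
* LB3 `LocalBridgeKummer.lean` (helper2; + helper15's `Kummer.lean`): Kummer description of smooth
  `H¹`, cup product = `lfSymbol`, perfectness of the local pairing `H¹ × H¹ → ZMod p`,
  `lb_smZ1_finite`, `lb_smZ1_card`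
Conventions: `Ω = PadicAlgCl q`, `E ≤ M` finite subextensions of `Ω/ℚ_q`, `V = E.fixingSubgroup`,
`letI := lbAlgebra h` puts the inclusion algebra structure on `M/E` (same shape as helper2's
`lgFieldAlgebra`).  The coefficient module `μ_p` is `ZMod p` with ANY representation `ρ` such that
`IsMuRep ζ V ρ` (`σ (ζ^x) = ζ^(ρ σ x)`); so the statements apply verbatim to
`(chiRep χ).comp …` restricted to `V` and, when `ζ ∈ E`, to the trivial representation.
-/
import Fermat.Agent.S55.LocalBridgeInv
import Fermat.Agent.S55.LocalBridgeInvProps
import Fermat.Agent.S55.LocalBridgeInvBij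
import Fermat.Agent.S55.LocalBridgeKummer
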