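/-
S55 / LOCAL BRIDGE, consumer forms for the criterion (`CritTriv` of helper29's `Asm/Spec.lean`):
the purely local inputs `a1`, `b1f`, `b1'` (and the local half of `hlam`) in the language of the
top layer (`smH1`, `smH2`, `cupH11`).
* per place (`E` finite over `ℚ_q`, `V = E.fixingSubgroup`, `ζ ∈ E`): `lb_smH1_finite`,
  `lbInv_cupH11_nondeg_right/left`, `lbInv_exists_ne_zero`, `lbInv_eq_zero_iff'`;
  also for an abstract open `V` fixing `ζ` (`lb_exists_field_of_isOpen`, `*_of_isOpen`,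
  `lbInv_exists_smul_eq`: `H²(V, μ_p)` is one-dimensional);
* abstract family lemmas (pure linear algebra) in the exact shape of the `CritTriv` fields for
  `inv = ∑_w inv_w ∘ proj_w`: `lbc_a1_of_injective`, `lbc_b1f_of_finite`, `lbc_b1'_of_nondeg`.
Sorry-free.  Helper lemmas: prefix `lbc_`.
-/
import Fermat.Agent.S55.LocalBridgeSpec
import Fermat.Agent.S55.Top.CritA

set_option autoImplicit false
set_option linter.unusedSectionVars false
set_option linter.unusedVariables false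

namespace Fermat.Agent.S55

open groupCohomology

/-! ## Open subgroups fixing `ζ` -/

section Open

variable {q : ℕ} [Fact q.Prime]

/-- An open subgroup `V` of `Gal(ℚ̄_q/ℚ_q)` is the fixing subgroup of a finite `E`, and an element
fixed by `V` lies in `E`. -/
theorem lb_exists_field_of_isOpen (V : Subgroup (lbGal q)) (hV : (lbLevels q).IsOpen V) :
    ∃ E : IntermediateField ℚ_[q] (PadicAlgCl q), FiniteDimensional ℚ_[q] E ∧
      V = E.fixingSubgroup ∧ ∀ x : PadicAlgCl q, (∀ σ ∈ V, σ x = x) → x ∈ E := by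
  obtain ⟨E, hE, rfl⟩ := (lb_isOpen_iff q V).1 hV
  refine ⟨E, hE, rfl, fun x hx => ?_⟩
  rw [← InfiniteGalois.fixedField_fixingSubgroup E, IntermediateField.mem_fixedField_iff]
  exact hx

end Open

/-! ## Per place -/

section Local

variable {q : ℕ} [Fact q.Prime] {p : ℕ} [Fact p.Prime] {ζ : PadicAlgCl q}
  (hζ : IsPrimitiveRoot ζ p) (E : IntermediateField ℚ_[q] (PadicAlgCl q))
  [FiniteDimensional ℚ_[q] E] (hζE : ζ ∈ E)
  (ρ : Representation (ZMod p) ↥E.fixingSubgroup (ZMod p)) (hρ : IsMuRep ζ E.fixingSubgroup ρ)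

include hζ hζE hρ

/-- `b1f` at one place: the local `H¹` is finite. -/
theorem lb_smH1_finite :
    Module.Finite (ZMod p) (smH1 ((lbLevels q).sub E.fixingSubgroup) ρ) := by
  haveI := lb_smZ1_finite hζ E hζE ρ hρ
  infer_instance

/-- `b1'` at one place: the local cup pairing `H¹ × H¹ → H² → ZMod p` has trivial right kernel. -/
theorem lbInv_cupH11_nondeg_right
    (P : PairingData ((lbLevels q).sub E.fixingSubgroup) ρ ρ ρ (LinearMap.mul (ZMod p) (ZMod p)))
    (c : smH1 ((lbLevels q).sub E.fixingSubgroup) ρ)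
    (h : ∀ b : smH1 ((lbLevels q).sub E.fixingSubgroup) ρ,
      lbInv q p ζ E.fixingSubgroup ρ (cupH11 P b c) = 0) : c = 0 := by
  obtain ⟨g, rfl⟩ := Submodule.mkQ_surjective _ c
  have hρ1 : ρ = 1 := IsMuRep.eq_one hζ E hζE ρ hρ
  have hg0 : (g : ↥E.fixingSubgroup → ZMod p) = 0 := by
    refine lbInv_cup_nondegenerate_right hζ E hζE ρ hρ _ g.2 (fun f hf => ?_)
    have h1 := h (smH1π _ ρ ⟨f, hf⟩)
    have hmem : cup11 (LinearMap.mul (ZMod p) (ZMod p)) ρ f (g : ↥E.fixingSubgroup → ZMod p) ∈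
        smZ2 ((lbLevels q).sub E.fixingSubgroup) ρ := crita_cup11_mem P ⟨f, hf⟩ g
    rw [show Submodule.mkQ _ g = smH1π _ ρ g from rfl, cupH11_mk P ⟨f, hf⟩ g hmem] at h1
    have heq : (fun s : ↥E.fixingSubgroup × ↥E.fixingSubgroup =>
        f s.1 * (g : ↥E.fixingSubgroup → ZMod p) s.2) =
        cup11 (LinearMap.mul (ZMod p) (ZMod p)) ρ f (g : ↥E.fixingSubgroup → ZMod p) := by
      funext s
      have hρs : ρ s.1 = 1 := by rw [hρ1]; rfl
      show f s.1 * (g : ↥E.fixingSubgroup → ZMod p) s.2 =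
        (LinearMap.mul (ZMod p) (ZMod p)) (f s.1) (ρ s.1 ((g : ↥E.fixingSubgroup → ZMod p) s.2))
      rw [hρs]
      rfl
    have hmem' := lb_cup_mem_smZ2 hζ E hζE ρ hρ f (g : ↥E.fixingSubgroup → ZMod p) hf g.2
    have hsub : (⟨_, hmem'⟩ : ↥(smZ2 ((lbLevels q).sub E.fixingSubgroup) ρ)) = ⟨_, hmem⟩ :=
      Subtype.ext heq
    rw [hsub]
    exact h1
  have : g = 0 := Subtype.ext hg0
  rw [this, map_zero]

/-- ... and trivial left kernel. -/
theorem lbInv_cupH11_nondeg_left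
    (P : PairingData ((lbLevels q).sub E.fixingSubgroup) ρ ρ ρ (LinearMap.mul (ZMod p) (ZMod p)))
    (b : smH1 ((lbLevels q).sub E.fixingSubgroup) ρ)
    (h : ∀ c : smH1 ((lbLevels q).sub E.fixingSubgroup) ρ,
      lbInv q p ζ E.fixingSubgroup ρ (cupH11 P b c) = 0) : b = 0 := by
  obtain ⟨f, rfl⟩ := Submodule.mkQ_surjective _ b
  have hρ1 : ρ = 1 := IsMuRep.eq_one hζ E hζE ρ hρ
  have hf0 : (f : ↥E.fixingSubgroup → ZMod p) = 0 := by
    refine lbInv_cup_nondegenerate_left hζ E hζE ρ hρ _ f.2 (fun g hg => ?_)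
    have h1 := h (smH1π _ ρ ⟨g, hg⟩)
    have hmem : cup11 (LinearMap.mul (ZMod p) (ZMod p)) ρ (f : ↥E.fixingSubgroup → ZMod p) g ∈
        smZ2 ((lbLevels q).sub E.fixingSubgroup) ρ := crita_cup11_mem P f ⟨g, hg⟩
    rw [show Submodule.mkQ _ f = smH1π _ ρ f from rfl, cupH11_mk P f ⟨g, hg⟩ hmem] at h1
    have heq : (fun s : ↥E.fixingSubgroup × ↥E.fixingSubgroup =>
        (f : ↥E.fixingSubgroup → ZMod p) s.1 * g s.2) =
        cup11 (LinearMap.mul (ZMod p) (ZMod p)) ρ (f : ↥E.fixingSubgroup → ZMod p) g := by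
      funext s
      have hρs : ρ s.1 = 1 := by rw [hρ1]; rfl
      show (f : ↥E.fixingSubgroup → ZMod p) s.1 * g s.2 =
        (LinearMap.mul (ZMod p) (ZMod p)) ((f : ↥E.fixingSubgroup → ZMod p) s.1) (ρ s.1 (g s.2))
      rw [hρs]
      rfl
    have hmem' := lb_cup_mem_smZ2 hζ E hζE ρ hρ (f : ↥E.fixingSubgroup → ZMod p) g f.2 hg
    have hsub : (⟨_, hmem'⟩ : ↥(smZ2 ((lbLevels q).sub E.fixingSubgroup) ρ)) = ⟨_, hmem⟩ :=
      Subtype.ext heq
    rw [hsub]
    exact h1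
  have : f = 0 := Subtype.ext hf0
  rw [this, map_zero]

omit hζE in
/-- local half of `hlam`: the invariant is not the zero map. -/
theorem lbInv_exists_ne_zero :
    ∃ x : smH2 ((lbLevels q).sub E.fixingSubgroup) ρ, lbInv q p ζ E.fixingSubgroup ρ x ≠ 0 := by
  obtain ⟨x, hx⟩ := lbInv_surjective hζ E.fixingSubgroup
    ((lb_isOpen_iff q _).2 ⟨E, inferInstance, rfl⟩) ρ hρ 1
  exact ⟨x, by rw [hx]; exact one_ne_zero⟩

omit hζE in
/-- `a1` at one place: the invariant is injective. -/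
theorem lbInv_eq_zero_iff' (x : smH2 ((lbLevels q).sub E.fixingSubgroup) ρ) :
    lbInv q p ζ E.fixingSubgroup ρ x = 0 ↔ x = 0 := by
  constructor
  · intro h
    apply lbInv_injective hζ E.fixingSubgroup ((lb_isOpen_iff q _).2 ⟨E, inferInstance, rfl⟩) ρ hρ
    rw [h, map_zero]
  · rintro rfl
    exact map_zero _

end Local

/-! ## Per place, for an abstract open subgroup `V` fixing `ζ` -/

section LocalOpen

variable {q : ℕ} [Fact q.Prime] {p : ℕ} [Fact p.Prime] {ζ : PadicAlgCl q}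
  (hζ : IsPrimitiveRoot ζ p) (V : Subgroup (lbGal q)) (hV : (lbLevels q).IsOpen V)
  (hfix : ∀ σ ∈ V, σ ζ = ζ)
  (ρ : Representation (ZMod p) ↥V (ZMod p)) (hρ : IsMuRep ζ V ρ)

include hζ hV hfix hρ

theorem lb_smH1_finite_of_isOpen : Module.Finite (ZMod p) (smH1 ((lbLevels q).sub V) ρ) := by
  obtain ⟨E, hE, rfl, hmem⟩ := lb_exists_field_of_isOpen V hV
  exact lb_smH1_finite hζ E (hmem ζ hfix) ρ hρ

theorem lbInv_cupH11_nondeg_right_of_isOpen
    (P : PairingData ((lbLevels q).sub V) ρ ρ ρ (LinearMap.mul (ZMod p) (ZMod p)))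
    (c : smH1 ((lbLevels q).sub V) ρ)
    (h : ∀ b : smH1 ((lbLevels q).sub V) ρ, lbInv q p ζ V ρ (cupH11 P b c) = 0) : c = 0 := by
  obtain ⟨E, hE, rfl, hmem⟩ := lb_exists_field_of_isOpen V hV
  exact lbInv_cupH11_nondeg_right hζ E (hmem ζ hfix) ρ hρ P c h

theorem lbInv_cupH11_nondeg_left_of_isOpen
    (P : PairingData ((lbLevels q).sub V) ρ ρ ρ (LinearMap.mul (ZMod p) (ZMod p)))
    (b : smH1 ((lbLevels q).sub V) ρ)
    (h : ∀ c : smH1 ((lbLevels q).sub V) ρ, lbInv q p ζ V ρ (cupH11 P b c) = 0) : b = 0 := by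
  obtain ⟨E, hE, rfl, hmem⟩ := lb_exists_field_of_isOpen V hV
  exact lbInv_cupH11_nondeg_left hζ E (hmem ζ hfix) ρ hρ P b h

omit hfix in
theorem lbInv_exists_ne_zero_of_isOpen :
    ∃ x : smH2 ((lbLevels q).sub V) ρ, lbInv q p ζ V ρ x ≠ 0 := by
  obtain ⟨x, hx⟩ := lbInv_surjective hζ V hV ρ hρ 1
  exact ⟨x, by rw [hx]; exact one_ne_zero⟩

omit hfix in
/-- the local `H²(V, μ_p)` is one-dimensional: any linear functional is a multiple of `lbInv`. -/
theorem lbInv_exists_smul_eq (Λ : smH2 ((lbLevels q).sub V) ρ →ₗ[ZMod p] ZMod p) :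
    ∃ u : ZMod p, ∀ x, Λ x = u * lbInv q p ζ V ρ x := by
  obtain ⟨x₁, hx₁⟩ := lbInv_surjective hζ V hV ρ hρ 1
  refine ⟨Λ x₁, fun x => ?_⟩
  have hx : x = lbInv q p ζ V ρ x • x₁ := by
    apply lbInv_injective hζ V hV ρ hρ
    rw [map_smul, hx₁, smul_eq_mul, mul_one]
  conv_lhs => rw [hx]
  rw [map_smul, smul_eq_mul, mul_comm]

end LocalOpen

/-! ## Families: the `CritTriv` fields `a1`, `b1f`, `b1'` from the per-place statements -/

section Family

variable {k : Type*} [Field k] {ι : Type*} [Fintype ι] [DecidableEq ι]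

/-- `a1` for `inv = ∑_w inv_w ∘ proj_w` from the injectivity of the `inv_w`. -/
theorem lbc_a1_of_injective {X : ι → Type*} [∀ w, AddCommGroup (X w)] [∀ w, Module k (X w)]
    (invw : ∀ w, X w →ₗ[k] k) (hinj : ∀ w, Function.Injective (invw w))
    (c : ∀ w, X w) (h : ∀ a : ι → k, ∑ w, invw w (a w • c w) = 0) : c = 0 := by
  funext w
  apply hinj w
  have := h (Pi.single w 1)
  rw [Finset.sum_eq_single w] at this
  · rw [Pi.single_eq_same, one_smul] at this
    rw [this]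
    exact (map_zero (invw w)).symm
  · intro w' _ hw'
    rw [Pi.single_eq_of_ne hw', zero_smul, map_zero]
  · intro hw
    exact absurd (Finset.mem_univ w) hw

/-- `b1f`: a finite product of finite modules is finite. -/
theorem lbc_b1f_of_finite {X : ι → Type*} [∀ w, AddCommGroup (X w)] [∀ w, Module k (X w)]
    (hfin : ∀ w, Module.Finite k (X w)) : Module.Finite k (∀ w, X w) :=
  inferInstance

/-- `b1'` for `inv = ∑_w inv_w ∘ proj_w` from the per-place right non-degeneracy. -/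
theorem lbc_b1'_of_nondeg {X Y Z : ι → Type*} [∀ w, AddCommGroup (X w)] [∀ w, Module k (X w)]
    [∀ w, AddCommGroup (Y w)] [∀ w, Module k (Y w)] [∀ w, AddCommGroup (Z w)]
    [∀ w, Module k (Z w)]
    (cup : ∀ w, X w →ₗ[k] Y w →ₗ[k] Z w) (invw : ∀ w, Z w →ₗ[k] k)
    (hnd : ∀ w (c : Y w), (∀ b : X w, invw w (cup w b c) = 0) → c = 0)
    (c : ∀ w, Y w) (h : ∀ b : ∀ w, X w, ∑ w, invw w (cup w (b w) (c w)) = 0) : c = 0 := by
  funext w
  apply hnd w
  intro b
  have := h (Pi.single w b)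
  rw [Finset.sum_eq_single w] at this
  · rwa [Pi.single_eq_same] at this
  · intro w' _ hw'
    rw [Pi.single_eq_of_ne hw', map_zero, LinearMap.zero_apply, map_zero]
  · intro hw
    exact absurd (Finset.mem_univ w) hw

end Family

end Fermat.Agent.S55
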