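import Fermat.Agent.S55.Bridge.BridgeSpec
import Fermat.Agent.S55.Top.MainSpec
import Fermat.Agent.S55.Top.CoreCritSpec
import Fermat.Agent.S55.Asm.Spec
import Fermat.Agent.S55.Top.CdSpec
import Fermat.Agent.S55.Asm.TrivSpec

/-!
# S55: THE interface between the class-field-theory core and the top layer.

`core_base` is the ONLY number-theoretic input of S55: a trace functional on `H_c³(ℤ[1/S], μ_p)`
such that the duality package `{θ¹ surjective, θ² bijective, θ³ injective}` holds for the
permutation modules `B_H = Ind_H^{G_ℚ} 𝔽_p`, `H = Gal(ℚ̄/K')` with `ℚ(μ_p) ⊆ K'` finite and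
unramified outside `S`.  (Unwound: Artin–Verdier duality for `𝔽_p`, `μ_p` over `𝒪_{K'}[1/S]`.)

`result_of_core_base` derives the frozen S55 statement from it.
-/

set_option autoImplicit false

open groupCohomology ExtCitation

namespace Fermat.Agent.S55

/-- DELIVERABLE OF THE CORE (helper14's layers + SB), `H`-INTRINSIC FORM (assembled in
`Asm/TrivSpec.lean` from the leaves `asm_c1 … asm_b2`, `asm_reciprocity`, `asm_local_h3`): a trace functional `tr` on
`H_c³(ℤ[1/S], μ_p)` (from `exists_tr_of_reciprocity` and the local invariants over `ℚ_q`) such that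
* `pair02` is left non-degenerate on all base pairs (`hN`; by `hN_of_local_h3` it is enough that
  `H³(G_E, 𝔽_p) = 0` for the finite extensions `E ⊇ ℚ_q(μ_p)`, `q ∈ S`, and that the local traces
  are nonzero; alternatively `inv ∘ cor = unit • inv`);
* for every open `H ≤ ker (cycloChar p)` the `H`-intrinsic list `CritTriv` holds for the local system
  `locSysMackey` of `K' = fix H` and SOME family of local functionals `inv`. -/
theorem core_triv {p : ℕ} [Fact p.Prime] (hp2 : p ≠ 2) (S : Finset Nat.Primes)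
    (hpS : pPrime p ∈ S) :
    ∃ tr : smHc3 (locSysS S) (chiRep (cycloChar p)) →ₗ[ZMod p] ZMod p,
      (∀ H : Subgroup GQ, (levelsS S).IsOpen H → H ≤ (cycloChar p).ker →
        ∀ P : PairingData (levelsS S) (indRep H (trivRep (k := ZMod p) H))
          (indRep H (trivRep (k := ZMod p) H)) (chiRep (cycloChar p))
          (basePairing (cycloChar p) H),
        ∀ b : ∀ v, ↥(smH0 ((locSysS S).rep (indRep H (trivRep (k := ZMod p) H)) v)),
          (∀ c, pair02 (locSysS S) P tr b c = 0) → b = 0) ∧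
      (∀ H : Subgroup GQ, (levelsS S).IsOpen H → H ≤ (cycloChar p).ker →
        ∃ T : ↥S → Finset GQ, IsDoubleCosetReps (locSysS S) H T ∧
          ∃ inv, CritTriv (locSysMackey (locSysS S) H T) (trivRep (k := ZMod p) H) inv) :=
  asm_core_triv hp2 S hpS

/-- the ten cohomology-level statements of `CoreCrit` (ASM-MAIN applied to `core_triv`) -/
theorem core_crit {p : ℕ} [Fact p.Prime] (hp2 : p ≠ 2) (S : Finset Nat.Primes)
    (hpS : pPrime p ∈ S) :
    ∃ tr : smHc3 (locSysS S) (chiRep (cycloChar p)) →ₗ[ZMod p] ZMod p,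
      CoreCrit (locSysS S) (cycloChar p) tr := by
  obtain ⟨tr, hN, hT⟩ := core_triv hp2 S hpS
  have : Nonempty ↥S := ⟨⟨pPrime p, hpS⟩⟩
  exact ⟨tr, coreCrit_of_critTriv (locSysS S) (cycloChar p) (cycloChar_smooth S hpS) tr hT hN⟩

/-- the duality package for the base pairs (formal consequence of `core_crit`) -/
theorem core_base {p : ℕ} [Fact p.Prime] (hp2 : p ≠ 2) (S : Finset Nat.Primes)
    (hpS : pPrime p ∈ S) :
    ∃ tr : smHc3 (locSysS S) (chiRep (cycloChar p)) →ₗ[ZMod p] ZMod p,
      ∀ H : Subgroup GQ, (levelsS S).IsOpen H → H ≤ (cycloChar p).ker →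
        ∀ P : PairingData (levelsS S) (indRep H (trivRep (k := ZMod p) H))
          (indRep H (trivRep (k := ZMod p) H)) (chiRep (cycloChar p))
          (basePairing (cycloChar p) H),
        DualityPkg (locSysS S) P tr := by
  obtain ⟨tr, hC⟩ := core_crit hp2 S hpS
  exact ⟨tr, dualityPkg_base_of_criterion (locSysS S) (cycloChar p) (cycloChar_smooth S hpS) tr hC⟩

theorem result_of_core_base
    {p : ℕ} [Fact p.Prime] (hp2 : p ≠ 2) (S : Finset Nat.Primes) (hpS : pPrime p ∈ S)
    (M : Rep (ZMod p) (AlgebraicClosure ℚ ≃ₐ[ℚ] AlgebraicClosure ℚ))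
    [FiniteDimensional (ZMod p) M]
    (hsm : ∀ m : M, ∃ F : IntermediateField ℚ (AlgebraicClosure ℚ), FiniteDimensional ℚ F ∧
      ∀ s ∈ F.fixingSubgroup, M.ρ s m = m)
    (hMur : ∀ q : Nat.Primes, q ∉ S → ∀ A : ValuationSubring (AlgebraicClosure ℚ),
      A.LiesOverPrime (q : ℕ) → ∀ g ∈ A.inertiaSubgroupIn ℚ, M.ρ g = 1) :
    ∃ B : sha₁ S (M.dualTwist (cycloChar p)) →ₗ[ZMod p] sha₂ S M →ₗ[ZMod p] ZMod p,
      (∀ y, (∀ x, B y x = 0) → y = 0) ∧ (∀ x, (∀ y, B y x = 0) → x = 0) := by
  have hM : IsSmoothRep (levelsS S) M.ρ := isSmoothRep_of_frozen S M hsm hMur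
  have hP := perfPair_frozen S hpS M hM
  have hP' := perfPair_frozen_flip S hpS M hM
  obtain ⟨tr, hbase⟩ := core_base hp2 S hpS
  obtain ⟨B, hB₁, hB₂⟩ := top_sha_pairing (locSysS S) (cycloChar p) p (cycloChar_smooth S hpS) tr
    hbase M.ρ (M.dualTwist (cycloChar p)).ρ (evalPairing M (cycloChar p)) hP hP'
  obtain ⟨e₁⟩ := nonempty_sha₁_equiv S hp2 (M.dualTwist (cycloChar p)) hP.pd.smW
  obtain ⟨e₂⟩ := nonempty_sha₂_equiv S hp2 M
  refine ⟨(B.comp e₁.toLinearMap).compl₂ e₂.toLinearMap, ?_, ?_⟩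
  · intro y hy
    have : e₁ y = 0 := hB₁ (e₁ y) (fun x => by
      have := hy (e₂.symm x)
      simpa using this)
    simpa using this
  · intro x hx
    have : e₂ x = 0 := hB₂ (e₂ x) (fun y => by
      have := hx (e₁.symm y)
      simpa using this)
    simpa using this

end Fermat.Agent.S55
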