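import Mathlib

/-!
# S55 / GA2 : Sylow reduction for group cohomology, all degrees, all coefficients

For a subgroup `P ≤ G` of finite index and `A : Rep k G` there are morphisms
`ι : A ⟶ Coind_P^G (A|_P)` (unit) and `tr : Coind_P^G (A|_P) ⟶ A` (trace over `G ⧸ P`) with
`tr ∘ ι = [G : P]` (`ga2IotaHom_comp_trHom`).  With Shapiro's lemma (`groupCohomology.coindIso`)
multiplication by `[G : P]` on `Hⁿ(G, A)` factors through `Hⁿ(P, A|_P)` (`ga2_exists_factor`).
Consequences for finite `G` (the indices of the Sylow subgroups have no common prime factor):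
`ga2_exists_injective` (`Hⁿ(G, A)` embeds into the product of the `Hⁿ(P, A|_P)`),
`ga2_subsingleton_of_sylow` (vanishing), `ga2_card_le_of_sylow` (order bound).
-/

set_option autoImplicit false
set_option linter.unusedSectionVars false
set_option linter.style.haveILetI false

namespace Fermat.Agent.S55

open CategoryTheory groupCohomology

universe u

section Maps

variable {k : Type u} {G : Type u} [CommRing k] [Group G] {V : Type u} [AddCommGroup V] [Module k V]
  (ρ : Representation k G V) (P : Subgroup G)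

/-- the unit `A → Coind_P^G (A|_P)`, `x ↦ (h ↦ h • x)`. -/
def ga2IotaLin : V →ₗ[k] Representation.coindV P.subtype (ρ.comp P.subtype) where
  toFun x := ⟨fun h => ρ h x, fun g h => by
    show ρ ((g : G) * h) x = ρ (g : G) (ρ h x)
    rw [map_mul]; rfl⟩
  map_add' x y := by
    ext h
    simp
  map_smul' n x := by
    ext h
    simp

theorem ga2IotaLin_apply (x : V) (h : G) : (ga2IotaLin ρ P x).1 h = ρ h x := rfl

/-- the unit as an intertwining map. -/
def ga2Iota : ρ.IntertwiningMap (Representation.coind P.subtype (ρ.comp P.subtype)) :=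
  (ga2IotaLin ρ P).intertwiningMap_of_isIntertwiningMap _ _ (fun g x => by
    ext h
    show ρ h (ρ g x) = ρ (h * g) x
    rw [map_mul]; rfl)

/-- the function `g ↦ g • f(g⁻¹)`, constant on the left cosets of `P`. -/
def ga2Psi (f : Representation.coindV P.subtype (ρ.comp P.subtype)) (g : G) : V :=
  ρ g (f.1 g⁻¹)

theorem ga2Psi_mul_mem (f : Representation.coindV P.subtype (ρ.comp P.subtype)) (g : G) (p : P) :
    ga2Psi ρ P f (g * p) = ga2Psi ρ P f g := by
  unfold ga2Psi
  have h1 : f.1 ((p : G)⁻¹ * g⁻¹) = ρ ((p⁻¹ : P) : G) (f.1 g⁻¹) := f.2 p⁻¹ g⁻¹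
  rw [mul_inv_rev, map_mul, h1]
  show ρ g ((ρ (p : G) * ρ ((p⁻¹ : P) : G)) (f.1 g⁻¹)) = _
  rw [← map_mul]
  simp

/-- `ga2Psi` on the coset space. -/
def ga2PsiBar (f : Representation.coindV P.subtype (ρ.comp P.subtype)) : G ⧸ P → V :=
  Quotient.lift (ga2Psi ρ P f) (fun a b hab => by
    have h : a⁻¹ * b ∈ P := QuotientGroup.leftRel_apply.mp hab
    have h1 : b = a * ((⟨a⁻¹ * b, h⟩ : P) : G) := by simp
    rw [h1, ga2Psi_mul_mem])

theorem ga2PsiBar_mk (f : Representation.coindV P.subtype (ρ.comp P.subtype)) (g : G) :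
    ga2PsiBar ρ P f (g : G ⧸ P) = ga2Psi ρ P f g := rfl

theorem ga2PsiBar_add (f f' : Representation.coindV P.subtype (ρ.comp P.subtype)) (ξ : G ⧸ P) :
    ga2PsiBar ρ P (f + f') ξ = ga2PsiBar ρ P f ξ + ga2PsiBar ρ P f' ξ := by
  induction ξ using QuotientGroup.induction_on with
  | H g =>
    rw [ga2PsiBar_mk, ga2PsiBar_mk, ga2PsiBar_mk]
    unfold ga2Psi
    rw [← map_add]
    rfl

theorem ga2PsiBar_smul (c : k) (f : Representation.coindV P.subtype (ρ.comp P.subtype))
    (ξ : G ⧸ P) : ga2PsiBar ρ P (c • f) ξ = c • ga2PsiBar ρ P f ξ := by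
  induction ξ using QuotientGroup.induction_on with
  | H g =>
    rw [ga2PsiBar_mk, ga2PsiBar_mk]
    unfold ga2Psi
    rw [← map_smul]
    rfl

theorem ga2PsiBar_coind (g₀ : G) (f : Representation.coindV P.subtype (ρ.comp P.subtype))
    (ξ : G ⧸ P) :
    ga2PsiBar ρ P (Representation.coind P.subtype (ρ.comp P.subtype) g₀ f) ξ =
      ρ g₀ (ga2PsiBar ρ P f (g₀⁻¹ • ξ)) := by
  induction ξ using QuotientGroup.induction_on with
  | H g =>
    rw [MulAction.Quotient.smul_mk, ga2PsiBar_mk, ga2PsiBar_mk]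
    unfold ga2Psi
    show ρ g (f.1 (g⁻¹ * g₀)) = (ρ g₀ * ρ (g₀⁻¹ • g)) _
    rw [← map_mul]
    simp [mul_inv_rev]

variable [P.FiniteIndex]

/-- a `Fintype` structure on the coset space (local to this file). -/
noncomputable local instance ga2FintypeQuot : Fintype (G ⧸ P) := Fintype.ofFinite _

/-- the trace `Coind_P^G (A|_P) → A`, `f ↦ ∑_{gP} g • f(g⁻¹)`. -/
noncomputable def ga2TrLin : Representation.coindV P.subtype (ρ.comp P.subtype) →ₗ[k] V where
  toFun f := ∑ ξ : G ⧸ P, ga2PsiBar ρ P f ξ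
  map_add' f f' := by
    simp only [ga2PsiBar_add, Finset.sum_add_distrib]
  map_smul' n f := by
    simp only [ga2PsiBar_smul, Finset.smul_sum, RingHom.id_apply]

theorem ga2TrLin_apply (f : Representation.coindV P.subtype (ρ.comp P.subtype)) :
    ga2TrLin ρ P f = ∑ ξ : G ⧸ P, ga2PsiBar ρ P f ξ := rfl

/-- the trace as an intertwining map. -/
noncomputable def ga2Tr :
    (Representation.coind P.subtype (ρ.comp P.subtype)).IntertwiningMap ρ :=
  (ga2TrLin ρ P).intertwiningMap_of_isIntertwiningMap _ _ (fun g₀ f => by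
    rw [ga2TrLin_apply, ga2TrLin_apply, map_sum]
    simp only [ga2PsiBar_coind]
    exact Fintype.sum_equiv (MulAction.toPerm g₀⁻¹) _ _ fun ξ => rfl)

theorem ga2Tr_iota (x : V) : ga2Tr ρ P (ga2Iota ρ P x) = P.index • x := by
  show ga2TrLin ρ P (ga2IotaLin ρ P x) = _
  rw [ga2TrLin_apply]
  have h : ∀ ξ : G ⧸ P, ga2PsiBar ρ P (ga2IotaLin ρ P x) ξ = x := by
    intro ξ
    induction ξ using QuotientGroup.induction_on with
    | H g =>
      rw [ga2PsiBar_mk]
      unfold ga2Psi
      rw [ga2IotaLin_apply]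
      show (ρ g * ρ g⁻¹) x = x
      rw [← map_mul]
      simp
  simp only [h, Finset.sum_const, Finset.card_univ]
  rw [Subgroup.index_eq_card, Nat.card_eq_fintype_card]

end Maps

section Cohomology

variable {k : Type u} {G : Type u} [CommRing k] [Group G] (A : Rep.{u} k G) (P : Subgroup G)
  [P.FiniteIndex]

/-- the unit as a morphism of representations. -/
noncomputable def ga2IotaHom : A ⟶ Rep.coind P.subtype (Rep.res P.subtype A) :=
  Rep.ofHom (ga2Iota A.ρ P)

/-- the trace as a morphism of representations. -/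
noncomputable def ga2TrHom : Rep.coind P.subtype (Rep.res P.subtype A) ⟶ A :=
  Rep.ofHom (ga2Tr A.ρ P)

theorem ga2IotaHom_comp_trHom : ga2IotaHom A P ≫ ga2TrHom A P = P.index • 𝟙 A := by
  apply Rep.hom_ext
  apply Representation.IntertwiningMap.ext
  apply LinearMap.ext
  intro x
  exact ga2Tr_iota A.ρ P x

theorem ga2_map_nsmul {A B : Rep.{u} k G} (φ : A ⟶ B) (m n : ℕ) :
    map (MonoidHom.id G) (m • φ) n = m • map (MonoidHom.id G) φ n := by
  have h : ∀ ψ : A ⟶ B, map (MonoidHom.id G) ψ n =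
      (HomologicalComplex.homologyFunctor _ _ n).map ((cochainsFunctor k G).map ψ) := fun _ => rfl
  rw [h, h, Functor.map_nsmul, Functor.map_nsmul]
  rfl

/-- `tr_* ∘ ι_* = [G : P]` on `Hⁿ(G, A)`. -/
theorem ga2_map_tr_map_iota (n : ℕ) (x : groupCohomology A n) :
    (map (MonoidHom.id G) (ga2TrHom A P) n).hom
      ((map (MonoidHom.id G) (ga2IotaHom A P) n).hom x) = P.index • x := by
  have h : map (MonoidHom.id G) (P.index • 𝟙 A) n =
      map (MonoidHom.id G) (ga2IotaHom A P) n ≫ map (MonoidHom.id G) (ga2TrHom A P) n := by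
    rw [← ga2IotaHom_comp_trHom]
    exact map_id_comp _ _ n
  rw [ga2_map_nsmul, map_id] at h
  have h2 := congrArg (fun f => f.hom x) h
  simp only [ModuleCat.hom_comp, LinearMap.comp_apply] at h2
  rw [← h2]
  simp

/-- multiplication by the index `[G : P]` on `Hⁿ(G, A)` factors through `Hⁿ(P, A|_P)`. -/
theorem ga2_exists_factor (n : ℕ) :
    ∃ (a : groupCohomology A n →ₗ[k] groupCohomology (Rep.res P.subtype A) n)
      (b : groupCohomology (Rep.res P.subtype A) n →ₗ[k] groupCohomology A n),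
      ∀ x, b (a x) = P.index • x := by
  refine ⟨(coindIso (Rep.res P.subtype A) n).hom.hom.comp
      (map (MonoidHom.id G) (ga2IotaHom A P) n).hom,
    (map (MonoidHom.id G) (ga2TrHom A P) n).hom.comp
      (coindIso (Rep.res P.subtype A) n).inv.hom, fun x => ?_⟩
  show (map (MonoidHom.id G) (ga2TrHom A P) n).hom
    ((coindIso (Rep.res P.subtype A) n).inv.hom
      ((coindIso (Rep.res P.subtype A) n).hom.hom
        ((map (MonoidHom.id G) (ga2IotaHom A P) n).hom x))) = _
  rw [← ga2_map_tr_map_iota A P n x]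
  congr 1
  exact congrArg (fun f => f.hom ((map (MonoidHom.id G) (ga2IotaHom A P) n).hom x))
    (coindIso (Rep.res P.subtype A) n).hom_inv_id

end Cohomology

section Counting

/-- An abelian group `M` such that, for every prime `p` in a finite set `S ⊇ primeFactors n`,
multiplication by `n / p^(v_p n)` factors through a group `N p`, embeds into `∏ N p`. -/
theorem ga2_injective_pi (M : Type*) [AddCommGroup M] (n : ℕ) (hn : n ≠ 0) (S : Finset ℕ)
    (hS : n.primeFactors ⊆ S) (hSne : S.Nonempty)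
    (N : S → Type*) [∀ p, AddCommGroup (N p)]
    (a : ∀ p, M →+ N p) (b : ∀ p, N p →+ M)
    (hab : ∀ (p : S) (x : M), b p (a p x) = (n / (p : ℕ) ^ n.factorization p) • x) :
    Function.Injective (fun (x : M) (p : S) => a p x) := by
  intro x y hxy
  rw [← sub_eq_zero]
  set z := x - y with hz
  have hz0 : ∀ p : S, a p z = 0 := by
    intro p
    have := congrFun hxy p
    simp only at this
    rw [hz, map_sub, this, sub_self]
  have hzm : ∀ p : S, (n / (p : ℕ) ^ n.factorization p) • z = 0 := by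
    intro p
    rw [← hab p, hz0 p, map_zero]
  by_contra hne
  have hord : addOrderOf z ≠ 1 := by
    rwa [Ne, AddMonoid.addOrderOf_eq_one_iff]
  obtain ⟨q, hq, hqd⟩ := Nat.exists_prime_and_dvd hord
  obtain ⟨p₀, hp₀⟩ := hSne
  have hdvd : ∀ p : S, addOrderOf z ∣ n / (p : ℕ) ^ n.factorization p := fun p =>
    addOrderOf_dvd_of_nsmul_eq_zero (hzm p)
  have hqn : q ∣ n := (hqd.trans (hdvd ⟨p₀, hp₀⟩)).trans (Nat.div_dvd_of_dvd
    (Nat.ordProj_dvd n p₀))
  have hqS : q ∈ S := hS (Nat.mem_primeFactors.mpr ⟨hq, hqn, hn⟩)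
  exact Nat.not_dvd_ordCompl hq hn (hqd.trans (hdvd ⟨q, hqS⟩))

/-- cardinality form. -/
theorem ga2_card_le_of_factor (M : Type*) [AddCommGroup M] (n : ℕ) (hn : n ≠ 0) (S : Finset ℕ)
    (hS : n.primeFactors ⊆ S) (hSne : S.Nonempty)
    (N : S → Type*) [∀ p, AddCommGroup (N p)]
    (a : ∀ p, M →+ N p) (b : ∀ p, N p →+ M)
    (hab : ∀ (p : S) (x : M), b p (a p x) = (n / (p : ℕ) ^ n.factorization p) • x)
    (hN : ∀ p : S, Finite (N p) ∧ Nat.card (N p) ≤ (p : ℕ) ^ n.factorization p) :
    Finite M ∧ Nat.card M ≤ n := by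
  classical
  have hF := ga2_injective_pi M n hn S hS hSne N a b hab
  have : ∀ p : S, Finite (N p) := fun p => (hN p).1
  have hfin : Finite M := Finite.of_injective _ hF
  refine ⟨hfin, ?_⟩
  calc Nat.card M ≤ Nat.card (∀ p : S, N p) := Nat.card_le_card_of_injective _ hF
    _ = ∏ p : S, Nat.card (N p) := Nat.card_pi
    _ ≤ ∏ p : S, (p : ℕ) ^ n.factorization p :=
        Finset.prod_le_prod' fun p _ => (hN p).2
    _ = ∏ p ∈ S, p ^ n.factorization p := by
        rw [← Finset.prod_coe_sort S (fun p => p ^ n.factorization p)]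
    _ = n := by
        have h1 := Nat.prod_factorization_pow_eq_self hn
        rw [Finsupp.prod_of_support_subset _ (by simpa using hS) _ (fun p _ => pow_zero p)] at h1
        exact h1

end Counting

section Sylow

variable {k : Type u} {G : Type u} [CommRing k] [Group G] [Finite G] (A : Rep.{u} k G)

/-- the primes dividing `|G|`, and `2`. -/
noncomputable def ga2Primes (G : Type u) [Group G] : Finset ℕ := (Nat.card G).primeFactors ∪ {2}

theorem ga2Primes_prime {p : ℕ} (hp : p ∈ ga2Primes G) : p.Prime := by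
  rcases Finset.mem_union.mp hp with hp | hp
  · exact Nat.prime_of_mem_primeFactors hp
  · rw [Finset.mem_singleton.mp hp]; exact Nat.prime_two

/-- a chosen Sylow `p`-subgroup for every `p ∈ ga2Primes G`. -/
noncomputable def ga2Sylow (p : ga2Primes G) : Subgroup G :=
  haveI : Fact (p : ℕ).Prime := ⟨ga2Primes_prime p.2⟩
  ((default : Sylow (p : ℕ) G) : Subgroup G)

theorem ga2Sylow_eq (p : ga2Primes G) :
    ∃ (_ : Fact (p : ℕ).Prime) (Q : Sylow (p : ℕ) G), ga2Sylow p = (Q : Subgroup G) :=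
  ⟨⟨ga2Primes_prime p.2⟩, _, rfl⟩

theorem card_ga2Sylow (p : ga2Primes G) :
    Nat.card (ga2Sylow (G := G) p) = (p : ℕ) ^ (Nat.card G).factorization p := by
  haveI : Fact (p : ℕ).Prime := ⟨ga2Primes_prime p.2⟩
  exact Sylow.card_eq_multiplicity (default : Sylow (p : ℕ) G)

theorem index_ga2Sylow (p : ga2Primes G) :
    (ga2Sylow (G := G) p).index = Nat.card G / (p : ℕ) ^ (Nat.card G).factorization p := by
  have h1 := (ga2Sylow (G := G) p).card_mul_index
  rw [card_ga2Sylow p] at h1
  exact (Nat.div_eq_of_eq_mul_right (pow_pos (ga2Primes_prime p.2).pos _) h1.symm).symm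

/-- `Hⁿ(G, A)` embeds (by the Shapiro restriction maps) into the product of the `Hⁿ(P, A|_P)` over
the chosen Sylow subgroups. -/
theorem ga2_exists_injective (n : ℕ) :
    ∃ a : ∀ p : ga2Primes G, groupCohomology A n →ₗ[k]
        groupCohomology (Rep.res (ga2Sylow (G := G) p).subtype A) n,
      Function.Injective (fun (x : groupCohomology A n) (p : ga2Primes G) => a p x) := by
  choose a b hab using fun p : ga2Primes G => ga2_exists_factor A (ga2Sylow (G := G) p) n
  refine ⟨a, ?_⟩
  exact ga2_injective_pi (groupCohomology A n) (Nat.card G) Nat.card_pos.ne' (ga2Primes G)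
    Finset.subset_union_left ⟨2, Finset.mem_union_right _ (Finset.mem_singleton_self 2)⟩
    (fun p => groupCohomology (Rep.res (ga2Sylow (G := G) p).subtype A) n)
    (fun p => (a p).toAddMonoidHom) (fun p => (b p).toAddMonoidHom)
    (fun p x => by rw [← index_ga2Sylow p]; exact hab p x)

/-- **vanishing**: if `Hⁿ` of the Sylow subgroups vanishes then `Hⁿ(G, A) = 0`. -/
theorem ga2_subsingleton_of_sylow (n : ℕ)
    (h : ∀ (p : ℕ) [Fact p.Prime] (Q : Sylow p G),
      Subsingleton (groupCohomology (Rep.res (Q : Subgroup G).subtype A) n)) :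
    Subsingleton (groupCohomology A n) := by
  obtain ⟨a, ha⟩ := ga2_exists_injective A n
  have : ∀ p : ga2Primes G,
      Subsingleton (groupCohomology (Rep.res (ga2Sylow (G := G) p).subtype A) n) := by
    intro p
    obtain ⟨hp, Q, hQ⟩ := ga2Sylow_eq (G := G) p
    rw [hQ]
    exact h p Q
  exact ha.subsingleton

/-- **order bound**: if `|Hⁿ(P, A|_P)| ≤ |P|` for the Sylow subgroups then `|Hⁿ(G, A)| ≤ |G|`. -/
theorem ga2_card_le_of_sylow (n : ℕ)
    (h : ∀ (p : ℕ) [Fact p.Prime] (Q : Sylow p G),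
      Finite (groupCohomology (Rep.res (Q : Subgroup G).subtype A) n) ∧
      Nat.card (groupCohomology (Rep.res (Q : Subgroup G).subtype A) n) ≤
        Nat.card (Q : Subgroup G)) :
    Finite (groupCohomology A n) ∧ Nat.card (groupCohomology A n) ≤ Nat.card G := by
  choose a b hab using fun p : ga2Primes G => ga2_exists_factor A (ga2Sylow (G := G) p) n
  refine ga2_card_le_of_factor (groupCohomology A n) (Nat.card G) Nat.card_pos.ne' (ga2Primes G)
    Finset.subset_union_left ⟨2, Finset.mem_union_right _ (Finset.mem_singleton_self 2)⟩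
    (fun p => groupCohomology (Rep.res (ga2Sylow (G := G) p).subtype A) n)
    (fun p => (a p).toAddMonoidHom) (fun p => (b p).toAddMonoidHom)
    (fun p x => by rw [← index_ga2Sylow p]; exact hab p x) (fun p => ?_)
  obtain ⟨hp, Q, hQ⟩ := ga2Sylow_eq (G := G) p
  rw [← card_ga2Sylow p, hQ]
  exact h p Q

end Sylow

end Fermat.Agent.S55
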