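import Mathlib
import Fermat.Agent.S55.Alg.TateH3

set_option autoImplicit false

/-!
# S55 / LOCAL layer LT, abstract part: Tate's theorem fed with a fundamental cocycle,
in multiplicative cocycle language

`G` finite acting on a commutative group `X`; Hilbert 90 for all subgroups and a "fundamental"
2-cocycle `u` (for every subgroup `S`, every 2-cocycle of `S` is cohomologous to a power of the
restriction of `u`, and `(u|S)^m` is a coboundary iff `|S| ∣ m`) imply `H³(G, X) = 0`.
-/

namespace Fermat.Agent.S55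

open CategoryTheory CategoryTheory.Limits groupCohomology Rep

section

variable {G : Type} [Group G] {X : Type} [CommGroup X] [MulDistribMulAction G X]

/-- Hilbert 90 in cocycle form gives `H¹ = 0` -/
theorem lta_isZero_H1 (h90 : ∀ f : G → X, IsMulCocycle₁ f → IsMulCoboundary₁ f) :
    IsZero (groupCohomology (Rep.ofMulDistribMulAction G X) 1) := by
  have hsub : ∀ a : H1 (Rep.ofMulDistribMulAction G X), a = 0 := fun a =>
    H1_induction_on a fun x => (H1π_eq_zero_iff _).2 <| by
      refine (coboundariesOfIsMulCoboundary₁ ?_).2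
      rcases h90 (Additive.toMul ∘ x.1) (isMulCocycle₁_of_mem_cocycles₁ _ x.2) with ⟨β, hβ⟩
      exact ⟨β, hβ⟩
  have : Subsingleton (H1 (Rep.ofMulDistribMulAction G X)) :=
    ⟨fun a b => (hsub a).trans (hsub b).symm⟩
  exact ModuleCat.isZero_of_subsingleton _

/-- the class of a multiplicative 2-cocycle -/
noncomputable def ltaH2π (c : G × G → X) (hc : IsMulCocycle₂ c) :
    H2 (Rep.ofMulDistribMulAction G X) :=
  H2π _ (cocyclesOfIsMulCocycle₂ hc)

theorem ltaH2π_surjective (x : H2 (Rep.ofMulDistribMulAction G X)) :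
    ∃ (c : G × G → X) (hc : IsMulCocycle₂ c), ltaH2π c hc = x := by
  induction x using H2_induction_on with | h z =>
  refine ⟨Additive.toMul ∘ z.1, isMulCocycle₂_of_mem_cocycles₂ _ z.2, ?_⟩
  rfl

theorem ltaH2π_eq_iff (c c' : G × G → X) (hc : IsMulCocycle₂ c) (hc' : IsMulCocycle₂ c') :
    ltaH2π c hc = ltaH2π c' hc' ↔ IsMulCoboundary₂ (c / c') := by
  unfold ltaH2π
  rw [H2π_eq_iff]
  constructor
  · intro h
    have := isMulCoboundary₂_of_mem_coboundaries₂ _ h
    convert this using 1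
    funext p
    rfl
  · intro h
    have := (coboundariesOfIsMulCoboundary₂ h).2
    convert this using 1
    funext p
    rfl

theorem ltaH2π_eq_zero_iff (c : G × G → X) (hc : IsMulCocycle₂ c) :
    ltaH2π c hc = 0 ↔ IsMulCoboundary₂ c := by
  unfold ltaH2π
  rw [H2π_eq_zero_iff]
  constructor
  · intro h
    exact isMulCoboundary₂_of_mem_coboundaries₂ _ h
  · intro h
    exact (coboundariesOfIsMulCoboundary₂ h).2

theorem lta_isMulCocycle₂_pow {c : G × G → X} (hc : IsMulCocycle₂ c) (m : ℕ) :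
    IsMulCocycle₂ (c ^ m) := by
  intro g h j
  simp only [Pi.pow_apply]
  rw [← mul_pow, hc g h j, mul_pow, smul_pow']

theorem ltaH2π_pow (c : G × G → X) (hc : IsMulCocycle₂ c) (m : ℕ) :
    ltaH2π (c ^ m) (lta_isMulCocycle₂_pow hc m) = m • ltaH2π c hc := by
  unfold ltaH2π
  rw [← map_nsmul]
  congr 1

/-- restriction of a 2-cochain to a subgroup -/
def ltaRes (S : Subgroup G) (u : G × G → X) : ↥S × ↥S → X := fun s => u ((s.1 : G), (s.2 : G))

theorem ltaRes_isMulCocycle₂ (S : Subgroup G) {u : G × G → X} (hu : IsMulCocycle₂ u) :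
    IsMulCocycle₂ (ltaRes S u) := fun g h j => hu g h j

theorem map_ltaH2π (S : Subgroup G) (u : G × G → X) (hu : IsMulCocycle₂ u) :
    map S.subtype (𝟙 (res S.subtype (Rep.ofMulDistribMulAction G X))) 2 (ltaH2π u hu) =
      ltaH2π (ltaRes S u) (ltaRes_isMulCocycle₂ S hu) := by
  unfold ltaH2π
  rw [H2π_comp_map_apply]
  rfl

/-- **Tate's theorem with a fundamental cocycle** (multiplicative form of `ga6_tate_isZero_H3`) -/
theorem lta_isZero_H3_of_fundamental [Finite G]
    (h90 : ∀ (S : Subgroup G) (f : ↥S → X), IsMulCocycle₁ f → IsMulCoboundary₁ f)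
    (u : G × G → X) (hu : IsMulCocycle₂ u)
    (hfund : ∀ S : Subgroup G,
      (∀ c : ↥S × ↥S → X, IsMulCocycle₂ c → ∃ m : ℕ,
        IsMulCoboundary₂ (c / fun s : ↥S × ↥S => u ((s.1 : G), (s.2 : G)) ^ m)) ∧
      (∀ m : ℕ, IsMulCoboundary₂ (fun s : ↥S × ↥S => u ((s.1 : G), (s.2 : G)) ^ m) ↔
        Nat.card ↥S ∣ m)) :
    IsZero (groupCohomology (Rep.ofMulDistribMulAction G X) 3) := by
  refine ga6_tate_isZero_H3 (Rep.ofMulDistribMulAction G X) (ltaH2π u hu)
    (fun S => lta_isZero_H1 (G := ↥S) (X := X) (h90 S)) (fun S => ?_)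
  obtain ⟨hgen, hord⟩ := hfund S
  have huS := ltaRes_isMulCocycle₂ S hu
  set v : H2 (Rep.ofMulDistribMulAction ↥S X) := ltaH2π (ltaRes S u) huS with hv
  have hres : map S.subtype (𝟙 (res S.subtype (Rep.ofMulDistribMulAction G X))) 2 (ltaH2π u hu) = v :=
    map_ltaH2π S u hu
  -- every class is a multiple of `v`
  have hgen' : ∀ x : H2 (Rep.ofMulDistribMulAction ↥S X), ∃ m : ℕ, x = m • v := by
    intro x
    obtain ⟨c, hc, rfl⟩ := ltaH2π_surjective x
    obtain ⟨m, hm⟩ := hgen c hc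
    refine ⟨m, ?_⟩
    rw [hv, ← ltaH2π_pow, ltaH2π_eq_iff]
    exact hm
  -- order of `v`
  have hord' : ∀ m : ℕ, m • v = 0 ↔ Nat.card ↥S ∣ m := by
    intro m
    rw [← hord m, hv, ← ltaH2π_pow, ltaH2π_eq_zero_iff]
    rfl
  refine ⟨fun x => ?_, ?_⟩
  · obtain ⟨m, hm⟩ := hgen' x
    refine ⟨(m : ℤ), ?_⟩
    rw [hres, hm]
    exact (natCast_zsmul v m).symm
  · -- cardinality
    have hcard : Nat.card (AddSubgroup.zmultiples v) = addOrderOf v := Nat.card_zmultiples v
    have hSpos : 0 < Nat.card ↥S := Nat.card_pos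
    have hao : addOrderOf v = Nat.card ↥S := by
      apply Nat.dvd_antisymm
      · exact addOrderOf_dvd_of_nsmul_eq_zero ((hord' _).2 dvd_rfl)
      · exact (hord' _).1 (addOrderOf_nsmul_eq_zero v)
    have htop : (AddSubgroup.zmultiples v) = ⊤ := by
      rw [eq_top_iff]
      intro x _
      obtain ⟨m, hm⟩ := hgen' x
      rw [hm]
      exact AddSubgroup.nsmul_mem _ (AddSubgroup.mem_zmultiples v) m
    rw [← hao, ← hcard, htop]
    exact (Nat.card_congr (Equiv.Set.univ _)).symm

end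

end Fermat.Agent.S55
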