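/-
S55 / LOCAL layer: the invariant of a `p`-torsion class of an unramified extension in terms of the
"defect" of a trivialisation of its `p`-th power (local core of row 297 (a), helper14's
`geInv_eq_glTau_div`): if `c` is a `2`-cocycle of the unramified extension `L/K` and
`c ^ p = d¹ g`, then `inv(c) = ord_L (g Frob) / p` in `ℚ/ℤ`.
Sorry-free; uses `localInv_eq_lfInvUnram` and the explicit formula `lfInvUnram`.
Helper lemmas: prefix `lfo2_`.
-/
import Fermat.Agent.S55.LocalInv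

set_option autoImplicit false

namespace Fermat.Agent.S55

open groupCohomology

section FrobOrd

variable (q : ℕ) [Fact q.Prime]
  (K : Type) [Field K] [Algebra ℚ_[q] K] [FiniteDimensional ℚ_[q] K]
  (L : Type) [Field L] [Algebra ℚ_[q] L] [FiniteDimensional ℚ_[q] L]
  [Algebra K L] [IsScalarTower ℚ_[q] K L]

/-- `lfOrd` of a finite product of units. -/
theorem lfo2_lfOrd_prod {ι : Type*} (s : Finset ι) (f : ι → Lˣ) :
    lfOrd q L (((∏ i ∈ s, f i : Lˣ) : Lˣ) : L) = ∑ i ∈ s, lfOrd q L ((f i : Lˣ) : L) := by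
  classical
  induction s using Finset.induction_on with
  | empty => simp [lfOrd_one]
  | insert a s ha ih =>
    rw [Finset.prod_insert ha, Finset.sum_insert ha, Units.val_mul,
      lfOrd_mul q L (Units.ne_zero _) (Units.ne_zero _), ih]

/-- `lfOrd` is invariant under the Galois action on units. -/
theorem lfo2_lfOrd_smul (σ : L ≃ₐ[K] L) (x : Lˣ) :
    lfOrd q L (((σ • x : Lˣ) : Lˣ) : L) = lfOrd q L ((x : Lˣ) : L) := by
  have h : (((σ • x : Lˣ) : Lˣ) : L) = σ ((x : Lˣ) : L) := rfl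
  rw [h, lfOrd_algEquiv]

/-- Telescoping: `∏_{i<n} (φ^i • y / g (φ^(i+1)) * g (φ^i)) = (∏_{i<n} φ^i • y) * g 1 / g (φ^n)`. -/
theorem lfo2_prod_telescope {G : Type*} [Group G] {X : Type*} [CommGroup X]
    [MulDistribMulAction G X] (φ : G) (g : G → X) (y : X) (n : ℕ) :
    ∏ i ∈ Finset.range n, (φ ^ i • y / g (φ ^ (i + 1)) * g (φ ^ i)) =
      (∏ i ∈ Finset.range n, φ ^ i • y) * (g 1 / g (φ ^ n)) := by
  induction n with
  | zero => simp
  | succ n ih =>
    rw [Finset.prod_range_succ, Finset.prod_range_succ, ih]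
    have : ∀ (A a b c d : X), A * (d / c) * (a / b * c) = A * a * (d / b) := by
      intro A a b c d
      rw [div_eq_mul_inv, div_eq_mul_inv, div_eq_mul_inv]
      have e : A * (d * c⁻¹) * (a * b⁻¹ * c) = A * a * (d * b⁻¹) * (c⁻¹ * c) := by
        simp only [mul_assoc, mul_comm, mul_left_comm]
      rw [e, inv_mul_cancel, mul_one]
    exact this _ _ _ _ _

/-- THE INVARIANT OF A `p`-TORSION CLASS OF AN UNRAMIFIED EXTENSION: if `c` is a `2`-cocycle of the
unramified extension `L/K` with `c ^ p = d¹ g` (`d¹ g (σ,τ) = σ • g τ / g (σ τ) * g σ`), then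
`inv (c) = ord_L (g (Frob)) / p`. -/
theorem localInv_eq_lfOrd_frob_div (h : LfUnramified q K L) (p : ℕ) (hp : p ≠ 0)
    (c : (L ≃ₐ[K] L) × (L ≃ₐ[K] L) → Lˣ) (hc : IsMulCocycle₂ c) (g : (L ≃ₐ[K] L) → Lˣ)
    (hcg : ∀ σ τ : L ≃ₐ[K] L, σ • g τ / g (σ * τ) * g σ = c (σ, τ) ^ p) :
    localInv q K L c =
      ((((lfOrd q L ((g (lfFrob q K L) : Lˣ) : L) : ℤ) : ℚ) / (p : ℚ) : ℚ) : AddCircle (1 : ℚ)) := by
  have : FiniteDimensional K L := FiniteDimensional.right ℚ_[q] K L
  rw [localInv_eq_lfInvUnram q K L h hc]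
  unfold lfInvUnram
  set φ := lfFrob q K L with hφ
  set n := orderOf φ with hn
  have hnfin : n = Module.finrank K L := orderOf_lfFrob q K L h
  have hn0 : n ≠ 0 := (orderOf_pos φ).ne'
  -- the key identity in `ℤ`
  have key : (p : ℤ) * lfOrd q L ((lfUnramRep q K L c : Lˣ) : L) =
      (n : ℤ) * lfOrd q L ((g φ : Lˣ) : L) := by
    have h1 : (lfUnramRep q K L c) ^ p =
        (∏ i ∈ Finset.range n, φ ^ i • g φ) * (g 1 / g (φ ^ n)) := by
      unfold lfUnramRep
      rw [← Finset.prod_pow, ← lfo2_prod_telescope]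
      refine Finset.prod_congr rfl fun i _ => ?_
      rw [← hcg (φ ^ i) φ, pow_succ]
    have h2 : g 1 / g (φ ^ n) = 1 := by rw [hn, pow_orderOf_eq_one, div_self']
    rw [h2, mul_one] at h1
    have h3 : lfOrd q L (((lfUnramRep q K L c ^ p : Lˣ) : Lˣ) : L) =
        lfOrd q L (((∏ i ∈ Finset.range n, φ ^ i • g φ : Lˣ) : Lˣ) : L) := by rw [h1]
    rw [Units.val_pow_eq_pow_val, lfOrd_pow, lfo2_lfOrd_prod] at h3
    rw [h3]
    rw [Finset.sum_congr rfl fun i _ => lfo2_lfOrd_smul q K L (φ ^ i) (g φ)]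
    rw [Finset.sum_const, Finset.card_range, nsmul_eq_mul]
  congr 1
  rw [← hnfin]
  have hpq : (p : ℚ) ≠ 0 := by exact_mod_cast hp
  have hnq : (n : ℚ) ≠ 0 := by exact_mod_cast hn0
  rw [div_eq_div_iff hnq hpq]
  have := congrArg (fun z : ℤ => (z : ℚ)) key
  simp only [Int.cast_mul, Int.cast_natCast] at this
  linarith

end FrobOrd

end Fermat.Agent.S55
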