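/-
S55 / LOCAL BRIDGE, supplement to LB0 (`LocalBridgeGalois.lean`): factorisation of smooth
`3`-cochains of `V = E.fixingSubgroup ≤ Gal(Ω/ℚ_q)` through finite Galois layers, and the converse
(degree-`3` analogues of `lb_exists_factor₂`, `lb_isLC₂_lbRes`).  For the local `H³`-vanishing
(row 311).  Sorry-free.
-/
import Fermat.Agent.S55.LocalBridgeGalois

set_option autoImplicit false
set_option linter.style.haveILetI false

namespace Fermat.Agent.S55

open groupCohomology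

section Galois3

variable {q : ℕ} [Fact q.Prime]
variable {E M : IntermediateField ℚ_[q] (PadicAlgCl q)}

/-- Factorisation of smooth `3`-cochains through a finite Galois layer. -/
theorem lb_exists_factor₃ {X : Type*} (E : IntermediateField ℚ_[q] (PadicAlgCl q))
    [FiniteDimensional ℚ_[q] E]
    (f : ↥E.fixingSubgroup × ↥E.fixingSubgroup × ↥E.fixingSubgroup → X)
    (hf : IsLC₃ ((lbLevels q).sub E.fixingSubgroup) f)
    (M₀ : IntermediateField ℚ_[q] (PadicAlgCl q)) [FiniteDimensional ℚ_[q] M₀] :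
    ∃ (M : IntermediateField ℚ_[q] (PadicAlgCl q)) (h : E ≤ M) (_ : M₀ ≤ M)
      (_ : FiniteDimensional ℚ_[q] M) (hg : letI := lbAlgebra h; IsGalois ↥E ↥M),
      letI := lbAlgebra h
      ∃ f' : (↥M ≃ₐ[↥E] ↥M) × (↥M ≃ₐ[↥E] ↥M) × (↥M ≃ₐ[↥E] ↥M) → X,
        ∀ s, f s = f' (lbRes h hg.to_normal s.1, lbRes h hg.to_normal s.2.1,
          lbRes h hg.to_normal s.2.2) := by
  obtain ⟨U, hU, hfU⟩ := hf
  obtain ⟨M, h, hM₀, hfin, hg, hle⟩ := lb_exists_layer E U hU M₀
  refine ⟨M, h, hM₀, hfin, hg, ?_⟩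
  letI := lbAlgebra h
  have hsurj := lbRes_surjective h hg.to_normal
  refine ⟨fun τ => f (Function.surjInv hsurj τ.1, Function.surjInv hsurj τ.2.1,
    Function.surjInv hsurj τ.2.2), ?_⟩
  rintro ⟨σ, σ', σ''⟩
  have h1 : lbRes h hg.to_normal (Function.surjInv hsurj (lbRes h hg.to_normal σ))
      = lbRes h hg.to_normal σ := Function.surjInv_eq hsurj _
  have h1' : lbRes h hg.to_normal (Function.surjInv hsurj (lbRes h hg.to_normal σ'))
      = lbRes h hg.to_normal σ' := Function.surjInv_eq hsurj _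
  have h1'' : lbRes h hg.to_normal (Function.surjInv hsurj (lbRes h hg.to_normal σ''))
      = lbRes h hg.to_normal σ'' := Function.surjInv_eq hsurj _
  have h2 := hfU σ σ' σ'' _ _ _ (hle (lbRes_inv_mul_mem h hg.to_normal σ _ h1))
    (hle (lbRes_inv_mul_mem h hg.to_normal σ' _ h1'))
    (hle (lbRes_inv_mul_mem h hg.to_normal σ'' _ h1''))
  rw [mul_inv_cancel_left, mul_inv_cancel_left, mul_inv_cancel_left] at h2
  exact h2.symm

/-- `3`-cochains pulled back from a finite layer are smooth. -/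
theorem lb_isLC₃_lbRes {X : Type*} [FiniteDimensional ℚ_[q] M] (h : E ≤ M)
    (hn : letI := lbAlgebra h; Normal ↥E ↥M)
    (f' : (letI := lbAlgebra h;
      (↥M ≃ₐ[↥E] ↥M) × (↥M ≃ₐ[↥E] ↥M) × (↥M ≃ₐ[↥E] ↥M)) → X) :
    IsLC₃ ((lbLevels q).sub E.fixingSubgroup)
      (fun s => f' (lbRes h hn s.1, lbRes h hn s.2.1, lbRes h hn s.2.2)) := by
  refine ⟨_, lb_isLevel_ker h, fun g g' g'' s s' s'' hs hs' hs'' => ?_⟩
  have hs1 : lbRes h hn s = 1 := by
    rw [← MonoidHom.mem_ker, lbRes_ker]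
    exact hs
  have hs1' : lbRes h hn s' = 1 := by
    rw [← MonoidHom.mem_ker, lbRes_ker]
    exact hs'
  have hs1'' : lbRes h hn s'' = 1 := by
    rw [← MonoidHom.mem_ker, lbRes_ker]
    exact hs''
  show f' (lbRes h hn (g * s), lbRes h hn (g' * s'), lbRes h hn (g'' * s'')) =
    f' (lbRes h hn g, lbRes h hn g', lbRes h hn g'')
  rw [map_mul, map_mul, map_mul, hs1, hs1', hs1'', mul_one, mul_one, mul_one]

/-- Simultaneous factorisation of a smooth `3`-cochain and a smooth `2`-cochain through one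
finite Galois layer (for `f = d² e` arguments). -/
theorem lb_exists_factor₂₃ {X Y : Type*} (E : IntermediateField ℚ_[q] (PadicAlgCl q))
    [FiniteDimensional ℚ_[q] E]
    (e : ↥E.fixingSubgroup × ↥E.fixingSubgroup → Y)
    (he : IsLC₂ ((lbLevels q).sub E.fixingSubgroup) e)
    (f : ↥E.fixingSubgroup × ↥E.fixingSubgroup × ↥E.fixingSubgroup → X)
    (hf : IsLC₃ ((lbLevels q).sub E.fixingSubgroup) f)
    (M₀ : IntermediateField ℚ_[q] (PadicAlgCl q)) [FiniteDimensional ℚ_[q] M₀] :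
    ∃ (M : IntermediateField ℚ_[q] (PadicAlgCl q)) (h : E ≤ M) (_ : M₀ ≤ M)
      (_ : FiniteDimensional ℚ_[q] M) (hg : letI := lbAlgebra h; IsGalois ↥E ↥M),
      letI := lbAlgebra h
      (∃ e' : (↥M ≃ₐ[↥E] ↥M) × (↥M ≃ₐ[↥E] ↥M) → Y,
        ∀ s, e s = e' (lbRes h hg.to_normal s.1, lbRes h hg.to_normal s.2)) ∧
      ∃ f' : (↥M ≃ₐ[↥E] ↥M) × (↥M ≃ₐ[↥E] ↥M) × (↥M ≃ₐ[↥E] ↥M) → X,
        ∀ s, f s = f' (lbRes h hg.to_normal s.1, lbRes h hg.to_normal s.2.1,
          lbRes h hg.to_normal s.2.2) := by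
  have hpair : IsLC₃ ((lbLevels q).sub E.fixingSubgroup)
      (fun s : ↥E.fixingSubgroup × ↥E.fixingSubgroup × ↥E.fixingSubgroup =>
        (e (s.1, s.2.1), f s)) := by
    obtain ⟨U, hU, hUe⟩ := he
    obtain ⟨U', hU', hUf⟩ := hf
    obtain ⟨W, hW, hWle⟩ := ((lbLevels q).sub E.fixingSubgroup).exists_le_inf U U' hU hU'
    have hWU : W ≤ U := hWle.trans inf_le_left
    have hWU' : W ≤ U' := hWle.trans inf_le_right
    refine ⟨W, hW, fun g g' g'' s s' s'' hs hs' hs'' => ?_⟩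
    show (e (g * s, g' * s'), f (g * s, g' * s', g'' * s'')) = (e (g, g'), f (g, g', g''))
    rw [hUe g g' s s' (hWU hs) (hWU hs'),
      hUf g g' g'' s s' s'' (hWU' hs) (hWU' hs') (hWU' hs'')]
  obtain ⟨M, h, hM₀, hfin, hg, F, hF⟩ := lb_exists_factor₃ E _ hpair M₀
  refine ⟨M, h, hM₀, hfin, hg, ?_, ?_⟩
  · letI := lbAlgebra h
    refine ⟨fun τ => (F (τ.1, τ.2, 1)).1, fun s => ?_⟩
    have := hF (s.1, s.2, 1)
    simp only [map_one] at this
    show e s = (F (lbRes h hg.to_normal s.1, lbRes h hg.to_normal s.2, 1)).1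
    rw [← this]
  · letI := lbAlgebra h
    refine ⟨fun τ => (F τ).2, fun s => ?_⟩
    show f s = (F (lbRes h hg.to_normal s.1, lbRes h hg.to_normal s.2.1,
      lbRes h hg.to_normal s.2.2)).2
    rw [← hF s]

end Galois3

end Fermat.Agent.S55
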