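/-
S55 / LOCAL BRIDGE, leaf LB2 (half B): injectivity and surjectivity of the invariant `lbInv` on
smooth `H²(V, μ_p)`.  Spec: `LocalBridgeSpec.lean` (section Inv, "LB2").
Route: Kummer sequence at finite levels.  Injectivity: Hilbert 90 (Mathlib) on a bigger layer;
surjectivity: a totally ramified Kummer layer of degree divisible by `p` carries a class of
invariant `1/p`, which is cohomologous (after inflation) to a `μ_p`-valued cocycle.
-/
import Fermat.Agent.S55.LocalBridgeInv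

set_option autoImplicit false
set_option linter.style.haveILetI false

namespace Fermat.Agent.S55

open groupCohomology IntermediateField

/-- Shortcut instances (instance search on subtypes `↥M` of intermediate fields is slow). -/
local instance (priority := high) lbbMDMA (K L : Type) [Field K] [Field L] [Algebra K L] :
    MulDistribMulAction (L ≃ₐ[K] L) Lˣ := inferInstance

local instance (priority := high) lbbSMulUnits (K L : Type) [Field K] [Field L] [Algebra K L] :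
    SMul (L ≃ₐ[K] L) Lˣ := inferInstance

/-! ### exponent arithmetic `u ^ x.val`, `x : ZMod p` -/

section PowVal

variable {X : Type*} [Monoid X] {p : ℕ} [NeZero p] {u : X}

theorem lbb_pow_val_add (hu : u ^ p = 1) (x y : ZMod p) :
    u ^ (x + y).val = u ^ x.val * u ^ y.val := by
  rw [ZMod.val_add, ← pow_eq_pow_mod _ hu, pow_add]

omit [NeZero p] in
theorem lbb_pow_val_zero : u ^ (0 : ZMod p).val = 1 := by
  rw [ZMod.val_zero, pow_zero]

theorem lbb_pow_val_neg_mul (hu : u ^ p = 1) (x : ZMod p) :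
    u ^ (-x).val * u ^ x.val = 1 := by
  rw [← lbb_pow_val_add hu, neg_add_cancel, lbb_pow_val_zero]

end PowVal

section PowValGroup

variable {X : Type*} [CommGroup X] {p : ℕ} [NeZero p] {u : X}

theorem lbb_pow_val_neg (hu : u ^ p = 1) (x : ZMod p) :
    u ^ (-x).val = (u ^ x.val)⁻¹ :=
  eq_inv_of_mul_eq_one_left (lbb_pow_val_neg_mul hu x)

theorem lbb_pow_val_sub (hu : u ^ p = 1) (x y : ZMod p) :
    u ^ (x - y).val = u ^ x.val / u ^ y.val := by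
  rw [sub_eq_add_neg, lbb_pow_val_add hu, lbb_pow_val_neg hu, div_eq_mul_inv]

end PowValGroup

/-! ### closure properties of multiplicative cocycles and coboundaries -/

section Closure

variable {G : Type} [Group G] {X : Type} [CommGroup X] [MulDistribMulAction G X]

theorem lbb_isMulCocycle₂_one : IsMulCocycle₂ (1 : G × G → X) := by
  intro g h j
  simp

theorem lbb_isMulCoboundary₂_one : IsMulCoboundary₂ (1 : G × G → X) :=
  ⟨fun _ => 1, fun g h => by simp⟩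

theorem lbb_isMulCocycle₂_mul {c c' : G × G → X} (hc : IsMulCocycle₂ c) (hc' : IsMulCocycle₂ c') :
    IsMulCocycle₂ (c * c') := by
  intro g h j
  simp only [Pi.mul_apply, smul_mul']
  rw [mul_mul_mul_comm, hc g h j, hc' g h j, mul_mul_mul_comm]

theorem lbb_isMulCocycle₂_inv {c : G × G → X} (hc : IsMulCocycle₂ c) :
    IsMulCocycle₂ (c⁻¹) := by
  intro g h j
  simp only [Pi.inv_apply, smul_inv']
  rw [← mul_inv, ← mul_inv, hc g h j]

theorem lbb_isMulCocycle₂_div {c c' : G × G → X} (hc : IsMulCocycle₂ c) (hc' : IsMulCocycle₂ c') :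
    IsMulCocycle₂ (c / c') := by
  rw [div_eq_mul_inv]
  exact lbb_isMulCocycle₂_mul hc (lbb_isMulCocycle₂_inv hc')

theorem lbb_isMulCocycle₂_pow {c : G × G → X} (hc : IsMulCocycle₂ c) (m : ℕ) :
    IsMulCocycle₂ (c ^ m) := by
  induction m with
  | zero => rw [pow_zero]; exact lbb_isMulCocycle₂_one
  | succ m ih => rw [pow_succ]; exact lbb_isMulCocycle₂_mul ih hc

theorem lbb_isMulCocycle₂_of_isMulCoboundary₂ {c : G × G → X} (hc : IsMulCoboundary₂ c) :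
    IsMulCocycle₂ c := by
  obtain ⟨x, hx⟩ := hc
  intro g h j
  simp only [← hx, smul_mul', smul_div', mul_smul, mul_assoc]
  apply Additive.ofMul.injective
  simp only [ofMul_mul, ofMul_div]
  abel

end Closure

/-! ### the fractions `k/p` in `ℚ/ℤ` -/

section Frac

variable (p : ℕ) [NeZero p]

theorem lbb_frac_eq_zero_iff (k : ZMod p) :
    (((((k.val : ℕ) : ℚ) / (p : ℚ) : ℚ)) : AddCircle (1 : ℚ)) = 0 ↔ k = 0 := by
  have hp0 : 0 < p := NeZero.pos p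
  have hp : (0 : ℚ) < (p : ℚ) := Nat.cast_pos.mpr hp0
  have hmem : ∀ j : ZMod p, (((j.val : ℕ) : ℚ) / (p : ℚ)) ∈ Set.Ico (0 : ℚ) (0 + 1) := by
    intro j
    constructor
    · positivity
    · rw [zero_add, div_lt_one hp]
      exact_mod_cast ZMod.val_lt j
  constructor
  · intro h
    have h0 : (((((0 : ZMod p).val : ℕ) : ℚ) / (p : ℚ) : ℚ) : AddCircle (1 : ℚ)) = 0 := by
      simp
    rw [← h0, AddCircle.coe_eq_coe_iff_of_mem_Ico (hmem k) (hmem 0)] at h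
    have h2 : ((k.val : ℕ) : ℚ) = (((0 : ZMod p).val : ℕ) : ℚ) := by
      field_simp at h
      exact h
    exact ZMod.val_injective p (by exact_mod_cast h2)
  · rintro rfl
    simp

end Frac

/-! ### abstract computations in a square of fields -/

section Square

variable (K L K' M : Type) [Field K] [Field L] [Field K'] [Field M]
  [Algebra K L] [Algebra K K'] [Algebra L M] [Algebra K' M] [Algebra K M]
  [IsScalarTower K L M] [IsScalarTower K K' M] [Normal K L]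

/-- Equivariance of `Lˣ → Mˣ` with respect to `lfGalRes`. -/
theorem lbb_smul_incl (σ : M ≃ₐ[K'] M) (x : Lˣ) :
    σ • Units.map (algebraMap L M : L →* M) x =
      Units.map (algebraMap L M : L →* M) (lfGalRes K L K' M σ • x) := by
  apply Units.ext
  exact (lfGalRes_commutes K L K' M σ (x : L)).symm

variable {K L K' M}

/-- Injectivity step: `t(σ) = y(σ̄) / (σ w / w)` with `w^p = z`, `σ z / z = y(σ)^p`, is
`μ_p`-valued. -/
theorem lbb_t_pow (p : ℕ) (y : (L ≃ₐ[K] L) → Lˣ) (z : Lˣ) (hz : ∀ g, g • z / z = y g ^ p)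
    (w : Mˣ) (hw : w ^ p = Units.map (algebraMap L M : L →* M) z) (σ : M ≃ₐ[K'] M) :
    (Units.map (algebraMap L M : L →* M) (y (lfGalRes K L K' M σ)) / (σ • w / w)) ^ p = 1 := by
  rw [div_pow, div_pow, ← smul_pow', hw, ← map_pow, ← hz, lbb_smul_incl K L K' M, map_div,
    div_self']

/-- Injectivity step: the coboundary of `t` is the inflation of the coboundary of `y`. -/
theorem lbb_t_cob (y : (L ≃ₐ[K] L) → Lˣ) (w : Mˣ) (σ τ : M ≃ₐ[K'] M) :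
    σ • (Units.map (algebraMap L M : L →* M) (y (lfGalRes K L K' M τ)) / (τ • w / w)) /
        (Units.map (algebraMap L M : L →* M) (y (lfGalRes K L K' M (σ * τ))) /
          ((σ * τ) • w / w)) *
        (Units.map (algebraMap L M : L →* M) (y (lfGalRes K L K' M σ)) / (σ • w / w)) =
      Units.map (algebraMap L M : L →* M)
        (lfGalRes K L K' M σ • y (lfGalRes K L K' M τ) /
          y (lfGalRes K L K' M σ * lfGalRes K L K' M τ) * y (lfGalRes K L K' M σ)) := by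
  simp only [map_mul, map_div]
  rw [← lbb_smul_incl K L K' M, smul_div', smul_div', mul_smul]
  apply Additive.ofMul.injective
  simp only [ofMul_mul, ofMul_div]
  abel

/-- Surjectivity step: `lfBC b₀ / d(t)` is `μ_p`-valued when `b₀^p = d(y)`, `t(σ)^p = y(σ̄)`. -/
theorem lbb_div_pow (p : ℕ) (b₀ : (L ≃ₐ[K] L) × (L ≃ₐ[K] L) → Lˣ) (y : (L ≃ₐ[K] L) → Lˣ)
    (hy : ∀ g h, g • y h / y (g * h) * y g = b₀ (g, h) ^ p)
    (wM : (L ≃ₐ[K] L) → Mˣ)
    (hw : ∀ g, wM g ^ p = Units.map (algebraMap L M : L →* M) (y g)) (σ τ : M ≃ₐ[K'] M) :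
    (lfBC K L K' M b₀ (σ, τ) /
      (σ • wM (lfGalRes K L K' M τ) / wM (lfGalRes K L K' M (σ * τ)) *
        wM (lfGalRes K L K' M σ))) ^ p = 1 := by
  rw [div_pow, mul_pow, div_pow, ← smul_pow', hw, hw, hw, lfBC_apply, ← map_pow, ← hy]
  simp only [map_mul, map_div]
  rw [lbb_smul_incl K L K' M, div_self']

end Square

/-! ### the dictionary `ZMod p ↔ μ_p` on a finite layer -/

section Layer

variable {q : ℕ} [Fact q.Prime] {p : ℕ} [Fact p.Prime] {ζ : PadicAlgCl q}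
  {E M : IntermediateField ℚ_[q] (PadicAlgCl q)}

theorem lbb_unit_coe_pow (ζM : (↥M)ˣ) (hζM : ((ζM : ↥M) : PadicAlgCl q) = ζ) (k : ℕ) :
    ((((ζM ^ k : (↥M)ˣ) : ↥M)) : PadicAlgCl q) = ζ ^ k := by
  rw [Units.val_pow_eq_pow_val, SubmonoidClass.coe_pow, hζM]

theorem lbb_unit_ext {u v : (↥M)ˣ} (h : ((u : ↥M) : PadicAlgCl q) = ((v : ↥M) : PadicAlgCl q)) :
    u = v := Units.ext (Subtype.ext h)

omit [Fact p.Prime] in
theorem lbb_unit_pow_eq_one (hζ : IsPrimitiveRoot ζ p) (ζM : (↥M)ˣ)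
    (hζM : ((ζM : ↥M) : PadicAlgCl q) = ζ) : ζM ^ p = 1 := by
  apply lbb_unit_ext
  rw [lbb_unit_coe_pow ζM hζM, hζ.pow_eq_one]
  rfl

/-- `σ (ζ^x) = ζ^(ρ σ x)` on the layer. -/
theorem lbb_smul_pow (h : E ≤ M) (hn : letI := lbAlgebra h; Normal ↥E ↥M) (ζM : (↥M)ˣ)
    (hζM : ((ζM : ↥M) : PadicAlgCl q) = ζ)
    (ρ : Representation (ZMod p) ↥E.fixingSubgroup (ZMod p)) (hρ : IsMuRep ζ E.fixingSubgroup ρ)
    (σ : ↥E.fixingSubgroup) (x : ZMod p) :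
    letI := lbAlgebra h
    lbRes h hn σ • (ζM ^ x.val) = ζM ^ (ρ σ x).val := by
  letI := lbAlgebra h
  apply lbb_unit_ext
  rw [lbb_unit_coe_pow ζM hζM, ← hρ σ x, ← lbb_unit_coe_pow ζM hζM]
  exact lbRes_apply h hn σ _

theorem lbb_pow_injective (hζ : IsPrimitiveRoot ζ p) (ζM : (↥M)ˣ)
    (hζM : ((ζM : ↥M) : PadicAlgCl q) = ζ) {x y : ZMod p} (hxy : ζM ^ x.val = ζM ^ y.val) :
    x = y := by
  have h1 : ζ ^ x.val = ζ ^ y.val := by
    rw [← lbb_unit_coe_pow ζM hζM, ← lbb_unit_coe_pow ζM hζM, hxy]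
  exact ZMod.val_injective p (hζ.pow_inj (ZMod.val_lt x) (ZMod.val_lt y) h1)

theorem lbb_exists_pow (hζ : IsPrimitiveRoot ζ p) (ζM : (↥M)ˣ)
    (hζM : ((ζM : ↥M) : PadicAlgCl q) = ζ) {u : (↥M)ˣ} (hu : u ^ p = 1) :
    ∃ x : ZMod p, u = ζM ^ x.val := by
  have h1 : (((u : ↥M)) : PadicAlgCl q) ^ p = 1 := by
    rw [← SubmonoidClass.coe_pow, ← Units.val_pow_eq_pow_val, hu]
    rfl
  obtain ⟨i, hi, hiu⟩ := hζ.eq_pow_of_pow_eq_one h1
  refine ⟨(i : ZMod p), ?_⟩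
  apply lbb_unit_ext
  rw [lbb_unit_coe_pow ζM hζM, ZMod.val_natCast_of_lt hi, hiu]

/-- additive cocycle (pulled back to `V`) ⇒ multiplicative cocycle `ζ^c'` on the layer -/
theorem lbb_isMulCocycle₂_of_dd2 (hζ : IsPrimitiveRoot ζ p) (h : E ≤ M)
    (hn : letI := lbAlgebra h; Normal ↥E ↥M) (ζM : (↥M)ˣ)
    (hζM : ((ζM : ↥M) : PadicAlgCl q) = ζ)
    (ρ : Representation (ZMod p) ↥E.fixingSubgroup (ZMod p)) (hρ : IsMuRep ζ E.fixingSubgroup ρ)
    (c' : (letI := lbAlgebra h; (↥M ≃ₐ[↥E] ↥M) × (↥M ≃ₐ[↥E] ↥M)) → ZMod p)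
    (hc : dd2 ρ (fun s : ↥E.fixingSubgroup × ↥E.fixingSubgroup =>
        c' (lbRes h hn s.1, lbRes h hn s.2)) = 0) :
    letI := lbAlgebra h
    IsMulCocycle₂ (lbMulCochain ζM c') := by
  letI := lbAlgebra h
  have hu := lbb_unit_pow_eq_one hζ ζM hζM
  intro g₀ h₀ j₀
  obtain ⟨g, rfl⟩ := lbRes_surjective h hn g₀
  obtain ⟨h₁, rfl⟩ := lbRes_surjective h hn h₀
  obtain ⟨j, rfl⟩ := lbRes_surjective h hn j₀
  have h3 := congrFun hc (g, h₁, j)
  rw [dd2_apply, Pi.zero_apply] at h3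
  simp only [map_mul] at h3
  show ζM ^ (c' _).val * ζM ^ (c' _).val = lbRes h hn g • ζM ^ (c' _).val * ζM ^ (c' _).val
  rw [lbb_smul_pow h hn ζM hζM ρ hρ, ← lbb_pow_val_add hu, ← lbb_pow_val_add hu]
  congr 2
  linear_combination (-1 : ZMod p) * h3

/-- multiplicative cocycle `ζ^c'` on the layer ⇒ additive cocycle on `V` -/
theorem lbb_dd2_of_isMulCocycle₂ (hζ : IsPrimitiveRoot ζ p) (h : E ≤ M)
    (hn : letI := lbAlgebra h; Normal ↥E ↥M) (ζM : (↥M)ˣ)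
    (hζM : ((ζM : ↥M) : PadicAlgCl q) = ζ)
    (ρ : Representation (ZMod p) ↥E.fixingSubgroup (ZMod p)) (hρ : IsMuRep ζ E.fixingSubgroup ρ)
    (c' : (letI := lbAlgebra h; (↥M ≃ₐ[↥E] ↥M) × (↥M ≃ₐ[↥E] ↥M)) → ZMod p)
    (hc : letI := lbAlgebra h; IsMulCocycle₂ (lbMulCochain ζM c')) :
    dd2 ρ (fun s : ↥E.fixingSubgroup × ↥E.fixingSubgroup =>
        c' (lbRes h hn s.1, lbRes h hn s.2)) = 0 := by
  letI := lbAlgebra h
  have hu := lbb_unit_pow_eq_one hζ ζM hζM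
  ext ⟨g, h₁, j⟩
  rw [dd2_apply, Pi.zero_apply]
  simp only [map_mul]
  have h3 := hc (lbRes h hn g) (lbRes h hn h₁) (lbRes h hn j)
  have h4 : ζM ^ (c' (lbRes h hn g * lbRes h hn h₁, lbRes h hn j)).val *
      ζM ^ (c' (lbRes h hn g, lbRes h hn h₁)).val =
      lbRes h hn g • ζM ^ (c' (lbRes h hn h₁, lbRes h hn j)).val *
        ζM ^ (c' (lbRes h hn g, lbRes h hn h₁ * lbRes h hn j)).val := h3
  rw [lbb_smul_pow h hn ζM hζM ρ hρ, ← lbb_pow_val_add hu, ← lbb_pow_val_add hu] at h4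
  have h5 := lbb_pow_injective hζ ζM hζM h4
  linear_combination (-1 : ZMod p) * h5

/-- a multiplicative coboundary relation on the layer gives the additive one on `V` -/
theorem lbb_dd1_of_mul (hζ : IsPrimitiveRoot ζ p) (h : E ≤ M)
    (hn : letI := lbAlgebra h; Normal ↥E ↥M) (ζM : (↥M)ˣ)
    (hζM : ((ζM : ↥M) : PadicAlgCl q) = ζ)
    (ρ : Representation (ZMod p) ↥E.fixingSubgroup (ZMod p)) (hρ : IsMuRep ζ E.fixingSubgroup ρ)
    (x' : (letI := lbAlgebra h; (↥M ≃ₐ[↥E] ↥M)) → ZMod p)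
    (c' : (letI := lbAlgebra h; (↥M ≃ₐ[↥E] ↥M) × (↥M ≃ₐ[↥E] ↥M)) → ZMod p)
    (hx : letI := lbAlgebra h; ∀ g₀ h₀ : (↥M ≃ₐ[↥E] ↥M),
      g₀ • ζM ^ (x' h₀).val / ζM ^ (x' (g₀ * h₀)).val * ζM ^ (x' g₀).val =
        ζM ^ (c' (g₀, h₀)).val) :
    dd1 ρ (fun σ : ↥E.fixingSubgroup => x' (lbRes h hn σ)) =
      fun s : ↥E.fixingSubgroup × ↥E.fixingSubgroup => c' (lbRes h hn s.1, lbRes h hn s.2) := by
  letI := lbAlgebra h
  have hu := lbb_unit_pow_eq_one hζ ζM hζM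
  ext ⟨g, h₁⟩
  rw [dd1_apply]
  simp only [map_mul]
  have h4 := hx (lbRes h hn g) (lbRes h hn h₁)
  rw [lbb_smul_pow h hn ζM hζM ρ hρ, ← lbb_pow_val_sub hu, ← lbb_pow_val_add hu] at h4
  exact lbb_pow_injective hζ ζM hζM h4

end Layer

/-! ### injectivity -/

section Inj

variable {q : ℕ} [Fact q.Prime] {p : ℕ} [Fact p.Prime] {ζ : PadicAlgCl q}

theorem lbb_finiteDimensional_adjoin_simple (x : PadicAlgCl q) :
    FiniteDimensional ℚ_[q] ℚ_[q]⟮x⟯ :=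
  IntermediateField.adjoin.finiteDimensional (Algebra.IsIntegral.isIntegral x)

theorem lbb_inclusion_self {G : Type*} [Group G] {H : Subgroup G} (hle : H ≤ H) (σ : ↥H) :
    Subgroup.inclusion hle σ = σ := by
  cases σ
  rfl

/-- The finite-level core of injectivity: if `ζ^c'` is a multiplicative coboundary on the layer
`M/E`, then the pull-back of `c'` to `V` is a smooth additive coboundary (Hilbert 90 + Kummer on a
bigger layer). -/
theorem lbb_inj_core (hζ : IsPrimitiveRoot ζ p) {E M : IntermediateField ℚ_[q] (PadicAlgCl q)}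
    (h : E ≤ M) [FiniteDimensional ℚ_[q] E] [FiniteDimensional ℚ_[q] M]
    (hg : letI := lbAlgebra h; IsGalois ↥E ↥M)
    (ζM : (↥M)ˣ) (hζM : ((ζM : ↥M) : PadicAlgCl q) = ζ)
    (ρ : Representation (ZMod p) ↥E.fixingSubgroup (ZMod p))
    (hρ : IsMuRep ζ E.fixingSubgroup ρ)
    (c' : (letI := lbAlgebra h; (↥M ≃ₐ[↥E] ↥M) × (↥M ≃ₐ[↥E] ↥M)) → ZMod p)
    (hcob : letI := lbAlgebra h; IsMulCoboundary₂ (lbMulCochain ζM c')) :
    (fun s : ↥E.fixingSubgroup × ↥E.fixingSubgroup =>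
        c' (lbRes h hg.to_normal s.1, lbRes h hg.to_normal s.2)) ∈
      smB2 ((lbLevels q).sub E.fixingSubgroup) ρ := by
  letI := lbAlgebra h
  haveI := lb_isScalarTower_bot h
  haveI : FiniteDimensional ↥E ↥M := FiniteDimensional.right ℚ_[q] ↥E ↥M
  have hn : Normal ↥E ↥M := hg.to_normal
  have hu := lbb_unit_pow_eq_one hζ ζM hζM
  obtain ⟨y, hy⟩ := hcob
  -- `y^p` is a `1`-cocycle, hence a coboundary by Hilbert 90
  have hY : IsMulCocycle₁ (fun g => y g ^ p) := by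
    intro g₀ h₀
    have h1 : (g₀ • y h₀ / y (g₀ * h₀) * y g₀) ^ p = 1 := by
      rw [hy g₀ h₀]
      show (ζM ^ _) ^ p = 1
      rw [← pow_mul, mul_comm, pow_mul, hu, one_pow]
    show y (g₀ * h₀) ^ p = g₀ • y h₀ ^ p * y g₀ ^ p
    rw [mul_pow, div_pow, ← smul_pow', div_mul_eq_mul_div, div_eq_one] at h1
    exact h1.symm
  obtain ⟨z, hz⟩ := groupCohomology.isMulCoboundary₁_of_isMulCocycle₁_of_aut_to_units _ hY
  -- a `p`-th root of `z`
  set w : PadicAlgCl q := lbRoot p ((z : ↥M) : PadicAlgCl q) with hwdef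
  have hwp : w ^ p = ((z : ↥M) : PadicAlgCl q) := lbRoot_pow _
  have hz0 : ((z : ↥M) : PadicAlgCl q) ≠ 0 := by
    intro h0
    exact z.ne_zero (Subtype.ext h0)
  have hw0 : w ≠ 0 := by
    intro h0
    rw [h0, zero_pow (NeZero.ne p)] at hwp
    exact hz0 hwp.symm
  haveI : FiniteDimensional ℚ_[q] ℚ_[q]⟮w⟯ := lbb_finiteDimensional_adjoin_simple w
  haveI : FiniteDimensional ℚ_[q] ↥(M ⊔ ℚ_[q]⟮w⟯) := IntermediateField.finiteDimensional_sup _ _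
  obtain ⟨M', h', hM₁, hfd', hg', -⟩ := lb_exists_layer E _ (lb_isLevel_ker h) (M ⊔ ℚ_[q]⟮w⟯)
  have hMM' : M ≤ M' := le_sup_left.trans hM₁
  have hwM' : w ∈ M' :=
    hM₁ ((le_sup_right : ℚ_[q]⟮w⟯ ≤ M ⊔ ℚ_[q]⟮w⟯) (IntermediateField.mem_adjoin_simple_self ℚ_[q] w))
  letI := lbAlgebra h'
  letI := lbAlgebra hMM'
  letI algEE : Algebra ↥E ↥E := lbAlgebra (le_refl E)
  haveI : IsScalarTower ↥E ↥M ↥M' := IsScalarTower.of_algebraMap_eq (fun _ => rfl)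
  haveI : @IsScalarTower ↥E ↥E ↥M' algEE.toSMul _ _ :=
    @IsScalarTower.of_algebraMap_eq ↥E ↥E ↥M' _ _ _ algEE _ _ (fun _ => rfl)
  have hn' : Normal ↥E ↥M' := hg'.to_normal
  set wM' : (↥M')ˣ := Units.mk0 ⟨w, hwM'⟩ (fun h0 => hw0 (congrArg Subtype.val h0)) with hwM'def
  have hwM'p : wM' ^ p = Units.map (algebraMap ↥M ↥M' : ↥M →* ↥M') z := by
    apply lbb_unit_ext
    rw [Units.val_pow_eq_pow_val, SubmonoidClass.coe_pow]
    exact hwp
  set ζM' : (↥M')ˣ := Units.map (algebraMap ↥M ↥M' : ↥M →* ↥M') ζM with hζM'def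
  have hζM' : ((ζM' : ↥M') : PadicAlgCl q) = ζ := hζM
  -- the `μ_p`-valued cochain `t`
  have ht : ∀ σ : (↥M' ≃ₐ[↥E] ↥M'),
      (Units.map (algebraMap ↥M ↥M' : ↥M →* ↥M') (y (lfGalRes ↥E ↥M ↥E ↥M' σ)) /
        (σ • wM' / wM')) ^ p = 1 := fun σ => lbb_t_pow p y z hz wM' hwM'p σ
  choose x' hx' using fun σ => lbb_exists_pow hζ ζM' hζM' (ht σ)
  have hx : ∀ g₀ h₀ : (↥M' ≃ₐ[↥E] ↥M'),
      g₀ • ζM' ^ (x' h₀).val / ζM' ^ (x' (g₀ * h₀)).val * ζM' ^ (x' g₀).val =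
        ζM' ^ (c' (lfGalRes ↥E ↥M ↥E ↥M' g₀, lfGalRes ↥E ↥M ↥E ↥M' h₀)).val := by
    intro g₀ h₀
    rw [← hx', ← hx', ← hx', lbb_t_cob y wM' g₀ h₀, hy, hζM'def, ← map_pow]
    rfl
  have h1 := lbb_dd1_of_mul hζ h' hn' ζM' hζM' ρ hρ x'
    (fun s => c' (lfGalRes ↥E ↥M ↥E ↥M' s.1, lfGalRes ↥E ↥M ↥E ↥M' s.2)) hx
  rw [mem_smB2]
  refine ⟨fun σ => x' (lbRes h' hn' σ), lb_isLC₁_lbRes h' hn' x', ?_⟩
  rw [h1]
  funext s
  have e1 := lfGalRes_lbRes h h' (le_refl E) hMM' hn hn' s.1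
  have e2 := lfGalRes_lbRes h h' (le_refl E) hMM' hn hn' s.2
  rw [lbb_inclusion_self] at e1 e2
  show c' (lfGalRes ↥E ↥M ↥E ↥M' (lbRes h' hn' s.1), lfGalRes ↥E ↥M ↥E ↥M' (lbRes h' hn' s.2)) = _
  rw [e1, e2]

theorem lbb_zero_frac (p : ℕ) :
    ((((((0 : ZMod p).val : ℕ) : ℚ) / (p : ℚ) : ℚ)) : AddCircle (1 : ℚ)) = 0 := by
  simp

theorem lbb_injective_aux (hζ : IsPrimitiveRoot ζ p) (E : IntermediateField ℚ_[q] (PadicAlgCl q))
    [FiniteDimensional ℚ_[q] E] (ρ : Representation (ZMod p) ↥E.fixingSubgroup (ZMod p))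
    (hρ : IsMuRep ζ E.fixingSubgroup ρ) :
    Function.Injective (lbInv q p ζ E.fixingSubgroup ρ) := by
  rw [injective_iff_map_eq_zero]
  intro x hx
  obtain ⟨⟨c, hc⟩, rfl⟩ := Submodule.mkQ_surjective _ x
  haveI : FiniteDimensional ℚ_[q] ℚ_[q]⟮ζ⟯ := lbb_finiteDimensional_adjoin_simple ζ
  obtain ⟨M, h, hM₀, hfd, hg, c', hcc'⟩ := lb_exists_factor₂ E c hc.2 ℚ_[q]⟮ζ⟯
  letI := lbAlgebra h
  haveI := lb_isScalarTower_bot h
  have hcfun : c = fun s : ↥E.fixingSubgroup × ↥E.fixingSubgroup =>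
      c' (lbRes h hg.to_normal s.1, lbRes h hg.to_normal s.2) := funext hcc'
  subst hcfun
  have hζmem : ζ ∈ M := hM₀ (IntermediateField.mem_adjoin_simple_self ℚ_[q] ζ)
  have hζ0 : ζ ≠ 0 := hζ.ne_zero (NeZero.ne p)
  set ζM : (↥M)ˣ := Units.mk0 ⟨ζ, hζmem⟩ (fun h0 => hζ0 (congrArg Subtype.val h0)) with hζMdef
  have hζM : ((ζM : ↥M) : PadicAlgCl q) = ζ := rfl
  have hmk := lbInv_mk hζ h hg ζM hζM ρ hρ c' hc
  have hcoc : IsMulCocycle₂ (lbMulCochain ζM c') :=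
    lbb_isMulCocycle₂_of_dd2 hζ h hg.to_normal ζM hζM ρ hρ c' hc.1
  have hx' : lbInv q p ζ E.fixingSubgroup ρ
      (smH2π ((lbLevels q).sub E.fixingSubgroup) ρ ⟨_, hc⟩) = 0 := hx
  rw [hx', lbb_zero_frac, localInv_eq_zero_iff q ↥E ↥M hcoc] at hmk
  have hB := lbb_inj_core hζ h hg ζM hζM ρ hρ c' hmk
  exact (smH2π_eq_zero_iff _ _ _).2 hB

end Inj

/-! ### surjectivity -/

section Surj

variable {q : ℕ} [Fact q.Prime] {p : ℕ} [Fact p.Prime] {ζ : PadicAlgCl q}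

open Polynomial in
/-- A finite Galois layer `M/E` containing `ζ` whose degree is divisible by `p` (it contains a
`p`-th root of a uniformizer). -/
theorem lbb_exists_layer_dvd (E : IntermediateField ℚ_[q] (PadicAlgCl q))
    [FiniteDimensional ℚ_[q] E] (ζ : PadicAlgCl q) :
    ∃ (M : IntermediateField ℚ_[q] (PadicAlgCl q)) (h : E ≤ M), ζ ∈ M ∧
      FiniteDimensional ℚ_[q] M ∧ (letI := lbAlgebra h; IsGalois ↥E ↥M) ∧
      (letI := lbAlgebra h; p ∣ Module.finrank ↥E ↥M) := by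
  have hp : p.Prime := Fact.out
  obtain ⟨π, hπ⟩ := exists_isLfUniformizer q ↥E
  set α : PadicAlgCl q := lbRoot p ((π : ↥E) : PadicAlgCl q) with hαdef
  have hαp : α ^ p = ((π : ↥E) : PadicAlgCl q) := lbRoot_pow _
  haveI : FiniteDimensional ℚ_[q] ℚ_[q]⟮ζ⟯ :=
    IntermediateField.adjoin.finiteDimensional (Algebra.IsIntegral.isIntegral ζ)
  haveI : FiniteDimensional ℚ_[q] ℚ_[q]⟮α⟯ :=
    IntermediateField.adjoin.finiteDimensional (Algebra.IsIntegral.isIntegral α)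
  haveI : FiniteDimensional ℚ_[q] ↥(ℚ_[q]⟮ζ⟯ ⊔ ℚ_[q]⟮α⟯) :=
    IntermediateField.finiteDimensional_sup _ _
  obtain ⟨M, h, hM₀, hfd, hg, -⟩ :=
    lb_exists_layer E _ (lb_isLevel_ker (le_refl E)) (ℚ_[q]⟮ζ⟯ ⊔ ℚ_[q]⟮α⟯)
  refine ⟨M, h, hM₀ ((le_sup_left : ℚ_[q]⟮ζ⟯ ≤ ℚ_[q]⟮ζ⟯ ⊔ ℚ_[q]⟮α⟯)
    (IntermediateField.mem_adjoin_simple_self ℚ_[q] ζ)), hfd, hg, ?_⟩
  letI := lbAlgebra h
  haveI := lb_isScalarTower_bot h
  haveI : FiniteDimensional ↥E ↥M := FiniteDimensional.right ℚ_[q] ↥E ↥M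
  have hαM : α ∈ M := hM₀ ((le_sup_right : ℚ_[q]⟮α⟯ ≤ ℚ_[q]⟮ζ⟯ ⊔ ℚ_[q]⟮α⟯)
    (IntermediateField.mem_adjoin_simple_self ℚ_[q] α))
  have hirr : Irreducible (X ^ p - C π : (↥E)[X]) := by
    rw [X_pow_sub_C_irreducible_iff_of_prime hp]
    intro b hb
    have h1 : lfOrd q ↥E (b ^ p) = 1 := by rw [hb]; exact hπ
    rw [lfOrd_pow] at h1
    have h2 : (p : ℤ) ∣ 1 := ⟨_, h1.symm⟩
    have h3 := Int.le_of_dvd one_pos h2
    have h4 := hp.two_le
    omega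
  have hroot : aeval (⟨α, hαM⟩ : ↥M) (X ^ p - C π : (↥E)[X]) = 0 := by
    rw [map_sub, map_pow, aeval_X, aeval_C, sub_eq_zero]
    apply Subtype.ext
    rw [SubmonoidClass.coe_pow]
    exact hαp
  have hmin := minpoly.eq_of_irreducible_of_monic hirr hroot (monic_X_pow_sub_C π hp.ne_zero)
  have hdvd := minpoly.degree_dvd (K := ↥E) (L := ↥M) (x := (⟨α, hαM⟩ : ↥M))
    (Algebra.IsIntegral.isIntegral _)
  rw [← hmin, natDegree_X_pow_sub_C] at hdvd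
  exact hdvd

theorem lbb_localInv_pow
    (K : Type) [Field K] [Algebra ℚ_[q] K] [FiniteDimensional ℚ_[q] K]
    (L : Type) [Field L] [Algebra ℚ_[q] L] [FiniteDimensional ℚ_[q] L] [Algebra K L]
    [IsScalarTower ℚ_[q] K L] [IsGalois K L] {c : (L ≃ₐ[K] L) × (L ≃ₐ[K] L) → Lˣ}
    (hc : IsMulCocycle₂ c) (m : ℕ) : localInv q K L (c ^ m) = m • localInv q K L c := by
  induction m with
  | zero =>
    rw [pow_zero, zero_smul]
    exact (localInv_eq_zero_iff q K L lbb_isMulCocycle₂_one).mpr lbb_isMulCoboundary₂_one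
  | succ m ih =>
    rw [pow_succ, localInv_mul q K L (lbb_isMulCocycle₂_pow hc m) hc, ih, succ_nsmul]

/-- the element `1/p` of `ℚ/ℤ` -/
noncomputable def lbbFrac (p : ℕ) : AddCircle (1 : ℚ) :=
  ((((((1 : ZMod p).val : ℕ) : ℚ) / (p : ℚ) : ℚ)) : AddCircle (1 : ℚ))

theorem lbbFrac_ne_zero : lbbFrac p ≠ 0 := by
  intro h0
  exact one_ne_zero ((lbb_frac_eq_zero_iff p (1 : ZMod p)).1 h0)

theorem lbbFrac_nsmul {n : ℕ} (hn : p ∣ n) : n • lbbFrac p = 0 := by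
  have hp : p.Prime := Fact.out
  obtain ⟨m, rfl⟩ := hn
  unfold lbbFrac
  rw [← AddCircle.coe_nsmul, AddCircle.coe_eq_zero_iff]
  refine ⟨m, ?_⟩
  have hp0 : (p : ℚ) ≠ 0 := Nat.cast_ne_zero.mpr hp.ne_zero
  rw [ZMod.val_one, zsmul_eq_mul, mul_one, nsmul_eq_mul]
  push_cast
  field_simp

/-- There is a class with non-zero invariant. -/
theorem lbb_exists_ne_zero (hζ : IsPrimitiveRoot ζ p)
    (E : IntermediateField ℚ_[q] (PadicAlgCl q)) [FiniteDimensional ℚ_[q] E]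
    (ρ : Representation (ZMod p) ↥E.fixingSubgroup (ZMod p))
    (hρ : IsMuRep ζ E.fixingSubgroup ρ) :
    ∃ x : smH2 ((lbLevels q).sub E.fixingSubgroup) ρ, lbInv q p ζ E.fixingSubgroup ρ x ≠ 0 := by
  obtain ⟨M, h, hζmem, hfd, hg, hdvd⟩ := lbb_exists_layer_dvd (p := p) E ζ
  letI := lbAlgebra h
  haveI := lb_isScalarTower_bot h
  haveI : FiniteDimensional ↥E ↥M := FiniteDimensional.right ℚ_[q] ↥E ↥M
  have hn : Normal ↥E ↥M := hg.to_normal
  have hζ0 : ζ ≠ 0 := hζ.ne_zero (NeZero.ne p)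
  -- a cocycle of invariant `1/p` on the layer
  obtain ⟨b₀, hb₀, hb₀inv⟩ := localInv_surjective q ↥E ↥M (lbbFrac p) (lbbFrac_nsmul hdvd)
  have hpow : localInv q ↥E ↥M (b₀ ^ p) = 0 := by
    rw [lbb_localInv_pow ↥E ↥M hb₀ p, hb₀inv]
    exact lbbFrac_nsmul dvd_rfl
  obtain ⟨y, hy⟩ := (localInv_eq_zero_iff q ↥E ↥M (lbb_isMulCocycle₂_pow hb₀ p)).1 hpow
  -- `p`-th roots of the `y g`
  set w : (↥M ≃ₐ[↥E] ↥M) → PadicAlgCl q := fun g => lbRoot p ((y g : ↥M) : PadicAlgCl q) with hwdef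
  have hwp : ∀ g, w g ^ p = ((y g : ↥M) : PadicAlgCl q) := fun g => lbRoot_pow _
  have hw0 : ∀ g, w g ≠ 0 := by
    intro g h0
    have h1 := hwp g
    rw [h0, zero_pow (NeZero.ne p)] at h1
    exact (y g).ne_zero (Subtype.ext h1.symm)
  haveI : FiniteDimensional ℚ_[q] ↥(IntermediateField.adjoin ℚ_[q] (Set.range w)) :=
    IntermediateField.finiteDimensional_adjoin (fun x _ => Algebra.IsIntegral.isIntegral x)
  haveI : FiniteDimensional ℚ_[q] ↥(M ⊔ IntermediateField.adjoin ℚ_[q] (Set.range w)) :=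
    IntermediateField.finiteDimensional_sup _ _
  obtain ⟨M', h', hM₁, hfd', hg', -⟩ := lb_exists_layer E _ (lb_isLevel_ker h)
    (M ⊔ IntermediateField.adjoin ℚ_[q] (Set.range w))
  have hMM' : M ≤ M' := le_sup_left.trans hM₁
  have hwM' : ∀ g, w g ∈ M' := fun g =>
    hM₁ ((le_sup_right : IntermediateField.adjoin ℚ_[q] (Set.range w) ≤
      M ⊔ IntermediateField.adjoin ℚ_[q] (Set.range w))
      (IntermediateField.subset_adjoin ℚ_[q] _ (Set.mem_range_self g)))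
  letI := lbAlgebra h'
  letI := lbAlgebra hMM'
  letI algEE : Algebra ↥E ↥E := lbAlgebra (le_refl E)
  haveI : IsScalarTower ↥E ↥M ↥M' := IsScalarTower.of_algebraMap_eq (fun _ => rfl)
  haveI : @IsScalarTower ↥E ↥E ↥M' algEE.toSMul _ _ :=
    @IsScalarTower.of_algebraMap_eq ↥E ↥E ↥M' _ _ _ algEE _ _ (fun _ => rfl)
  haveI : @IsScalarTower ℚ_[q] ↥E ↥E _ algEE.toSMul _ := lb_isScalarTower_bot (le_refl E)
  haveI := lb_isScalarTower_bot h'
  haveI := lb_isScalarTower_bot hMM'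
  have hn' : Normal ↥E ↥M' := hg'.to_normal
  set wM' : (↥M ≃ₐ[↥E] ↥M) → (↥M')ˣ := fun g =>
    Units.mk0 ⟨w g, hwM' g⟩ (fun h0 => hw0 g (congrArg Subtype.val h0)) with hwM'def
  have hwM'p : ∀ g, wM' g ^ p = Units.map (algebraMap ↥M ↥M' : ↥M →* ↥M') (y g) := by
    intro g
    apply lbb_unit_ext
    rw [Units.val_pow_eq_pow_val, SubmonoidClass.coe_pow]
    exact hwp g
  set ζM' : (↥M')ˣ := Units.mk0 ⟨ζ, hMM' hζmem⟩ (fun h0 => hζ0 (congrArg Subtype.val h0))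
    with hζM'def
  have hζM' : ((ζM' : ↥M') : PadicAlgCl q) = ζ := rfl
  -- the `μ_p`-valued cocycle `b₁ = infl b₀ / d(t)`, `t(σ) = w(σ̄)`
  set t : (↥M' ≃ₐ[↥E] ↥M') → (↥M')ˣ := fun σ => wM' (lfGalRes ↥E ↥M ↥E ↥M' σ) with htdef
  set dt : (↥M' ≃ₐ[↥E] ↥M') × (↥M' ≃ₐ[↥E] ↥M') → (↥M')ˣ :=
    fun s => s.1 • t s.2 / t (s.1 * s.2) * t s.1 with hdtdef
  have hdt : IsMulCoboundary₂ dt := ⟨t, fun g₀ h₀ => rfl⟩
  set b₁ : (↥M' ≃ₐ[↥E] ↥M') × (↥M' ≃ₐ[↥E] ↥M') → (↥M')ˣ :=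
    lfBC ↥E ↥M ↥E ↥M' b₀ / dt with hb₁def
  have hB : IsMulCocycle₂ (lfBC ↥E ↥M ↥E ↥M' b₀) := lfBC_isMulCocycle₂ ↥E ↥M ↥E ↥M' b₀ hb₀
  have hb₁ : IsMulCocycle₂ b₁ :=
    lbb_isMulCocycle₂_div hB (lbb_isMulCocycle₂_of_isMulCoboundary₂ hdt)
  have hb₁p : ∀ s, b₁ s ^ p = 1 := by
    rintro ⟨g₀, h₀⟩
    exact lbb_div_pow p b₀ y (fun g₁ h₁ => hy g₁ h₁) wM' hwM'p g₀ h₀
  choose c₁ hc₁ using fun s => lbb_exists_pow hζ ζM' hζM' (hb₁p s)
  have hb₁eq : b₁ = lbMulCochain ζM' c₁ := funext hc₁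
  -- its invariant is `1/p`
  have hinv₁ : localInv q ↥E ↥M' b₁ = lbbFrac p := by
    have e1 : localInv q ↥E ↥M' (lfBC ↥E ↥M ↥E ↥M' b₀) = localInv q ↥E ↥M' b₁ := by
      apply localInv_eq_of_div q ↥E ↥M' hb₁
      rw [hb₁def, div_div_cancel]
      exact hdt
    have e2 := localInv_baseChange q ↥E ↥M ↥E ↥M' hb₀
    have e3 : @Module.finrank ↥E ↥E _ _ algEE.toModule = 1 := by
      have e4 := lb_relIndex_fixingSubgroup q (le_refl E)
      rw [Subgroup.relIndex_self] at e4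
      exact e4.symm
    rw [← e1, e2, e3, one_smul, hb₀inv]
  -- the smooth additive cocycle
  rw [hb₁eq] at hb₁ hinv₁
  have hC : (fun s : ↥E.fixingSubgroup × ↥E.fixingSubgroup =>
      c₁ (lbRes h' hg'.to_normal s.1, lbRes h' hg'.to_normal s.2)) ∈
      smZ2 ((lbLevels q).sub E.fixingSubgroup) ρ :=
    ⟨lbb_dd2_of_isMulCocycle₂ hζ h' hn' ζM' hζM' ρ hρ c₁ hb₁, lb_isLC₂_lbRes h' hn' c₁⟩
  have hmk := lbInv_mk hζ h' hg' ζM' hζM' ρ hρ c₁ hC
  refine ⟨smH2π ((lbLevels q).sub E.fixingSubgroup) ρ ⟨_, hC⟩, fun h0 => ?_⟩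
  rw [h0, lbb_zero_frac, hinv₁] at hmk
  exact lbbFrac_ne_zero hmk

end Surj

/-! ### the two LB2 statements -/

section Final

variable {q : ℕ} [Fact q.Prime] {p : ℕ} [Fact p.Prime] {ζ : PadicAlgCl q}

/-- Injectivity (`H¹(V, Ωˣ) = 1` + the Kummer sequence, at finite levels). -/
theorem lbInv_injective (hζ : IsPrimitiveRoot ζ p) (V : Subgroup (lbGal q))
    (hV : (lbLevels q).IsOpen V) (ρ : Representation (ZMod p) ↥V (ZMod p))
    (hρ : IsMuRep ζ V ρ) : Function.Injective (lbInv q p ζ V ρ) := by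
  obtain ⟨E, hE, rfl⟩ := (lb_isOpen_iff q V).1 hV
  exact lbb_injective_aux hζ E ρ hρ

theorem lbInv_surjective (hζ : IsPrimitiveRoot ζ p) (V : Subgroup (lbGal q))
    (hV : (lbLevels q).IsOpen V) (ρ : Representation (ZMod p) ↥V (ZMod p))
    (hρ : IsMuRep ζ V ρ) : Function.Surjective (lbInv q p ζ V ρ) := by
  obtain ⟨E, hE, rfl⟩ := (lb_isOpen_iff q V).1 hV
  obtain ⟨x₀, hx₀⟩ := lbb_exists_ne_zero hζ E ρ hρ
  intro u
  refine ⟨(u * (lbInv q p ζ E.fixingSubgroup ρ x₀)⁻¹) • x₀, ?_⟩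
  rw [map_smul, smul_eq_mul, mul_assoc, inv_mul_cancel₀ hx₀, mul_one]

end Final

end Fermat.Agent.S55
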