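/-
S55 / LOCAL layer LT: `H³(Gal(L/K), Lˣ) = 0` for finite Galois extensions of local fields
(Tate's theorem in the cheap form GA6 of the package `S55/Alg`, fed with the local invariant).
-/
import Fermat.Agent.S55.LocalInv
import Fermat.Agent.S55.LocalTateAbstract
import Fermat.Agent.S55.Alg.H3Mul

set_option autoImplicit false
set_option linter.unusedSectionVars false

namespace Fermat.Agent.S55

open groupCohomology CategoryTheory

/-! ## `ℚ/ℤ` -/

/-- `1/N` in `ℚ/ℤ` -/
noncomputable def ltOneDiv (N : ℕ) : AddCircle (1 : ℚ) := ((1 / (N : ℚ) : ℚ) : AddCircle (1 : ℚ))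

lemma lt_nsmul_oneDiv_eq_zero_iff (N : ℕ) (hN : 0 < N) (m : ℕ) :
    m • ltOneDiv N = 0 ↔ N ∣ m := by
  unfold ltOneDiv
  rw [← AddCircle.coe_nsmul, AddCircle.coe_eq_zero_iff]
  have hN' : (N : ℚ) ≠ 0 := by positivity
  constructor
  · rintro ⟨z, hz⟩
    have h1 : (m : ℚ) = z * N := by
      simp only [zsmul_eq_mul, mul_one, nsmul_eq_mul] at hz
      field_simp at hz
      linarith
    have h2 : (m : ℤ) = z * N := by exact_mod_cast h1
    have h3 : (N : ℤ) ∣ (m : ℤ) := ⟨z, by rw [h2]; ring⟩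
    exact_mod_cast h3
  · rintro ⟨d, rfl⟩
    refine ⟨d, ?_⟩
    simp only [zsmul_eq_mul, mul_one, nsmul_eq_mul]
    push_cast
    field_simp

lemma lt_exists_nsmul_oneDiv (N : ℕ) (hN : 0 < N) (r : AddCircle (1 : ℚ)) (hr : N • r = 0) :
    ∃ m : ℕ, r = m • ltOneDiv N := by
  obtain ⟨x, rfl⟩ := QuotientAddGroup.mk_surjective r
  change N • ((x : ℚ) : AddCircle (1 : ℚ)) = 0 at hr
  rw [← AddCircle.coe_nsmul, AddCircle.coe_eq_zero_iff] at hr
  obtain ⟨z, hz⟩ := hr
  have hN' : (N : ℚ) ≠ 0 := by positivity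
  simp only [zsmul_eq_mul, mul_one, nsmul_eq_mul] at hz
  have hx : x = (z : ℚ) / N := by field_simp; linarith
  refine ⟨(z % (N : ℤ)).toNat, ?_⟩
  unfold ltOneDiv
  change ((x : ℚ) : AddCircle (1 : ℚ)) = _
  rw [← AddCircle.coe_nsmul, ← sub_eq_zero, ← AddCircle.coe_sub, AddCircle.coe_eq_zero_iff]
  refine ⟨z / (N : ℤ), ?_⟩
  have hmod : ((z % (N : ℤ)).toNat : ℤ) = z % (N : ℤ) :=
    Int.toNat_of_nonneg (Int.emod_nonneg _ (by exact_mod_cast hN.ne'))
  have h4 : (z : ℚ) = (N : ℚ) * ((z / (N : ℤ) : ℤ) : ℚ) + ((z % (N : ℤ) : ℤ) : ℚ) := by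
    have := Int.mul_ediv_add_emod z (N : ℤ)
    exact_mod_cast this.symm
  have h5 : (((z % (N : ℤ)).toNat : ℕ) : ℚ) = ((z % (N : ℤ) : ℤ) : ℚ) := by
    exact_mod_cast congrArg (fun t : ℤ => (t : ℚ)) hmod
  simp only [zsmul_eq_mul, mul_one, nsmul_eq_mul]
  rw [hx, h5]
  field_simp
  linarith

lemma lt_nsmul_oneDiv_mul (a b : ℕ) (ha : 0 < a) (hb : 0 < b) :
    a • ltOneDiv (a * b) = ltOneDiv b := by
  unfold ltOneDiv
  rw [← AddCircle.coe_nsmul]
  congr 1
  have ha' : (a : ℚ) ≠ 0 := by positivity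
  have hb' : (b : ℚ) ≠ 0 := by positivity
  simp only [nsmul_eq_mul]
  push_cast
  field_simp

/-! ## Galois theory: a subgroup and the Galois group of its fixed field -/

section Galois

variable {K L : Type} [Field K] [Field L] [Algebra K L]

/-- restriction from `L` to `L` is the identity -/
lemma lt_galRes_self [Normal K L] (F : IntermediateField K L) (σ : L ≃ₐ[F] L) :
    lfGalRes K L F L σ = lfGalIncl K F L σ := by
  ext x
  have := lfGalRes_commutes K L F L σ x
  simpa using this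

lemma lt_galIncl_equiv [FiniteDimensional K L] (S : Subgroup (L ≃ₐ[K] L)) (s : ↥S) :
    lfGalIncl K (IntermediateField.fixedField S) L (IntermediateField.subgroupEquivAlgEquiv S s) =
      (s : L ≃ₐ[K] L) := by
  ext x
  rfl

lemma lt_BC_apply [FiniteDimensional K L] [Normal K L] (S : Subgroup (L ≃ₐ[K] L))
    (u : (L ≃ₐ[K] L) × (L ≃ₐ[K] L) → Lˣ) (s t : ↥S) :
    lfBC K L (IntermediateField.fixedField S) L u
      (IntermediateField.subgroupEquivAlgEquiv S s, IntermediateField.subgroupEquivAlgEquiv S t) =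
      u ((s : L ≃ₐ[K] L), (t : L ≃ₐ[K] L)) := by
  rw [lfBC_apply, lt_galRes_self, lt_galRes_self, lt_galIncl_equiv, lt_galIncl_equiv]
  exact Units.ext rfl

lemma lt_equiv_smul [FiniteDimensional K L] (S : Subgroup (L ≃ₐ[K] L)) (s : ↥S) (x : Lˣ) :
    IntermediateField.subgroupEquivAlgEquiv S s • x = s • x := Units.ext rfl

lemma lt_equiv_symm_smul [FiniteDimensional K L] (S : Subgroup (L ≃ₐ[K] L))
    (σ : L ≃ₐ[IntermediateField.fixedField S] L) (x : Lˣ) :
    (IntermediateField.subgroupEquivAlgEquiv S).symm σ • x = σ • x := by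
  rw [← lt_equiv_smul, MulEquiv.apply_symm_apply]

end Galois

/-! ## calculus of the local invariant -/

section Inv

variable (q : ℕ) [Fact q.Prime]
  (K : Type) [Field K] [Algebra ℚ_[q] K] [FiniteDimensional ℚ_[q] K]
  (L : Type) [Field L] [Algebra ℚ_[q] L] [FiniteDimensional ℚ_[q] L]
  [Algebra K L] [IsScalarTower ℚ_[q] K L]

theorem lt_localInv_one [IsGalois K L] :
    localInv q K L (1 : (L ≃ₐ[K] L) × (L ≃ₐ[K] L) → Lˣ) = 0 :=
  (localInv_eq_zero_iff q K L lfinv_coc_one).2 lfinv_cob_one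

theorem lt_localInv_pow [IsGalois K L] {c : (L ≃ₐ[K] L) × (L ≃ₐ[K] L) → Lˣ}
    (hc : IsMulCocycle₂ c) (m : ℕ) : localInv q K L (c ^ m) = m • localInv q K L c := by
  induction m with
  | zero => rw [pow_zero, zero_smul]; exact lt_localInv_one q K L
  | succ m ih =>
    rw [pow_succ, localInv_mul q K L (lta_isMulCocycle₂_pow hc m) hc, ih, succ_nsmul]

theorem lt_isMulCoboundary₂_div_of_localInv_eq [IsGalois K L]
    {c c' : (L ≃ₐ[K] L) × (L ≃ₐ[K] L) → Lˣ} (hc : IsMulCocycle₂ c) (hc' : IsMulCocycle₂ c')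
    (h : localInv q K L c = localInv q K L c') : IsMulCoboundary₂ (c / c') := by
  have hd : IsMulCocycle₂ (c / c') := lfinv_coc_div hc hc'
  rw [← localInv_eq_zero_iff q K L hd]
  have h1 : c = (c / c') * c' := by rw [div_mul_cancel]
  have h2 := localInv_mul q K L hd hc'
  rw [← h1, h] at h2
  exact (add_eq_right.mp h2.symm)

end Inv

/-! ## Tate's theorem for local fields -/

section Tate

variable (q : ℕ) [Fact q.Prime]
  (K : Type) [Field K] [Algebra ℚ_[q] K] [FiniteDimensional ℚ_[q] K]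
  (L : Type) [Field L] [Algebra ℚ_[q] L] [FiniteDimensional ℚ_[q] L]
  [Algebra K L] [IsScalarTower ℚ_[q] K L]

include q in
/-- The fundamental class: a cocycle of invariant `1/[L:K]`, whose restrictions generate
`H²(S, Lˣ)` for every subgroup `S`. -/
theorem lf_exists_fundamental_cocycle [IsGalois K L] :
    ∃ u : (L ≃ₐ[K] L) × (L ≃ₐ[K] L) → Lˣ, IsMulCocycle₂ u ∧
      ∀ S : Subgroup (L ≃ₐ[K] L),
        (∀ c : ↥S × ↥S → Lˣ, IsMulCocycle₂ c → ∃ m : ℕ,
          IsMulCoboundary₂ (c / fun s : ↥S × ↥S => u ((s.1 : L ≃ₐ[K] L), (s.2 : L ≃ₐ[K] L)) ^ m)) ∧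
        (∀ m : ℕ, IsMulCoboundary₂ (fun s : ↥S × ↥S =>
          u ((s.1 : L ≃ₐ[K] L), (s.2 : L ≃ₐ[K] L)) ^ m) ↔ Nat.card ↥S ∣ m) := by
  have hfd : FiniteDimensional K L := FiniteDimensional.right ℚ_[q] K L
  have hnpos : 0 < Module.finrank K L := Module.finrank_pos
  obtain ⟨u, hu, hinv⟩ := localInv_surjective q K L (ltOneDiv (Module.finrank K L))
    ((lt_nsmul_oneDiv_eq_zero_iff _ hnpos _).2 dvd_rfl)
  refine ⟨u, hu, fun S => ?_⟩
  -- the fixed field
  have i1 : IsScalarTower ℚ_[q] (IntermediateField.fixedField S) L :=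
    lfo_isScalarTower_mid q K L (IntermediateField.fixedField S)
  have i2 : FiniteDimensional ℚ_[q] (IntermediateField.fixedField S) :=
    lfo_finiteDimensional_mid q K L (IntermediateField.fixedField S)
  have hcardS : Module.finrank (IntermediateField.fixedField S) L = Nat.card ↥S :=
    IntermediateField.finrank_fixedField_eq_card S
  have hSpos : 0 < Nat.card ↥S := Nat.card_pos
  have hKFpos : 0 < Module.finrank K (IntermediateField.fixedField S) := Module.finrank_pos
  have hmul : Module.finrank K (IntermediateField.fixedField S) *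
      Module.finrank (IntermediateField.fixedField S) L = Module.finrank K L :=
    Module.finrank_mul_finrank K (IntermediateField.fixedField S) L
  have hu' : IsMulCocycle₂ (lfBC K L (IntermediateField.fixedField S) L u) :=
    lfBC_isMulCocycle₂ K L (IntermediateField.fixedField S) L u hu
  have hinv' : localInv q (IntermediateField.fixedField S) L
      (lfBC K L (IntermediateField.fixedField S) L u) = ltOneDiv (Nat.card ↥S) := by
    rw [localInv_baseChange q K L (IntermediateField.fixedField S) L hu, hinv, ← hmul, hcardS]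
    exact lt_nsmul_oneDiv_mul _ _ hKFpos hSpos
  -- transport of cochains between `S` and `Gal(L/L^S)`
  have hjs : ∀ (σ : L ≃ₐ[IntermediateField.fixedField S] L) (x : Lˣ),
      (MonoidHom.id Lˣ) (((IntermediateField.subgroupEquivAlgEquiv S).symm.toMonoidHom σ) • x) =
        σ • (MonoidHom.id Lˣ) x := fun σ x => lt_equiv_symm_smul S σ x
  have hje : ∀ (s : ↥S) (x : Lˣ),
      (MonoidHom.id Lˣ) (((IntermediateField.subgroupEquivAlgEquiv S).toMonoidHom s) • x) =
        s • (MonoidHom.id Lˣ) x := fun s x => lt_equiv_smul S s x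
  have hpow : ∀ m : ℕ,
      pullCochain₂ (IntermediateField.subgroupEquivAlgEquiv S).toMonoidHom (MonoidHom.id Lˣ)
        (lfBC K L (IntermediateField.fixedField S) L u ^ m) =
      fun s : ↥S × ↥S => u ((s.1 : L ≃ₐ[K] L), (s.2 : L ≃ₐ[K] L)) ^ m := by
    intro m
    funext s
    simp only [pullCochain₂, Pi.pow_apply, MonoidHom.id_apply, MulEquiv.coe_toMonoidHom]
    rw [lt_BC_apply]
  have hpow' : ∀ m : ℕ,
      pullCochain₂ (IntermediateField.subgroupEquivAlgEquiv S).symm.toMonoidHom (MonoidHom.id Lˣ)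
        (fun s : ↥S × ↥S => u ((s.1 : L ≃ₐ[K] L), (s.2 : L ≃ₐ[K] L)) ^ m) =
      lfBC K L (IntermediateField.fixedField S) L u ^ m := by
    intro m
    funext p
    obtain ⟨σ, τ⟩ := p
    have h3 := lt_BC_apply S u ((IntermediateField.subgroupEquivAlgEquiv S).symm σ)
      ((IntermediateField.subgroupEquivAlgEquiv S).symm τ)
    rw [MulEquiv.apply_symm_apply, MulEquiv.apply_symm_apply] at h3
    simp only [pullCochain₂, Pi.pow_apply, MonoidHom.id_apply, MulEquiv.coe_toMonoidHom]
    rw [h3]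
  refine ⟨fun c hc => ?_, fun m => ⟨fun h => ?_, fun h => ?_⟩⟩
  · -- every cocycle of `S` is cohomologous to a power of the restriction of `u`
    have hc' := pullCochain₂_isMulCocycle₂
      (IntermediateField.subgroupEquivAlgEquiv S).symm.toMonoidHom (MonoidHom.id Lˣ) hjs c hc
    have hr := localInv_nsmul q (IntermediateField.fixedField S) L hc'
    rw [hcardS] at hr
    obtain ⟨m, hm⟩ := lt_exists_nsmul_oneDiv _ hSpos _ hr
    refine ⟨m, ?_⟩
    have hcob' := lt_isMulCoboundary₂_div_of_localInv_eq q (IntermediateField.fixedField S) L hc'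
      (lta_isMulCocycle₂_pow hu' m)
      (by rw [hm, lt_localInv_pow q (IntermediateField.fixedField S) L hu', hinv'])
    have := pullCochain₂_isMulCoboundary₂
      (IntermediateField.subgroupEquivAlgEquiv S).toMonoidHom (MonoidHom.id Lˣ) hje _ hcob'
    have heq : (c / fun s : ↥S × ↥S => u ((s.1 : L ≃ₐ[K] L), (s.2 : L ≃ₐ[K] L)) ^ m) =
        pullCochain₂ (IntermediateField.subgroupEquivAlgEquiv S).toMonoidHom (MonoidHom.id Lˣ)
          (pullCochain₂ (IntermediateField.subgroupEquivAlgEquiv S).symm.toMonoidHom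
            (MonoidHom.id Lˣ) c / lfBC K L (IntermediateField.fixedField S) L u ^ m) := by
      funext s
      have h2 := congrFun (hpow m) s
      simp only [pullCochain₂, Pi.div_apply, MonoidHom.id_apply, MulEquiv.coe_toMonoidHom,
        Pi.pow_apply, MulEquiv.symm_apply_apply] at h2 ⊢
      rw [h2]
    rw [heq]
    exact this
  · -- `(u|S)^m` coboundary ⇒ `|S| ∣ m`
    have h' := pullCochain₂_isMulCoboundary₂
      (IntermediateField.subgroupEquivAlgEquiv S).symm.toMonoidHom (MonoidHom.id Lˣ) hjs _ h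
    rw [hpow' m] at h'
    rw [← localInv_eq_zero_iff q (IntermediateField.fixedField S) L (lta_isMulCocycle₂_pow hu' m),
      lt_localInv_pow q (IntermediateField.fixedField S) L hu', hinv'] at h'
    exact (lt_nsmul_oneDiv_eq_zero_iff _ hSpos m).1 h'
  · -- `|S| ∣ m` ⇒ `(u|S)^m` coboundary
    have h' : IsMulCoboundary₂ (lfBC K L (IntermediateField.fixedField S) L u ^ m) := by
      rw [← localInv_eq_zero_iff q (IntermediateField.fixedField S) L
        (lta_isMulCocycle₂_pow hu' m),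
        lt_localInv_pow q (IntermediateField.fixedField S) L hu', hinv']
      exact (lt_nsmul_oneDiv_eq_zero_iff _ hSpos m).2 h
    have := pullCochain₂_isMulCoboundary₂
      (IntermediateField.subgroupEquivAlgEquiv S).toMonoidHom (MonoidHom.id Lˣ) hje _ h'
    rw [hpow m] at this
    exact this

include q in
/-- `H³(Gal(L/K), Lˣ) = 0`. -/
theorem lf_isZero_H3 [IsGalois K L] :
    Limits.IsZero (groupCohomology (Rep.ofAlgebraAutOnUnits K L) 3) := by
  have hfd : FiniteDimensional K L := FiniteDimensional.right ℚ_[q] K L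
  obtain ⟨u, hu, hfund⟩ := lf_exists_fundamental_cocycle q K L
  exact lta_isZero_H3_of_fundamental (G := L ≃ₐ[K] L) (X := Lˣ)
    (fun S f hf => lf_hilbert90 q K L S f hf) u hu hfund

include q in
/-- Multiplicative form: every `3`-cocycle of `L/K` is a `3`-coboundary. -/
theorem lf_isMulCoboundary₃ [IsGalois K L] (f : (L ≃ₐ[K] L) × (L ≃ₐ[K] L) × (L ≃ₐ[K] L) → Lˣ)
    (hf : IsMulCocycle₃ f) : IsMulCoboundary₃ f :=
  (isZero_H3_iff_forall_isMulCoboundary₃ (G := L ≃ₐ[K] L) (X := Lˣ)).1 (lf_isZero_H3 q K L) f hf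

include q in
/-- Also for every subgroup (= the extension `L/L^S`). -/
theorem lf_isMulCoboundary₃_subgroup [IsGalois K L] (S : Subgroup (L ≃ₐ[K] L))
    (f : ↥S × ↥S × ↥S → Lˣ) (hf : IsMulCocycle₃ f) : IsMulCoboundary₃ f := by
  have hfd : FiniteDimensional K L := FiniteDimensional.right ℚ_[q] K L
  have i1 : IsScalarTower ℚ_[q] (IntermediateField.fixedField S) L :=
    lfo_isScalarTower_mid q K L (IntermediateField.fixedField S)
  have i2 : FiniteDimensional ℚ_[q] (IntermediateField.fixedField S) :=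
    lfo_finiteDimensional_mid q K L (IntermediateField.fixedField S)
  have hjs : ∀ (σ : L ≃ₐ[IntermediateField.fixedField S] L) (x : Lˣ),
      (MonoidHom.id Lˣ) (((IntermediateField.subgroupEquivAlgEquiv S).symm.toMonoidHom σ) • x) =
        σ • (MonoidHom.id Lˣ) x := fun σ x => lt_equiv_symm_smul S σ x
  have hje : ∀ (s : ↥S) (x : Lˣ),
      (MonoidHom.id Lˣ) (((IntermediateField.subgroupEquivAlgEquiv S).toMonoidHom s) • x) =
        s • (MonoidHom.id Lˣ) x := fun s x => lt_equiv_smul S s x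
  have hf' := pullCochain₃_isMulCocycle₃
    (IntermediateField.subgroupEquivAlgEquiv S).symm.toMonoidHom (MonoidHom.id Lˣ) hjs f hf
  have hcob' := lf_isMulCoboundary₃ q (IntermediateField.fixedField S) L _ hf'
  have := pullCochain₃_isMulCoboundary₃
    (IntermediateField.subgroupEquivAlgEquiv S).toMonoidHom (MonoidHom.id Lˣ) hje _ hcob'
  have heq : f = pullCochain₃ (IntermediateField.subgroupEquivAlgEquiv S).toMonoidHom
      (MonoidHom.id Lˣ) (pullCochain₃ (IntermediateField.subgroupEquivAlgEquiv S).symm.toMonoidHom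
        (MonoidHom.id Lˣ) f) := by
    funext s
    simp only [pullCochain₃, MonoidHom.id_apply, MulEquiv.coe_toMonoidHom,
      MulEquiv.symm_apply_apply]
  rw [heq]
  exact this

end Tate

end Fermat.Agent.S55
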