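/-
S55 / LOCAL layer LT: `H³(Gal(L/K), Lˣ) = 0` for finite Galois extensions of local fields.
PURE SHIM (no statements of its own, no sorry): `lf_exists_fundamental_cocycle`, `lf_isZero_H3`,
`lf_isMulCoboundary₃`, `lf_isMulCoboundary₃_subgroup` are proved in `LocalTate.lean`
(+ `LocalTateAbstract.lean`; helper25, on top of his package `S55/Alg`).
-/
import Fermat.Agent.S55.LocalTate
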