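/-
S55 / LOCAL layer, leaf LA-c "LocalUnram": unramified extensions of local fields and Frobenius.
Sections `Two` and `Exists` of `LocalUnramSpec`.  Helper lemmas are prefixed `lu_`.
-/
import Fermat.Agent.S55.LocalRingSpec

set_option autoImplicit false
set_option linter.style.haveILetI false
set_option linter.unusedSectionVars false

namespace Fermat.Agent.S55

open IsLocalRing

section Prelim

variable (q : ℕ) [Fact q.Prime]
  (K : Type) [Field K] [Algebra ℚ_[q] K] [FiniteDimensional ℚ_[q] K]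

include q in
theorem lu_charZero : CharZero K :=
  charZero_of_injective_algebraMap (algebraMap ℚ_[q] K).injective

/-- elements of norm one are units of the ring of integers -/
theorem lu_spectralNorm_pow (x : K) (n : ℕ) :
    spectralNorm ℚ_[q] K (x ^ n) = spectralNorm ℚ_[q] K x ^ n := by
  rw [← spectralMulAlgNorm_def, map_pow, spectralMulAlgNorm_def]

theorem lu_spectralNorm_mul (x y : K) :
    spectralNorm ℚ_[q] K (x * y) = spectralNorm ℚ_[q] K x * spectralNorm ℚ_[q] K y := by
  rw [← spectralMulAlgNorm_def, map_mul, spectralMulAlgNorm_def, spectralMulAlgNorm_def]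

theorem lu_spectralNorm_sub_comm (x y : K) :
    spectralNorm ℚ_[q] K (x - y) = spectralNorm ℚ_[q] K (y - x) := by
  rw [← neg_sub, spectralNorm_neg (Algebra.IsAlgebraic.isAlgebraic _)]

/-- a root of unity has norm one -/
theorem lu_spectralNorm_of_pow_eq_one {ζ : K} {m : ℕ} (hm : m ≠ 0) (hζ : ζ ^ m = 1) :
    spectralNorm ℚ_[q] K ζ = 1 := by
  have h1 : spectralNorm ℚ_[q] K ζ ^ m = 1 := by
    rw [← lu_spectralNorm_pow, hζ, spectralNorm_one]
  exact (pow_eq_one_iff_of_nonneg (spectralNorm_nonneg ζ) hm).mp h1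

theorem lu_mem_lfInt_of_pow_eq_one {ζ : K} {m : ℕ} (hm : m ≠ 0) (hζ : ζ ^ m = 1) :
    ζ ∈ lfInt q K := by
  rw [mem_lfInt_iff, lu_spectralNorm_of_pow_eq_one q K hm hζ]

/-- `residue x = residue y` iff `|x - y| < 1` -/
theorem lu_residue_eq_iff (x y : lfInt q K) :
    residue (lfInt q K) x = residue (lfInt q K) y ↔
      spectralNorm ℚ_[q] K ((x : K) - (y : K)) < 1 := by
  rw [← sub_eq_zero, ← map_sub, residue_eq_zero_iff, mem_maximalIdeal_lfInt_iff]
  rfl

/-- a natural number prime to `q` is nonzero in the residue field -/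
theorem lu_natCast_residue_ne_zero {m : ℕ} (hm : ¬ q ∣ m) :
    ((m : ℕ) : ResidueField (lfInt q K)) ≠ 0 := by
  intro h
  exact hm ((CharP.cast_eq_zero_iff (ResidueField (lfInt q K)) q m).mp h)

/-- **roots of unity of order prime to `q` inject into the residue field** (integer form) -/
theorem lu_eq_one_of_residue_eq_one {m : ℕ} (hm : ¬ q ∣ m) {z : lfInt q K} (hz : z ^ m = 1)
    (hres : residue (lfInt q K) z = 1) : z = 1 := by
  have h1 : (∑ i ∈ Finset.range m, z ^ i) * (z - 1) = 0 := by
    rw [geom_sum_mul, hz, sub_self]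
  rcases mul_eq_zero.mp h1 with h2 | h2
  · exfalso
    have h3 := congrArg (residue (lfInt q K)) h2
    rw [map_sum, map_zero] at h3
    simp only [map_pow, hres, one_pow, Finset.sum_const, Finset.card_range, nsmul_eq_mul,
      mul_one] at h3
    exact lu_natCast_residue_ne_zero q K hm h3
  · exact sub_eq_zero.mp h2

/-- **roots of unity of order prime to `q` inject into the residue field** (field form) -/
theorem lu_eq_of_spectralNorm_sub_lt {m : ℕ} (hm : ¬ q ∣ m) {ζ ζ' : K} (hζ : ζ ^ m = 1)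
    (hζ' : ζ' ^ m = 1) (h : spectralNorm ℚ_[q] K (ζ - ζ') < 1) : ζ = ζ' := by
  have hm0 : m ≠ 0 := by rintro rfl; exact hm (dvd_zero q)
  have hζ'0 : ζ' ≠ 0 := by
    rintro rfl
    rw [zero_pow hm0] at hζ'
    exact zero_ne_one hζ'
  have hw : (ζ / ζ') ^ m = 1 := by rw [div_pow, hζ, hζ', div_one]
  let z : lfInt q K := ⟨ζ / ζ', lu_mem_lfInt_of_pow_eq_one q K hm0 hw⟩
  have hz : z ^ m = 1 := Subtype.ext hw
  have hres : residue (lfInt q K) z = 1 := by
    rw [← map_one (residue (lfInt q K)), lu_residue_eq_iff]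
    have e : ((z : lfInt q K) : K) - ((1 : lfInt q K) : K) = (ζ - ζ') * ζ'⁻¹ := by
      show ζ / ζ' - 1 = _
      field_simp
    rw [e, lu_spectralNorm_mul]
    have h1 : spectralNorm ℚ_[q] K ζ'⁻¹ = 1 :=
      lu_spectralNorm_of_pow_eq_one q K hm0 (by rw [inv_pow, hζ', inv_one])
    rw [h1, mul_one]
    exact h
  have := lu_eq_one_of_residue_eq_one q K hm hz hres
  have h2 : ζ / ζ' = 1 := congrArg (fun w : lfInt q K => (w : K)) this
  rwa [div_eq_one_iff_eq hζ'0] at h2

end Prelim

section Two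

variable (q : ℕ) [Fact q.Prime]
  (K : Type) [Field K] [Algebra ℚ_[q] K] [FiniteDimensional ℚ_[q] K]
  (L : Type) [Field L] [Algebra ℚ_[q] L] [FiniteDimensional ℚ_[q] L]
  [Algebra K L] [IsScalarTower ℚ_[q] K L]

include q in
theorem lu_finiteDimensional : FiniteDimensional K L := FiniteDimensional.right ℚ_[q] K L

theorem lfUnramified_iff_finrank_residue :
    LfUnramified q K L ↔
      Module.finrank (ResidueField (lfInt q K)) (ResidueField (lfInt q L)) = Module.finrank K L := by
  rw [← lfInertiaDeg_eq_finrank q K L]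
  have h := lfRamIdx_mul_lfInertiaDeg q K L
  unfold LfUnramified
  haveI := lu_finiteDimensional q K L
  have hn : 0 < Module.finrank K L := Module.finrank_pos
  constructor
  · intro h1
    rw [h1, one_mul] at h
    exact h
  · intro h1
    rw [h1] at h
    exact Nat.eq_of_mul_eq_mul_right hn (by rw [h, one_mul])

/-- the residue of `p(z)` -/
theorem lu_residue_aeval (p : Polynomial (lfInt q K)) (z : lfInt q L) :
    residue (lfInt q L) (Polynomial.aeval z p) =
      Polynomial.aeval (residue (lfInt q L) z) (p.map (residue (lfInt q K))) := by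
  rw [Polynomial.aeval_def, Polynomial.aeval_def, Polynomial.eval₂_map, Polynomial.hom_eval₂]
  rfl

/-- the residue field of `L` is generated over that of `K` by any generator of its unit group -/
theorem lu_adjoin_residue_eq_top {u : (ResidueField (lfInt q L))ˣ}
    (hu : ∀ x, x ∈ Subgroup.zpowers u) :
    IntermediateField.adjoin (ResidueField (lfInt q K)) {(u : ResidueField (lfInt q L))} = ⊤ := by
  rw [eq_top_iff]
  intro x _
  by_cases hx : x = 0
  · rw [hx]; exact zero_mem _
  · obtain ⟨k, hk⟩ := hu (Units.mk0 x hx)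
    have hk' : u ^ k = Units.mk0 x hx := hk
    have hx' : x = ((u ^ k : (ResidueField (lfInt q L))ˣ) : ResidueField (lfInt q L)) := by
      rw [hk']; rfl
    rw [hx', Units.val_zpow_eq_zpow_val]
    exact zpow_mem (IntermediateField.mem_adjoin_simple_self _ _) k


/-- degree bound: if the residue of `z ∈ 𝒪_L` generates the residue field then `[K(z):K] ≥ f` -/
theorem lu_finrank_residue_le_natDegree (z : lfInt q L)
    (hgen : IntermediateField.adjoin (ResidueField (lfInt q K))
      {residue (lfInt q L) z} = ⊤) :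
    Module.finrank (ResidueField (lfInt q K)) (ResidueField (lfInt q L)) ≤
      (minpoly K (z : L)).natDegree := by
  haveI := lu_finiteDimensional q K L
  have hint : IsIntegral (lfInt q K) (z : L) := (mem_lfInt_iff_isIntegral q K L (z : L)).mp z.2
  have hmin := minpoly.isIntegrallyClosed_eq_field_fractions' K hint
  set p := minpoly (lfInt q K) (z : L) with hp
  have hmonic : p.Monic := minpoly.monic hint
  have hz0 : Polynomial.aeval z p = 0 := by
    have h1 : algebraMap (lfInt q L) L (Polynomial.aeval z p) = 0 := by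
      rw [← Polynomial.aeval_algebraMap_apply]
      exact minpoly.aeval (lfInt q K) (z : L)
    exact (FaithfulSMul.algebraMap_injective (lfInt q L) L) (by rw [h1, map_zero])
  have hres : Polynomial.aeval (residue (lfInt q L) z) (p.map (residue (lfInt q K))) = 0 := by
    rw [← lu_residue_aeval, hz0, map_zero]
  have hdvd := minpoly.dvd (ResidueField (lfInt q K)) (residue (lfInt q L) z) hres
  have hmonic' : (p.map (residue (lfInt q K))).Monic := hmonic.map _
  have hdeg : (minpoly (ResidueField (lfInt q K)) (residue (lfInt q L) z)).natDegree ≤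
      p.natDegree := by
    have := Polynomial.natDegree_le_of_dvd hdvd hmonic'.ne_zero
    rwa [hmonic.natDegree_map] at this
  haveI : Finite (ResidueField (lfInt q L)) := inferInstance
  haveI : Module.Finite (ResidueField (lfInt q K)) (ResidueField (lfInt q L)) :=
    Module.Finite.of_finite
  have hint' : IsIntegral (ResidueField (lfInt q K)) (residue (lfInt q L) z) :=
    IsIntegral.of_finite _ _
  have hfin := IntermediateField.adjoin.finrank hint'
  rw [hgen, IntermediateField.finrank_top'] at hfin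
  rw [hfin, hmin, hmonic.natDegree_map]
  exact hdeg


theorem lu_one_lt_lfResCard : 1 < lfResCard q K := by
  unfold lfResCard
  haveI : Finite (ResidueField (lfInt q K)) := inferInstance
  exact Finite.one_lt_card

include q in
/-- if `[K(x):K] ≥ [L:K]` then `K[x] = L` -/
theorem lu_adjoin_eq_top_of_le (x : L) (hx : Module.finrank K L ≤ (minpoly K x).natDegree) :
    Algebra.adjoin K {x} = ⊤ := by
  haveI := lu_finiteDimensional q K L
  have hint : IsIntegral K x := IsIntegral.of_finite K x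
  have h1 : IntermediateField.adjoin K {x} = ⊤ := by
    apply IntermediateField.eq_of_le_of_finrank_le le_top
    rw [IntermediateField.finrank_top', IntermediateField.adjoin.finrank hint]
    exact hx
  rw [← IntermediateField.adjoin_simple_toSubalgebra_of_isAlgebraic hint.isAlgebraic, h1,
    IntermediateField.top_toSubalgebra]

/-- **the generator**: an unramified extension is generated by a root of unity of order
`|k_L| - 1` whose residue generates `k_Lˣ`. -/
theorem lu_exists_generator (h : LfUnramified q K L) :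
    ∃ z : lfInt q L, z ^ (lfResCard q L - 1) = 1 ∧
      IsPrimitiveRoot (z : L) (lfResCard q L - 1) ∧ Algebra.adjoin K {(z : L)} = ⊤ ∧
      (∀ x : ResidueField (lfInt q L), x ≠ 0 → ∃ k : ℕ, x = residue (lfInt q L) z ^ k) := by
  haveI : Finite (ResidueField (lfInt q L)) := inferInstance
  obtain ⟨u, hu⟩ := IsCyclic.exists_generator (α := (ResidueField (lfInt q L))ˣ)
  obtain ⟨z, hz1, hz2⟩ := lf_exists_root_of_unity_lift q L u
  have hord : orderOf u = lfResCard q L - 1 := by
    rw [orderOf_eq_card_of_forall_mem_zpowers hu, Nat.card_units]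
    rfl
  have hgen := lu_adjoin_residue_eq_top q K L hu
  rw [← hz2] at hgen
  refine ⟨z, hz1, ?_, ?_, ?_⟩
  · rw [IsPrimitiveRoot.iff_def]
    refine ⟨?_, fun d hd => ?_⟩
    · have := congrArg (fun w : lfInt q L => (w : L)) hz1
      simpa using this
    · rw [← hord]
      apply orderOf_dvd_of_pow_eq_one
      apply Units.ext
      rw [Units.val_pow_eq_pow_val, ← hz2, ← map_pow, Units.val_one]
      have hzd : z ^ d = 1 := Subtype.ext (by simpa using hd)
      rw [hzd, map_one]
  · apply lu_adjoin_eq_top_of_le q K L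
    rw [← (lfUnramified_iff_finrank_residue q K L).mp h]
    exact lu_finrank_residue_le_natDegree q K L z hgen
  · intro x hx
    have hmem : Units.mk0 x hx ∈ Submonoid.powers u :=
      mem_powers_iff_mem_zpowers.mpr (hu (Units.mk0 x hx))
    obtain ⟨n, hn⟩ := hmem
    refine ⟨n, ?_⟩
    have : (u ^ n : (ResidueField (lfInt q L))ˣ) = Units.mk0 x hx := hn
    have h2 := congrArg Units.val this
    rw [Units.val_pow_eq_pow_val, Units.val_mk0, ← hz2] at h2
    exact h2.symm

/-- `L = K(ζ)` with `ζ` a primitive `m`-th root of unity is Galois over `K`. -/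
theorem lu_isGalois_of_adjoin_root {m : ℕ} (hm : m ≠ 0) {ζ : L} (hζ : IsPrimitiveRoot ζ m)
    (htop : Algebra.adjoin K {ζ} = ⊤) : IsGalois K L := by
  haveI : IsCyclotomicExtension {m} K L :=
    { exists_isPrimitiveRoot := by
        intro n hn _
        rw [Set.mem_singleton_iff] at hn
        subst hn
        exact ⟨ζ, hζ⟩
      adjoin_roots := by
        intro x
        have hx : x ∈ Algebra.adjoin K {ζ} := by rw [htop]; exact Algebra.mem_top
        refine Algebra.adjoin_mono ?_ hx
        intro y hy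
        rw [Set.mem_singleton_iff] at hy
        subst hy
        exact ⟨m, rfl, hm, hζ.pow_eq_one⟩ }
  exact IsCyclotomicExtension.isGalois {m} K L

/-- `|k_L| - 1` is prime to `q`. -/
theorem lu_not_dvd_lfResCard_sub_one : ¬ q ∣ lfResCard q K - 1 := by
  have hq : q.Prime := Fact.out
  rw [lfResCard_eq]
  have hpos := lfAbsInertiaDeg_pos q K
  intro hdvd
  have h1 : q ∣ q ^ lfAbsInertiaDeg q K := dvd_pow_self q hpos.ne'
  have h2 : 1 ≤ q ^ lfAbsInertiaDeg q K := Nat.one_le_pow _ _ hq.pos
  have h3 : q ∣ 1 := by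
    have := (Nat.dvd_sub h1 hdvd)
    rwa [Nat.sub_sub_self h2] at this
  exact hq.one_lt.ne' (Nat.dvd_one.mp h3)

theorem lu_lfResCard_sub_one_ne_zero : lfResCard q K - 1 ≠ 0 :=
  (Nat.sub_pos_of_lt (lu_one_lt_lfResCard q K)).ne'

/-- Unramified extensions are Galois. -/
theorem LfUnramified.isGalois (h : LfUnramified q K L) : IsGalois K L := by
  obtain ⟨z, _, hz, htop, _⟩ := lu_exists_generator q K L h
  exact lu_isGalois_of_adjoin_root K L (lu_lfResCard_sub_one_ne_zero q L) hz htop

/-- `L = K(ζ)` with `ζ` a root of unity of order `m` prime to `q`: an automorphism acting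
trivially on the residue field is trivial. -/
theorem lu_eq_one_of_residue_of_adjoin {m : ℕ} (hm : ¬ q ∣ m) {ζ : L} (hζ : ζ ^ m = 1)
    (htop : Algebra.adjoin K {ζ} = ⊤) (σ : L ≃ₐ[K] L)
    (hσ : spectralNorm ℚ_[q] L (σ ζ - ζ) < 1) : σ = 1 := by
  have h1 : σ ζ = ζ :=
    lu_eq_of_spectralNorm_sub_lt q L hm (by rw [← map_pow, hζ, map_one]) hζ hσ
  have h2 : (σ : L →ₐ[K] L) = AlgHom.id K L := by
    apply AlgHom.ext_of_adjoin_eq_top htop
    intro x hx
    rw [Set.mem_singleton_iff] at hx
    rw [hx]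
    exact h1
  ext x
  exact DFunLike.congr_fun h2 x

/-- For an unramified extension the reduction map `Gal(L/K) → Gal(k_L/k_K)` is injective:
an automorphism acting trivially on the residue field is trivial. -/
theorem LfUnramified.eq_one_of_residue (h : LfUnramified q K L) (σ : L ≃ₐ[K] L)
    (hσ : ∀ x : L, x ∈ lfInt q L → spectralNorm ℚ_[q] L (σ x - x) < 1) : σ = 1 := by
  obtain ⟨z, _, hz, htop, _⟩ := lu_exists_generator q K L h
  exact lu_eq_one_of_residue_of_adjoin q K L (lu_not_dvd_lfResCard_sub_one q L) hz.pow_eq_one htop σ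
    (hσ _ z.2)

/-- existence of the Frobenius of an unramified extension -/
theorem lu_exists_isLfFrob (h : LfUnramified q K L) : ∃ σ : L ≃ₐ[K] L, IsLfFrob q K L σ := by
  haveI := lu_finiteDimensional q K L
  haveI := h.isGalois
  haveI : Finite (L ≃ₐ[K] L) := inferInstance
  haveI : Finite (lfInt q L ⧸ maximalIdeal (lfInt q L)) :=
    inferInstanceAs (Finite (ResidueField (lfInt q L)))
  obtain ⟨σ, hσ⟩ := IsArithFrobAt.exists_of_isInvariant (lfInt q K) (L ≃ₐ[K] L)
    (maximalIdeal (lfInt q L))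
  refine ⟨σ, fun x hx => ?_⟩
  have h1 := hσ ⟨x, hx⟩
  rw [maximalIdeal_lfInt_under, mem_maximalIdeal_lfInt_iff] at h1
  exact h1

theorem isLfFrob_lfFrob (h : LfUnramified q K L) : IsLfFrob q K L (lfFrob q K L) := by
  have hex := lu_exists_isLfFrob q K L h
  unfold lfFrob
  rw [dif_pos hex]
  exact hex.choose_spec

theorem lu_isLfFrob_unique (h : LfUnramified q K L) {σ τ : L ≃ₐ[K] L} (hσ : IsLfFrob q K L σ)
    (hτ : IsLfFrob q K L τ) : σ = τ := by
  have h1 : τ⁻¹ * σ = 1 := by
    apply h.eq_one_of_residue q K L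
    intro x hx
    have e : (τ⁻¹ * σ) x - x = τ⁻¹ (σ x - τ x) := by
      rw [map_sub, AlgEquiv.mul_apply]
      congr 1
      exact (τ.symm_apply_apply x).symm
    rw [e, spectralNorm_algEquiv]
    have e2 : σ x - τ x = (σ x - x ^ lfResCard q K) + (-(τ x - x ^ lfResCard q K)) := by ring
    rw [e2]
    have hna := isNonarchimedean_spectralNorm (K := ℚ_[q]) (L := L)
    refine lt_of_le_of_lt (hna _ _) (max_lt (hσ x hx) ?_)
    rw [spectralNorm_neg (Algebra.IsAlgebraic.isAlgebraic _)]
    exact hτ x hx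
  calc σ = τ * (τ⁻¹ * σ) := by group
    _ = τ := by rw [h1, mul_one]

theorem IsLfFrob.eq_lfFrob (h : LfUnramified q K L) {σ : L ≃ₐ[K] L} (hσ : IsLfFrob q K L σ) :
    σ = lfFrob q K L :=
  lu_isLfFrob_unique q K L h hσ (isLfFrob_lfFrob q K L h)

/-- a Frobenius raises roots of unity of order prime to `q` to the power `|k_K|` -/
theorem lu_frob_apply_root {σ : L ≃ₐ[K] L} (hσ : IsLfFrob q K L σ) {m : ℕ} (hm : ¬ q ∣ m)
    {ζ : L} (hζ : ζ ^ m = 1) : σ ζ = ζ ^ lfResCard q K := by
  have hm0 : m ≠ 0 := fun h0 => hm (h0 ▸ dvd_zero q)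
  refine lu_eq_of_spectralNorm_sub_lt q L hm (by rw [← map_pow, hζ, map_one])
    (by rw [← pow_mul, mul_comm, pow_mul, hζ, one_pow]) (hσ ζ ?_)
  exact lu_mem_lfInt_of_pow_eq_one q L hm0 hζ

theorem lu_frob_pow_apply_root {σ : L ≃ₐ[K] L} (hσ : IsLfFrob q K L σ) {m : ℕ} (hm : ¬ q ∣ m)
    {ζ : L} (hζ : ζ ^ m = 1) (k : ℕ) : (σ ^ k) ζ = ζ ^ (lfResCard q K ^ k) := by
  induction k with
  | zero => simp
  | succ k ih =>
    rw [pow_succ', AlgEquiv.mul_apply, ih, map_pow, lu_frob_apply_root q K L hσ hm hζ, ← pow_mul,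
      pow_succ']

theorem lu_lfInertiaDeg_of_unramified (h : LfUnramified q K L) :
    lfInertiaDeg q K L = Module.finrank K L := by
  have h1 := lfRamIdx_mul_lfInertiaDeg q K L
  rw [show lfRamIdx q K L = 1 from h, one_mul] at h1
  exact h1

theorem orderOf_lfFrob (h : LfUnramified q K L) :
    orderOf (lfFrob q K L) = Module.finrank K L := by
  haveI := lu_finiteDimensional q K L
  have hφ := isLfFrob_lfFrob q K L h
  obtain ⟨z, _, hz, htop, _⟩ := lu_exists_generator q K L h
  have hcard : lfResCard q L = lfResCard q K ^ Module.finrank K L := by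
    rw [lfResCard_eq_pow q K L, lu_lfInertiaDeg_of_unramified q K L h]
  have hQ : 1 < lfResCard q K := lu_one_lt_lfResCard q K
  have hnd := lu_not_dvd_lfResCard_sub_one q L
  have hn : 0 < Module.finrank K L := Module.finrank_pos
  have key : ∀ k : ℕ, (lfFrob q K L) ^ k = 1 ↔ (z : L) ^ (lfResCard q K ^ k) = (z : L) := by
    intro k
    rw [← lu_frob_pow_apply_root q K L hφ hnd hz.pow_eq_one k]
    constructor
    · intro h1
      rw [h1]; rfl
    · intro h1
      have h2 : ((lfFrob q K L ^ k : L ≃ₐ[K] L) : L →ₐ[K] L) = AlgHom.id K L := by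
        apply AlgHom.ext_of_adjoin_eq_top htop
        intro x hx
        rw [Set.mem_singleton_iff] at hx
        rw [hx]
        exact h1
      ext x
      exact DFunLike.congr_fun h2 x
  have key2 : ∀ k : ℕ, (lfFrob q K L) ^ k = 1 ↔ (lfResCard q L - 1) ∣ (lfResCard q K ^ k - 1) := by
    intro k
    rw [key k, ← hz.pow_eq_one_iff_dvd]
    have h1 : 1 ≤ lfResCard q K ^ k := Nat.one_le_pow _ _ (by omega)
    have hz0 : (z : L) ≠ 0 := hz.ne_zero (lu_lfResCard_sub_one_ne_zero q L)
    constructor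
    · intro h2
      have h3 : (z : L) ^ (lfResCard q K ^ k - 1) * (z : L) = 1 * (z : L) := by
        rw [← pow_succ, Nat.sub_add_cancel h1, one_mul]
        exact h2
      exact mul_right_cancel₀ hz0 h3
    · intro h2
      calc (z : L) ^ (lfResCard q K ^ k) = (z : L) ^ (lfResCard q K ^ k - 1) * (z : L) := by
            rw [← pow_succ, Nat.sub_add_cancel h1]
        _ = (z : L) := by rw [h2, one_mul]
  rw [orderOf_eq_iff hn]
  refine ⟨(key2 _).2 (by rw [hcard]), fun k hk hk0 h1 => ?_⟩
  have h2 := (key2 k).1 h1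
  rw [hcard] at h2
  have h3 : lfResCard q K ^ k < lfResCard q K ^ Module.finrank K L :=
    Nat.pow_lt_pow_right hQ hk
  have h4 : lfResCard q K ^ 1 ≤ lfResCard q K ^ k := Nat.pow_le_pow_right (by omega) hk0
  rw [pow_one] at h4
  have h5 := Nat.le_of_dvd (by omega) h2
  omega

/-- The Frobenius generates the Galois group of an unramified extension. -/
theorem mem_zpowers_lfFrob (h : LfUnramified q K L) (σ : L ≃ₐ[K] L) :
    σ ∈ Subgroup.zpowers (lfFrob q K L) := by
  haveI := lu_finiteDimensional q K L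
  haveI := h.isGalois
  have h1 : Subgroup.zpowers (lfFrob q K L) = ⊤ := by
    apply Subgroup.eq_top_of_card_eq
    rw [Nat.card_zpowers, orderOf_lfFrob q K L h, IsGalois.card_aut_eq_finrank]
  rw [h1]
  exact Subgroup.mem_top σ

theorem LfUnramified.isCyclic (h : LfUnramified q K L) : IsCyclic (L ≃ₐ[K] L) :=
  ⟨⟨lfFrob q K L, fun σ => Subgroup.mem_zpowers_iff.1 (mem_zpowers_lfFrob q K L h σ)⟩⟩

/-- In an unramified extension a uniformizer of `K` stays a uniformizer. -/
theorem LfUnramified.isLfUniformizer (h : LfUnramified q K L) {π : K}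
    (hπ : IsLfUniformizer q K π) : IsLfUniformizer q L (algebraMap K L π) := by
  unfold IsLfUniformizer at hπ ⊢
  rw [lfOrd_algebraMap q K L, hπ, show lfRamIdx q K L = 1 from h]
  simp

/-- `L = K(ζ)` with `ζ` a root of unity of order `|k_L| - 1` when `L/K` is unramified. -/
theorem LfUnramified.exists_primitiveRoot (h : LfUnramified q K L) :
    ∃ ζ : L, IsPrimitiveRoot ζ (lfResCard q L - 1) ∧ Algebra.adjoin K {ζ} = ⊤ := by
  obtain ⟨z, _, hz, htop, _⟩ := lu_exists_generator q K L h
  exact ⟨z, hz, htop⟩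

/-- Galois conjugates of an integer have conjugate residues. -/
theorem lu_aeval_residue_smul (σ : L ≃ₐ[K] L) (z : lfInt q L)
    (p : Polynomial (ResidueField (lfInt q K)))
    (hz : Polynomial.aeval (residue (lfInt q L) z) p = 0) :
    Polynomial.aeval (residue (lfInt q L) (σ • z)) p = 0 := by
  obtain ⟨P, hP⟩ := Polynomial.map_surjective (residue (lfInt q K)) (residue_surjective) p
  rw [← hP, ← lu_residue_aeval] at hz ⊢
  have h1 : Polynomial.aeval (σ • z) P = σ • Polynomial.aeval z P := by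
    have := Polynomial.aeval_algHom_apply
      (MulSemiringAction.toAlgHom (lfInt q K) (lfInt q L) σ) z P
    simpa using this
  rw [h1]
  rw [residue_eq_zero_iff, mem_maximalIdeal_lfInt_iff] at hz ⊢
  rwa [lfInt_smul_coe, spectralNorm_algEquiv]

/-- Conversely adjoining a root of unity of order prime to `q` gives an unramified extension. -/
theorem lfUnramified_of_adjoin_root (m : ℕ) (hm : ¬ q ∣ m) (ζ : L) (hζ : IsPrimitiveRoot ζ m)
    (htop : Algebra.adjoin K {ζ} = ⊤) : LfUnramified q K L := by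
  haveI := lu_finiteDimensional q K L
  have hm0 : m ≠ 0 := fun h0 => hm (h0 ▸ dvd_zero q)
  haveI : IsGalois K L := lu_isGalois_of_adjoin_root K L hm0 hζ htop
  have hζint : ζ ∈ lfInt q L := lu_mem_lfInt_of_pow_eq_one q L hm0 hζ.pow_eq_one
  have hfin : Module.Finite (ResidueField (lfInt q K)) (ResidueField (lfInt q L)) :=
    Module.Finite.of_finite
  have hint : IsIntegral (ResidueField (lfInt q K)) (residue (lfInt q L) ⟨ζ, hζint⟩) :=
    Algebra.IsIntegral.isIntegral _
  -- the injection of the Galois group into the roots of the residue minimal polynomial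
  have hinj : Function.Injective
      (fun σ : L ≃ₐ[K] L => residue (lfInt q L) (σ • (⟨ζ, hζint⟩ : lfInt q L))) := by
    intro σ τ hστ
    simp only at hστ
    rw [lu_residue_eq_iff] at hστ
    rw [lfInt_smul_coe, lfInt_smul_coe] at hστ
    have h1 : τ⁻¹ * σ = 1 := by
      apply lu_eq_one_of_residue_of_adjoin q K L hm hζ.pow_eq_one htop
      have e : (τ⁻¹ * σ) ζ - ζ = τ⁻¹ (σ ζ - τ ζ) := by
        rw [map_sub, AlgEquiv.mul_apply]
        congr 1
        exact (τ.symm_apply_apply ζ).symm
      rw [e, spectralNorm_algEquiv]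
      exact hστ
    calc σ = τ * (τ⁻¹ * σ) := by group
      _ = τ := by rw [h1, mul_one]
  have hsub : Set.range
      (fun σ : L ≃ₐ[K] L => residue (lfInt q L) (σ • (⟨ζ, hζint⟩ : lfInt q L))) ⊆
      (minpoly (ResidueField (lfInt q K)) (residue (lfInt q L) ⟨ζ, hζint⟩)).rootSet
        (ResidueField (lfInt q L)) := by
    rintro _ ⟨σ, rfl⟩
    rw [Polynomial.mem_rootSet]
    exact ⟨minpoly.ne_zero hint, lu_aeval_residue_smul q K L σ _ _ (minpoly.aeval _ _)⟩
  have hle : Module.finrank K L ≤
      Module.finrank (ResidueField (lfInt q K)) (ResidueField (lfInt q L)) := by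
    calc Module.finrank K L = Nat.card (L ≃ₐ[K] L) := (IsGalois.card_aut_eq_finrank K L).symm
      _ = (Set.range
          (fun σ : L ≃ₐ[K] L => residue (lfInt q L) (σ • (⟨ζ, hζint⟩ : lfInt q L)))).ncard := by
        rw [Set.ncard_range_of_injective hinj]
      _ ≤ ((minpoly (ResidueField (lfInt q K)) (residue (lfInt q L) ⟨ζ, hζint⟩)).rootSet
            (ResidueField (lfInt q L))).ncard :=
        Set.ncard_le_ncard hsub (Polynomial.rootSet_finite _ _)
      _ ≤ (minpoly (ResidueField (lfInt q K)) (residue (lfInt q L) ⟨ζ, hζint⟩)).natDegree :=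
        Polynomial.ncard_rootSet_le _ _
      _ ≤ Module.finrank (ResidueField (lfInt q K)) (ResidueField (lfInt q L)) :=
        minpoly.natDegree_le _
  rw [← lfInertiaDeg_eq_finrank q K L] at hle
  have h1 := lfRamIdx_mul_lfInertiaDeg q K L
  have h2 := lfRamIdx_pos q K L
  have hn : 0 < Module.finrank K L := Module.finrank_pos
  unfold LfUnramified
  have h3 : lfRamIdx q K L * lfInertiaDeg q K L ≤ 1 * lfInertiaDeg q K L := by
    rw [h1, one_mul]; exact hle
  have h4 : 0 < lfInertiaDeg q K L := by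
    rcases Nat.eq_zero_or_pos (lfInertiaDeg q K L) with h0 | h0
    · rw [h0, mul_zero] at h1; omega
    · exact h0
  have h5 := Nat.le_of_mul_le_mul_right h3 h4
  omega

theorem lu_not_dvd_pow_sub_one {n : ℕ} (hn : 0 < n) : ¬ q ∣ lfResCard q K ^ n - 1 := by
  intro hdvd
  have hq : q.Prime := Fact.out
  have h1 : q ∣ lfResCard q K := by
    rw [lfResCard_eq]
    exact dvd_pow_self q (lfAbsInertiaDeg_pos q K).ne'
  have h2 : q ∣ lfResCard q K ^ n := dvd_pow h1 hn.ne'
  have h3 : 1 ≤ lfResCard q K ^ n := Nat.one_le_pow _ _ (by have := lu_one_lt_lfResCard q K; omega)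
  have h4 : q ∣ 1 := by
    have := (Nat.dvd_sub h2 hdvd)
    rwa [Nat.sub_sub_self h3] at this
  exact hq.one_lt.ne' (Nat.dvd_one.1 h4)

/-- The order of the Frobenius of `K(ζ)/K`, `ζ` of order `|k_K|^n - 1`, is `n`. -/
theorem lu_finrank_of_adjoin_root {n : ℕ} (hn : 0 < n) {ζ : L}
    (hζ : IsPrimitiveRoot ζ (lfResCard q K ^ n - 1)) (htop : Algebra.adjoin K {ζ} = ⊤) :
    Module.finrank K L = n := by
  have hnd := lu_not_dvd_pow_sub_one q K hn
  have h : LfUnramified q K L := lfUnramified_of_adjoin_root q K L _ hnd ζ hζ htop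
  have hφ := isLfFrob_lfFrob q K L h
  have hQ : 1 < lfResCard q K := lu_one_lt_lfResCard q K
  have hN0 : lfResCard q K ^ n - 1 ≠ 0 := fun h0 => hnd (h0 ▸ dvd_zero q)
  have key : ∀ k : ℕ, (lfFrob q K L) ^ k = 1 ↔ ζ ^ (lfResCard q K ^ k) = ζ := by
    intro k
    rw [← lu_frob_pow_apply_root q K L hφ hnd hζ.pow_eq_one k]
    constructor
    · intro h1
      rw [h1]; rfl
    · intro h1
      have h2 : ((lfFrob q K L ^ k : L ≃ₐ[K] L) : L →ₐ[K] L) = AlgHom.id K L := by
        apply AlgHom.ext_of_adjoin_eq_top htop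
        intro x hx
        rw [Set.mem_singleton_iff] at hx
        rw [hx]
        exact h1
      ext x
      exact DFunLike.congr_fun h2 x
  have key2 : ∀ k : ℕ, (lfFrob q K L) ^ k = 1 ↔
      (lfResCard q K ^ n - 1) ∣ (lfResCard q K ^ k - 1) := by
    intro k
    rw [key k, ← hζ.pow_eq_one_iff_dvd]
    have h1 : 1 ≤ lfResCard q K ^ k := Nat.one_le_pow _ _ (by omega)
    have hz0 : ζ ≠ 0 := hζ.ne_zero hN0
    constructor
    · intro h2
      have h3 : ζ ^ (lfResCard q K ^ k - 1) * ζ = 1 * ζ := by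
        rw [← pow_succ, Nat.sub_add_cancel h1, one_mul]
        exact h2
      exact mul_right_cancel₀ hz0 h3
    · intro h2
      calc ζ ^ (lfResCard q K ^ k) = ζ ^ (lfResCard q K ^ k - 1) * ζ := by
            rw [← pow_succ, Nat.sub_add_cancel h1]
        _ = ζ := by rw [h2, one_mul]
  rw [← orderOf_lfFrob q K L h, orderOf_eq_iff hn]
  refine ⟨(key2 _).2 dvd_rfl, fun k hk hk0 h1 => ?_⟩
  have h2 := (key2 k).1 h1
  have h3 : lfResCard q K ^ k < lfResCard q K ^ n := Nat.pow_lt_pow_right hQ hk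
  have h4 : lfResCard q K ^ 1 ≤ lfResCard q K ^ k := Nat.pow_le_pow_right (by omega) hk0
  rw [pow_one] at h4
  have h5 := Nat.le_of_dvd (by omega) h2
  omega

end Two

section Exists

variable (q : ℕ) [Fact q.Prime]
  (K : Type) [Field K] [Algebra ℚ_[q] K] [FiniteDimensional ℚ_[q] K]
  (Ω : Type) [Field Ω] [Algebra ℚ_[q] Ω] [Algebra K Ω] [IsScalarTower ℚ_[q] K Ω] [IsAlgClosed Ω]

/-- The unramified extension of degree `n` of `K` inside an algebraically closed `Ω`:
`K(μ_{|k|^n - 1})`. -/
noncomputable def lfUnramExt (n : ℕ) : IntermediateField K Ω :=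
  IntermediateField.adjoin K {x : Ω | x ^ (lfResCard q K ^ n - 1) = 1}

include q in
theorem lu_charZero_of_algebra : CharZero Ω :=
  charZero_of_injective_algebraMap (algebraMap ℚ_[q] Ω).injective

/-- a primitive root of unity of order `|k|^n - 1` in `Ω` -/
theorem lu_exists_primitiveRoot (n : ℕ) (hn : 0 < n) :
    ∃ ζ : Ω, IsPrimitiveRoot ζ (lfResCard q K ^ n - 1) := by
  haveI := lu_charZero_of_algebra q Ω
  have hN0 : lfResCard q K ^ n - 1 ≠ 0 := fun h0 =>
    lu_not_dvd_pow_sub_one q K hn (h0 ▸ dvd_zero q)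
  haveI : NeZero ((lfResCard q K ^ n - 1 : ℕ) : Ω) := ⟨Nat.cast_ne_zero.2 hN0⟩
  exact HasEnoughRootsOfUnity.exists_primitiveRoot Ω _

theorem lu_lfUnramExt_eq (n : ℕ) {ζ : Ω} (hζ : IsPrimitiveRoot ζ (lfResCard q K ^ n - 1))
    (hN0 : lfResCard q K ^ n - 1 ≠ 0) :
    lfUnramExt q K Ω n = IntermediateField.adjoin K {ζ} := by
  haveI : NeZero (lfResCard q K ^ n - 1) := ⟨hN0⟩
  apply le_antisymm
  · rw [lfUnramExt, IntermediateField.adjoin_le_iff]
    intro x hx
    obtain ⟨i, _, rfl⟩ := hζ.eq_pow_of_pow_eq_one hx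
    exact pow_mem (IntermediateField.mem_adjoin_simple_self K ζ) i
  · rw [IntermediateField.adjoin_le_iff]
    intro x hx
    rw [Set.mem_singleton_iff] at hx
    rw [hx]
    exact IntermediateField.subset_adjoin K _ hζ.pow_eq_one

/-- the generator of a simple algebraic extension `E = K(ζ) ⊆ Ω` generates `E` as an algebra -/
theorem lu_adjoin_subtype_eq_top (E : IntermediateField K Ω) (ζ : Ω) (hint : IsIntegral K ζ)
    (hE : E = IntermediateField.adjoin K {ζ}) (hmem : ζ ∈ E) :
    Algebra.adjoin K {(⟨ζ, hmem⟩ : E)} = ⊤ := by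
  rw [eq_top_iff]
  rintro ⟨y, hy⟩ -
  have h1 : y ∈ (IntermediateField.adjoin K {ζ}).toSubalgebra := hE ▸ hy
  rw [IntermediateField.adjoin_simple_toSubalgebra_of_isAlgebraic hint.isAlgebraic] at h1
  have h2 : (Algebra.adjoin K {(⟨ζ, hmem⟩ : E)}).map E.val = Algebra.adjoin K {ζ} := by
    rw [AlgHom.map_adjoin, Set.image_singleton]
    rfl
  rw [← h2] at h1
  obtain ⟨y', hy', hyy'⟩ := h1
  have : y' = ⟨y, hy⟩ := Subtype.ext hyy'
  rw [← this]
  exact hy'

theorem lfUnramExt_finiteDimensional (n : ℕ) (hn : 0 < n) :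
    FiniteDimensional K (lfUnramExt q K Ω n) := by
  obtain ⟨ζ, hζ⟩ := lu_exists_primitiveRoot q K Ω n hn
  have hN0 : lfResCard q K ^ n - 1 ≠ 0 := fun h0 =>
    lu_not_dvd_pow_sub_one q K hn (h0 ▸ dvd_zero q)
  rw [lu_lfUnramExt_eq q K Ω n hζ hN0]
  exact IntermediateField.adjoin.finiteDimensional (hζ.isIntegral (Nat.pos_of_ne_zero hN0)).tower_top

theorem lfUnramExt_finiteDimensional' (n : ℕ) (hn : 0 < n) :
    FiniteDimensional ℚ_[q] (lfUnramExt q K Ω n) := by
  haveI := lfUnramExt_finiteDimensional q K Ω n hn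
  exact FiniteDimensional.trans ℚ_[q] K (lfUnramExt q K Ω n)

theorem lu_lfUnramExt_gen (n : ℕ) (hn : 0 < n) :
    ∃ ζ : lfUnramExt q K Ω n, IsPrimitiveRoot ζ (lfResCard q K ^ n - 1) ∧
      Algebra.adjoin K {ζ} = ⊤ := by
  obtain ⟨ζ, hζ⟩ := lu_exists_primitiveRoot q K Ω n hn
  have hN0 : lfResCard q K ^ n - 1 ≠ 0 := fun h0 =>
    lu_not_dvd_pow_sub_one q K hn (h0 ▸ dvd_zero q)
  have hE := lu_lfUnramExt_eq q K Ω n hζ hN0
  have hmem : ζ ∈ lfUnramExt q K Ω n := by
    rw [hE]; exact IntermediateField.mem_adjoin_simple_self K ζ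
  refine ⟨⟨ζ, hmem⟩, ?_, lu_adjoin_subtype_eq_top K Ω _ ζ
    (hζ.isIntegral (Nat.pos_of_ne_zero hN0)).tower_top hE hmem⟩
  exact IsPrimitiveRoot.of_map_of_injective (f := (lfUnramExt q K Ω n).val)
    (by exact hζ) (lfUnramExt q K Ω n).val.injective

theorem lfUnramExt_finrank (n : ℕ) (hn : 0 < n) :
    Module.finrank K (lfUnramExt q K Ω n) = n := by
  haveI := lfUnramExt_finiteDimensional' q K Ω n hn
  obtain ⟨ζ, hζ, htop⟩ := lu_lfUnramExt_gen q K Ω n hn
  exact lu_finrank_of_adjoin_root q K (lfUnramExt q K Ω n) hn hζ htop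

theorem lfUnramExt_unramified (n : ℕ) (hn : 0 < n) :
    haveI := lfUnramExt_finiteDimensional' q K Ω n hn
    LfUnramified q K (lfUnramExt q K Ω n) := by
  haveI := lfUnramExt_finiteDimensional' q K Ω n hn
  obtain ⟨ζ, hζ, htop⟩ := lu_lfUnramExt_gen q K Ω n hn
  exact lfUnramified_of_adjoin_root q K (lfUnramExt q K Ω n) _
    (lu_not_dvd_pow_sub_one q K hn) ζ hζ htop

/-- Uniqueness: an unramified subextension of degree `n` of `Ω/K` is `lfUnramExt n`. -/
theorem eq_lfUnramExt (n : ℕ) (hn : 0 < n) (L : IntermediateField K Ω)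
    [FiniteDimensional ℚ_[q] L] (hL : LfUnramified q K L) (hdeg : Module.finrank K L = n) :
    L = lfUnramExt q K Ω n := by
  haveI := lfUnramExt_finiteDimensional q K Ω n hn
  obtain ⟨ζ, hζ, htop⟩ := hL.exists_primitiveRoot q K L
  have hcard : lfResCard q L = lfResCard q K ^ n := by
    rw [lfResCard_eq_pow q K L, lu_lfInertiaDeg_of_unramified q K L hL, hdeg]
  rw [hcard] at hζ
  have hmem : (ζ : Ω) ∈ lfUnramExt q K Ω n := by
    apply IntermediateField.subset_adjoin
    change (ζ : Ω) ^ (lfResCard q K ^ n - 1) = 1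
    have := hζ.pow_eq_one
    exact_mod_cast congrArg (fun x : L => (x : Ω)) this
  have hle : L ≤ lfUnramExt q K Ω n := by
    intro y hy
    have h1 : (⟨y, hy⟩ : L) ∈ Algebra.adjoin K {ζ} := by rw [htop]; exact Algebra.mem_top
    have h2 : y ∈ (Algebra.adjoin K {ζ}).map L.val := ⟨⟨y, hy⟩, h1, rfl⟩
    rw [AlgHom.map_adjoin, Set.image_singleton] at h2
    have h3 : Algebra.adjoin K {L.val ζ} ≤ (lfUnramExt q K Ω n).toSubalgebra := by
      rw [Algebra.adjoin_le_iff]
      intro x hx
      rw [Set.mem_singleton_iff] at hx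
      rw [hx]
      exact hmem
    exact h3 h2
  exact IntermediateField.eq_of_le_of_finrank_eq hle
    (by rw [hdeg, lfUnramExt_finrank q K Ω n hn])

end Exists

end Fermat.Agent.S55
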